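import Fermat.Agent.PT.Local

/-!
# Global data with finitely many local groups
-/

set_option autoImplicit false

namespace Fermat.Agent.PT

section Along

variable {G Γ : Type*} [Group G] [Group Γ] {A B C : Type*} [AddCommGroup A] [AddCommGroup B]
  [AddCommGroup C] {ρ : Act G A} {σ : Act G B} {τ : Act G C}

/-- restriction of an equivariant map along a group homomorphism -/
def EHom.along (φ : EHom ρ σ) (r : Γ →* G) : EHom (ρ.comp r) (σ.comp r) :=
  ⟨φ.f, fun g a => φ.comm (r g) a⟩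

@[simp] lemma EHom.along_f (φ : EHom ρ σ) (r : Γ →* G) (a : A) : (φ.along r).f a = φ.f a := rfl

/-- restriction of a short exact sequence along a group homomorphism -/
def SES.along (S : SES ρ σ τ) (r : Γ →* G) : SES (ρ.comp r) (σ.comp r) (τ.comp r) where
  i := S.i.along r
  p := S.p.along r
  inj := S.inj
  surj := S.surj
  exact := S.exact

/-- restriction of an equivalence along a group homomorphism -/
def EEquiv.along (E : EEquiv ρ σ) (r : Γ →* G) : EEquiv (ρ.comp r) (σ.comp r) :=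
  ⟨E.e, fun g a => E.comm (r g) a⟩

/-- `Map(X, A)` restricted along a homomorphism -/
def mapComp {X : Type*} (ξ : G →* Equiv.Perm X) (ρ : Act G A) (r : Γ →* G) :
    EEquiv ((mapAct ξ ρ).comp r) (mapAct (ξ.comp r) (ρ.comp r)) where
  e := AddEquiv.refl _
  comm g f := by
    ext x
    show ρ (r g) (f (ξ (r g)⁻¹ x)) = ρ (r g) (f (ξ (r g⁻¹) x))
    rw [map_inv r]

/-- dual restricted along a homomorphism -/
def dualComp {p : ℕ} (μ : Act G (ZMod p)) (ρ : Act G A) (r : Γ →* G) :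
    EEquiv ((dualAct μ ρ).comp r) (dualAct (μ.comp r) (ρ.comp r)) where
  e := AddEquiv.refl _
  comm g f := by
    ext x
    show μ (r g) (f (ρ (r g)⁻¹ x)) = μ (r g) (f (ρ (r g⁻¹) x))
    rw [map_inv r]

end Along

section Orb

variable {G : Type*} [Group G] {X : Type*}

/-- orbit equivalence relation -/
def orbSetoid (ξ : G →* Equiv.Perm X) : Setoid X where
  r := fun a b => ∃ g, ξ g a = b
  iseqv := ⟨fun a => ⟨1, by simp⟩, fun {a b} ⟨g, h⟩ => ⟨g⁻¹, by
    rw [map_inv, Equiv.Perm.inv_eq_iff_eq]; exact h.symm⟩, fun {a b c} ⟨g, h⟩ ⟨g', h'⟩ =>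
    ⟨g' * g, by rw [map_mul, Equiv.Perm.mul_apply, h, h']⟩⟩

/-- the set of orbits -/
abbrev Orb (ξ : G →* Equiv.Perm X) := Quotient (orbSetoid ξ)

lemma reps_orb (ξ : G →* Equiv.Perm X) : Reps ξ (Quotient.out : Orb ξ → X) where
  surj y := ⟨⟦y⟧, Quotient.mk_out (s := orbSetoid ξ) y⟩
  inj j j' g h := by
    rw [← Quotient.out_eq j, ← Quotient.out_eq j']
    exact Quotient.sound (s := orbSetoid ξ) ⟨g, h⟩

/-- a set is the disjoint union of its orbits -/
lemma card_eq_sum_stab [Finite X] (ξ : G →* Equiv.Perm X) {J : Type*} [Fintype J] {x : J → X}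
    (R : Reps ξ x) : Nat.card X = ∑ j, (stab ξ (x j)).index := by
  classical
  let f : (Σ j, G ⧸ stab ξ (x j)) → X := fun a => Quotient.lift (fun g => ξ g (x a.1))
    (fun g g' h => by
      have h' : g⁻¹ * g' ∈ stab ξ (x a.1) := QuotientGroup.leftRel_apply.1 h
      rw [mem_stab, map_mul, Equiv.Perm.mul_apply, map_inv, Equiv.Perm.inv_eq_iff_eq] at h'
      exact h'.symm) a.2
  have hf : Function.Bijective f := by
    constructor
    · rintro ⟨j, a⟩ ⟨j', a'⟩ h
      obtain ⟨g, rfl⟩ := QuotientGroup.mk_surjective a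
      obtain ⟨g', rfl⟩ := QuotientGroup.mk_surjective a'
      have h' : ξ g (x j) = ξ g' (x j') := h
      have hj : j = j' := by
        refine R.inj j j' (g'⁻¹ * g) ?_
        rw [map_mul, Equiv.Perm.mul_apply, h', map_inv, Equiv.Perm.inv_eq_iff_eq]
      subst hj
      have : (g : G ⧸ stab ξ (x j)) = g' := by
        rw [QuotientGroup.eq, mem_stab, map_mul, Equiv.Perm.mul_apply, ← h', map_inv,
          Equiv.Perm.inv_eq_iff_eq]
      rw [this]
    · intro y
      obtain ⟨j, g, rfl⟩ := R.surj y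
      exact ⟨⟨j, (g : G ⧸ stab ξ (x j))⟩, rfl⟩
  have hfin : ∀ j, Finite (G ⧸ stab ξ (x j)) := fun j =>
    Finite.of_injective (fun a => f ⟨j, a⟩) (fun a b h => by
      have := hf.1 h
      simpa using this)
  rw [← Nat.card_congr (Equiv.ofBijective f hf), Nat.card_sigma]
  rfl

end Orb

/-- Global group with finitely many local groups. -/
structure PTData (G : Type) [Group G] where
  L : Levels G
  ι : Type
  ft : Fintype ι
  Γ : ι → Type
  grp : ∀ v, Group (Γ v)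
  Lv : ∀ v, Levels (Γ v)
  r : ∀ v, Γ v →* G
  lev : ∀ v, ∀ N ∈ L.carrier, ∃ M ∈ (Lv v).carrier, ∀ γ ∈ M, r v γ ∈ N

attribute [instance] PTData.ft PTData.grp

namespace PTData

variable {G : Type} [Group G] (D : PTData G) {A B C : Type*} [AddCommGroup A] [AddCommGroup B]
  [AddCommGroup C]

/-- localisation -/
def loc (v : D.ι) (ρ : Act G A) : PairHom D.L ρ (D.Lv v) (ρ.comp (D.r v)) where
  r := D.r v
  f := AddMonoidHom.id A
  lev := D.lev v
  comm _ _ := rfl

lemma loc_h1_nat (v : D.ι) {ρ : Act G A} {σ : Act G B} (φ : EHom ρ σ) (x : H1 D.L ρ) :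
    (D.loc v σ).h1 (φ.h1 D.L x) = (φ.along (D.r v)).h1 (D.Lv v) ((D.loc v ρ).h1 x) := by
  rw [EHom.h1, EHom.h1, ← PairHom.h1_comp, ← PairHom.h1_comp]
  exact PairHom.h1_congr (fun _ => rfl) (fun _ => rfl) x

lemma loc_h2_nat (v : D.ι) {ρ : Act G A} {σ : Act G B} (φ : EHom ρ σ) (x : H2 D.L ρ) :
    (D.loc v σ).h2 (φ.h2 D.L x) = (φ.along (D.r v)).h2 (D.Lv v) ((D.loc v ρ).h2 x) := by
  rw [EHom.h2, EHom.h2, ← PairHom.h2_comp, ← PairHom.h2_comp]
  exact PairHom.h2_congr (fun _ => rfl) (fun _ => rfl) x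

/-- total localisation on `H¹` -/
def tot1 (ρ : Act G A) : H1 D.L ρ →+ ∀ v, H1 (D.Lv v) (ρ.comp (D.r v)) :=
  AddMonoidHom.pi fun v => (D.loc v ρ).h1

/-- total localisation on `H²` -/
def tot2 (ρ : Act G A) : H2 D.L ρ →+ ∀ v, H2 (D.Lv v) (ρ.comp (D.r v)) :=
  AddMonoidHom.pi fun v => (D.loc v ρ).h2

@[simp] lemma tot1_apply (ρ : Act G A) (x : H1 D.L ρ) (v : D.ι) :
    D.tot1 ρ x v = (D.loc v ρ).h1 x := rfl

@[simp] lemma tot2_apply (ρ : Act G A) (x : H2 D.L ρ) (v : D.ι) :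
    D.tot2 ρ x v = (D.loc v ρ).h2 x := rfl

/-- `Ш¹` -/
def sha1 (ρ : Act G A) : AddSubgroup (H1 D.L ρ) := (D.tot1 ρ).ker

/-- `Ш²` -/
def sha2 (ρ : Act G A) : AddSubgroup (H2 D.L ρ) := (D.tot2 ρ).ker

lemma mem_sha1 {ρ : Act G A} {x : H1 D.L ρ} : x ∈ D.sha1 ρ ↔ ∀ v, (D.loc v ρ).h1 x = 0 := by
  unfold sha1
  rw [AddMonoidHom.mem_ker, funext_iff]
  rfl

lemma mem_sha2 {ρ : Act G A} {x : H2 D.L ρ} : x ∈ D.sha2 ρ ↔ ∀ v, (D.loc v ρ).h2 x = 0 := by
  unfold sha2
  rw [AddMonoidHom.mem_ker, funext_iff]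
  rfl

lemma sha1_map {ρ : Act G A} {σ : Act G B} (φ : EHom ρ σ) {x : H1 D.L ρ} (hx : x ∈ D.sha1 ρ) :
    φ.h1 D.L x ∈ D.sha1 σ := by
  rw [mem_sha1] at hx ⊢
  intro v
  rw [loc_h1_nat, hx, map_zero]

lemma sha2_map {ρ : Act G A} {σ : Act G B} (φ : EHom ρ σ) {x : H2 D.L ρ} (hx : x ∈ D.sha2 ρ) :
    φ.h2 D.L x ∈ D.sha2 σ := by
  rw [mem_sha2] at hx ⊢
  intro v
  rw [loc_h2_nat, hx, map_zero]

/-- an equivariant iso induces an iso on `Ш¹` -/
lemma card_sha1_congr {ρ : Act G A} {σ : Act G B} (E : EEquiv ρ σ) :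
    Nat.card (D.sha1 ρ) = Nat.card (D.sha1 σ) := by
  refine Nat.card_congr ((E.h1 D.L).toEquiv.subtypeEquiv fun x => ?_)
  constructor
  · exact fun hx => D.sha1_map E.hom hx
  · intro hx
    have := D.sha1_map E.symm.hom hx
    have h2 : E.symm.hom.h1 D.L (E.hom.h1 D.L x) = x := (E.h1 D.L).symm_apply_apply x
    have h3 : (E.h1 D.L).toEquiv x = E.hom.h1 D.L x := rfl
    rw [h3, h2] at this
    exact this

/-- an equivariant iso induces an iso on `Ш²` -/
lemma card_sha2_congr {ρ : Act G A} {σ : Act G B} (E : EEquiv ρ σ) :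
    Nat.card (D.sha2 ρ) = Nat.card (D.sha2 σ) := by
  refine Nat.card_congr ((E.h2 D.L).toEquiv.subtypeEquiv fun x => ?_)
  constructor
  · exact fun hx => D.sha2_map E.hom hx
  · intro hx
    have := D.sha2_map E.symm.hom hx
    have h2 : E.symm.hom.h2 D.L (E.hom.h2 D.L x) = x := (E.h2 D.L).symm_apply_apply x
    have h3 : (E.h2 D.L).toEquiv x = E.hom.h2 D.L x := rfl
    rw [h3, h2] at this
    exact this

/-- number of places above `S` of the field `U` -/
noncomputable def s (U : Subgroup G) : ℕ :=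
  ∑ v, Nat.card (Orb ((cosetAct U).comp (D.r v)))

end PTData

/-- Hypotheses of the formal theorem. -/
structure PTHyp {G : Type} [Group G] (D : PTData G) (p : ℕ) (μ : Act G (ZMod p))
    (W : Subgroup G) (e : D.ι → ℕ) : Prop where
  smooth : Smooth D.L μ
  isOpen : IsOpenSub D.L W
  idx : ¬ p ∣ W.index
  normal : W.Normal
  triv : ∀ u ∈ W, ∀ a, μ u a = a
  he : ∑ v, e v = 1
  loc : ∀ v, LocHyp p (D.Lv v) (μ.comp (D.r v)) (W.comap (D.r v)) (e v)
  fin : ∀ U : Subgroup G, IsOpenSub D.L U → U ≤ W → Fin012 D.L (mapAct (cosetAct U) μ)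
  kum_le : ∀ U : Subgroup G, IsOpenSub D.L U → U ≤ W →
    Nat.card (D.sha2 (mapAct (cosetAct U) μ)) ^ 2 * p ^ (2 * D.s U + U.index) ≤
      Nat.card (H1 D.L (mapAct (cosetAct U) μ)) ^ 2
  kum_ge : ∀ U : Subgroup G, IsOpenSub D.L U → U ≤ W →
    Nat.card (H1 D.L (mapAct (cosetAct U) μ)) ^ 2 ≤
      Nat.card (H2 D.L (mapAct (cosetAct U) μ)) ^ 2 * p ^ (2 * D.s U + U.index)
  recip : ∀ (x : H2 D.L μ) (v : D.ι), (∀ w, w ≠ v → (D.loc w μ).h2 x = 0) →
    (D.loc v μ).h2 x = 0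
  cyc : ∀ U : Subgroup G, IsOpenSub D.L U → U ≤ W → ∃ C : ℕ, ∀ k : ℕ, ∃ U' : Subgroup G,
    U' ≤ U ∧ IsOpenSub D.L U' ∧ (U'.subgroupOf U).Normal ∧ U'.relIndex U = p ^ k ∧ D.s U' ≤ C

section Global

variable {G : Type} [Group G] {D : PTData G} {p : ℕ} [Fact p.Prime] {μ : Act G (ZMod p)}
    {W : Subgroup G} {e : D.ι → ℕ} (H : PTHyp D p μ W e)

lemma LevelTrivial.along (v : D.ι) {X : Type*} {ξ : G →* Equiv.Perm X}
    (h : LevelTrivial D.L ξ) : LevelTrivial (D.Lv v) (ξ.comp (D.r v)) := by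
  obtain ⟨N, hN, h⟩ := h
  obtain ⟨M, hM, hM'⟩ := D.lev v N hN
  exact ⟨M, hM, fun s hs x => h _ (hM' s hs) x⟩

lemma Smooth.along (v : D.ι) {A : Type*} [AddCommGroup A] {ρ : Act G A}
    (h : Smooth D.L ρ) : Smooth (D.Lv v) (ρ.comp (D.r v)) := by
  intro a
  obtain ⟨N, hN, h⟩ := h a
  obtain ⟨M, hM, hM'⟩ := D.lev v N hN
  exact ⟨M, hM, fun s hs => h _ (hM' s hs)⟩

include H in
lemma stab_le (v : D.ι) {U : Subgroup G} (hUW : U ≤ W) (x : G ⧸ U) :
    stab ((cosetAct U).comp (D.r v)) x ≤ W.comap (D.r v) := by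
  intro γ hγ
  obtain ⟨g, rfl⟩ := QuotientGroup.mk_surjective x
  have h1 : ((D.r v γ * g : G) : G ⧸ U) = (g : G ⧸ U) := hγ
  have h2 : g⁻¹ * (D.r v γ) * g ∈ U := by
    have := QuotientGroup.eq.1 h1.symm
    rwa [← mul_assoc] at this
  have h3 := H.normal.conj_mem _ (hUW h2) g
  show D.r v γ ∈ W
  have h4 : g * (g⁻¹ * (D.r v γ) * g) * g⁻¹ = D.r v γ := by group
  rwa [h4] at h3

include H in
/-- order of local `H²` of `Map(G/U, μ)` -/
lemma card_loc_H2 (v : D.ι) {U : Subgroup G} (hU : IsOpenSub D.L U) (hUW : U ≤ W) :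
    Nat.card (H2 (D.Lv v) ((mapAct (cosetAct U) μ).comp (D.r v))) =
      p ^ Nat.card (Orb ((cosetAct U).comp (D.r v))) := by
  have := hU.finiteIndex
  have : Finite (Orb ((cosetAct U).comp (D.r v))) := Quotient.finite _
  have : Fintype (Orb ((cosetAct U).comp (D.r v))) := Fintype.ofFinite _
  have hl := (levelTrivial_cosetAct hU).along v
  rw [Nat.card_congr ((mapComp (cosetAct U) μ (D.r v)).h2 (D.Lv v)).toEquiv,
    Nat.card_congr (Equiv.ofBijective _ ((reps_orb ((cosetAct U).comp (D.r v))).h2_bijective hl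
      (H.smooth.along v))), Nat.card_pi, Nat.card_eq_fintype_card (α := Orb _),
    Finset.prod_eq_pow_card]
  · rw [Finset.card_univ]
  · intro j _
    have h1 := stab_le H v hUW (Quotient.out j)
    have hres : resAct (μ.comp (D.r v)) (stab ((cosetAct U).comp (D.r v)) (Quotient.out j)) =
        trivAct _ (ZMod p) := by
      ext u a
      exact (H.loc v).triv u (h1 u.2) a
    rw [hres]
    exact (H.loc v).card2 _ (isOpenSub_stab hl _) h1

include H in
/-- order of local `H¹` of `Map(G/U, μ)` -/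
lemma card_loc_H1 (v : D.ι) {U : Subgroup G} (hU : IsOpenSub D.L U) (hUW : U ≤ W) :
    Nat.card (H1 (D.Lv v) ((mapAct (cosetAct U) μ).comp (D.r v))) =
      p ^ (2 * Nat.card (Orb ((cosetAct U).comp (D.r v))) + e v * U.index) := by
  have := hU.finiteIndex
  have : Finite (Orb ((cosetAct U).comp (D.r v))) := Quotient.finite _
  have : Fintype (Orb ((cosetAct U).comp (D.r v))) := Fintype.ofFinite _
  have hl := (levelTrivial_cosetAct hU).along v
  rw [Nat.card_congr ((mapComp (cosetAct U) μ (D.r v)).h1 (D.Lv v)).toEquiv,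
    Nat.card_congr (Equiv.ofBijective _ ((reps_orb ((cosetAct U).comp (D.r v))).h1_bijective hl
      (H.smooth.along v))), Nat.card_pi, Nat.card_eq_fintype_card (α := Orb _)]
  have hj : ∀ j : Orb ((cosetAct U).comp (D.r v)),
      Nat.card (H1 ((D.Lv v).sub (stab ((cosetAct U).comp (D.r v)) (Quotient.out j)))
        (resAct (μ.comp (D.r v)) (stab ((cosetAct U).comp (D.r v)) (Quotient.out j)))) =
      p ^ (2 + e v * (stab ((cosetAct U).comp (D.r v)) (Quotient.out j)).index) := by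
    intro j
    have h1 := stab_le H v hUW (Quotient.out j)
    have hres : resAct (μ.comp (D.r v)) (stab ((cosetAct U).comp (D.r v)) (Quotient.out j)) =
        trivAct _ (ZMod p) := by
      ext u a
      exact (H.loc v).triv u (h1 u.2) a
    rw [hres]
    exact (H.loc v).card1 _ (isOpenSub_stab hl _) h1
  rw [Finset.prod_congr rfl fun j _ => hj j, Finset.prod_pow_eq_pow_sum,
    Finset.sum_add_distrib, Finset.sum_const, Finset.card_univ, ← Finset.mul_sum,
    ← card_eq_sum_stab _ (reps_orb ((cosetAct U).comp (D.r v)))]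
  congr 2
  rw [smul_eq_mul, mul_comm]

end Global

end Fermat.Agent.PT
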