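import Fermat.Agent.PT.Theta

/-!
# Local theory: `H²`-`H⁰` duality and nondegeneracy of the cup product on `H¹`
-/

set_option autoImplicit false

namespace Fermat.Agent.PT

section H2Fun

variable {G : Type} [Group G] {p : ℕ} {L : Levels G}

/-- `H²` as a coefficient functor -/
def h2Fun (L : Levels G) (hs : ∀ {A B C : Type} [AddCommGroup A] [AddCommGroup B]
    [AddCommGroup C] [Finite B] {ρA : Act G A} {ρB : Act G B} {ρC : Act G C}
    (S : SES ρA ρB ρC), Smooth L ρB → (∀ b : B, p • b = 0) →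
    Function.Surjective (S.p.h2 L)) : CFun G p L where
  obj ρ := H2 L ρ
  grp _ := inferInstance
  map φ := φ.h2 L
  map_id _ h x := EHom.h2_of_id L h x
  map_comp ψ φ x := EHom.h2_comp L ψ φ x
  map_sum s φ ψ h x := EHom.h2_sum L s φ ψ h x
  surj S hB hp := hs S hB hp
  exact S hB _ x hx := (S.exact_H2_mid hB x).1 hx

end H2Fun

section Kill

variable {G : Type*} [Group G] {p : ℕ} {L : Levels G} {A : Type*} [AddCommGroup A]
  {μ : Act G (ZMod p)} {ρ : Act G A}

/-- a class constant modulo `N` dies in `H¹(G, Hom(Map(G/N, A), μ))` -/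
lemma kill_dual {N : Subgroup G} [Fintype (G ⧸ N)] (f : Z1 L (dualAct μ ρ))
    (hf : ∀ g, ∀ s ∈ N, (f : G → A →+ ZMod p) (g * s) = (f : G → A →+ ZMod p) g) :
    ((sumHom (cosetAct N) ρ).dual μ).h1 L (H1.mk L _ f) = 0 := by
  obtain ⟨-, hc⟩ := mem_Z1'.1 f.2
  set F : G → A →+ ZMod p := f.1
  have h1 : F 1 = 0 := by
    have := hc 1 1
    rw [mul_one, act_one] at this
    exact left_eq_add.1 this
  have hrep : ∀ g : G, F (Quotient.out (g : G ⧸ N)) = F g := by
    intro g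
    have hu := rep_inv_mul_mem N g
    have := hf (rep N g) _ hu
    rw [mul_inv_cancel_left] at this
    exact this.symm
  let Ψ : (G ⧸ N → A) →+ ZMod p :=
    { toFun := fun h => - ∑ x, F (Quotient.out x) (h x)
      map_zero' := by simp
      map_add' := fun h h' => by
        simp only [Pi.add_apply, map_add, Finset.sum_add_distrib, neg_add] }
  rw [EHom.h1, PairHom.h1_mk]
  refine H1.mk_eq_zero.2 ⟨Ψ, ?_⟩
  ext g h
  show μ g (- ∑ x, F (Quotient.out x) (mapAct (cosetAct N) ρ g⁻¹ h x)) -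
    (- ∑ x, F (Quotient.out x) (h x)) = F g (∑ x, h x)
  rw [map_neg, map_sum, map_sum]
  have h2 : ∑ x, μ g (F (Quotient.out x) (mapAct (cosetAct N) ρ g⁻¹ h x)) =
      ∑ x, (dualAct μ ρ g (F (g⁻¹ * Quotient.out x))) (h x) := by
    refine Fintype.sum_equiv (cosetAct N g) _ _ fun x => ?_
    rw [mapAct_apply, dualAct_apply, inv_inv]
    congr 2
    have h3 : (QuotientGroup.mk (g⁻¹ * Quotient.out (cosetAct N g x)) : G ⧸ N) = x := by
      rw [← cosetAct_mk, QuotientGroup.out_eq', ← Equiv.Perm.mul_apply, ← map_mul,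
        inv_mul_cancel, map_one]; rfl
    rw [← hrep (g⁻¹ * _), h3]
  rw [h2]
  have h4 : ∀ x : G ⧸ N, (dualAct μ ρ g (F (g⁻¹ * Quotient.out x))) (h x) =
      F (Quotient.out x) (h x) - F g (h x) := by
    intro x
    have := hc g (g⁻¹ * Quotient.out x)
    rw [mul_inv_cancel_left] at this
    rw [this, AddMonoidHom.add_apply]; abel
  simp only [h4, Finset.sum_sub_distrib]
  abel

end Kill

/-- hypotheses for the local theory -/
structure LocHyp {Γ : Type} [Group Γ] (p : ℕ) (L : Levels Γ) (μ : Act Γ (ZMod p))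
    (W : Subgroup Γ) (e : ℕ) : Prop where
  smooth : Smooth L μ
  isOpen : IsOpenSub L W
  idx : ¬ p ∣ W.index
  triv : ∀ u ∈ W, ∀ a, μ u a = a
  card1 : ∀ V : Subgroup Γ, IsOpenSub L V → V ≤ W →
    Nat.card (H1 (L.sub V) (trivAct V (ZMod p))) = p ^ (2 + e * V.index)
  card2 : ∀ V : Subgroup Γ, IsOpenSub L V → V ≤ W →
    Nat.card (H2 (L.sub V) (trivAct V (ZMod p))) = p
  cardμ : Nat.card (H2 L μ) = p

lemma card_H0_triv (G : Type*) [Group G] (p : ℕ) :
    Nat.card (H0 (trivAct G (ZMod p))) = p := by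
  have : H0 (trivAct G (ZMod p)) = ⊤ := by
    ext x
    simp [mem_H0]
  rw [this, Nat.card_congr (AddSubgroup.topEquiv (G := ZMod p)).toEquiv, Nat.card_zmod]

section Loc

variable {Γ : Type} [Group Γ] {p : ℕ} [Fact p.Prime] {L : Levels Γ} {μ : Act Γ (ZMod p)}
    {W : Subgroup Γ} {e : ℕ} (H : LocHyp p L μ W e)

include H in
lemma LocHyp.fin012 {V : Subgroup Γ} (hV : IsOpenSub L V) (hVW : V ≤ W) :
    Fin012 (L.sub V) (trivAct V (ZMod p)) := by
  have hp := (Fact.out (p := p.Prime)).ne_zero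
  refine ⟨inferInstance, Nat.finite_of_card_ne_zero ?_, Nat.finite_of_card_ne_zero ?_⟩
  · rw [H.card1 V hV hVW]
    exact pow_ne_zero _ hp
  · rw [H.card2 V hV hVW]
    exact hp

include H in
lemma LocHyp.chi {V : Subgroup Γ} (hV : IsOpenSub L V) (hVW : V ≤ W) :
    chi (L.sub V) (trivAct V (ZMod p)) = (((p : ℝ) ^ e)⁻¹) ^ V.index := by
  have hp : (p : ℝ) ≠ 0 := by exact_mod_cast (Fact.out (p := p.Prime)).ne_zero
  unfold PT.chi
  rw [H.card1 V hV hVW, H.card2 V hV hVW, card_H0_triv]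
  push_cast
  rw [pow_add, inv_pow, ← pow_mul]
  field_simp

include H in
/-- right exactness of local `H²` -/
theorem LocHyp.surj {A B C : Type} [AddCommGroup A] [AddCommGroup B]
    [AddCommGroup C] [Finite B] {ρA : Act Γ A} {ρB : Act Γ B} {ρC : Act Γ C}
    (S : SES ρA ρB ρC) (hB : Smooth L ρB) (hp : ∀ b : B, p • b = 0) :
    Function.Surjective (S.p.h2 L) :=
  h2_surj_of_chi L W H.isOpen H.idx _ (fun _ hV hVW => ⟨H.fin012 hV hVW, H.chi hV hVW⟩) S hB hp

/-- the local coefficient functor -/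
def LocHyp.fun (H : LocHyp p L μ W e) : CFun Γ p L := h2Fun L (fun S hB hp => H.surj S hB hp)

include H in
lemma LocHyp.card_coset {V : Subgroup Γ} (hV : IsOpenSub L V) (hVW : V ≤ W) :
    Nat.card (H2 L (mapAct (cosetAct V) μ)) = p := by
  have := hV.finiteIndex
  have h1 := Nat.card_congr (Equiv.ofBijective _ (sh_h2_bijective
    (levelTrivial_cosetAct hV) H.smooth (isTrans_cosetAct V)))
  have hst := stab_cosetAct V
  rw [hst] at h1
  have hres : resAct μ V = trivAct V (ZMod p) := by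
    ext u a
    exact H.triv u (hVW u.2) a
  rw [h1, hres, H.card2 V hV hVW]

lemma sumHom_surj {G : Type*} [Group G] {N : Subgroup G} [Fintype (G ⧸ N)] {Z : Type*}
    [AddCommGroup Z] (σ : Act G Z) : Function.Surjective (sumHom (cosetAct N) σ).f := by
  intro c
  classical
  exact ⟨Pi.single ((1 : G) : G ⧸ N) c, by
    rw [sumHom_f, Finset.sum_pi_single' ((1 : G) : G ⧸ N) c]; simp⟩

include H in
lemma LocHyp.sum_bij {V : Subgroup Γ} (hV : IsOpenSub L V) (hVW : V ≤ W) [Fintype (Γ ⧸ V)] :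
    Function.Bijective ((sumHom (cosetAct V) μ).h2 L) := by
  have hp := (Fact.out (p := p.Prime)).ne_zero
  have hf1 : Finite (H2 L (mapAct (cosetAct V) μ)) :=
    Nat.finite_of_card_ne_zero (by rw [H.card_coset hV hVW]; exact hp)
  have hsurj : Function.Surjective ((sumHom (cosetAct V) μ).h2 L) :=
    H.surj (SES.ofSurj (sumHom (cosetAct V) μ) (sumHom_surj μ))
      (H.smooth.mapAct (levelTrivial_cosetAct hV)) (fun b => by ext x; simp)
  exact hsurj.bijective_of_nat_card_le (by rw [H.card_coset hV hVW, H.cardμ])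

include H in
lemma LocHyp.theta : H.fun.ThetaHyp μ W where
  smooth := H.smooth
  isOpen := H.isOpen
  triv := H.triv
  card := H.cardμ
  iso N hN hNW := H.sum_bij ⟨N, hN, le_rfl⟩ hNW

include H in
/-- left nondegeneracy of the cup product `H¹(X') × H¹(X) → H²(μ)` -/
theorem LocHyp.nondeg {X : Type} [AddCommGroup X] [Finite X] (ρ : Act Γ X) (hρ : Smooth L ρ)
    (hp : ∀ x : X, p • x = 0) (y : H1 L (dualAct μ ρ))
    (hy : ∀ x : H1 L ρ, (evP μ ρ).cup hρ y x = 0) : y = 0 := by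
  obtain ⟨f, rfl⟩ := H1.mk_surjective L _ y
  obtain ⟨⟨N₁, hN₁, hf⟩, -⟩ := mem_Z1'.1 f.2
  obtain ⟨N, hN, hNN₁, hNW⟩ := H.isOpen.exists_le hN₁
  have := L.normal' N hN
  have := L.finiteIndex' N hN
  have : Fintype (Γ ⧸ N) := Fintype.ofFinite _
  have hY : Smooth L (mapAct (cosetAct N) ρ) := hρ.mapAct (levelTrivial_cosetAct ⟨N, hN, le_rfl⟩)
  have hpY : ∀ f : Γ ⧸ N → X, p • f = 0 := fun f => by ext x; exact hp _
  let S := SES.ofSurj (sumHom (cosetAct N) ρ) (sumHom_surj ρ)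
  have hY' : Smooth L (dualAct μ (mapAct (cosetAct N) ρ)) := Smooth.dual H.smooth hY
  have hk := kill_dual (N := N) f (fun g s hs => hf g s (hNN₁ hs))
  obtain ⟨φ, hφ⟩ := ((S.dual μ hpY).exact_H1_left hY' _).1 hk
  rw [← hφ]
  rw [((S.dual μ hpY).exact_H0_right hY' φ)]
  by_contra hne
  have hmem : φ ∉ ((S.i.dual μ).h0).range := fun h => hne h
  have htorsE : ∀ {Z : Type} [AddCommGroup Z] (σ : Act Γ Z) (x : H0 (dualAct μ σ)),
      p • x = 0 := by
    intro Z _ σ x
    apply Subtype.ext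
    ext z
    show p • (x : Z →+ ZMod p) z = 0
    simp
  obtain ⟨l, hl0, hl1⟩ := exists_hom_vanish (htorsE _) H.cardμ _ hmem
  obtain ⟨κ, hκ⟩ := (H.theta.main (kerAct (sumHom (cosetAct N) ρ)) (S.smooth_left hY)
    (fun a => Subtype.ext (hpY a.1))).2 l
  have hi : H.fun.map S.i κ = 0 := by
    refine (H.theta.main (mapAct (cosetAct N) ρ) hY hpY).1 _ fun ψ => ?_
    have h1 : H.fun.map (toHom ((S.i.dual μ).h0 ψ)) κ = 0 :=
      (hκ ((S.i.dual μ).h0 ψ)).trans (hl0 _ ⟨ψ, rfl⟩)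
    rw [← H.fun.map_comp, ← h1]
    exact H.fun.map_congr (fun _ => rfl) κ
  obtain ⟨x, hx⟩ := (S.exact_H2_left hY κ).1 hi
  have h2 := cup_delta μ S hpY hY hY' φ x
  rw [hφ, hy x, zero_add, hx] at h2
  exact hl1 (((hκ φ).symm).trans h2)

end Loc

end Fermat.Agent.PT
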