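import Fermat.Agent.PT.Final

/-!
# The formal duality theorem `|Ш²(M)| = |Ш¹(M')|`: conclusion
-/

set_option autoImplicit false

namespace Fermat.Agent.PT

variable {G : Type} [Group G] {D : PTData G} {p : ℕ} [Fact p.Prime] {μ : Act G (ZMod p)}
  {W : Subgroup G} {e : D.ι → ℕ} (H : PTHyp D p μ W e)

include H in
/-- `|Ш²(Map(G/U, μ))| ≤ |Ш¹(Map(G/U, μ)')|` -/
theorem sha2_le {U : Subgroup G} (hU : IsOpenSub D.L U) (hUW : U ≤ W) :
    Nat.card (D.sha2 (mapAct (cosetAct U) μ)) ≤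
      Nat.card (D.sha1 (dualAct μ (mapAct (cosetAct U) μ))) := by
  have hpr := (Fact.out (p := p.Prime))
  have := hU.finiteIndex
  have : Fintype (G ⧸ U) := Fintype.ofFinite _
  have hsm := H.smooth.mapAct (levelTrivial_cosetAct hU)
  have hpM : ∀ f : G ⧸ U → ZMod p, p • f = 0 := fun f => by ext x; simp
  -- self-duality
  let E := dualMapEquiv (cosetAct U) μ
  let E' := twistEquiv (cosetTriv U) (ρ := trivAct G (ZMod p)) (σ := μ) (fun _ _ _ => rfl)
    (fun u hu a => H.triv u (hUW hu) a)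
  have c1 : Nat.card (H1 D.L (dualAct μ (mapAct (cosetAct U) μ))) =
      Nat.card (H1 D.L (mapAct (cosetAct U) μ)) :=
    (Nat.card_congr (E.h1 D.L).toEquiv).trans (Nat.card_congr (E'.h1 D.L).toEquiv)
  have c2 : Nat.card (D.sha1 (dualAct μ (mapAct (cosetAct U) μ))) =
      Nat.card (D.sha1 (mapAct (cosetAct U) μ)) :=
    (D.card_sha1_congr E).trans (D.card_sha1_congr E')
  have hfin : ∀ v, Finite (H1 (D.Lv v) ((mapAct (cosetAct U) μ).comp (D.r v))) := fun v =>
    Nat.finite_of_card_ne_zero (by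
      rw [card_loc_H1 H v hU hUW]; exact pow_ne_zero _ hpr.ne_zero)
  have h1 := isotropy H hsm hpM hfin
  rw [c1, card_prod_H1 H hU hUW, ← c2] at h1
  have h2 := H.kum_le U hU hUW
  have h3 : Nat.card (D.sha2 (mapAct (cosetAct U) μ)) ^ 2 * p ^ (2 * D.s U + U.index) ≤
      Nat.card (D.sha1 (dualAct μ (mapAct (cosetAct U) μ))) ^ 2 *
        p ^ (2 * D.s U + U.index) := by
    refine h2.trans ?_
    rw [sq, sq]
    exact h1
  have h4 := Nat.le_of_mul_le_mul_right h3 (pow_pos hpr.pos _)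
  exact (Nat.pow_le_pow_iff_left two_ne_zero).1 h4

lemma sumHom_comp_surj {G : Type*} [Group G] {N N₀ : Subgroup G} [Fintype (G ⧸ N)]
    [Fintype (G ⧸ N₀)] {Z : Type*} [AddCommGroup Z] (σ : Act G Z) :
    Function.Surjective ((sumHom (cosetAct N₀) σ).comp
      (sumHom (cosetAct N) (mapAct (cosetAct N₀) σ))).f :=
  (sumHom_surj σ).comp (sumHom_surj _)

include H in
/-- **The formal duality theorem.** -/
theorem formal_duality {M : Type} [AddCommGroup M] [Finite M] {ρ : Act G M}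
    (hρ : Smooth D.L ρ) (hp : ∀ a : M, p • a = 0) :
    Finite (D.sha1 (dualAct μ ρ)) ∧ Finite (D.sha2 ρ) ∧
      Nat.card (D.sha2 ρ) = Nat.card (D.sha1 (dualAct μ ρ)) := by
  have hpr := (Fact.out (p := p.Prime))
  have hf0 := H.finite hρ hp
  have : Finite (M →+ ZMod p) := DFunLike.finite _
  have hf1 := H.finite (Smooth.dual H.smooth hρ) (fun a => dual_torsion a)
  have := hf0.h2
  have := hf1.h1
  refine ⟨inferInstance, inferInstance, ?_⟩
  -- a level trivial on `M`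
  obtain ⟨N₁, hN₁, h₁⟩ := hρ.exists_level Set.finite_univ
  obtain ⟨N₀, hN₀, hN₀N₁, hN₀W⟩ := H.isOpen.exists_le hN₁
  have := D.L.normal' N₀ hN₀
  have := D.L.finiteIndex' N₀ hN₀
  have : Fintype (G ⧸ N₀) := Fintype.ofFinite _
  have hN₀o : IsOpenSub D.L N₀ := ⟨N₀, hN₀, le_rfl⟩
  have hN₀M : ∀ u ∈ N₀, ∀ x, ρ u x = x := fun u hu x => h₁ x (Set.mem_univ x) u (hN₀N₁ hu)
  have hl₀ := levelTrivial_cosetAct hN₀o
  have hsμ := H.smooth.mapAct hl₀
  have hsρ := hρ.mapAct hl₀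
  have hpμ : ∀ f : G ⧸ N₀ → ZMod p, p • f = 0 := fun f => by ext x; simp
  have hpρ : ∀ f : G ⧸ N₀ → M, p • f = 0 := fun f => by ext x; exact hp _
  -- a smaller level killing `H¹(M')` and `H¹(Map(G/N₀, μ)')`
  have : Finite ((G ⧸ N₀ → ZMod p) →+ ZMod p) := DFunLike.finite _
  have hf2 := H.finite (Smooth.dual H.smooth hsμ) (fun a => dual_torsion a)
  have := hf2.h1
  obtain ⟨N₂, hN₂, hN₂N₀, hk₂⟩ := exists_level_H1 (σ := dualAct μ ρ) hN₀
  obtain ⟨N, hN, hNN₂, hk⟩ :=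
    exists_level_H1 (σ := dualAct μ (mapAct (cosetAct N₀) μ)) hN₂
  have := D.L.normal' N hN
  have := D.L.finiteIndex' N hN
  have : Fintype (G ⧸ N) := Fintype.ofFinite _
  have hNo : IsOpenSub D.L N := ⟨N, hN, le_rfl⟩
  have hl := levelTrivial_cosetAct hNo
  -- step (b): `Ш²(Map(G/N, Map(G/N₀, μ))) → Ш²(Map(G/N₀, μ))` vanishes
  have hb : ∀ x ∈ D.sha2 (mapAct (cosetAct N) (mapAct (cosetAct N₀) μ)),
      (sumHom (cosetAct N) (mapAct (cosetAct N₀) μ)).h2 D.L x = 0 := by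
    let S := SES.ofSurj (sumHom (cosetAct N) (mapAct (cosetAct N₀) μ)) (sumHom_surj _)
    have hSh : snakeSh D μ S = D.sha1 (dualAct μ (mapAct (cosetAct N₀) μ)) := by
      unfold snakeSh
      rw [inf_eq_left]
      intro x _
      obtain ⟨f, rfl, hf⟩ := hk x
      exact kill_dual f hf
    have hfS : Finite (snakeSh D μ S) := by rw [hSh]; infer_instance
    have h1 := snake_card H S (hsμ.mapAct hl) (fun f => by ext x y; simp) hfS
    rw [hSh] at h1
    have h2 := sha2_le H hN₀o hN₀W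
    have hpos : 0 < Nat.card (D.sha1 (dualAct μ (mapAct (cosetAct N₀) μ))) := Nat.card_pos
    have h3 : Nat.card ((D.sha2 (mapAct (cosetAct N) (mapAct (cosetAct N₀) μ))).map
        (S.p.h2 D.L)) ≤ 1 := by
      rw [h1] at h2
      exact Nat.le_of_mul_le_mul_left (by rw [mul_one]; exact h2) hpos
    have hf3 := H.finite hsμ hpμ
    have := hf3.h2
    have hsub : Subsingleton ((D.sha2 (mapAct (cosetAct N) (mapAct (cosetAct N₀) μ))).map
        (S.p.h2 D.L)) := Finite.card_le_one_iff_subsingleton.1 h3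
    intro x hx
    have h4 : (⟨S.p.h2 D.L x, x, hx, rfl⟩ : (D.sha2 (mapAct (cosetAct N)
      (mapAct (cosetAct N₀) μ))).map (S.p.h2 D.L)) = 0 := Subsingleton.elim _ _
    exact congrArg Subtype.val h4
  -- step (c)
  obtain ⟨d, ⟨F⟩, -⟩ := exists_freeAb p M hp
  let F' := (cosetTriv N₀).free (ρ := μ) (σ := ρ) (fun u hu => H.triv u (hN₀W hu)) hN₀M F
  have hc : ∀ x ∈ D.sha2 (mapAct (cosetAct N) (mapAct (cosetAct N₀) ρ)),
      (sumHom (cosetAct N) (mapAct (cosetAct N₀) ρ)).h2 D.L x = 0 := by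
    intro x hx
    apply (F'.bij_h2 D.L).1
    funext j
    show (F'.b j).h2 D.L _ = (F'.b j).h2 D.L 0
    rw [map_zero, ← EHom.h2_comp]
    have h1 := hb (((F'.b j).mapX (cosetAct N)).h2 D.L x) (D.sha2_map _ hx)
    rw [← EHom.h2_comp] at h1
    rw [← h1]
    refine EHom.h2_congr D.L (fun f => ?_) x
    show (F'.b j).f (∑ y, f y) = ∑ y, (F'.b j).f (f y)
    rw [map_sum]
  let S := SES.ofSurj ((sumHom (cosetAct N₀) ρ).comp
      (sumHom (cosetAct N) (mapAct (cosetAct N₀) ρ))) (sumHom_comp_surj ρ)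
  have hSh : snakeSh D μ S = D.sha1 (dualAct μ ρ) := by
    unfold snakeSh
    rw [inf_eq_left]
    intro x _
    obtain ⟨f, rfl, hf⟩ := hk₂ x
    have h1 := kill_dual (N := N) f (fun g s hs => hf g s (hNN₂ hs))
    -- the map factors through `Map(G/N, ρ)`
    have h2 : (S.p.dual μ).h1 D.L (H1.mk D.L (dualAct μ ρ) f) =
        (((sumHom (cosetAct N₀) ρ).mapX (cosetAct N)).dual μ).h1 D.L
          (((sumHom (cosetAct N) ρ).dual μ).h1 D.L (H1.mk D.L (dualAct μ ρ) f)) := by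
      rw [← EHom.h1_comp]
      refine EHom.h1_congr D.L (fun φ => ?_) _
      ext1 h
      show φ (∑ x, (∑ y, h y) x) = φ (∑ y, ∑ x, h y x)
      congr 1
      simp only [Finset.sum_apply]
      exact Finset.sum_comm
    rw [AddMonoidHom.mem_ker, h2, h1, map_zero]
  have hfS : Finite (snakeSh D μ S) := by rw [hSh]; infer_instance
  have h1 := snake_card H S (hsρ.mapAct hl) (fun f => by ext x y; exact hp _) hfS
  rw [hSh] at h1
  have h2 : (D.sha2 (mapAct (cosetAct N) (mapAct (cosetAct N₀) ρ))).map (S.p.h2 D.L) = ⊥ := by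
    rw [eq_bot_iff]
    rintro _ ⟨x, hx, rfl⟩
    rw [AddSubgroup.mem_bot]
    have : S.p.h2 D.L x = (sumHom (cosetAct N₀) ρ).h2 D.L
        ((sumHom (cosetAct N) (mapAct (cosetAct N₀) ρ)).h2 D.L x) :=
      EHom.h2_comp D.L _ _ x
    rw [this, hc x hx, map_zero]
  rw [h1, h2]
  simp

end Fermat.Agent.PT
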