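import Fermat.Agent.PT.GW

/-!
# Poitou–Tate: middle exactness, and the Greenberg–Wiles formula (formal part, conclusion)
-/

set_option autoImplicit false

namespace Fermat.Agent.PT

section Count

variable {P P' C : Type*} [AddCommGroup P] [AddCommGroup P'] [AddCommGroup C]

omit [AddCommGroup P] [AddCommGroup P'] [AddCommGroup C] in
lemma gw_aux {sel a0 a1 a2 b0 s' t sd v0 v1 v2 : ℝ} (P1 : 0 < v1) (Pa1 : 0 < a1)
    (Ps : 0 < s') (_ : 0 < b0) (I1 : a2 * b0 = s' * v2) (I2 : sel * v1 * s' = a1 * t * sd) :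
    sel * b0 * v0 * (a0 * a2 / a1) = a0 * t * sd * (v0 * v2 / v1) := by
  have h : sel = a1 * t * sd / (v1 * s') := by
    rw [eq_div_iff (by positivity), ← I2]
    ring
  have h2 : a2 * b0 = s' * v2 := I1
  rw [h]
  field_simp
  linear_combination a0 * t * sd * v0 * h2

/-- the annihilator -/
def annih (B : P' →+ P →+ C) (T : AddSubgroup P) : AddSubgroup P' where
  carrier := {y | ∀ x ∈ T, B y x = 0}
  zero_mem' := fun x _ => by rw [map_zero, AddMonoidHom.zero_apply]
  add_mem' := fun {a b} ha hb x hx => by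
    rw [map_add, AddMonoidHom.add_apply, ha x hx, hb x hx, add_zero]
  neg_mem' := fun {a} ha x hx => by
    rw [map_neg, AddMonoidHom.neg_apply, ha x hx, neg_zero]

lemma mem_annih {B : P' →+ P →+ C} {T : AddSubgroup P} {y : P'} :
    y ∈ annih B T ↔ ∀ x ∈ T, B y x = 0 := Iff.rfl

lemma annih_sup (B : P' →+ P →+ C) (T T' : AddSubgroup P) :
    annih B (T ⊔ T') = annih B T ⊓ annih B T' := by
  ext y
  constructor
  · intro h
    exact ⟨fun x hx => h x (le_sup_left (a := T) hx), fun x hx => h x (le_sup_right (a := T) hx)⟩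
  · rintro ⟨h1, h2⟩ x hx
    obtain ⟨a, ha, b, hb, rfl⟩ := AddSubgroup.mem_sup.1 hx
    rw [map_add, h1 a ha, h2 b hb, add_zero]

variable {p : ℕ} [Fact p.Prime] [Finite P] [Finite P']

lemma card_annih (hP : ∀ x : P, p • x = 0) (hC : Nat.card C = p) (B : P' →+ P →+ C)
    (hB : ∀ y, (∀ x, B y x = 0) → y = 0) (hc : Nat.card P ≤ Nat.card P')
    (T : AddSubgroup P) : Nat.card (annih B T) * Nat.card T = Nat.card P := by
  have hfC : Finite C :=
    Nat.finite_of_card_ne_zero (by rw [hC]; exact (Fact.out (p := p.Prime)).ne_zero)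
  have : Finite (P →+ C) := DFunLike.finite _
  have hinj : Function.Injective B := by
    rw [injective_iff_map_eq_zero]
    exact fun y hy => hB y fun x => DFunLike.congr_fun hy x
  have hbij : Function.Bijective B := hinj.bijective_of_nat_card_le (by
    rw [card_hom hP hC]; exact hc)
  have hQ : ∀ x : P ⧸ T, p • x = 0 := by
    intro x
    obtain ⟨x, rfl⟩ := QuotientAddGroup.mk_surjective x
    rw [← QuotientAddGroup.mk_nsmul, hP, QuotientAddGroup.mk_zero]
  let Ψ : annih B T → (P ⧸ T →+ C) := fun y => QuotientAddGroup.lift T (B y) (fun x hx => y.2 x hx)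
  have hΨ : Function.Bijective Ψ := by
    constructor
    · intro y y' h
      apply Subtype.ext
      apply hinj
      apply AddMonoidHom.ext
      intro x
      exact DFunLike.congr_fun h (x : P ⧸ T)
    · intro l
      obtain ⟨y, hy⟩ := hbij.2 (l.comp (QuotientAddGroup.mk' T))
      refine ⟨⟨y, fun x hx => ?_⟩, ?_⟩
      · rw [hy]
        show l (x : P ⧸ T) = 0
        rw [(QuotientAddGroup.eq_zero_iff x).2 hx, map_zero]
      · apply AddMonoidHom.ext
        intro x
        obtain ⟨x, rfl⟩ := QuotientAddGroup.mk_surjective x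
        exact DFunLike.congr_fun hy x
  rw [Nat.card_congr (Equiv.ofBijective Ψ hΨ), card_hom hQ hC]
  exact (AddSubgroup.card_eq_card_quotient_mul_card_addSubgroup T).symm

lemma card_sup_mul_card_inf (T T' : AddSubgroup P) :
    Nat.card (T ⊔ T' : AddSubgroup P) * Nat.card (T ⊓ T' : AddSubgroup P) =
      Nat.card T * Nat.card T' := by
  let f : T × T' →+ P := (T.subtype.comp (AddMonoidHom.fst T T')) +
    (T'.subtype.comp (AddMonoidHom.snd T T'))
  have h1 := card_eq_ker_mul_range f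
  have h2 : f.range = T ⊔ T' := by
    ext x
    rw [AddSubgroup.mem_sup]
    constructor
    · rintro ⟨⟨a, b⟩, rfl⟩
      exact ⟨a, a.2, b, b.2, rfl⟩
    · rintro ⟨a, ha, b, hb, rfl⟩
      exact ⟨(⟨a, ha⟩, ⟨b, hb⟩), rfl⟩
  have h3 : Nat.card f.ker = Nat.card (T ⊓ T' : AddSubgroup P) := by
    refine Nat.card_congr
      { toFun := fun x => ⟨x.1.1, x.1.1.2, by
          have h : (x.1.1 : P) + (x.1.2 : P) = 0 := x.2
          rw [eq_neg_of_add_eq_zero_left h]
          exact T'.neg_mem x.1.2.2⟩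
        invFun := fun x => ⟨(⟨x.1, x.2.1⟩, ⟨-x.1, T'.neg_mem x.2.2⟩), by
          show (x.1 : P) + -(x.1 : P) = 0
          exact add_neg_cancel _⟩
        left_inv := fun x => by
          have h : (x.1.1 : P) + (x.1.2 : P) = 0 := x.2
          apply Subtype.ext
          refine Prod.ext rfl (Subtype.ext ?_)
          show -(x.1.1 : P) = x.1.2
          exact neg_eq_of_add_eq_zero_right h
        right_inv := fun _ => rfl }
  rw [Nat.card_prod, h3, h2] at h1
  rw [h1, mul_comm]

/-- the counting behind the Greenberg–Wiles formula -/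
lemma gw_count (hP : ∀ x : P, p • x = 0) (hC : Nat.card C = p) (B : P' →+ P →+ C)
    (hB : ∀ y, (∀ x, B y x = 0) → y = 0) (hc : Nat.card P ≤ Nat.card P')
    (R T : AddSubgroup P) :
    Nat.card (R ⊓ T : AddSubgroup P) * Nat.card P =
      Nat.card R * Nat.card T * Nat.card (annih B R ⊓ annih B T : AddSubgroup P') := by
  have h1 := card_annih hP hC B hB hc (R ⊔ T)
  rw [annih_sup] at h1
  have h2 := card_sup_mul_card_inf R T
  rw [← h2, ← h1]
  ring

lemma card_comap {M : Type*} [AddCommGroup M] (f : M →+ P) (T : AddSubgroup P) :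
    Nat.card (T.comap f) = Nat.card f.ker * Nat.card (f.range ⊓ T : AddSubgroup P) := by
  have h1 := card_eq_ker_mul_range (f.comp (T.comap f).subtype)
  rw [h1]
  congr 1
  · refine Nat.card_congr
      { toFun := fun x => ⟨x.1.1, x.2⟩
        invFun := fun x => ⟨⟨x.1, by
          show f x.1 ∈ T
          rw [show f x.1 = 0 from x.2]
          exact zero_mem _⟩, x.2⟩
        left_inv := fun _ => rfl
        right_inv := fun _ => rfl }
  · have h2 : (f.comp (T.comap f).subtype).range = f.range ⊓ T := by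
      apply AddSubgroup.ext
      intro y
      constructor
      · rintro ⟨x, rfl⟩
        exact ⟨⟨x.1, rfl⟩, x.2⟩
      · rintro ⟨⟨x, rfl⟩, hx⟩
        exact ⟨⟨x, hx⟩, rfl⟩
    rw [h2]

end Count

section Local

variable {Γ : Type} [Group Γ] {p : ℕ} [Fact p.Prime] {L : Levels Γ} {μ : Act Γ (ZMod p)}
    {W : Subgroup Γ} {e : ℕ} (H : LocHyp p L μ W e)

include H in
lemma LocHyp.finite {X : Type} [AddCommGroup X] [Finite X] {ρ : Act Γ X} (hρ : Smooth L ρ)
    (hp : ∀ x : X, p • x = 0) : Fin012 L ρ :=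
  fin012_of_chi L _ H.isOpen H.idx (fun _ hV hVW => H.fin012 hV hVW) hρ hp

include H in
lemma LocHyp.card_H1_dual_le {X : Type} [AddCommGroup X] [Finite X] {ρ : Act Γ X}
    (hρ : Smooth L ρ) (hp : ∀ x : X, p • x = 0) :
    Nat.card (H1 L (dualAct μ ρ)) ≤ Nat.card (H1 L ρ) := by
  have := (H.finite hρ hp).h1
  have hf : Finite (H2 L μ) := Nat.finite_of_card_ne_zero (by
    rw [H.cardμ]; exact (Fact.out (p := p.Prime)).ne_zero)
  have : Finite (H1 L ρ →+ H2 L μ) := DFunLike.finite _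
  have hinj : Function.Injective ((evP μ ρ).cup hρ) := by
    rw [injective_iff_map_eq_zero]
    intro y hy
    exact H.nondeg ρ hρ hp y fun x => DFunLike.congr_fun hy x
  have h1 := Nat.card_le_card_of_injective _ hinj
  rwa [card_hom (h1_torsion hp) H.cardμ] at h1

include H in
/-- local duality: `|H¹(Γ, X')| = |H¹(Γ, X)|` -/
lemma LocHyp.card_H1_dual {X : Type} [AddCommGroup X] [Finite X] {ρ : Act Γ X}
    (hρ : Smooth L ρ) (hp : ∀ x : X, p • x = 0) :
    Nat.card (H1 L (dualAct μ ρ)) = Nat.card (H1 L ρ) := by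
  have : Finite (X →+ ZMod p) := DFunLike.finite _
  refine le_antisymm (H.card_H1_dual_le hρ hp) ?_
  rw [Nat.card_congr ((ddEquiv hp μ ρ).h1 L).toEquiv]
  exact H.card_H1_dual_le (Smooth.dual H.smooth hρ) (fun a => dual_torsion a)

end Local

variable {G : Type} [Group G] {D : PTData G} {p : ℕ} [Fact p.Prime] {μ : Act G (ZMod p)}
  {W : Subgroup G} {e : D.ι → ℕ} (H : PTHyp D p μ W e)
  {A : Type} [AddCommGroup A] [Finite A] {ρ : Act G A} (hρ : Smooth D.L ρ)
  (hp : ∀ a : A, p • a = 0)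

/-- total localisation on `H¹(M')`, with values in the local duals -/
def totI (D : PTData G) (μ : Act G (ZMod p)) (ρ : Act G A) : H1 D.L (dualAct μ ρ) →+
    ∀ v, H1 (D.Lv v) (dualAct (μ.comp (D.r v)) (ρ.comp (D.r v))) :=
  AddMonoidHom.pi fun v => (locDual D μ v ρ).h1

omit [Finite A] in
@[simp] lemma totI_apply (x : H1 D.L (dualAct μ ρ)) (v : D.ι) :
    totI D μ ρ x v = (locDual D μ v ρ).h1 x := rfl

omit [Finite A] in
lemma totI_ker : (totI D μ ρ).ker = D.sha1 (dualAct μ ρ) := by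
  ext x
  rw [mem_sha1_dual, AddMonoidHom.mem_ker, funext_iff]
  rfl

omit [Finite A] in
lemma isoPair_apply (y : ∀ v, H1 (D.Lv v) (dualAct (μ.comp (D.r v)) (ρ.comp (D.r v))))
    (x : ∀ v, H1 (D.Lv v) (ρ.comp (D.r v))) : isoPair D (μ := μ) hρ y x =
      ∑ v, D.inv μ v ((evP (μ.comp (D.r v)) (ρ.comp (D.r v))).cup (hρ.along v) (y v) (x v)) := rfl

omit [Finite A] in
lemma isoPair_orth (y : H1 D.L (dualAct μ ρ)) (x : H1 D.L ρ) :
    isoPair D (μ := μ) hρ (totI D μ ρ y) (D.tot1 ρ x) = 0 := by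
  have h1 : ∀ v, (evP (μ.comp (D.r v)) (ρ.comp (D.r v))).cup (hρ.along v)
      ((locDual D μ v ρ).h1 y) ((D.loc v ρ).h1 x) =
      (D.loc v μ).h2 ((evP μ ρ).cup hρ y x) := fun v =>
    ((evP μ ρ).cup_nat (evP (μ.comp (D.r v)) (ρ.comp (D.r v))) hρ (hρ.along v)
      (locDual D μ v ρ) (D.loc v ρ) (D.loc v μ) (fun _ => rfl) (fun _ => rfl)
      (fun _ _ => rfl) y x).symm
  have h2 : isoPair D (μ := μ) hρ (totI D μ ρ y) (D.tot1 ρ x) =
      ((D.tot2 μ ((evP μ ρ).cup hρ y x) : D.P2 μ) : D.Coker μ) := by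
    rw [sum_inv, isoPair_apply]
    exact Finset.sum_congr rfl fun v _ => congrArg _ (h1 v)
  rw [h2, QuotientAddGroup.eq_zero_iff]
  exact ⟨_, rfl⟩

include H hp in
lemma isoPair_nondeg (y : ∀ v, H1 (D.Lv v) (dualAct (μ.comp (D.r v)) (ρ.comp (D.r v))))
    (hy : ∀ x, isoPair D (μ := μ) hρ y x = 0) : y = 0 := by
  classical
  funext v
  refine (H.loc v).nondeg (ρ.comp (D.r v)) (hρ.along v) hp (y v) fun x => ?_
  apply (H.inv_bij v).1
  rw [map_zero]
  have h1 := hy (Pi.single v x)
  rw [isoPair_apply, Finset.sum_eq_single v] at h1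
  · rwa [Pi.single_eq_same] at h1
  · intro w _ hw
    rw [Pi.single_eq_of_ne hw, map_zero, map_zero]
  · intro h
    exact absurd (Finset.mem_univ v) h

include H hρ hp in
lemma PTHyp.card_P1_dual :
    Nat.card (∀ v, H1 (D.Lv v) (dualAct (μ.comp (D.r v)) (ρ.comp (D.r v)))) =
      Nat.card (∀ v, H1 (D.Lv v) (ρ.comp (D.r v))) := by
  rw [Nat.card_pi, Nat.card_pi]
  exact Finset.prod_congr rfl fun v _ => (H.loc v).card_H1_dual (hρ.along v) hp

include H hp in
/-- **Poitou–Tate, middle exactness**: the annihilator of the image of `H¹(M)` is the image of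
`H¹(M')`. -/
theorem PTHyp.annih_range :
    annih (isoPair D (μ := μ) hρ) (D.tot1 ρ).range = (totI D μ ρ).range := by
  have : Finite (A →+ ZMod p) := DFunLike.finite _
  have hfv := fun v => (H.finite_loc hρ hp v).h1
  have hfv' := fun v => ((H.loc v).finite (Smooth.dual (H.loc v).smooth (hρ.along v))
    (fun a => dual_torsion a)).h1
  have hf1 := (H.finite hρ hp).h1
  have hf2 := (H.finite (Smooth.dual H.smooth hρ) (fun a => dual_torsion a)).h1
  have hP : ∀ x : (∀ v, H1 (D.Lv v) (ρ.comp (D.r v))), p • x = 0 := fun x =>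
    funext fun v => h1_torsion hp (x v)
  have h1 := card_annih hP H.coker_card (isoPair D (μ := μ) hρ) (isoPair_nondeg H hρ hp)
    (H.card_P1_dual hρ hp).ge (D.tot1 ρ).range
  have h2 := H.card_H1_mul hρ hp
  have h3 := card_eq_ker_mul_range (D.tot1 ρ)
  have h4 := card_eq_ker_mul_range (totI D μ ρ)
  rw [totI_ker] at h4
  have h5 : (D.tot1 ρ).ker = D.sha1 ρ := rfl
  rw [h5] at h3
  rw [h3, h4, ← h1] at h2
  have p1 : 0 < Nat.card (D.sha1 ρ) := Nat.card_pos
  have p2 : 0 < Nat.card (D.sha1 (dualAct μ ρ)) := Nat.card_pos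
  have p3 : 0 < Nat.card (D.tot1 ρ).range := Nat.card_pos
  have h6 : Nat.card (totI D μ ρ).range =
      Nat.card (annih (isoPair D (μ := μ) hρ) (D.tot1 ρ).range) := by
    have h7 : (Nat.card (D.sha1 ρ) * Nat.card (D.sha1 (dualAct μ ρ)) *
        Nat.card (D.tot1 ρ).range) * Nat.card (totI D μ ρ).range =
        (Nat.card (D.sha1 ρ) * Nat.card (D.sha1 (dualAct μ ρ)) *
        Nat.card (D.tot1 ρ).range) *
          Nat.card (annih (isoPair D (μ := μ) hρ) (D.tot1 ρ).range) := by
      calc _ = Nat.card (D.sha1 ρ) * Nat.card (D.tot1 ρ).range *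
            (Nat.card (D.sha1 (dualAct μ ρ)) * Nat.card (totI D μ ρ).range) := by ring
        _ = _ := h2
        _ = _ := by ring
    exact Nat.eq_of_mul_eq_mul_left (by positivity) h7
  symm
  refine AddSubgroup.eq_of_le_of_card_ge ?_ h6.ge
  rintro _ ⟨y, rfl⟩ _ ⟨x, rfl⟩
  exact isoPair_orth hρ y x

include H hp in
/-- elementwise form of middle exactness -/
theorem PTHyp.exists_of_orth
    (y : ∀ v, H1 (D.Lv v) (dualAct (μ.comp (D.r v)) (ρ.comp (D.r v))))
    (hy : ∀ x : H1 D.L ρ, ∑ v, D.inv μ v ((evP (μ.comp (D.r v)) (ρ.comp (D.r v))).cup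
      (hρ.along v) (y v) ((D.loc v ρ).h1 x)) = 0) :
    ∃ z : H1 D.L (dualAct μ ρ), ∀ v, (locDual D μ v ρ).h1 z = y v := by
  have h1 : y ∈ (totI D μ ρ).range := by
    rw [← H.annih_range hρ hp]
    rintro _ ⟨x, rfl⟩
    exact hy x
  obtain ⟨z, hz⟩ := h1
  exact ⟨z, fun v => congrFun hz v⟩

/-- the Selmer group of `M` -/
def selL (D : PTData G) (ρ : Act G A) (T : ∀ v, AddSubgroup (H1 (D.Lv v) (ρ.comp (D.r v)))) :
    AddSubgroup (H1 D.L ρ) where
  carrier := {x | ∀ v, (D.loc v ρ).h1 x ∈ T v}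
  zero_mem' := fun v => by rw [map_zero]; exact (T v).zero_mem
  add_mem' := fun {a b} ha hb v => by rw [map_add]; exact (T v).add_mem (ha v) (hb v)
  neg_mem' := fun {a} ha v => by rw [map_neg]; exact (T v).neg_mem (ha v)

/-- local annihilators -/
def perp (D : PTData G) (μ : Act G (ZMod p)) {ρ : Act G A} (hρ : Smooth D.L ρ)
    (T : ∀ v, AddSubgroup (H1 (D.Lv v) (ρ.comp (D.r v)))) (v : D.ι) :
    AddSubgroup (H1 (D.Lv v) (dualAct (μ.comp (D.r v)) (ρ.comp (D.r v)))) :=
  annih ((evP (μ.comp (D.r v)) (ρ.comp (D.r v))).cup (hρ.along v)) (T v)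

/-- the dual Selmer group -/
def selD (D : PTData G) (μ : Act G (ZMod p)) {ρ : Act G A} (hρ : Smooth D.L ρ)
    (T : ∀ v, AddSubgroup (H1 (D.Lv v) (ρ.comp (D.r v)))) :
    AddSubgroup (H1 D.L (dualAct μ ρ)) where
  carrier := {y | ∀ v, (locDual D μ v ρ).h1 y ∈ perp D μ hρ T v}
  zero_mem' := fun v => by rw [map_zero]; exact AddSubgroup.zero_mem _
  add_mem' := fun {a b} ha hb v => by rw [map_add]; exact AddSubgroup.add_mem _ (ha v) (hb v)
  neg_mem' := fun {a} ha v => by rw [map_neg]; exact AddSubgroup.neg_mem _ (ha v)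

omit [Finite A] in
lemma card_addSubgroup_pi {ι : Type} [Fintype ι] {X : ι → Type} [∀ v, AddCommGroup (X v)]
    (T : ∀ v, AddSubgroup (X v)) :
    Nat.card (AddSubgroup.pi Set.univ T) = ∏ v, Nat.card (T v) := by
  rw [← Nat.card_pi]
  exact Nat.card_congr
    { toFun := fun x v => ⟨x.1 v, x.2 v (Set.mem_univ v)⟩
      invFun := fun x => ⟨fun v => x v, fun v _ => (x v).2⟩
      left_inv := fun _ => rfl
      right_inv := fun _ => rfl }

include H hp in
/-- **Greenberg–Wiles, formal part.** -/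
theorem PTHyp.greenberg_wiles (T : ∀ v, AddSubgroup (H1 (D.Lv v) (ρ.comp (D.r v)))) :
    Nat.card (selL D ρ T) * (∏ v, Nat.card (H1 (D.Lv v) (ρ.comp (D.r v)))) *
        Nat.card (D.sha1 (dualAct μ ρ)) =
      Nat.card (H1 D.L ρ) * (∏ v, Nat.card (T v)) * Nat.card (selD D μ hρ T) := by
  classical
  have : Finite (A →+ ZMod p) := DFunLike.finite _
  have hfv := fun v => (H.finite_loc hρ hp v).h1
  have hfv' := fun v => ((H.loc v).finite (Smooth.dual (H.loc v).smooth (hρ.along v))
    (fun a => dual_torsion a)).h1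
  have hf1 := (H.finite hρ hp).h1
  have hf2 := (H.finite (Smooth.dual H.smooth hρ) (fun a => dual_torsion a)).h1
  have hP : ∀ x : (∀ v, H1 (D.Lv v) (ρ.comp (D.r v))), p • x = 0 := fun x =>
    funext fun v => h1_torsion hp (x v)
  have h1 := gw_count hP H.coker_card (isoPair D (μ := μ) hρ) (isoPair_nondeg H hρ hp)
    (H.card_P1_dual hρ hp).ge (D.tot1 ρ).range (AddSubgroup.pi Set.univ T)
  rw [H.annih_range hρ hp, card_addSubgroup_pi, Nat.card_pi] at h1
  have h2 : annih (isoPair D (μ := μ) hρ) (AddSubgroup.pi Set.univ T) =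
      AddSubgroup.pi Set.univ (perp D μ hρ T) := by
    apply AddSubgroup.ext
    intro y
    constructor
    · intro hy v _ x hx
      apply (H.inv_bij v).1
      rw [map_zero]
      have h3 := hy (Pi.single v x) (by
        intro w _
        by_cases hw : w = v
        · subst hw
          rw [Pi.single_eq_same]
          exact hx
        · rw [Pi.single_eq_of_ne hw]
          exact (T w).zero_mem)
      rw [isoPair_apply, Finset.sum_eq_single v] at h3
      · rwa [Pi.single_eq_same] at h3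
      · intro w _ hw
        rw [Pi.single_eq_of_ne hw, map_zero, map_zero]
      · intro h
        exact absurd (Finset.mem_univ v) h
    · intro hy x hx
      rw [isoPair_apply]
      refine Finset.sum_eq_zero fun v _ => ?_
      rw [hy v (Set.mem_univ v) (x v) (hx v (Set.mem_univ v)), map_zero]
  rw [h2] at h1
  have h3 : selL D ρ T = (AddSubgroup.pi Set.univ T).comap (D.tot1 ρ) := by
    apply AddSubgroup.ext
    intro x
    constructor
    · exact fun hx v _ => hx v
    · exact fun hx v => hx v (Set.mem_univ v)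
  have h4 : selD D μ hρ T = (AddSubgroup.pi Set.univ (perp D μ hρ T)).comap (totI D μ ρ) := by
    apply AddSubgroup.ext
    intro x
    constructor
    · exact fun hx v _ => hx v
    · exact fun hx v => hx v (Set.mem_univ v)
  have h5 : (D.tot1 ρ).ker = D.sha1 ρ := rfl
  have h6 := card_eq_ker_mul_range (D.tot1 ρ)
  rw [h3, h4, card_comap, card_comap, totI_ker, h5, h6, h5]
  calc _ = Nat.card (D.sha1 ρ) * Nat.card (D.sha1 (dualAct μ ρ)) *
        (Nat.card ((D.tot1 ρ).range ⊓ AddSubgroup.pi Set.univ T : AddSubgroup _) *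
        ∏ v, Nat.card (H1 (D.Lv v) (ρ.comp (D.r v)))) := by ring
    _ = _ := by rw [h1]; ring

include H hp in
/-- **Greenberg–Wiles formula** in terms of Euler characteristics. -/
theorem PTHyp.greenberg_wiles_chi (T : ∀ v, AddSubgroup (H1 (D.Lv v) (ρ.comp (D.r v)))) :
    (Nat.card (selL D ρ T) : ℝ) * Nat.card (H0 (dualAct μ ρ)) *
        (∏ v, (Nat.card (H0 (ρ.comp (D.r v))) : ℝ)) * chi D.L ρ =
      Nat.card (H0 ρ) * (∏ v, (Nat.card (T v) : ℝ)) * Nat.card (selD D μ hρ T) *
        ∏ v, chi (D.Lv v) (ρ.comp (D.r v)) := by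
  have : Finite (A →+ ZMod p) := DFunLike.finite _
  have hf := H.finite hρ hp
  have hf' := H.finite (Smooth.dual H.smooth hρ) (fun a => dual_torsion a)
  have hfv := fun v => H.finite_loc hρ hp v
  have := hf.h1
  have := hf'.h1
  have := hf'.h0
  have hv0 := fun v => (hfv v).h0
  have hv1 := fun v => (hfv v).h1
  have i1 := H.card_H2_mul hρ hp
  rw [Nat.card_pi, (formal_duality H hρ hp).2.2] at i1
  have i2 := H.greenberg_wiles hρ hp T
  have P1 : (0 : ℝ) < ∏ v, (Nat.card (H1 (D.Lv v) (ρ.comp (D.r v))) : ℝ) :=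
    Finset.prod_pos fun v _ => by
      have := hv1 v
      exact_mod_cast Nat.card_pos
  have Pa1 : (0 : ℝ) < Nat.card (H1 D.L ρ) := by exact_mod_cast Nat.card_pos
  have Ps : (0 : ℝ) < Nat.card (D.sha1 (dualAct μ ρ)) := by exact_mod_cast Nat.card_pos
  have Pb0 : (0 : ℝ) < Nat.card (H0 (dualAct μ ρ)) := by exact_mod_cast Nat.card_pos
  unfold chi
  rw [Finset.prod_div_distrib, Finset.prod_mul_distrib]
  exact gw_aux P1 Pa1 Ps Pb0 (by exact_mod_cast i1) (by exact_mod_cast i2)

end Fermat.Agent.PT
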