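import Mathlib

/-!
# Level cohomology in degrees 0, 1, 2

`Levels G` : a directed family of normal finite index subgroups.  All cochains are constant modulo
some level.  Coefficients are additive groups `A` with an action `ρ : G →* AddMonoid.End A`.
-/

set_option autoImplicit false

namespace Fermat.Agent.PT

/-- A system of levels on a group: a directed family of normal subgroups of finite index. -/
structure Levels (G : Type*) [Group G] where
  carrier : Set (Subgroup G)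
  nonempty' : carrier.Nonempty
  directed' : ∀ N₁ ∈ carrier, ∀ N₂ ∈ carrier, ∃ N₃ ∈ carrier, N₃ ≤ N₁ ∧ N₃ ≤ N₂
  normal' : ∀ N ∈ carrier, N.Normal
  finiteIndex' : ∀ N ∈ carrier, N.FiniteIndex

/-- An action of `G` on an additive group. -/
abbrev Act (G : Type*) [Group G] (A : Type*) [AddCommGroup A] := G →* AddMonoid.End A

section Basic

variable {G : Type*} [Group G] {A B C X Y Z : Type*} [AddCommGroup A] [AddCommGroup B]
  [AddCommGroup C]

@[simp] lemma act_mul (ρ : Act G A) (g h : G) (a : A) : ρ (g * h) a = ρ g (ρ h a) := by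
  rw [map_mul]; rfl

@[simp] lemma act_one (ρ : Act G A) (a : A) : ρ 1 a = a := by rw [map_one]; rfl

@[simp] lemma act_inv_self (ρ : Act G A) (g : G) (a : A) : ρ g⁻¹ (ρ g a) = a := by
  rw [← act_mul, inv_mul_cancel, act_one]

@[simp] lemma act_self_inv (ρ : Act G A) (g : G) (a : A) : ρ g (ρ g⁻¹ a) = a := by
  rw [← act_mul, mul_inv_cancel, act_one]

/-- level-constant functions of one variable -/
def IsLC₁ (L : Levels G) (f : G → X) : Prop :=
  ∃ N ∈ L.carrier, ∀ g, ∀ s ∈ N, f (g * s) = f g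

/-- level-constant functions of two variables -/
def IsLC₂ (L : Levels G) (f : G → G → X) : Prop :=
  ∃ N ∈ L.carrier, ∀ g h, ∀ s ∈ N, ∀ t ∈ N, f (g * s) (h * t) = f g h

lemma isLC₁_const (L : Levels G) (x : X) : IsLC₁ L (fun _ : G => x) := by
  obtain ⟨N, hN⟩ := L.nonempty'
  exact ⟨N, hN, fun _ _ _ => rfl⟩

lemma isLC₂_const (L : Levels G) (x : X) : IsLC₂ L (fun _ _ : G => x) := by
  obtain ⟨N, hN⟩ := L.nonempty'
  exact ⟨N, hN, fun _ _ _ _ _ _ => rfl⟩

lemma IsLC₁.comp {L : Levels G} {f : G → X} (hf : IsLC₁ L f) (F : X → Y) :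
    IsLC₁ L (fun g => F (f g)) := by
  obtain ⟨N, hN, h⟩ := hf
  exact ⟨N, hN, fun g s hs => by simp only [h g s hs]⟩

lemma IsLC₂.comp {L : Levels G} {f : G → G → X} (hf : IsLC₂ L f) (F : X → Y) :
    IsLC₂ L (fun g h => F (f g h)) := by
  obtain ⟨N, hN, h⟩ := hf
  exact ⟨N, hN, fun g h' s hs t ht => by simp only [h g h' s hs t ht]⟩

lemma IsLC₁.comp₂ {L : Levels G} {f : G → X} {f' : G → Y} (hf : IsLC₁ L f) (hf' : IsLC₁ L f')
    (F : X → Y → Z) : IsLC₁ L (fun g => F (f g) (f' g)) := by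
  obtain ⟨N, hN, h⟩ := hf
  obtain ⟨N', hN', h'⟩ := hf'
  obtain ⟨M, hM, hMN, hMN'⟩ := L.directed' N hN N' hN'
  exact ⟨M, hM, fun g s hs => by simp only [h g s (hMN hs), h' g s (hMN' hs)]⟩

lemma IsLC₂.comp₂ {L : Levels G} {f : G → G → X} {f' : G → G → Y} (hf : IsLC₂ L f)
    (hf' : IsLC₂ L f') (F : X → Y → Z) : IsLC₂ L (fun g h => F (f g h) (f' g h)) := by
  obtain ⟨N, hN, h⟩ := hf
  obtain ⟨N', hN', h'⟩ := hf'
  obtain ⟨M, hM, hMN, hMN'⟩ := L.directed' N hN N' hN'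
  exact ⟨M, hM, fun g h0 s hs t ht => by
    simp only [h g h0 s (hMN hs) t (hMN ht), h' g h0 s (hMN' hs) t (hMN' ht)]⟩

lemma IsLC₁.fst {L : Levels G} {f : G → X} (hf : IsLC₁ L f) : IsLC₂ L (fun g _ => f g) := by
  obtain ⟨N, hN, h⟩ := hf
  exact ⟨N, hN, fun g _ s hs _ _ => h g s hs⟩

lemma IsLC₁.snd {L : Levels G} {f : G → X} (hf : IsLC₁ L f) : IsLC₂ L (fun _ h => f h) := by
  obtain ⟨N, hN, h⟩ := hf
  exact ⟨N, hN, fun _ g _ _ t ht => h g t ht⟩

lemma IsLC₁.mul {L : Levels G} {f : G → X} (hf : IsLC₁ L f) :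
    IsLC₂ L (fun g h => f (g * h)) := by
  obtain ⟨N, hN, h⟩ := hf
  refine ⟨N, hN, fun g g' s hs t ht => ?_⟩
  have hn := L.normal' N hN
  have : g * s * (g' * t) = g * g' * (g'⁻¹ * s * g' * t) := by group
  show f (g * s * (g' * t)) = f (g * g')
  rw [this]
  apply h
  refine N.mul_mem ?_ ht
  have := hn.conj_mem s hs g'⁻¹
  simpa using this

/-- smoothness of an action with respect to levels -/
def Smooth (L : Levels G) (ρ : Act G A) : Prop :=
  ∀ a, ∃ N ∈ L.carrier, ∀ s ∈ N, ρ s a = a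

lemma Smooth.exists_level {L : Levels G} {ρ : Act G A} (hρ : Smooth L ρ) {S : Set A}
    (hS : S.Finite) : ∃ N ∈ L.carrier, ∀ a ∈ S, ∀ s ∈ N, ρ s a = a := by
  induction S, hS using Set.Finite.induction_on with
  | empty =>
    obtain ⟨N, hN⟩ := L.nonempty'
    exact ⟨N, hN, fun a ha => absurd ha (Set.notMem_empty a)⟩
  | @insert a s _ _ ih =>
    obtain ⟨N, hN, h⟩ := ih
    obtain ⟨N', hN', h'⟩ := hρ a
    obtain ⟨M, hM, hMN, hMN'⟩ := L.directed' N hN N' hN'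
    refine ⟨M, hM, fun b hb t ht => ?_⟩
    rcases Set.mem_insert_iff.1 hb with rfl | hb
    · exact h' t (hMN' ht)
    · exact h b hb t (hMN ht)

lemma IsLC₁.finite_range {L : Levels G} {f : G → X} (hf : IsLC₁ L f) :
    (Set.range f).Finite := by
  obtain ⟨N, hN, h⟩ := hf
  have := L.finiteIndex' N hN
  have : Set.range f ⊆ Set.range (fun q : G ⧸ N => f q.out) := by
    rintro _ ⟨g, rfl⟩
    refine ⟨(g : G ⧸ N), ?_⟩
    obtain ⟨n, hn⟩ := QuotientGroup.mk_out_eq_mul N g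
    simp only [hn]
    exact h g n n.2
  exact (Set.finite_range _).subset this

lemma IsLC₂.finite_range {L : Levels G} {f : G → G → X} (hf : IsLC₂ L f) :
    {x | ∃ g h, f g h = x}.Finite := by
  obtain ⟨N, hN, h⟩ := hf
  have := L.finiteIndex' N hN
  have : {x | ∃ g h, f g h = x} ⊆ Set.range (fun q : (G ⧸ N) × (G ⧸ N) => f q.1.out q.2.out) := by
    rintro _ ⟨g, g', rfl⟩
    refine ⟨((g : G ⧸ N), (g' : G ⧸ N)), ?_⟩
    obtain ⟨n, hn⟩ := QuotientGroup.mk_out_eq_mul N g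
    obtain ⟨n', hn'⟩ := QuotientGroup.mk_out_eq_mul N g'
    simp only [hn, hn']
    exact h g g' n n.2 n' n'.2
  exact (Set.finite_range _).subset this

lemma IsLC₁.act {L : Levels G} {ρ : Act G A} (hρ : Smooth L ρ) {f : G → A} (hf : IsLC₁ L f) :
    IsLC₂ L (fun g h => ρ g (f h)) := by
  obtain ⟨M, hM, hfix⟩ := hρ.exists_level hf.finite_range
  obtain ⟨N, hN, h⟩ := hf
  obtain ⟨K, hK, hKN, hKM⟩ := L.directed' N hN M hM
  refine ⟨K, hK, fun g g' s hs t ht => ?_⟩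
  show ρ (g * s) (f (g' * t)) = ρ g (f g')
  rw [h g' t (hKN ht), act_mul, hfix _ ⟨g', rfl⟩ s (hKM hs)]

lemma Smooth.isLC₁ {L : Levels G} {ρ : Act G A} (hρ : Smooth L ρ) (a : A) :
    IsLC₁ L (fun g => ρ g a) := by
  obtain ⟨N, hN, h⟩ := hρ a
  exact ⟨N, hN, fun g s hs => by show ρ (g * s) a = ρ g a; rw [act_mul, h s hs]⟩

variable (A) in
/-- level-constant 1-cochains -/
def C1 (L : Levels G) : AddSubgroup (G → A) where
  carrier := {f | IsLC₁ L f}
  zero_mem' := isLC₁_const L 0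
  add_mem' hf hg := IsLC₁.comp₂ hf hg (· + ·)
  neg_mem' hf := IsLC₁.comp hf (- ·)

variable (A) in
/-- level-constant 2-cochains -/
def C2 (L : Levels G) : AddSubgroup (G → G → A) where
  carrier := {f | IsLC₂ L f}
  zero_mem' := isLC₂_const L 0
  add_mem' hf hg := IsLC₂.comp₂ hf hg (· + ·)
  neg_mem' hf := IsLC₂.comp hf (- ·)

lemma mem_C1 {L : Levels G} {f : G → A} : f ∈ C1 A L ↔ IsLC₁ L f := Iff.rfl

lemma mem_C2 {L : Levels G} {f : G → G → A} : f ∈ C2 A L ↔ IsLC₂ L f := Iff.rfl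

/-- `d⁰` -/
def d0 (ρ : Act G A) : A →+ (G → A) where
  toFun a := fun g => ρ g a - a
  map_zero' := by ext g; simp
  map_add' a b := by ext g; simp only [map_add, Pi.add_apply]; abel

/-- `d¹` -/
def d1 (ρ : Act G A) : (G → A) →+ (G → G → A) where
  toFun f := fun g h => ρ g (f h) - f (g * h) + f g
  map_zero' := by ext g; simp
  map_add' a b := by ext g h; simp only [map_add, Pi.add_apply]; abel

/-- `d²` -/
def d2 (ρ : Act G A) : (G → G → A) →+ (G → G → G → A) where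
  toFun f := fun g h j => ρ g (f h j) - f (g * h) j + f g (h * j) - f g h
  map_zero' := by ext g; simp
  map_add' a b := by ext g h j; simp only [map_add, Pi.add_apply]; abel

lemma d0_apply (ρ : Act G A) (a : A) (g : G) : d0 ρ a g = ρ g a - a := rfl

lemma d1_apply (ρ : Act G A) (f : G → A) (g h : G) :
    d1 ρ f g h = ρ g (f h) - f (g * h) + f g := rfl

lemma d2_apply (ρ : Act G A) (f : G → G → A) (g h j : G) :
    d2 ρ f g h j = ρ g (f h j) - f (g * h) j + f g (h * j) - f g h := rfl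

@[simp] lemma d1_d0 (ρ : Act G A) (a : A) : d1 ρ (d0 ρ a) = 0 := by
  ext g h; simp only [d1_apply, d0_apply, map_sub, act_mul, Pi.zero_apply]; abel

@[simp] lemma d2_d1 (ρ : Act G A) (f : G → A) : d2 ρ (d1 ρ f) = 0 := by
  ext g h j
  simp only [d1_apply, d2_apply, map_sub, map_add, act_mul, mul_assoc, Pi.zero_apply]; abel

lemma d0_mem_C1 {L : Levels G} {ρ : Act G A} (hρ : Smooth L ρ) (a : A) : d0 ρ a ∈ C1 A L :=
  (hρ.isLC₁ a).comp (· - a)

lemma d1_mem_C2 {L : Levels G} {ρ : Act G A} (hρ : Smooth L ρ) {f : G → A}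
    (hf : f ∈ C1 A L) : d1 ρ f ∈ C2 A L :=
  ((IsLC₁.act hρ hf).comp₂ (IsLC₁.mul hf) (· - ·)).comp₂ (IsLC₁.fst hf) (· + ·)

/-- invariants -/
def H0 (ρ : Act G A) : AddSubgroup A := (d0 ρ).ker

lemma mem_H0 {ρ : Act G A} {a : A} : a ∈ H0 ρ ↔ ∀ g, ρ g a = a := by
  unfold H0
  rw [AddMonoidHom.mem_ker]
  constructor
  · intro h g
    have := congrFun h g
    rw [d0_apply, Pi.zero_apply, sub_eq_zero] at this
    exact this
  · intro h
    ext g
    rw [d0_apply, h g, sub_self]; rfl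

/-- level-constant 1-cocycles -/
def Z1 (L : Levels G) (ρ : Act G A) : AddSubgroup (G → A) := C1 A L ⊓ (d1 ρ).ker

/-- level-constant 2-cocycles -/
def Z2 (L : Levels G) (ρ : Act G A) : AddSubgroup (G → G → A) := C2 A L ⊓ (d2 ρ).ker

lemma mem_Z1 {L : Levels G} {ρ : Act G A} {f : G → A} :
    f ∈ Z1 L ρ ↔ IsLC₁ L f ∧ d1 ρ f = 0 := Iff.rfl

lemma mem_Z1' {L : Levels G} {ρ : Act G A} {f : G → A} :
    f ∈ Z1 L ρ ↔ IsLC₁ L f ∧ ∀ g h, f (g * h) = f g + ρ g (f h) := by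
  rw [mem_Z1]
  refine and_congr Iff.rfl ⟨fun h g g' => ?_, fun h => ?_⟩
  · have := congrFun (congrFun h g) g'
    rw [d1_apply] at this
    simp only [Pi.zero_apply] at this
    have h2 : ρ g (f g') + f g = f (g * g') := by
      rw [← sub_eq_zero, ← this]; abel
    rw [← h2]; abel
  · ext g g'
    rw [d1_apply, h g g']; simp

lemma mem_Z2 {L : Levels G} {ρ : Act G A} {f : G → G → A} :
    f ∈ Z2 L ρ ↔ IsLC₂ L f ∧ d2 ρ f = 0 := Iff.rfl

lemma mem_Z2' {L : Levels G} {ρ : Act G A} {f : G → G → A} :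
    f ∈ Z2 L ρ ↔ IsLC₂ L f ∧ ∀ g h j, f (g * h) j + f g h = ρ g (f h j) + f g (h * j) := by
  rw [mem_Z2]
  refine and_congr Iff.rfl ⟨fun h g g' j => ?_, fun h => ?_⟩
  · have := congrFun (congrFun (congrFun h g) g') j
    rw [d2_apply] at this
    simp only [Pi.zero_apply] at this
    symm
    rw [← sub_eq_zero, ← this]; abel
  · ext g g' j
    rw [d2_apply]
    have h4 := sub_eq_zero.2 (h g g' j).symm
    rw [Pi.zero_apply, Pi.zero_apply, Pi.zero_apply, ← h4]; abel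

/-- first level cohomology -/
def H1 (L : Levels G) (ρ : Act G A) : Type _ := Z1 L ρ ⧸ (d0 ρ).range.addSubgroupOf (Z1 L ρ)

instance (L : Levels G) (ρ : Act G A) : AddCommGroup (H1 L ρ) :=
  inferInstanceAs (AddCommGroup (Z1 L ρ ⧸ (d0 ρ).range.addSubgroupOf (Z1 L ρ)))

/-- second level cohomology -/
def H2 (L : Levels G) (ρ : Act G A) : Type _ :=
  Z2 L ρ ⧸ ((C1 A L).map (d1 ρ)).addSubgroupOf (Z2 L ρ)

instance (L : Levels G) (ρ : Act G A) : AddCommGroup (H2 L ρ) :=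
  inferInstanceAs (AddCommGroup (Z2 L ρ ⧸ ((C1 A L).map (d1 ρ)).addSubgroupOf (Z2 L ρ)))

/-- class of a 1-cocycle -/
def H1.mk (L : Levels G) (ρ : Act G A) : Z1 L ρ →+ H1 L ρ := QuotientAddGroup.mk' _

/-- class of a 2-cocycle -/
def H2.mk (L : Levels G) (ρ : Act G A) : Z2 L ρ →+ H2 L ρ := QuotientAddGroup.mk' _

lemma H1.mk_surjective (L : Levels G) (ρ : Act G A) : Function.Surjective (H1.mk L ρ) :=
  QuotientAddGroup.mk'_surjective _

lemma H2.mk_surjective (L : Levels G) (ρ : Act G A) : Function.Surjective (H2.mk L ρ) :=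
  QuotientAddGroup.mk'_surjective _

lemma H1.mk_eq_zero {L : Levels G} {ρ : Act G A} {f : Z1 L ρ} :
    H1.mk L ρ f = 0 ↔ ∃ a, d0 ρ a = f := by
  unfold H1.mk
  erw [QuotientAddGroup.eq_zero_iff]
  rw [AddSubgroup.mem_addSubgroupOf]; rfl

lemma H2.mk_eq_zero {L : Levels G} {ρ : Act G A} {f : Z2 L ρ} :
    H2.mk L ρ f = 0 ↔ ∃ c, IsLC₁ L c ∧ d1 ρ c = f := by
  unfold H2.mk
  erw [QuotientAddGroup.eq_zero_iff]
  rw [AddSubgroup.mem_addSubgroupOf]; rfl

end Basic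

end Fermat.Agent.PT
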