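import Fermat.Agent.PT.ECMain

/-!
# Group theory: the stabiliser of a line fixed by a `p`-Sylow subgroup
-/

set_option autoImplicit false

namespace Fermat.Agent.PT

open Matrix

section Lin

variable {k : Type*} [Field k]

lemma unip_sq {A : Matrix (Fin 2) (Fin 2) k} {v : Fin 2 → k} (hv : v ≠ 0) (hA : A *ᵥ v = v)
    (hdet : A.det = 1) : (A - 1) * (A - 1) = 0 := by
  have h1 : (A - 1).det = 0 := by
    rw [← Matrix.exists_mulVec_eq_zero_iff]
    refine ⟨v, hv, ?_⟩
    rw [Matrix.sub_mulVec, hA, Matrix.one_mulVec, sub_self]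
  rw [Matrix.det_fin_two] at h1 hdet
  simp only [Matrix.sub_apply, Matrix.one_apply_eq, ne_eq, zero_ne_one, not_false_eq_true,
    Matrix.one_apply_ne, one_ne_zero, sub_zero] at h1
  have h2 : A 0 0 + A 1 1 = 2 := by linear_combination hdet - h1
  ext i j
  rw [Matrix.mul_apply, Fin.sum_univ_two]
  fin_cases i <;> fin_cases j
  · show (A 0 0 - 1) * (A 0 0 - 1) + (A 0 1 - 0) * (A 1 0 - 0) = 0
    linear_combination (A 0 0) * h2 - hdet
  · show (A 0 0 - 1) * (A 0 1 - 0) + (A 0 1 - 0) * (A 1 1 - 1) = 0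
    linear_combination (A 0 1) * h2
  · show (A 1 0 - 0) * (A 0 0 - 1) + (A 1 1 - 1) * (A 1 0 - 0) = 0
    linear_combination (A 1 0) * h2
  · show (A 1 0 - 0) * (A 0 1 - 0) + (A 1 1 - 1) * (A 1 1 - 1) = 0
    linear_combination (A 1 1) * h2 - hdet

lemma unip_pow {A : Matrix (Fin 2) (Fin 2) k} (h : (A - 1) * (A - 1) = 0) (n : ℕ) :
    A ^ n = 1 + (n : k) • (A - 1) := by
  induction n with
  | zero => simp
  | succ n ih =>
    rw [pow_succ, ih]
    have h2 : A * A = 2 • A - 1 := by
      have : (A - 1) * (A - 1) = A * A - 2 • A + 1 := by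
        rw [sub_mul, mul_sub, mul_sub, mul_one, one_mul, one_mul, two_smul]
        abel
      rw [this] at h
      rw [← sub_eq_zero, ← h]
      abel
    rw [add_mul, smul_mul_assoc, sub_mul, one_mul, h2, Nat.cast_succ, add_smul, one_smul,
      two_smul]
    have : A + A - 1 - A = A - 1 := by abel
    rw [this]
    abel

lemma eq_one_of_two {A : Matrix (Fin 2) (Fin 2) k} {v w : Fin 2 → k} (hv : v ≠ 0)
    (hA : A *ᵥ v = v) (hdet : A.det = 1) {b : k} (hw : A *ᵥ w = b • w)
    (hvw : ∀ a : k, w ≠ a • v) : A = 1 := by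
  have hsq := unip_sq hv hA hdet
  have hw0 : w ≠ 0 := by
    intro h
    exact hvw 0 (by rw [h, zero_smul])
  have h1 : (A - 1) *ᵥ w = (b - 1) • w := by
    rw [Matrix.sub_mulVec, hw, Matrix.one_mulVec, sub_smul, one_smul]
  have h2 : ((b - 1) * (b - 1)) • w = 0 := by
    have : (A - 1) *ᵥ ((A - 1) *ᵥ w) = 0 := by
      rw [Matrix.mulVec_mulVec, hsq, Matrix.zero_mulVec]
    rw [h1, Matrix.mulVec_smul, h1, smul_smul] at this
    exact this
  have h3 : b = 1 := by
    rcases smul_eq_zero.1 h2 with h | h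
    · rcases mul_eq_zero.1 h with h | h <;> exact sub_eq_zero.1 h
    · exact absurd h hw0
  rw [h3, sub_self, zero_smul] at h1
  have h4 : (A - 1) *ᵥ v = 0 := by
    rw [Matrix.sub_mulVec, hA, Matrix.one_mulVec, sub_self]
  have hd : v 0 * w 1 - v 1 * w 0 ≠ 0 := by
    intro hd
    by_cases hv0 : v 0 = 0
    · have hv1 : v 1 ≠ 0 := by
        intro hv1
        apply hv
        ext i
        fin_cases i
        · exact hv0
        · exact hv1
      have hw0' : w 0 = 0 := by
        rw [hv0, zero_mul, zero_sub, neg_eq_zero] at hd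
        exact (mul_eq_zero.1 hd).resolve_left hv1
      refine hvw (w 1 / v 1) ?_
      ext i
      fin_cases i
      · show w 0 = _ * v 0
        rw [hv0, mul_zero, hw0']
      · show w 1 = w 1 / v 1 * v 1
        rw [div_mul_cancel₀ _ hv1]
    · refine hvw (w 0 / v 0) ?_
      ext i
      fin_cases i
      · show w 0 = w 0 / v 0 * v 0
        rw [div_mul_cancel₀ _ hv0]
      · show w 1 = w 0 / v 0 * v 1
        rw [div_mul_eq_mul_div, eq_div_iff hv0]
        linear_combination hd
  have key : ∀ i, (A - 1) i 0 = 0 ∧ (A - 1) i 1 = 0 := by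
    intro i
    have e1 : (A - 1) i 0 * v 0 + (A - 1) i 1 * v 1 = 0 := by
      have := congrFun h4 i
      rwa [Matrix.mulVec, dotProduct, Fin.sum_univ_two] at this
    have e2 : (A - 1) i 0 * w 0 + (A - 1) i 1 * w 1 = 0 := by
      have := congrFun h1 i
      rwa [Matrix.mulVec, dotProduct, Fin.sum_univ_two] at this
    constructor
    · have : (A - 1) i 0 * (v 0 * w 1 - v 1 * w 0) = 0 := by
        linear_combination (w 1) * e1 - (v 1) * e2
      exact (mul_eq_zero.1 this).resolve_right hd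
    · have : (A - 1) i 1 * (v 0 * w 1 - v 1 * w 0) = 0 := by
        linear_combination (v 0) * e2 - (w 0) * e1
      exact (mul_eq_zero.1 this).resolve_right hd
  rw [← sub_eq_zero]
  ext i j
  fin_cases j
  · exact (key i).1
  · exact (key i).2

end Lin

section Grp

variable {G : Type} [Group G] {p : ℕ} [Fact p.Prime] {k : Type} [Field k] [Finite k] [CharP k p]
  (r : G →* GL (Fin 2) k) (μ : Act G (ZMod p))

/-- the kernel of an action -/
def actKer : Subgroup G where
  carrier := {g | ∀ t, μ g t = t}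
  one_mem' := fun t => act_one μ t
  mul_mem' := fun {g h} hg hh t => by rw [act_mul, hh, hg]
  inv_mem' := fun {g} hg t => by
    conv_lhs => rw [← hg t]
    rw [act_inv_self]

lemma mem_actKer {g : G} : g ∈ actKer μ ↔ ∀ t, μ g t = t := Iff.rfl

lemma act_zmod (g : G) (t : ZMod p) : μ g t = μ g 1 * t := by
  have := mul_hom_zmod (μ g) 1 t
  rwa [one_mul] at this

/-- the character of an action on `ZMod p` -/
def actChar : G →* (ZMod p)ˣ where
  toFun g := ⟨μ g 1, μ g⁻¹ 1, by rw [← act_zmod, act_self_inv], by rw [← act_zmod, act_inv_self]⟩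
  map_one' := Units.ext (act_one μ 1)
  map_mul' g h := Units.ext (by
    show μ (g * h) 1 = μ g 1 * μ h 1
    rw [act_mul, act_zmod])

lemma actChar_ker : (actChar μ).ker = actKer μ := by
  ext g
  rw [MonoidHom.mem_ker, mem_actKer]
  constructor
  · intro h t
    have h1 : μ g 1 = 1 := congrArg Units.val h
    rw [act_zmod, h1, one_mul]
  · intro h
    exact Units.ext (h 1)

lemma actKer_index : ¬ p ∣ (actKer μ).index := by
  intro h
  rw [← actChar_ker, Subgroup.index_ker] at h
  have h1 := h.trans (Subgroup.card_subgroup_dvd_card (actChar μ).range)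
  rw [Nat.card_eq_fintype_card, ZMod.card_units] at h1
  have h2 := (Fact.out : p.Prime).two_le
  exact absurd (Nat.le_of_dvd (by omega) h1) (by omega)

instance actKer_normal : (actKer μ).Normal := by
  rw [← actChar_ker]
  infer_instance

lemma glmul (g h : G) (v : Fin 2 → k) :
    (r (g * h) : Matrix (Fin 2) (Fin 2) k) *ᵥ v =
      (r g : Matrix (Fin 2) (Fin 2) k) *ᵥ ((r h : Matrix (Fin 2) (Fin 2) k) *ᵥ v) := by
  rw [map_mul, Units.val_mul, Matrix.mulVec_mulVec]

lemma glone (v : Fin 2 → k) : (r 1 : Matrix (Fin 2) (Fin 2) k) *ᵥ v = v := by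
  rw [map_one, Units.val_one, Matrix.one_mulVec]

/-- **the Borel-type subgroups** -/
theorem exists_borel : ∃ W V : Subgroup G, (W.subgroupOf V).Normal ∧
    r.ker ⊓ actKer μ ≤ W ∧ W ≤ V ∧
    (∀ w ∈ W, ∃ n : ℕ, w ^ p ^ n ∈ r.ker ⊓ actKer μ) ∧ ¬ p ∣ W.index ∧
    (∀ w ∈ W, ∀ t, μ w t = t) ∧
    (∀ g ∉ V, ∀ w ∈ W, g⁻¹ * w * g ∈ V → w ∈ r.ker ⊓ actKer μ) := by
  classical
  have hp := (Fact.out : p.Prime)
  have hfin : Finite r.range := inferInstance
  by_cases hdiv : p ∣ Nat.card r.range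
  swap
  · -- prime to p
    refine ⟨r.ker ⊓ actKer μ, ⊤, inferInstance, le_rfl, le_top, fun w hw => ⟨0, ?_⟩, ?_,
      fun w hw => hw.2, fun g hg => absurd (Subgroup.mem_top g) hg⟩
    · rwa [pow_zero, pow_one]
    · intro h
      rw [← Subgroup.relIndex_mul_index (inf_le_right : r.ker ⊓ actKer μ ≤ actKer μ)] at h
      rcases hp.dvd_mul.1 h with h | h
      · rw [Subgroup.inf_relIndex_right] at h
        have := h.trans (Subgroup.relIndex_dvd_index_of_normal r.ker (actKer μ))
        rw [Subgroup.index_ker] at this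
        exact hdiv this
      · exact actKer_index μ h
  -- a Sylow subgroup and a fixed vector
  obtain ⟨P⟩ : Nonempty (Sylow p r.range) := inferInstance
  let T : Subgroup G := (P : Subgroup r.range).comap r.rangeRestrict
  have hTi : ¬ p ∣ T.index := by
    rw [Subgroup.index_comap_of_surjective _ r.rangeRestrict_surjective]
    exact P.not_dvd_index
  let τ : Act T (Fin 2 → k) :=
    { toFun := fun g => (Matrix.mulVecLin (r (g : G) : Matrix (Fin 2) (Fin 2) k)).toAddMonoidHom
      map_one' := by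
        apply AddMonoidHom.ext
        intro v
        exact glone r v
      map_mul' := fun g h => by
        apply AddMonoidHom.ext
        intro v
        exact glmul r g h v }
  have hτ : ∀ (g : T) v, τ g v = (r (g : G) : Matrix (Fin 2) (Fin 2) k) *ᵥ v := fun _ _ => rfl
  have hTp : ∀ w : G, w ∈ T → ∃ n : ℕ, r (w ^ p ^ n) = 1 := by
    intro w hw
    obtain ⟨n, hn⟩ := P.isPGroup' ⟨_, hw⟩
    refine ⟨n, ?_⟩
    have h1 := congrArg (fun x : (P : Subgroup r.range) => ((x : r.range) : GL (Fin 2) k)) hn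
    rw [map_pow]
    exact h1
  have hchar : ∀ v : Fin 2 → k, p • v = 0 := fun v => by
    funext i
    rw [Pi.smul_apply, nsmul_eq_mul, CharP.cast_eq_zero, zero_mul]
    rfl
  obtain ⟨v, hv, hfix⟩ := exists_fixed_vec hchar τ (fun w => by
    obtain ⟨n, hn⟩ := hTp w w.2
    refine ⟨n, ?_⟩
    apply AddMonoidHom.ext
    intro u
    show (r ((w : G) ^ p ^ n) : Matrix (Fin 2) (Fin 2) k) *ᵥ u = u
    rw [hn, Units.val_one, Matrix.one_mulVec])
  -- the stabiliser of the line
  have hmulne : ∀ (g : G) (a : k), (r g : Matrix (Fin 2) (Fin 2) k) *ᵥ v = a • v → a ≠ 0 := by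
    rintro g a h rfl
    rw [zero_smul] at h
    apply hv
    rw [← glone r v, ← inv_mul_cancel g, glmul, h, Matrix.mulVec_zero]
  let V : Subgroup G :=
    { carrier := {g | ∃ a : k, (r g : Matrix (Fin 2) (Fin 2) k) *ᵥ v = a • v}
      one_mem' := ⟨1, by rw [glone, one_smul]⟩
      mul_mem' := by
        rintro g h ⟨a, ha⟩ ⟨b, hb⟩
        exact ⟨b * a, by rw [glmul, hb, Matrix.mulVec_smul, ha, smul_smul]⟩
      inv_mem' := by
        rintro g ⟨a, ha⟩
        refine ⟨a⁻¹, ?_⟩
        have ha0 := hmulne g a ha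
        have h1 : v = a⁻¹ • ((r g : Matrix (Fin 2) (Fin 2) k) *ᵥ v) := by
          rw [ha, smul_smul, inv_mul_cancel₀ ha0, one_smul]
        conv_lhs => rw [h1]
        rw [Matrix.mulVec_smul, ← glmul, inv_mul_cancel, glone] }
  let W : Subgroup G :=
    { carrier := {g | (r g : Matrix (Fin 2) (Fin 2) k) *ᵥ v = v ∧
        (r g : Matrix (Fin 2) (Fin 2) k).det = 1 ∧ ∀ t, μ g t = t}
      one_mem' := ⟨glone r v, by rw [map_one, Units.val_one, Matrix.det_one],
        fun t => act_one μ t⟩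
      mul_mem' := by
        rintro g h ⟨a1, a2, a3⟩ ⟨b1, b2, b3⟩
        exact ⟨by rw [glmul, b1, a1], by rw [map_mul, Units.val_mul, Matrix.det_mul, a2, b2,
          one_mul], fun t => by rw [act_mul, b3, a3]⟩
      inv_mem' := by
        rintro g ⟨a1, a2, a3⟩
        refine ⟨?_, ?_, (actKer μ).inv_mem a3⟩
        · conv_lhs => rw [← a1]
          rw [← glmul, inv_mul_cancel, glone]
        · have h1 : (r g⁻¹ : Matrix (Fin 2) (Fin 2) k).det *
              (r g : Matrix (Fin 2) (Fin 2) k).det = 1 := by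
            rw [← Matrix.det_mul, ← Units.val_mul, ← map_mul, inv_mul_cancel, map_one,
              Units.val_one, Matrix.det_one]
          rwa [a2, mul_one] at h1 }
  have hWV : W ≤ V := fun g hg => ⟨1, by rw [one_smul]; exact hg.1⟩
  have hUW : r.ker ⊓ actKer μ ≤ W := by
    rintro g ⟨hg1, hg2⟩
    have h1 : r g = 1 := hg1
    refine ⟨?_, ?_, hg2⟩
    · rw [h1, Units.val_one, Matrix.one_mulVec]
    · rw [h1, Units.val_one, Matrix.det_one]
  have hmemU : ∀ w ∈ W, (r w : Matrix (Fin 2) (Fin 2) k) = 1 → w ∈ r.ker ⊓ actKer μ :=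
    fun w hw h => ⟨Units.ext h, hw.2.2⟩
  have hTW : T ⊓ actKer μ ≤ W := by
    rintro g ⟨hg1, hg2⟩
    refine ⟨hfix ⟨g, hg1⟩, ?_, hg2⟩
    obtain ⟨n, hn⟩ := hTp g hg1
    have h1 : (r g : Matrix (Fin 2) (Fin 2) k).det ^ p ^ n = 1 := by
      rw [← Matrix.det_pow, ← Units.val_pow_eq_pow_val, ← map_pow, hn, Units.val_one,
        Matrix.det_one]
    have h2 : ((r g : Matrix (Fin 2) (Fin 2) k).det - 1) ^ p ^ n = 0 := by
      rw [sub_pow_char_pow, h1, one_pow, sub_self]
    exact sub_eq_zero.1 (eq_zero_of_pow_eq_zero h2)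
  refine ⟨W, V, ⟨?_⟩, hUW, hWV, ?_, ?_, fun w hw => hw.2.2, ?_⟩
  · -- normality
    rintro ⟨w, hwV⟩ hw ⟨g, hgV⟩
    have hw' : w ∈ W := hw
    obtain ⟨w1, w2, w3⟩ := hw'
    show g * w * g⁻¹ ∈ W
    obtain ⟨a, ha⟩ := V.inv_mem hgV
    have ha0 := hmulne _ a ha
    refine ⟨?_, ?_, ?_⟩
    · rw [glmul, ha, Matrix.mulVec_smul, glmul, w1]
      rw [← Matrix.mulVec_smul, ← ha, ← glmul, mul_inv_cancel, glone]
    · rw [map_mul, map_mul, Units.val_mul, Units.val_mul, Matrix.det_mul, Matrix.det_mul, w2,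
        mul_one, ← Matrix.det_mul, ← Units.val_mul, ← map_mul, mul_inv_cancel, map_one,
        Units.val_one, Matrix.det_one]
    · exact (inferInstance : (actKer μ).Normal).conj_mem w w3 g
  · -- p-group
    intro w hw
    refine ⟨1, ?_⟩
    rw [pow_one]
    refine hmemU _ (W.pow_mem hw p) ?_
    rw [map_pow, Units.val_pow_eq_pow_val, unip_pow (unip_sq hv hw.1 hw.2.1),
      CharP.cast_eq_zero, zero_smul, add_zero]
  · -- index
    intro h
    have h1 := h.trans (Subgroup.index_dvd_of_le hTW)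
    rw [← Subgroup.relIndex_mul_index (inf_le_left : T ⊓ actKer μ ≤ T)] at h1
    rcases hp.dvd_mul.1 h1 with h1 | h1
    · rw [Subgroup.inf_relIndex_left] at h1
      exact actKer_index μ (h1.trans (Subgroup.relIndex_dvd_index_of_normal _ _))
    · exact hTi h1
  · -- freeness
    intro g hg w hw hwg
    refine hmemU w hw ?_
    obtain ⟨b, hb⟩ := hwg
    refine eq_one_of_two hv hw.1 hw.2.1 (w := (r g : Matrix (Fin 2) (Fin 2) k) *ᵥ v) (b := b)
      ?_ ?_
    · have h1 : g * (g⁻¹ * w * g) = w * g := by group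
      rw [← glmul, ← h1, glmul, hb, Matrix.mulVec_smul]
    · intro a ha
      exact hg ⟨a, ha⟩

end Grp

end Fermat.Agent.PT
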