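import Fermat.Agent.PT.EC

/-!
# A criterion for being a summand of `Map(G/U, μ)^J`
-/

set_option autoImplicit false

namespace Fermat.Agent.PT

section Gen

variable {G : Type*} [Group G] {U : Subgroup G}

lemma out_mk (g : G) : ∃ u ∈ U, (Quotient.out (g : G ⧸ U)) = g * u := by
  obtain ⟨n, hn⟩ := QuotientGroup.mk_out_eq_mul U g
  exact ⟨n, n.2, hn⟩

lemma out_coset (g : G) (x : G ⧸ U) :
    ∃ u ∈ U, (Quotient.out (cosetAct U g x)) = g * Quotient.out x * u := by
  have h1 : cosetAct U g x = ((g * Quotient.out x : G) : G ⧸ U) := by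
    conv_lhs => rw [← QuotientGroup.out_eq' x]
    rfl
  rw [h1]
  exact out_mk _

lemma mul_hom_zmod {p : ℕ} (h : ZMod p →+ ZMod p) (a b : ZMod p) : h (a * b) = h a * b := by
  have h1 : ∀ c : ZMod p, h c = h 1 * c := by
    intro c
    have h1 : c = (ZMod.cast c : ℤ) • (1 : ZMod p) := by
      rw [zsmul_eq_mul, mul_one, ZMod.intCast_zmod_cast]
    conv_lhs => rw [h1]
    rw [map_zsmul, zsmul_eq_mul, ZMod.intCast_zmod_cast, mul_comm]
  rw [h1, h1 a, mul_assoc]

end Gen

variable {G : Type} [Group G] {U V : Subgroup G} {hUV : U ≤ V}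
  [hN : (U.subgroupOf V).Normal] [Fintype (V ⧸ U.subgroupOf V)] [Fintype (G ⧸ U)] {p : ℕ}
  {μ : Act G (ZMod p)} {Y : Type} [AddCommGroup Y] [Module (ZMod p) Y] {σ : Act G Y} {J : Type}
  [Fintype J]

/-- Data making `Y` a summand of `Map(G/U, μ)^J`. -/
structure ThetaData (U V : Subgroup G) [Fintype (G ⧸ U)] (p : ℕ) [Module (ZMod p) Y]
    (σ : Act G Y) (J : Type) [Fintype J] where
  y : J → Y
  φ : J → (Y →+ ZMod p)
  hy : ∀ j, ∀ u ∈ U, σ u (y j) = y j
  hφ : ∀ j, ∀ u ∈ U, ∀ m, φ j (σ u m) = φ j m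
  sum : ∀ m, ∑ x : G ⧸ U, ∑ j, φ j (σ (Quotient.out x)⁻¹ m) • σ (Quotient.out x) (y j) = m
  supp : ∀ i j g, g ∉ V → φ i (σ g (y j)) = 0

namespace ThetaData

variable (T : ThetaData U V p σ J)

/-- the maps `a_j` -/
noncomputable def a (hμ : ∀ u ∈ U, ∀ t, μ u t = t) (j : J) :
    EHom (mapAct (cosetAct U) μ) σ where
  f :=
    { toFun := fun f => ∑ x : G ⧸ U, (μ (Quotient.out x)⁻¹ (f x)) • σ (Quotient.out x) (T.y j)
      map_zero' := by simp
      map_add' := fun f f' => by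
        rw [← Finset.sum_add_distrib]
        refine Finset.sum_congr rfl fun x _ => ?_
        rw [Pi.add_apply, map_add, add_smul] }
  comm g f := by
    show ∑ x : G ⧸ U, (μ (Quotient.out x)⁻¹ (μ g (f (cosetAct U g⁻¹ x)))) •
      σ (Quotient.out x) (T.y j) =
      σ g (∑ x : G ⧸ U, (μ (Quotient.out x)⁻¹ (f x)) • σ (Quotient.out x) (T.y j))
    rw [map_sum]
    refine Fintype.sum_equiv (cosetAct U g⁻¹) _ _ fun x => ?_
    obtain ⟨u, hu, h⟩ := out_coset g⁻¹ x
    have h2 : (g⁻¹ * Quotient.out x * u)⁻¹ = u⁻¹ * ((Quotient.out x)⁻¹ * g) := by group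
    have h3 : g * (g⁻¹ * Quotient.out x * u) = Quotient.out x * u := by group
    rw [ZMod.map_smul, h, ← act_mul σ g, h3, h2, act_mul σ _ u, T.hy j u hu, act_mul μ u⁻¹,
      hμ _ (U.inv_mem hu), act_mul μ _ g]

lemma a_apply (hμ : ∀ u ∈ U, ∀ t, μ u t = t) (j : J) (f : G ⧸ U → ZMod p) :
    (T.a hμ j).f f = ∑ x : G ⧸ U, (μ (Quotient.out x)⁻¹ (f x)) • σ (Quotient.out x) (T.y j) :=
  rfl

/-- the maps `b_j` -/
noncomputable def b (hμ : ∀ u ∈ U, ∀ t, μ u t = t) (j : J) :
    EHom σ (mapAct (cosetAct U) μ) where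
  f :=
    { toFun := fun m x => μ (Quotient.out x) (T.φ j (σ (Quotient.out x)⁻¹ m))
      map_zero' := by
        funext x
        simp
      map_add' := fun m m' => by
        funext x
        rw [map_add, map_add, map_add]
        rfl }
  comm g m := by
    funext x
    show μ (Quotient.out x) (T.φ j (σ (Quotient.out x)⁻¹ (σ g m))) =
      μ g (μ (Quotient.out (cosetAct U g⁻¹ x)) (T.φ j (σ (Quotient.out (cosetAct U g⁻¹ x))⁻¹ m)))
    obtain ⟨u, hu, h⟩ := out_coset g⁻¹ x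
    rw [h, ← act_mul μ g]
    have h1 : g * (g⁻¹ * Quotient.out x * u) = Quotient.out x * u := by group
    have h2 : (g⁻¹ * Quotient.out x * u)⁻¹ = u⁻¹ * ((Quotient.out x)⁻¹ * g) := by group
    rw [h1, h2, act_mul μ, hμ u hu, act_mul σ u⁻¹, T.hφ j _ (U.inv_mem hu), act_mul σ]

lemma b_apply (hμ : ∀ u ∈ U, ∀ t, μ u t = t) (j : J) (m : Y) (x : G ⧸ U) :
    (T.b hμ j).f m x = μ (Quotient.out x) (T.φ j (σ (Quotient.out x)⁻¹ m)) := rfl

/-- the matrix -/
noncomputable def c (μ : Act G (ZMod p)) (i j : J) (δ : V ⧸ U.subgroupOf V) : ℤ :=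
  ZMod.cast (T.φ i (σ (Quotient.out δ : V) (T.y j)) * μ ((Quotient.out δ : V) : G)⁻¹ 1)

lemma cast_c (i j : J) (δ : V ⧸ U.subgroupOf V) : ((T.c μ i j δ : ℤ) : ZMod p) =
    T.φ i (σ (Quotient.out δ : V) (T.y j)) * μ ((Quotient.out δ : V) : G)⁻¹ 1 :=
  ZMod.intCast_zmod_cast _

/-- the criterion -/
noncomputable def sumOn (hμ : ∀ u ∈ U, ∀ t, μ u t = t) : SumOn U V hUV μ σ J (T.c μ) where
  a := T.a hμ
  b := T.b hμ
  ab m := by
    conv_rhs => rw [← T.sum m]
    rw [Finset.sum_comm]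
    refine Finset.sum_congr rfl fun j _ => ?_
    rw [a_apply]
    refine Finset.sum_congr rfl fun x _ => ?_
    rw [b_apply, act_inv_self]
  ba i j f := by
    funext x
    rw [Finset.sum_apply, b_apply, a_apply, map_sum, map_sum, map_sum]
    symm
    refine Fintype.sum_of_injective (fun δ => rtFun U V hUV δ x) ?_ _ _ ?_ ?_
    · intro δ ε h
      obtain ⟨g, rfl⟩ := QuotientGroup.mk_surjective x
      have h1 : cosetAct U g (rtFun U V hUV δ ((1 : G) : G ⧸ U)) =
          cosetAct U g (rtFun U V hUV ε ((1 : G) : G ⧸ U)) := by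
        rw [← rtFun_cosetAct, ← rtFun_cosetAct, cosetAct_mk, mul_one]
        exact h
      exact rtFun_free ((cosetAct U g).injective h1)
    · intro x' hx'
      rw [ZMod.map_smul, ZMod.map_smul, ← act_mul, T.supp, smul_zero, map_zero]
      intro hV
      apply hx'
      refine ⟨((⟨_, hV⟩ : V) : V ⧸ U.subgroupOf V), ?_⟩
      have h1 := rtFun_mk U V hUV ⟨_, hV⟩ (Quotient.out x)
      rw [QuotientGroup.out_eq'] at h1
      refine h1.trans ?_
      rw [mul_inv_cancel_left, QuotientGroup.out_eq']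
    · intro δ
      have hx : rtFun U V hUV δ x =
          ((Quotient.out x * ((Quotient.out δ : V) : G) : G) : G ⧸ U) := by
        conv_lhs => rw [← QuotientGroup.out_eq' x, ← QuotientGroup.out_eq' δ]
        rw [rtFun_mk]
      obtain ⟨u, hu, h⟩ := out_mk (U := U) (Quotient.out x * ((Quotient.out δ : V) : G))
      rw [← hx] at h
      show (T.c μ i j δ) • f (rtFun U V hUV δ x) = _
      rw [h, zsmul_eq_mul, cast_c, ZMod.map_smul, ZMod.map_smul, ← act_mul σ]
      have h2 : (Quotient.out x)⁻¹ * (Quotient.out x * ((Quotient.out δ : V) : G) * u) =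
        ((Quotient.out δ : V) : G) * u := by group
      have e0 : ∀ g a b, μ g (a * b) = μ g a * b := fun g a b => mul_hom_zmod (μ g) a b
      rw [h2, act_mul σ, T.hy j u hu, smul_eq_mul, e0, mul_inv_rev, act_mul μ u⁻¹,
        hμ _ (U.inv_mem hu), mul_inv_rev, act_mul μ, ← act_mul μ, ← act_mul μ]
      have h4 : ∀ t, μ (Quotient.out x * ((Quotient.out δ : V) : G)⁻¹ * (Quotient.out x)⁻¹) t =
          μ ((Quotient.out δ : V) : G)⁻¹ 1 * t := by
        intro t
        have e1 : ∀ g t, μ g t = μ g 1 * t := fun g t => by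
          have := mul_hom_zmod (μ g) 1 t
          rwa [one_mul] at this
        rw [act_mul, act_mul, e1 (Quotient.out x), e1 ((Quotient.out δ : V) : G)⁻¹,
          e1 (Quotient.out x)⁻¹]
        have e2 : μ (Quotient.out x) 1 * μ (Quotient.out x)⁻¹ 1 = 1 := by
          rw [← e1, act_self_inv]
        linear_combination (μ ((Quotient.out δ : V) : G)⁻¹ 1) * t * e2
      rw [h4]
      ring

end ThetaData

end Fermat.Agent.PT
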