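import Fermat.Agent.PT.GSet

/-!
# Cup products `H¹ × H¹ → H²` in level cohomology
-/

set_option autoImplicit false

namespace Fermat.Agent.PT

variable {G Γ : Type*} [Group G] [Group Γ] {A B C : Type*} [AddCommGroup A] [AddCommGroup B]
  [AddCommGroup C]

/-- an equivariant biadditive pairing -/
structure Pairing (ρA : Act G A) (ρB : Act G B) (ρC : Act G C) where
  m : A →+ B →+ C
  comm : ∀ g a b, m (ρA g a) (ρB g b) = ρC g (m a b)

namespace Pairing

variable {ρA : Act G A} {ρB : Act G B} {ρC : Act G C} (P : Pairing ρA ρB ρC) {L : Levels G}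

/-- cup product of cochains -/
def cc (f : G → A) (h : G → B) : G → G → C := fun x y => P.m (f x) (ρB x (h y))

lemma cc_mem (hB : Smooth L ρB) (f : Z1 L ρA) (h : Z1 L ρB) :
    P.cc (f : G → A) (h : G → B) ∈ Z2 L ρC := by
  obtain ⟨hfL, hf⟩ := mem_Z1'.1 f.2
  obtain ⟨hhL, hh⟩ := mem_Z1'.1 h.2
  rw [mem_Z2']
  refine ⟨(IsLC₁.fst hfL).comp₂ (IsLC₁.act hB hhL) (fun a b => P.m a b), fun x y z => ?_⟩
  simp only [cc, hf x y, hh y z, map_add, AddMonoidHom.add_apply, act_mul, ← P.comm]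
  abel

/-- cup product of cocycles -/
def cz (hB : Smooth L ρB) : Z1 L ρA →+ Z1 L ρB →+ Z2 L ρC where
  toFun f :=
    { toFun := fun h => ⟨P.cc f h, P.cc_mem hB f h⟩
      map_zero' := by apply Subtype.ext; ext x y; simp [cc]
      map_add' := fun h h' => by apply Subtype.ext; ext x y; simp [cc] }
  map_zero' := by ext h x y; simp [cc]
  map_add' f f' := by ext h x y; simp [cc]

lemma coe_cz (hB : Smooth L ρB) (f : Z1 L ρA) (h : Z1 L ρB) (x y : G) :
    (P.cz hB f h : G → G → C) x y = P.m ((f : G → A) x) (ρB x ((h : G → B) y)) := rfl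

lemma cz_d0_left (hB : Smooth L ρB) (f : Z1 L ρA) (h : Z1 L ρB) (a : A)
    (ha : d0 ρA a = f) : H2.mk L ρC (P.cz hB f h) = 0 := by
  obtain ⟨hhL, hh⟩ := mem_Z1'.1 h.2
  refine H2.mk_eq_zero.2 ⟨fun x => P.m a ((h : G → B) x), hhL.comp _, ?_⟩
  ext x y
  rw [coe_cz, ← ha, d0_apply, d1_apply, hh x y, ← P.comm]
  simp only [map_add, map_sub, AddMonoidHom.sub_apply]
  abel

lemma cz_d0_right (hB : Smooth L ρB) (f : Z1 L ρA) (h : Z1 L ρB) (b : B)
    (hb : d0 ρB b = h) : H2.mk L ρC (P.cz hB f h) = 0 := by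
  obtain ⟨hfL, hf⟩ := mem_Z1'.1 f.2
  refine H2.mk_eq_zero.2 ⟨fun x => - P.m ((f : G → A) x) (ρB x b),
    (hfL.comp₂ (hB.isLC₁ b) (fun a b => P.m a b)).comp (- ·), ?_⟩
  ext x y
  rw [coe_cz, ← hb, d0_apply, d1_apply, hf x y, map_neg, ← P.comm]
  simp only [map_add, map_sub, AddMonoidHom.add_apply, act_mul]
  abel

/-- The cup product `H¹ × H¹ → H²`. -/
def cup (hB : Smooth L ρB) : H1 L ρA →+ H1 L ρB →+ H2 L ρC :=
  QuotientAddGroup.lift _
    { toFun := fun f => QuotientAddGroup.lift _ ((H2.mk L ρC).comp (P.cz hB f)) (by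
        intro h hh
        rw [AddSubgroup.mem_addSubgroupOf] at hh
        obtain ⟨b, hb⟩ := hh
        exact P.cz_d0_right hB f h b hb)
      map_zero' := by
        ext h
        obtain ⟨h, rfl⟩ := H1.mk_surjective L ρB h
        show H2.mk L ρC (P.cz hB 0 h) = 0
        rw [map_zero]; exact map_zero _
      map_add' := fun f f' => by
        ext h
        obtain ⟨h, rfl⟩ := H1.mk_surjective L ρB h
        show H2.mk L ρC (P.cz hB (f + f') h) = H2.mk L ρC (P.cz hB f h) +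
          H2.mk L ρC (P.cz hB f' h)
        rw [map_add, AddMonoidHom.add_apply, map_add] } (by
    intro f hf
    rw [AddSubgroup.mem_addSubgroupOf] at hf
    obtain ⟨a, ha⟩ := hf
    rw [AddMonoidHom.mem_ker]
    ext h
    obtain ⟨h, rfl⟩ := H1.mk_surjective L ρB h
    exact P.cz_d0_left hB f h a ha)

@[simp] lemma cup_mk (hB : Smooth L ρB) (f : Z1 L ρA) (h : Z1 L ρB) :
    P.cup hB (H1.mk L ρA f) (H1.mk L ρB h) = H2.mk L ρC (P.cz hB f h) := rfl

/-- naturality of the cup product -/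
lemma cup_nat {A' B' C' : Type*} [AddCommGroup A'] [AddCommGroup B'] [AddCommGroup C']
    {σA : Act Γ A'} {σB : Act Γ B'} {σC : Act Γ C'} {L' : Levels Γ} (P' : Pairing σA σB σC)
    (hB : Smooth L ρB) (hB' : Smooth L' σB) (φA : PairHom L ρA L' σA) (φB : PairHom L ρB L' σB)
    (φC : PairHom L ρC L' σC) (hA : ∀ γ, φA.r γ = φC.r γ) (hBr : ∀ γ, φB.r γ = φC.r γ)
    (hm : ∀ a b, φC.f (P.m a b) = P'.m (φA.f a) (φB.f b)) (x : H1 L ρA) (y : H1 L ρB) :
    φC.h2 (P.cup hB x y) = P'.cup hB' (φA.h1 x) (φB.h1 y) := by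
  obtain ⟨f, rfl⟩ := H1.mk_surjective L ρA x
  obtain ⟨h, rfl⟩ := H1.mk_surjective L ρB y
  rw [cup_mk, PairHom.h1_mk, PairHom.h1_mk, cup_mk, PairHom.h2_mk]
  congr 1
  ext γ δ
  rw [coe_cz, PairHom.coe_z1, PairHom.coe_z1, PairHom.coe_z2, PairHom.c2_apply,
    PairHom.c1_apply, PairHom.c1_apply, coe_cz, hm, ← φB.comm, hA, hBr, hBr]

/-- the opposite pairing -/
def flip : Pairing ρB ρA ρC where
  m := P.m.flip
  comm g a b := P.comm g b a

/-- Anticommutativity: `x ∪ y + y ∪ x = 0`. -/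
lemma cup_flip (hA : Smooth L ρA) (hB : Smooth L ρB) (x : H1 L ρA) (y : H1 L ρB) :
    P.cup hB x y + P.flip.cup hA y x = 0 := by
  obtain ⟨f, rfl⟩ := H1.mk_surjective L ρA x
  obtain ⟨h, rfl⟩ := H1.mk_surjective L ρB y
  obtain ⟨hfL, hf⟩ := mem_Z1'.1 f.2
  obtain ⟨hhL, hh⟩ := mem_Z1'.1 h.2
  rw [cup_mk, cup_mk, ← map_add]
  refine H2.mk_eq_zero.2 ⟨fun x => - P.m ((f : G → A) x) ((h : G → B) x),
    (hfL.comp₂ hhL (fun a b => P.m a b)).comp (- ·), ?_⟩
  ext x y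
  rw [AddSubgroup.coe_add, Pi.add_apply, Pi.add_apply, coe_cz, coe_cz, d1_apply, hf x y, hh x y,
    map_neg, ← P.comm]
  simp only [map_add, AddMonoidHom.add_apply, flip, AddMonoidHom.flip_apply]
  abel

end Pairing

end Fermat.Agent.PT
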