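import Fermat.Agent.PT.Euler

/-!
# Dévissage over `p`-groups and right exactness of `H²`
-/

set_option autoImplicit false

namespace Fermat.Agent.PT

lemma exists_zmod_inj_aux (p : ℕ) [Fact p.Prime] {A : Type*} [AddCommGroup A]
    [Module (ZMod p) A] {a : A} (ha : a ≠ 0) :
    ∃ f : ZMod p →+ A, Function.Injective f ∧ f 1 = a ∧ ∀ x, f x = x.val • a := by
  refine ⟨(LinearMap.toSpanSingleton (ZMod p) A a).toAddMonoidHom, ?_, ?_, ?_⟩
  · rw [injective_iff_map_eq_zero]
    intro x hx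
    have hx' : x • a = 0 := hx
    exact (smul_eq_zero.1 hx').resolve_right ha
  · show (1 : ZMod p) • a = a
    rw [one_smul]
  · intro x
    show x • a = x.val • a
    rw [← Nat.cast_smul_eq_nsmul (ZMod p), ZMod.natCast_zmod_val]

lemma exists_zmod_inj (p : ℕ) [Fact p.Prime] {A : Type*} [AddCommGroup A]
    (hp : ∀ a : A, p • a = 0) {a : A} (ha : a ≠ 0) :
    ∃ f : ZMod p →+ A, Function.Injective f ∧ f 1 = a ∧ ∀ x, f x = x.val • a := by
  let inst : Module (ZMod p) A := AddCommGroup.zmodModule hp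
  exact exists_zmod_inj_aux p ha

variable {G : Type*} [Group G]

/-- a `p`-group acting on a nonzero elementary abelian `p`-group has a nonzero fixed vector -/
theorem exists_fixed {p : ℕ} [Fact p.Prime] {A : Type*} [AddCommGroup A] [Finite A]
    (ρ : Act G A) (N : Subgroup G) [N.Normal] (hG : IsPGroup p (G ⧸ N))
    (hN : ∀ u ∈ N, ∀ a, ρ u a = a) {n : ℕ} (hcard : Nat.card A = p ^ (n + 1)) :
    ∃ a : A, a ≠ 0 ∧ ∀ g, ρ g a = a := by
  let φ : G ⧸ N →* AddMonoid.End A := QuotientGroup.lift N ρ (fun u hu => by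
    rw [MonoidHom.mem_ker]
    ext a
    exact hN u hu a)
  let inst : MulAction (G ⧸ N) A := MulAction.compHom A φ
  have h0 : (0 : A) ∈ MulAction.fixedPoints (G ⧸ N) A := by
    intro q
    show φ q 0 = 0
    exact map_zero _
  have hdvd : p ∣ Nat.card A := by rw [hcard]; exact dvd_pow_self p (Nat.succ_ne_zero n)
  obtain ⟨b, hb, hne⟩ := hG.exists_fixed_point_of_prime_dvd_card_of_fixed_point A hdvd h0
  exact ⟨b, Ne.symm hne, fun g => hb (g : G ⧸ N)⟩

lemma index_pos_of_finite {A : Type*} [AddCommGroup A] [Finite A] (H : AddSubgroup A) :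
    1 ≤ H.index := Nat.one_le_iff_ne_zero.2 AddSubgroup.FiniteIndex.index_ne_zero

/-- Dévissage: `χ(A) ≤ χ(𝔽_p)^{dim A}`. -/
theorem devissage {p : ℕ} [Fact p.Prime] (L : Levels G) (N : Subgroup G) [N.Normal]
    (hG : IsPGroup p (G ⧸ N)) (hF : Fin012 L (trivAct G (ZMod p))) (n : ℕ) :
    ∀ (A : Type) [AddCommGroup A] [Finite A] (ρ : Act G A), Smooth L ρ →
      (∀ u ∈ N, ∀ a, ρ u a = a) → (∀ a : A, p • a = 0) → Nat.card A = p ^ n →
      Fin012 L ρ ∧ chi L ρ ≤ chi L (trivAct G (ZMod p)) ^ n := by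
  induction n with
  | zero =>
    intro A _ _ ρ _ _ _ hcard
    rw [pow_zero, Nat.card_eq_one_iff_unique] at hcard
    have hs := hcard.1
    have s0 : Subsingleton (H0 ρ) := inferInstance
    have s1 : Subsingleton (H1 L ρ) := by
      refine ⟨fun x y => ?_⟩
      obtain ⟨x, rfl⟩ := H1.mk_surjective L ρ x
      obtain ⟨y, rfl⟩ := H1.mk_surjective L ρ y
      congr 1
      ext g
      exact Subsingleton.elim _ _
    have s2 : Subsingleton (H2 L ρ) := by
      refine ⟨fun x y => ?_⟩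
      obtain ⟨x, rfl⟩ := H2.mk_surjective L ρ x
      obtain ⟨y, rfl⟩ := H2.mk_surjective L ρ y
      congr 1
      ext g
      exact Subsingleton.elim _ _
    refine ⟨⟨inferInstance, Finite.of_subsingleton, Finite.of_subsingleton⟩, ?_⟩
    unfold chi
    rw [Nat.card_unique, Nat.card_of_subsingleton (0 : H1 L ρ),
      Nat.card_of_subsingleton (0 : H2 L ρ)]
    simp
  | succ n ih =>
    intro A _ _ ρ hρ hN hp hcard
    obtain ⟨a, ha, hfix⟩ := exists_fixed ρ N hG hN hcard
    obtain ⟨f, hf, hf1, hfx⟩ := exists_zmod_inj p hp ha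
    let i : EHom (trivAct G (ZMod p)) ρ := ⟨f, fun g x => by
      rw [trivAct_apply, hfx, map_nsmul, hfix g]⟩
    let S := SES.ofInj i hf
    have hQcard : Nat.card (A ⧸ i.f.range) = p ^ n := by
      have h1 := AddSubgroup.card_eq_card_quotient_mul_card_addSubgroup i.f.range
      have h2 : Nat.card i.f.range = p := by
        rw [← Nat.card_congr (AddMonoidHom.ofInjective (f := i.f) hf).toEquiv, Nat.card_zmod]
      rw [hcard, h2, pow_succ] at h1
      exact (Nat.eq_of_mul_eq_mul_right (Fact.out (p := p.Prime)).pos h1).symm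
    have hNQ : ∀ u ∈ N, ∀ q : A ⧸ i.f.range, quotAct ρ i.f.range (by
      rintro g _ ⟨a, rfl⟩; exact ⟨_, i.comm g a⟩) u q = q := by
      intro u hu q
      obtain ⟨q, rfl⟩ := QuotientAddGroup.mk_surjective q
      show ((ρ u q : A) : A ⧸ i.f.range) = q
      rw [hN u hu]
    have hpQ : ∀ q : A ⧸ i.f.range, p • q = 0 := by
      intro q
      obtain ⟨q, rfl⟩ := QuotientAddGroup.mk_surjective q
      rw [← QuotientAddGroup.mk_nsmul, hp, QuotientAddGroup.mk_zero]
    obtain ⟨hQ1, hQ2⟩ := ih _ _ (S.smooth_right hρ) hNQ hpQ hQcard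
    have hfinA := S.fin012_mid hρ hF hQ1
    refine ⟨hfinA, ?_⟩
    have hmul := S.chi_mul hρ hF hQ1
    have := hQ1.h2
    have hidx : (1 : ℝ) ≤ ((S.p.h2 L).range.index : ℝ) := by
      exact_mod_cast index_pos_of_finite _
    have hA := chi_pos hfinA
    have hFp := chi_pos hF
    calc chi L ρ ≤ chi L ρ * ((S.p.h2 L).range.index : ℝ) := le_mul_of_one_le_right hA.le hidx
      _ = chi L (trivAct G (ZMod p)) * chi L _ := hmul.symm
      _ ≤ chi L (trivAct G (ZMod p)) * chi L (trivAct G (ZMod p)) ^ n :=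
          mul_le_mul_of_nonneg_left hQ2 hFp.le
      _ = _ := (pow_succ' _ _).symm

end Fermat.Agent.PT
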