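import Fermat.Agent.PT.RightExact2
import Fermat.Agent.PT.Cup

/-!
# Duals `Hom(A, μ)` of elementary abelian modules
-/

set_option autoImplicit false

namespace Fermat.Agent.PT

section Extend

lemma extend_hom_aux {p : ℕ} [Fact p.Prime] {E E' V : Type*} [AddCommGroup E] [AddCommGroup E']
    [AddCommGroup V] [Module (ZMod p) E] [Module (ZMod p) E'] [Module (ZMod p) V]
    (i : E →+ E') (l : E →+ V) (h : ∀ x, i x = 0 → l x = 0) :
    ∃ l' : E' →+ V, ∀ x, l' (i x) = l x := by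
  let iL : E →ₗ[ZMod p] E' := i.toZModLinearMap p
  let lL : E →ₗ[ZMod p] V := l.toZModLinearMap p
  have hker : LinearMap.ker iL ≤ LinearMap.ker lL := fun x hx => h x hx
  let m : (E ⧸ LinearMap.ker iL) →ₗ[ZMod p] V := (LinearMap.ker iL).liftQ lL hker
  obtain ⟨g, hg⟩ := LinearMap.exists_extend
    (m.comp (LinearMap.quotKerEquivRange iL).symm.toLinearMap)
  refine ⟨g.toAddMonoidHom, fun x => ?_⟩
  have h1 := LinearMap.congr_fun hg (⟨iL x, x, rfl⟩ : LinearMap.range iL)
  have h2 : (LinearMap.quotKerEquivRange iL).symm (⟨iL x, x, rfl⟩ : LinearMap.range iL) =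
      (LinearMap.ker iL).mkQ x := by
    rw [LinearEquiv.symm_apply_eq]
    rfl
  rw [LinearMap.comp_apply, LinearMap.comp_apply, LinearEquiv.coe_coe, h2] at h1
  exact h1

/-- extension of additive maps between elementary abelian `p`-groups -/
lemma extend_hom (p : ℕ) [Fact p.Prime] {E E' V : Type*} [AddCommGroup E] [AddCommGroup E']
    [AddCommGroup V] (hE : ∀ x : E', p • x = 0) (hV : ∀ x : V, p • x = 0)
    (i : E →+ E') (l : E →+ V) (h : ∀ x, i x = 0 → l x = 0) :
    ∃ l' : E' →+ V, ∀ x, l' (i x) = l x := by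
  let H : AddSubgroup E' := i.range
  -- factor through the range
  have key : ∃ m : H →+ V, ∀ x, m ⟨i x, x, rfl⟩ = l x := by
    let m0 : E ⧸ i.ker →+ V := QuotientAddGroup.lift i.ker l (fun x hx => h x hx)
    refine ⟨m0.comp (QuotientAddGroup.quotientKerEquivRange i).symm.toAddMonoidHom, fun x => ?_⟩
    have : (QuotientAddGroup.quotientKerEquivRange i).symm ⟨i x, x, rfl⟩ = (x : E ⧸ i.ker) := by
      rw [AddEquiv.symm_apply_eq]; rfl
    show m0 ((QuotientAddGroup.quotientKerEquivRange i).symm ⟨i x, x, rfl⟩) = _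
    rw [this]; rfl
  obtain ⟨m, hm⟩ := key
  let _ : Module (ZMod p) E' := AddCommGroup.zmodModule hE
  let _ : Module (ZMod p) V := AddCommGroup.zmodModule hV
  let _ : Module (ZMod p) H := AddCommGroup.zmodModule (fun x => Subtype.ext (hE x))
  obtain ⟨l', hl'⟩ := extend_hom_aux (p := p) H.subtype m (fun x hx => by
    have : x = 0 := Subtype.ext hx
    rw [this, map_zero])
  exact ⟨l', fun x => (hl' ⟨i x, x, rfl⟩).trans (hm x)⟩

lemma card_hom_aux {p : ℕ} [Fact p.Prime] {E V : Type*} [AddCommGroup E] [AddCommGroup V]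
    [Module (ZMod p) E] [Module (ZMod p) V] [Finite E] [Finite V] (hV : Nat.card V = p) :
    Nat.card (E →+ V) = Nat.card E := by
  have : Module.Finite (ZMod p) E := Module.Finite.of_finite
  have : Module.Finite (ZMod p) V := Module.Finite.of_finite
  rw [Nat.card_congr (AddMonoidHom.toZModLinearMapEquiv p (M := E) (M₁ := V)).toEquiv,
    Module.natCard_eq_pow_finrank (K := ZMod p) (V := E →ₗ[ZMod p] V),
    Module.natCard_eq_pow_finrank (K := ZMod p) (V := E), Module.finrank_linearMap]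
  have h1 : Module.finrank (ZMod p) V = 1 := by
    have h2 := Module.natCard_eq_pow_finrank (K := ZMod p) (V := V)
    rw [hV, Nat.card_zmod] at h2
    exact (Nat.pow_right_injective (Fact.out (p := p.Prime)).two_le
      ((pow_one p).trans h2)).symm
  rw [h1, mul_one]

lemma torsion_of_card {p : ℕ} {V : Type*} [AddCommGroup V] (hV : Nat.card V = p) (x : V) :
    p • x = 0 := by
  rw [← hV]
  exact card_nsmul_eq_zero'

/-- `|Hom(E, V)| = |E|` for `E` elementary abelian and `|V| = p` -/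
lemma card_hom {p : ℕ} [Fact p.Prime] {E V : Type*} [AddCommGroup E] [AddCommGroup V] [Finite E]
    (hE : ∀ x : E, p • x = 0) (hV : Nat.card V = p) : Nat.card (E →+ V) = Nat.card E := by
  have hfV : Finite V :=
    Nat.finite_of_card_ne_zero (by rw [hV]; exact (Fact.out : p.Prime).ne_zero)
  let _ : Module (ZMod p) E := AddCommGroup.zmodModule hE
  let _ : Module (ZMod p) V := AddCommGroup.zmodModule (torsion_of_card hV)
  exact card_hom_aux hV

/-- functionals separate points -/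
lemma exists_hom_ne_zero {p : ℕ} [Fact p.Prime] {E V : Type*} [AddCommGroup E] [AddCommGroup V]
    (hE : ∀ x : E, p • x = 0) (hV : Nat.card V = p) {x : E} (hx : x ≠ 0) :
    ∃ l : E →+ V, l x ≠ 0 := by
  have hfV : Finite V :=
    Nat.finite_of_card_ne_zero (by rw [hV]; exact (Fact.out : p.Prime).ne_zero)
  have hne : Nontrivial V := by
    rw [← Finite.one_lt_card_iff_nontrivial, hV]
    exact (Fact.out : p.Prime).one_lt
  obtain ⟨v, hv⟩ := exists_ne (0 : V)
  obtain ⟨f, hf, hf1, -⟩ := exists_zmod_inj p hE hx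
  obtain ⟨g, hg, hg1, -⟩ := exists_zmod_inj p (torsion_of_card hV) hv
  obtain ⟨l, hl⟩ := extend_hom p hE (torsion_of_card hV) f g (fun x hx => by
    rw [hf (hx.trans (map_zero f).symm), map_zero])
  refine ⟨l, ?_⟩
  rw [← hf1, hl, hg1]
  exact hv

/-- a point outside a subgroup is detected by a functional vanishing on the subgroup -/
lemma exists_hom_vanish {p : ℕ} [Fact p.Prime] {E V : Type*} [AddCommGroup E] [AddCommGroup V]
    (hE : ∀ x : E, p • x = 0) (hV : Nat.card V = p) (H : AddSubgroup E) {x : E} (hx : x ∉ H) :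
    ∃ l : E →+ V, (∀ y ∈ H, l y = 0) ∧ l x ≠ 0 := by
  have h1 : ∀ y : E ⧸ H, p • y = 0 := by
    intro y
    obtain ⟨y, rfl⟩ := QuotientAddGroup.mk_surjective y
    rw [← QuotientAddGroup.mk_nsmul, hE, QuotientAddGroup.mk_zero]
  have h2 : (x : E ⧸ H) ≠ 0 := fun h => hx ((QuotientAddGroup.eq_zero_iff x).1 h)
  obtain ⟨l, hl⟩ := exists_hom_ne_zero h1 hV h2
  refine ⟨l.comp (QuotientAddGroup.mk' H), fun y hy => ?_, hl⟩
  show l (y : E ⧸ H) = 0
  rw [(QuotientAddGroup.eq_zero_iff y).2 hy, map_zero]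

end Extend

section DualAct

variable {G Γ : Type*} [Group G] [Group Γ] {A B C : Type*} [AddCommGroup A] [AddCommGroup B]
  [AddCommGroup C] {p : ℕ}

/-- The dual action on `Hom(A, μ)`. -/
def dualAct (μ : Act G (ZMod p)) (ρ : Act G A) : Act G (A →+ ZMod p) where
  toFun g :=
    { toFun := fun φ => (μ g).comp (φ.comp (ρ g⁻¹))
      map_zero' := by ext a; simp
      map_add' := fun φ ψ => by ext a; simp }
  map_one' := by
    ext φ a
    show μ 1 (φ (ρ 1⁻¹ a)) = φ a
    simp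
  map_mul' g h := by
    ext φ a
    show μ (g * h) (φ (ρ (g * h)⁻¹ a)) = μ g (μ h (φ (ρ h⁻¹ (ρ g⁻¹ a))))
    rw [act_mul, mul_inv_rev, act_mul]

lemma dualAct_apply (μ : Act G (ZMod p)) (ρ : Act G A) (g : G) (φ : A →+ ZMod p) (a : A) :
    dualAct μ ρ g φ a = μ g (φ (ρ g⁻¹ a)) := rfl

lemma mem_H0_dual {μ : Act G (ZMod p)} {ρ : Act G A} {φ : A →+ ZMod p} :
    φ ∈ H0 (dualAct μ ρ) ↔ ∀ g a, φ (ρ g a) = μ g (φ a) := by
  rw [mem_H0]
  constructor
  · intro h g a
    have := DFunLike.congr_fun (h g) (ρ g a)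
    rw [dualAct_apply, act_inv_self] at this
    exact this.symm
  · intro h g
    ext a
    rw [dualAct_apply, ← h, act_self_inv]

/-- invariant functionals as equivariant maps -/
def toHom {μ : Act G (ZMod p)} {ρ : Act G A} (φ : H0 (dualAct μ ρ)) : EHom ρ μ :=
  ⟨φ, mem_H0_dual.1 φ.2⟩

@[simp] lemma toHom_f {μ : Act G (ZMod p)} {ρ : Act G A} (φ : H0 (dualAct μ ρ)) (a : A) :
    (toHom φ).f a = (φ : A →+ ZMod p) a := rfl

lemma Smooth.dual [Finite A] {L : Levels G} {μ : Act G (ZMod p)} {ρ : Act G A}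
    (hμ : Smooth L μ) (hρ : Smooth L ρ) : Smooth L (dualAct μ ρ) := by
  intro φ
  obtain ⟨N, hN, h⟩ := hρ.exists_level Set.finite_univ
  obtain ⟨M, hM, h'⟩ := hμ.exists_level (Set.finite_range φ)
  obtain ⟨K, hK, hKN, hKM⟩ := L.directed' N hN M hM
  refine ⟨K, hK, fun s hs => ?_⟩
  ext a
  rw [dualAct_apply, h _ (Set.mem_univ _) _ (hKN (K.inv_mem hs)), h' _ ⟨a, rfl⟩ _ (hKM hs)]

/-- dual of an equivariant map -/
def EHom.dual {ρA : Act G A} {ρB : Act G B} (μ : Act G (ZMod p)) (φ : EHom ρA ρB) :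
    EHom (dualAct μ ρB) (dualAct μ ρA) where
  f :=
    { toFun := fun ψ => ψ.comp φ.f
      map_zero' := rfl
      map_add' := fun _ _ => rfl }
  comm g ψ := by
    ext a
    show μ g (ψ (ρB g⁻¹ (φ.f a))) = μ g (ψ (φ.f (ρA g⁻¹ a)))
    rw [φ.comm]

@[simp] lemma EHom.dual_f {ρA : Act G A} {ρB : Act G B} (μ : Act G (ZMod p)) (φ : EHom ρA ρB)
    (ψ : B →+ ZMod p) (a : A) : (φ.dual μ).f ψ a = ψ (φ.f a) := rfl

variable [Fact p.Prime]

/-- dual of a short exact sequence -/
def SES.dual {ρA : Act G A} {ρB : Act G B} {ρC : Act G C} (μ : Act G (ZMod p))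
    (S : SES ρA ρB ρC) (hp : ∀ b : B, p • b = 0) :
    SES (dualAct μ ρC) (dualAct μ ρB) (dualAct μ ρA) where
  i := S.p.dual μ
  p := S.i.dual μ
  inj φ ψ h := by
    ext c
    obtain ⟨b, rfl⟩ := S.surj c
    exact DFunLike.congr_fun h b
  surj φ := by
    obtain ⟨l, hl⟩ := extend_hom p hp (V := ZMod p) (fun x => by simp) S.i.f φ (fun x hx => by
      rw [S.inj (hx.trans (map_zero S.i.f).symm), map_zero])
    exact ⟨l, by ext a; exact hl a⟩
  exact φ := by
    constructor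
    · intro h
      have hk : ∀ b, S.p.f b = 0 → φ b = 0 := by
        intro b hb
        obtain ⟨a, rfl⟩ := (S.exact b).1 hb
        exact DFunLike.congr_fun h a
      refine ⟨AddMonoidHom.liftOfSurjective S.p.f S.surj ⟨φ, fun b hb => hk b hb⟩, ?_⟩
      ext b
      exact AddMonoidHom.liftOfRightInverse_comp_apply S.p.f (Function.surjInv S.surj)
        (Function.rightInverse_surjInv S.surj) ⟨φ, fun b hb => hk b hb⟩ b
    · rintro ⟨ψ, rfl⟩
      ext a
      show ψ (S.p.f (S.i.f a)) = 0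
      rw [S.p_i, map_zero]

omit [Fact p.Prime] in
/-- evaluation pairing `Hom(A, μ) × A → μ` -/
def evP (μ : Act G (ZMod p)) (ρ : Act G A) : Pairing (dualAct μ ρ) ρ μ where
  m := AddMonoidHom.id _
  comm g φ a := by
    show μ g (φ (ρ g⁻¹ (ρ g a))) = μ g (φ a)
    rw [act_inv_self]

/-- Cup products with classes in the image of `δ⁰` -/
theorem cup_delta {ρA : Act G A} {ρB : Act G B} {ρC : Act G C} (μ : Act G (ZMod p))
    (S : SES ρA ρB ρC) (hp : ∀ b : B, p • b = 0) {L : Levels G} (hB : Smooth L ρB)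
    (hB' : Smooth L (dualAct μ ρB)) (φ : H0 (dualAct μ ρA)) (x : H1 L ρC) :
    (evP μ ρC).cup (S.smooth_right hB) ((S.dual μ hp).δ0 hB' φ) x +
      (toHom φ).h2 L (S.δ1 hB x) = 0 := by
  obtain ⟨ψ, a, hψ, ha, hδ⟩ := (S.dual μ hp).exists_δ0 hB' φ
  obtain ⟨c, rfl⟩ := H1.mk_surjective L ρC x
  obtain ⟨b, κ, hbL, hb, hκ, hδ1⟩ := S.exists_δ1 hB c
  rw [hδ, hδ1, Pairing.cup_mk, EHom.h2, PairHom.h2_mk, ← map_add]
  refine H2.mk_eq_zero.2 ⟨fun g => ψ (b g), hbL.comp _, ?_⟩
  ext g h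
  have h1 : (φ : A →+ ZMod p) ((κ : G → G → A) g h) = ψ (S.i.f ((κ : G → G → A) g h)) := by
    rw [← hψ]; rfl
  have h2 := DFunLike.congr_fun (ha g) (ρB g (b h))
  have h3 : ((S.dual μ hp).i.f ((a : G → C →+ ZMod p) g)) (ρB g (b h)) =
      (a : G → C →+ ZMod p) g (ρC g ((c : G → C) h)) := by
    rw [← hb, ← S.p.comm]; rfl
  rw [h3] at h2
  show d1 μ (fun g => ψ (b g)) g h = (a : G → C →+ ZMod p) g (ρC g ((c : G → C) h)) +
    (φ : A →+ ZMod p) ((κ : G → G → A) g h)
  rw [h1, h2, hκ, d0_apply, AddMonoidHom.sub_apply, dualAct_apply, act_inv_self]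
  simp only [d1_apply, map_add, map_sub]
  abel

end DualAct

end Fermat.Agent.PT
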