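import Fermat.Agent.PT.Proj

/-!
# Euler characteristics of summands of `Map(G/U, μ)^J`
-/

set_option autoImplicit false

namespace Fermat.Agent.PT

section NegPart

variable {G : Type} [Group G] {Y Z : Type} [AddCommGroup Y] [AddCommGroup Z]

/-- the `-1` eigenspace of `c₀` -/
def negPart (σ : Act G Y) (c₀ : G) : AddSubgroup Y where
  carrier := {y | σ c₀ y = -y}
  zero_mem' := by
    show σ c₀ 0 = -0
    rw [map_zero, neg_zero]
  add_mem' := fun {a b} ha hb => by
    show σ c₀ (a + b) = -(a + b)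
    rw [map_add, show σ c₀ a = -a from ha, show σ c₀ b = -b from hb, neg_add]
  neg_mem' := fun {a} ha => by
    show σ c₀ (-a) = - -a
    rw [map_neg, show σ c₀ a = -a from ha]

lemma mem_negPart {σ : Act G Y} {c₀ : G} {y : Y} : y ∈ negPart σ c₀ ↔ σ c₀ y = -y := Iff.rfl

/-- functoriality of the `-1` eigenspace -/
def EHom.neg {σ : Act G Y} {τ : Act G Z} (φ : EHom σ τ) (c₀ : G) :
    negPart σ c₀ →+ negPart τ c₀ where
  toFun y := ⟨φ.f y, by
    rw [mem_negPart, ← φ.comm, show σ c₀ y = -y from y.2, map_neg]⟩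
  map_zero' := Subtype.ext (map_zero _)
  map_add' _ _ := Subtype.ext (map_add _ _ _)

@[simp] lemma EHom.coe_neg {σ : Act G Y} {τ : Act G Z} (φ : EHom σ τ) (c₀ : G)
    (y : negPart σ c₀) : (φ.neg c₀ y : Z) = φ.f y := rfl

end NegPart

section SumOn

variable {G : Type} [Group G] (U V : Subgroup G) (hUV : U ≤ V)
  [hN : (U.subgroupOf V).Normal] [Fintype (V ⧸ U.subgroupOf V)] {p : ℕ}

/-- a summand of copies of `Map(G/U, μ)` cut out by a matrix of right translations -/
structure SumOn (μ : Act G (ZMod p)) {Y : Type} [AddCommGroup Y] (σ : Act G Y) (J : Type)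
    [Fintype J] (c : J → J → V ⧸ U.subgroupOf V → ℤ) where
  a : J → EHom (mapAct (cosetAct U) μ) σ
  b : J → EHom σ (mapAct (cosetAct U) μ)
  ab : ∀ y, ∑ j, (a j).f ((b j).f y) = y
  ba : ∀ i j f, (b i).f ((a j).f f) = ∑ δ, c i j δ • rtAct U V hUV (ZMod p) δ f

variable {U V hUV} {μ : Act G (ZMod p)} {Y : Type} [AddCommGroup Y] {σ : Act G Y} {J : Type}
    [Fintype J] {c : J → J → V ⧸ U.subgroupOf V → ℤ}

lemma rtFun_free {δ ε : V ⧸ U.subgroupOf V}
    (h : rtFun U V hUV δ ((1 : G) : G ⧸ U) = rtFun U V hUV ε ((1 : G) : G ⧸ U)) : δ = ε := by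
  obtain ⟨v, rfl⟩ := QuotientGroup.mk_surjective δ
  obtain ⟨w, rfl⟩ := QuotientGroup.mk_surjective ε
  rw [rtFun_mk, rtFun_mk, one_mul, one_mul, QuotientGroup.eq] at h
  rw [QuotientGroup.eq]
  exact h

variable (S : SumOn U V hUV μ σ J c)

include S in
lemma SumOn.isIdem : IsIdem p c := by
  classical
  intro i k δ₀
  -- evaluate on an indicator function
  let f : G ⧸ U → ZMod p := fun x => if x = rtFun U V hUV δ₀ ((1 : G) : G ⧸ U) then 1 else 0
  have hf : ∀ δ, f (rtFun U V hUV δ ((1 : G) : G ⧸ U)) = if δ = δ₀ then 1 else 0 := by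
    intro δ
    by_cases h : δ = δ₀
    · subst h
      rw [if_pos rfl]
      exact if_pos rfl
    · rw [if_neg h]
      exact if_neg fun h' => h (rtFun_free h')
  have e1 : ∀ i k, (S.b i).f ((S.a k).f f) ((1 : G) : G ⧸ U) = (c i k δ₀ : ZMod p) := by
    intro i k
    rw [S.ba, Finset.sum_apply, Finset.sum_eq_single δ₀]
    · rw [Pi.smul_apply, rtAct_apply, hf, if_pos rfl, zsmul_eq_mul, mul_one]
    · intro δ _ hδ
      rw [Pi.smul_apply, rtAct_apply, hf, if_neg hδ, smul_zero]
    · intro h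
      exact absurd (Finset.mem_univ _) h
  have e2 : ∀ j, (S.b i).f ((S.a j).f ((S.b j).f ((S.a k).f f))) ((1 : G) : G ⧸ U) =
      ((∑ ε, c i j ε * c j k (ε⁻¹ * δ₀) : ℤ) : ZMod p) := by
    intro j
    rw [S.ba, S.ba, Finset.sum_apply, Int.cast_sum]
    refine Finset.sum_congr rfl fun ε _ => ?_
    rw [Pi.smul_apply, rtAct_apply, Finset.sum_apply, Finset.sum_eq_single (ε⁻¹ * δ₀)]
    · rw [Pi.smul_apply, rtAct_apply, ← rtFun_mul, mul_inv_cancel_left, hf, if_pos rfl,
        zsmul_eq_mul, zsmul_eq_mul, mul_one, Int.cast_mul]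
    · intro δ _ hδ
      rw [Pi.smul_apply, rtAct_apply, ← rtFun_mul, hf, if_neg, smul_zero]
      intro h
      apply hδ
      rw [← h, inv_mul_cancel_left]
    · intro h
      exact absurd (Finset.mem_univ _) h
  have e3 : (S.b i).f ((S.a k).f f) = ∑ j, (S.b i).f ((S.a j).f ((S.b j).f ((S.a k).f f))) := by
    rw [← map_sum, S.ab]
  have e4 := congrFun e3 ((1 : G) : G ⧸ U)
  rw [Finset.sum_apply, e1, Finset.sum_congr rfl fun j _ => e2 j, ← Int.cast_sum] at e4
  have e5 := (ZMod.intCast_eq_intCast_iff_dvd_sub _ _ p).1 e4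
  obtain ⟨z, hz⟩ := e5
  exact ⟨z, by rw [← hz]; ring⟩

include S in
lemma SumOn.card_h0 : Nat.card (H0 σ) = Nat.card (matEnd c (rtH0 U V hUV μ)).range := by
  refine card_of_sum c _ (fun j => (S.a j).h0) (fun j => (S.b j).h0) (fun n => ?_)
    (fun i j y => ?_)
  · apply Subtype.ext
    rw [AddSubgroup.val_finsetSum]
    exact S.ab n
  · apply Subtype.ext
    rw [AddSubgroup.val_finsetSum]
    exact S.ba i j y

include S in
lemma SumOn.card_h1 (L : Levels G) :
    Nat.card (H1 L σ) = Nat.card (matEnd c (rtH1 U V hUV L μ)).range := by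
  refine card_of_sum c _ (fun j => (S.a j).h1 L) (fun j => (S.b j).h1 L) (fun n => ?_)
    (fun i j y => ?_)
  · have h1 := EHom.h1_sum L Finset.univ (EHom.id σ) (fun j => (S.a j).comp (S.b j))
      (fun a => (S.ab a).symm) n
    rw [EHom.h1_of_id L (fun a => rfl)] at h1
    conv_rhs => rw [h1]
    exact Finset.sum_congr rfl fun j _ => (EHom.h1_comp L _ _ _).symm
  · obtain ⟨y, rfl⟩ := H1.mk_surjective L _ y
    have h1 : ∀ δ, rtH1 U V hUV L μ δ (H1.mk L _ y) =
        H1.mk L _ ((((rt_comm U V hUV μ).ehom δ).pair L).z1 y) := fun _ => rfl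
    simp only [h1]
    rw [← EHom.h1_comp]
    have h2 : ((S.b i).comp (S.a j)).h1 L (H1.mk L _ y) =
      H1.mk L _ ((((S.b i).comp (S.a j)).pair L).z1 y) := rfl
    rw [h2]
    simp only [← map_zsmul]
    rw [← map_sum]
    congr 1
    apply Subtype.ext
    funext g
    rw [AddSubgroup.val_finsetSum, Finset.sum_apply]
    exact S.ba i j _

lemma mem_invM_zpowers {c₀ : G} {a : G ⧸ U → ZMod p} :
    a ∈ invM U p (Subgroup.zpowers c₀) ↔ ∀ x, a (cosetAct U c₀⁻¹ x) = a x := by
  constructor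
  · intro h x
    exact h c₀⁻¹ (Subgroup.inv_mem _ (Subgroup.mem_zpowers c₀)) x
  · intro h g hg
    let T : Subgroup G :=
      { carrier := {g | ∀ x, a (cosetAct U g x) = a x}
        one_mem' := fun x => by rw [map_one]; rfl
        mul_mem' := fun {g g'} hg hg' x => by
          rw [map_mul, Equiv.Perm.mul_apply, show a (cosetAct U g (cosetAct U g' x)) =
            a (cosetAct U g' x) from hg _, show a (cosetAct U g' x) = a x from hg' x]
        inv_mem' := fun {g} hg x => by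
          rw [← show a (cosetAct U g (cosetAct U g⁻¹ x)) = a (cosetAct U g⁻¹ x) from hg _,
            ← Equiv.Perm.mul_apply, ← map_mul, mul_inv_cancel, map_one]
          rfl }
    have h1 : c₀⁻¹ ∈ T := h
    have h2 : Subgroup.zpowers c₀ ≤ T := by
      rw [Subgroup.zpowers_le]
      rw [← inv_inv c₀]
      exact T.inv_mem h1
    exact h2 hg

lemma negPart_iff {c₀ : G} (hc : ∀ a, μ c₀ a = -a) {f : G ⧸ U → ZMod p} :
    f ∈ negPart (mapAct (cosetAct U) μ) c₀ ↔ f ∈ invM U p (Subgroup.zpowers c₀) := by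
  rw [mem_invM_zpowers, mem_negPart]
  constructor
  · intro h x
    have h1 := congrFun h x
    rw [mapAct_apply, hc, Pi.neg_apply, neg_inj] at h1
    exact h1
  · intro h
    funext x
    rw [mapAct_apply, hc, Pi.neg_apply, h]

include S in
lemma SumOn.card_neg {c₀ : G} (hc : ∀ a, μ c₀ a = -a) :
    Nat.card (negPart σ c₀) =
      Nat.card (matEnd c (rtInv U V hUV p (Subgroup.zpowers c₀))).range := by
  refine card_of_sum c _
    (fun j => ((S.a j).neg c₀).comp
      (AddSubgroup.inclusion fun f hf => (negPart_iff hc).2 hf))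
    (fun j => (AddSubgroup.inclusion fun f hf => (negPart_iff hc).1 hf).comp ((S.b j).neg c₀))
    (fun n => ?_) (fun i j y => ?_)
  · apply Subtype.ext
    rw [AddSubgroup.val_finsetSum]
    exact S.ab n
  · apply Subtype.ext
    rw [AddSubgroup.val_finsetSum]
    exact S.ba i j y

lemma mem_invM_range {Γ : Type} [Group Γ] {r : Γ →* G} {a : G ⧸ U → ZMod p} :
    a ∈ invM U p r.range ↔ a ∈ H0 ((mapAct (cosetAct U) (trivAct G (ZMod p))).comp r) := by
  rw [mem_H0]
  constructor
  · intro h γ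
    funext x
    exact h _ (r.range.inv_mem ⟨γ, rfl⟩) x
  · rintro h _ ⟨γ, rfl⟩ x
    have h1 := congrFun (h γ⁻¹) x
    have h2 : a (cosetAct U (r γ⁻¹)⁻¹ x) = a x := h1
    rwa [map_inv r, inv_inv] at h2

variable [Fact p.Prime] [DecidableEq J] [Finite (G ⧸ U)]

include S in
lemma SumOn.card_dual {Γ : Type} [Group Γ] (r : Γ →* G) :
    Nat.card (H0 ((dualAct μ σ).comp r)) =
      Nat.card (matEnd c (rtInv U V hUV p r.range)).range := by
  classical
  have : Fintype (G ⧸ U) := Fintype.ofFinite _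
  rw [← card_rtInv_matT U V hUV]
  let E := dualMapEquiv (cosetAct U) μ
  refine card_of_sum (matT c) _
    (fun j => ((((S.b j).dual μ).comp E.symm.hom).along r).h0.comp
      (AddSubgroup.inclusion fun f hf => mem_invM_range.1 hf))
    (fun j => (AddSubgroup.inclusion fun f hf => mem_invM_range.2 hf).comp
      ((E.hom.comp ((S.a j).dual μ)).along r).h0)
    (fun n => ?_) (fun i j y => ?_)
  · apply Subtype.ext
    rw [AddSubgroup.val_finsetSum]
    show ∑ j, ((S.b j).dual μ).f (E.symm.e (E.e (((S.a j).dual μ).f n.1))) = n.1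
    have h1 : ∀ j, ((S.b j).dual μ).f (E.symm.e (E.e (((S.a j).dual μ).f n.1))) =
        ((S.b j).dual μ).f (((S.a j).dual μ).f n.1) := by
      intro j
      congr 1
      exact E.e.symm_apply_apply _
    rw [Finset.sum_congr rfl fun j _ => h1 j]
    apply AddMonoidHom.ext
    intro y
    rw [AddMonoidHom.finsetSum_apply]
    show ∑ j, n.1 ((S.a j).f ((S.b j).f y)) = n.1 y
    rw [← map_sum, S.ab]
  · apply Subtype.ext
    rw [AddSubgroup.val_finsetSum]
    funext z
    rw [Finset.sum_apply]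
    have h0 : ∀ φ, E.e φ z = φ (Pi.single z 1) := fun φ => by
      show φ _ = _
      congr!
    have h0' : ∀ a f, E.symm.e a f = ∑ x, a x * f x := fun a f => rfl
    refine Eq.trans (b := ∑ x, y.1 x * (S.b j).f ((S.a i).f (Pi.single z 1)) x) ?_
      (Eq.trans (b := ∑ δ, c j i δ⁻¹ • y.1 (rtFun U V hUV δ z)) ?_ ?_)
    · show E.e (((S.a i).dual μ).f (((S.b j).dual μ).f (E.symm.e y.1))) z = _
      refine (h0 _).trans ?_
      exact h0' y.1 _
    rotate_left
    · exact Finset.sum_congr rfl fun δ _ => rfl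
    have h1 : ∀ x, y.1 x * (S.b j).f ((S.a i).f (Pi.single z 1)) x =
        ∑ δ, c j i δ • (y.1 x * (Pi.single z 1 : G ⧸ U → ZMod p) (rtFun U V hUV δ x)) := by
      intro x
      rw [S.ba, Finset.sum_apply, Finset.mul_sum]
      refine Finset.sum_congr rfl fun δ _ => ?_
      rw [Pi.smul_apply, rtAct_apply, mul_smul_comm]
    rw [Finset.sum_congr rfl fun x _ => h1 x, Finset.sum_comm]
    refine Fintype.sum_equiv (Equiv.inv _) _ _ fun δ => ?_
    rw [Equiv.inv_apply, inv_inv, ← Finset.smul_sum]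
    congr 1
    rw [Finset.sum_eq_single (rtFun U V hUV δ⁻¹ z)]
    · rw [← rtFun_mul, inv_mul_cancel, rtFun_one, Pi.single_eq_same, mul_one]
    · intro x _ hx
      rw [Pi.single_eq_of_ne, mul_zero]
      intro h
      apply hx
      rw [← h, ← rtFun_mul, mul_inv_cancel, rtFun_one]
    · intro h
      exact absurd (Finset.mem_univ _) h

end SumOn

section Main

variable {G : Type} [Group G] {D : PTData G} {p : ℕ} [Fact p.Prime] {μ : Act G (ZMod p)}
  {W : Subgroup G} {e : D.ι → ℕ} (H : PTHyp D p μ W e)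
  {U V : Subgroup G} {hUV : U ≤ V} [hN : (U.subgroupOf V).Normal]
  [Fintype (V ⧸ U.subgroupOf V)] {Y : Type} [AddCommGroup Y] [Finite Y] {σ : Act G Y} {J : Type}
  [Fintype J] [DecidableEq J] {c : J → J → V ⧸ U.subgroupOf V → ℤ} (S : SumOn U V hUV μ σ J c)

include S in
omit [Finite Y] [DecidableEq J] in
lemma SumOn.sha2_eq (hs : D.sha2 (mapAct (cosetAct U) μ) = ⊥) : D.sha2 σ = ⊥ := by
  rw [eq_bot_iff]
  intro x hx
  rw [AddSubgroup.mem_bot]
  have h1 := EHom.h2_sum D.L Finset.univ (EHom.id σ) (fun j => (S.a j).comp (S.b j))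
    (fun a => (S.ab a).symm) x
  rw [EHom.h2_of_id D.L (fun a => rfl)] at h1
  rw [h1]
  refine Finset.sum_eq_zero fun j _ => ?_
  rw [EHom.h2_comp]
  have h2 : (S.b j).h2 D.L x ∈ D.sha2 (mapAct (cosetAct U) μ) := D.sha2_map _ hx
  rw [hs, AddSubgroup.mem_bot] at h2
  rw [h2, map_zero]

/-- the unit theorem for `(U, V)`, as equality of multiplicative functions -/
def UnitsFor (D : PTData G) (p : ℕ) (μ : Act G (ZMod p)) (c₀ : G) (U V : Subgroup G)
    (hUV : U ≤ V) [(U.subgroupOf V).Normal] : Prop :=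
  D.sha2 (mapAct (cosetAct U) μ) = ⊥ ∧ ∀ m : MulFun p (V ⧸ U.subgroupOf V),
    m.h (rtH1 U V hUV D.L μ) * m.h (rtInv U V hUV p ⊤) =
      m.h (rtH0 U V hUV μ) * m.h (rtInv U V hUV p (Subgroup.zpowers c₀)) *
        ∏ v, m.h (rtInv U V hUV p (D.r v).range)

/-- Euler characteristic formula -/
def ECFor (D : PTData G) (c₀ : G) {Y : Type} [AddCommGroup Y] (σ : Act G Y) : Prop :=
  Nat.card (H1 D.L σ) = Nat.card (H0 σ) * Nat.card (H2 D.L σ) * Nat.card (negPart σ c₀)

include H S in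
/-- **(EC) for summands** -/
theorem SumOn.ec (hσ : Smooth D.L σ) (hp : ∀ y : Y, p • y = 0) (hU : IsOpenSub D.L U)
    {c₀ : G} (hc : ∀ a, μ c₀ a = -a) (hu : UnitsFor D p μ c₀ U V hUV) : ECFor D c₀ σ := by
  have := hU.finiteIndex
  have : Finite (G ⧸ U) := inferInstance
  have : Finite (Y →+ ZMod p) := DFunLike.finite _
  have h1 := hu.2 (hMat S.isIdem)
  simp only [hMat_h] at h1
  rw [← S.card_h1, ← S.card_h0, ← S.card_neg hc] at h1
  have h2 : ∀ v, Nat.card (matEnd c (rtInv U V hUV p (D.r v).range)).range =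
      Nat.card (H2 (D.Lv v) (σ.comp (D.r v))) := fun v => by
    rw [← S.card_dual, H.card_loc_H2_eq hσ hp]
  rw [Finset.prod_congr rfl fun v _ => h2 v, ← Nat.card_pi] at h1
  have h3 : Nat.card (matEnd c (rtInv U V hUV p ⊤)).range = Nat.card (H0 (dualAct μ σ)) := by
    have h4 := S.card_dual (MonoidHom.id G)
    rw [MonoidHom.range_eq_top.2 Function.surjective_id] at h4
    rw [← h4]
    rfl
  rw [h3] at h1
  have h5 := H.card_H2_mul hσ hp
  rw [S.sha2_eq hu.1, AddSubgroup.card_bot, one_mul] at h5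
  have h6 : Nat.card (∀ v, H2 (D.Lv v) (σ.comp (D.r v))) = Nat.card (D.P2 σ) := rfl
  rw [h6, ← h5] at h1
  have h7 : 0 < Nat.card (H0 (dualAct μ σ)) := Nat.card_pos
  unfold ECFor
  apply Nat.eq_of_mul_eq_mul_right h7
  rw [h1]
  ring

end Main

end Fermat.Agent.PT
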