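import Fermat.Agent.PT.Ind

/-!
# The Euler characteristic formula for arbitrary modules with a "Borel" subgroup
-/

set_option autoImplicit false

namespace Fermat.Agent.PT

section Neg

variable {G : Type} [Group G] {A B C : Type} [AddCommGroup A] [AddCommGroup B] [AddCommGroup C]
  {ρA : Act G A} {ρB : Act G B} {ρC : Act G C} {p : ℕ} [Fact p.Prime]

lemma card_negPart_mul (S : SES ρA ρB ρC) (hp : ∀ b : B, p • b = 0) (hp2 : p ≠ 2) {c₀ : G}
    (hcc : c₀ * c₀ = 1) : Nat.card (negPart ρB c₀) =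
      Nat.card (negPart ρA c₀) * Nat.card (negPart ρC c₀) := by
  have h1 := card_eq_ker_mul_range (S.p.neg c₀)
  have hodd : ∃ k : ℕ, 2 * k = p + 1 := by
    obtain ⟨k, hk⟩ := (Fact.out : p.Prime).odd_of_ne_two hp2
    exact ⟨k + 1, by omega⟩
  obtain ⟨k, hk⟩ := hodd
  have hinv : ∀ b : B, k • (b + b) = b := by
    intro b
    rw [← two_nsmul, ← mul_nsmul, hk, add_nsmul, hp, zero_add, one_nsmul]
  have hsurj : Function.Surjective (S.p.neg c₀) := by
    rintro ⟨z, hz⟩
    obtain ⟨b, rfl⟩ := S.surj z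
    refine ⟨⟨k • (b - ρB c₀ b), ?_⟩, ?_⟩
    · rw [mem_negPart, map_nsmul, map_sub, ← act_mul, hcc, act_one, ← smul_neg, neg_sub]
    · apply Subtype.ext
      show S.p.f (k • (b - ρB c₀ b)) = S.p.f b
      rw [mem_negPart, ← S.p.comm] at hz
      rw [map_nsmul, map_sub, hz, sub_neg_eq_add, ← map_add, ← map_nsmul, hinv]
  rw [h1, AddMonoidHom.range_eq_top.2 hsurj, Nat.card_congr AddSubgroup.topEquiv.toEquiv]
  congr 1
  symm
  refine Nat.card_congr (Equiv.ofBijective (fun a => ⟨S.i.neg c₀ a, ?_⟩) ⟨?_, ?_⟩)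
  · rw [AddMonoidHom.mem_ker]
    apply Subtype.ext
    exact S.p_i _
  · intro a a' h
    apply Subtype.ext
    apply S.inj
    exact congrArg (fun t => (t.1 : B)) h
  · rintro ⟨⟨b, hb⟩, hb'⟩
    obtain ⟨a, rfl⟩ := (S.exact b).1 (congrArg Subtype.val (AddMonoidHom.mem_ker.1 hb'))
    refine ⟨⟨a, ?_⟩, ?_⟩
    · rw [mem_negPart] at hb ⊢
      apply S.inj
      rw [S.i.comm, hb, map_neg]
    · apply Subtype.ext
      apply Subtype.ext
      rfl

end Neg

section Two

variable {G : Type} [Group G] {D : PTData G} {p : ℕ} [Fact p.Prime] {μ : Act G (ZMod p)}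
  {W₀ : Subgroup G} {e : D.ι → ℕ} (H : PTHyp D p μ W₀ e) {c₀ : G}
  {A B C : Type} [AddCommGroup A] [AddCommGroup B] [AddCommGroup C]
  {ρA : Act G A} {ρB : Act G B} {ρC : Act G C}

include H in
lemma PTHyp.ecFor_iff [Finite A] (hA : Smooth D.L ρA) (hp : ∀ a : A, p • a = 0) :
    ECFor D c₀ ρA ↔ chi D.L ρA * Nat.card (negPart ρA c₀) = 1 := by
  have hf := H.finite hA hp
  have := hf.h0
  have := hf.h1
  have := hf.h2
  have h1 : (0 : ℝ) < Nat.card (H1 D.L ρA) := by exact_mod_cast Nat.card_pos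
  unfold ECFor chi
  rw [div_mul_eq_mul_div, div_eq_one_iff_eq h1.ne', eq_comm]
  exact_mod_cast Iff.rfl

lemma ecFor_congr (E : EEquiv ρA ρB) (h : ECFor D c₀ ρA) : ECFor D c₀ ρB := by
  unfold ECFor at h ⊢
  have h3 : Nat.card (negPart ρA c₀) = Nat.card (negPart ρB c₀) := by
    refine Nat.card_congr (E.e.toEquiv.subtypeEquiv fun a => ?_)
    rw [mem_negPart, mem_negPart]
    show _ ↔ ρB c₀ (E.e a) = -E.e a
    rw [← E.comm, ← map_neg]
    exact (E.e.injective.eq_iff).symm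
  rw [← Nat.card_congr (E.h1 D.L).toEquiv, ← Nat.card_congr (E.h2 D.L).toEquiv,
    ← Nat.card_congr E.h0.toEquiv, h, h3]

variable [Finite B] (S : SES ρA ρB ρC) (hB : Smooth D.L ρB) (hp : ∀ b : B, p • b = 0)
  (hp2 : p ≠ 2) (hcc : c₀ * c₀ = 1)

include H S hB hp hp2 hcc in
lemma PTHyp.ec_mid (h1 : ECFor D c₀ ρA) (h3 : ECFor D c₀ ρC) : ECFor D c₀ ρB := by
  have : Finite A := Finite.of_injective _ S.inj
  have : Finite C := Finite.of_surjective _ S.surj
  have hpA : ∀ a : A, p • a = 0 := fun a => S.inj (by rw [map_nsmul, hp, map_zero])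
  have hpC : ∀ c : C, p • c = 0 := fun c => by
    obtain ⟨b, rfl⟩ := S.surj c
    rw [← map_nsmul, hp, map_zero]
  rw [H.ecFor_iff (S.smooth_left hB) hpA] at h1
  rw [H.ecFor_iff (S.smooth_right hB) hpC] at h3
  rw [H.ecFor_iff hB hp, ← H.chi_mul S hB hp, card_negPart_mul S hp hp2 hcc]
  push_cast
  calc _ = (chi D.L ρA * Nat.card (negPart ρA c₀)) * (chi D.L ρC * Nat.card (negPart ρC c₀)) := by
        ring
    _ = 1 := by rw [h1, h3, one_mul]

include H S hB hp hp2 hcc in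
lemma PTHyp.ec_right (h1 : ECFor D c₀ ρA) (h2 : ECFor D c₀ ρB) : ECFor D c₀ ρC := by
  have : Finite A := Finite.of_injective _ S.inj
  have : Finite C := Finite.of_surjective _ S.surj
  have hpA : ∀ a : A, p • a = 0 := fun a => S.inj (by rw [map_nsmul, hp, map_zero])
  have hpC : ∀ c : C, p • c = 0 := fun c => by
    obtain ⟨b, rfl⟩ := S.surj c
    rw [← map_nsmul, hp, map_zero]
  rw [H.ecFor_iff (S.smooth_left hB) hpA] at h1
  rw [H.ecFor_iff hB hp, ← H.chi_mul S hB hp, card_negPart_mul S hp hp2 hcc] at h2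
  rw [H.ecFor_iff (S.smooth_right hB) hpC]
  push_cast at h2
  calc _ = (chi D.L ρA * Nat.card (negPart ρA c₀)) * (chi D.L ρC * Nat.card (negPart ρC c₀)) := by
        rw [h1, one_mul]
    _ = 1 := by rw [← h2]; ring

end Two

section Theta

variable {G : Type} [Group G] {U : Subgroup G} [Fintype (G ⧸ U)] {p : ℕ} [Fact p.Prime]
  {Y : Type} [AddCommGroup Y] [Module (ZMod p) Y] [Finite Y] {σ : Act G Y}

/-- Higman's criterion -/
lemma exists_thetaData (hU : ∀ u ∈ U, ∀ y, σ u y = y) (θ : Y →+ Y)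
    (hθ : ∀ m, ∑ x : G ⧸ U, σ (Quotient.out x) (θ (σ (Quotient.out x)⁻¹ m)) = m) :
    ∃ d : ℕ, Nonempty (ThetaData U ⊤ p σ (Fin d)) := by
  obtain ⟨d, ⟨F⟩, -⟩ := exists_freeAb_aux p Y
  refine ⟨d, ⟨{
    y := fun j => F.a j 1
    φ := fun j => (F.b j).comp θ
    hy := fun j u hu => hU u hu _
    hφ := fun j u hu m => by
      show F.b j (θ (σ u m)) = F.b j (θ m)
      rw [hU u hu]
    sum := fun m => by
      conv_rhs => rw [← hθ m]
      refine Finset.sum_congr rfl fun x _ => ?_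
      conv_rhs => rw [← sum_smul_free F (θ (σ (Quotient.out x)⁻¹ m)), map_sum]
      refine Finset.sum_congr rfl fun j _ => ?_
      exact (ZMod.map_smul (σ (Quotient.out x)) _ _).symm
    supp := fun i j g hg => absurd (Subgroup.mem_top g) hg }⟩⟩

/-- sums over `G/U` in two steps -/
lemma sum_two_step {A : Type*} [AddCommMonoid A] {W : Subgroup G} [Fintype (G ⧸ W)]
    [Fintype (W ⧸ U.subgroupOf W)] (hUW : U ≤ W) (f : G → A)
    (hf : ∀ g, ∀ u ∈ U, f (g * u) = f g) :
    ∑ x : G ⧸ U, f (Quotient.out x) =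
      ∑ y : G ⧸ W, ∑ z : W ⧸ U.subgroupOf W, f (Quotient.out y * (Quotient.out z : W)) := by
  rw [← Fintype.sum_prod_type']
  refine Fintype.sum_equiv (Subgroup.quotientEquivProdOfLE hUW) _ _ fun x => ?_
  obtain ⟨x', rfl⟩ := (Subgroup.quotientEquivProdOfLE hUW).symm.surjective x
  rw [Equiv.apply_symm_apply]
  obtain ⟨y, z⟩ := x'
  have h1 : (Subgroup.quotientEquivProdOfLE hUW).symm (y, z) =
      ((Quotient.out y * (Quotient.out z : W) : G) : G ⧸ U) := by
    conv_lhs => rw [← QuotientGroup.out_eq' z]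
    rfl
  obtain ⟨u, hu, h2⟩ := out_mk (U := U) (Quotient.out y * ((Quotient.out z : W) : G))
  rw [h1, h2, hf _ u hu]

/-- relative version -/
lemma theta_of_rel {W : Subgroup G} [Fintype (G ⧸ W)] [Fintype (W ⧸ U.subgroupOf W)]
    (hUW : U ≤ W) (hU : ∀ u ∈ U, ∀ y, σ u y = y) (hp : ¬ p ∣ Nat.card (G ⧸ W)) (θ : Y →+ Y)
    (hθ : ∀ m, ∑ z : W ⧸ U.subgroupOf W,
      σ (Quotient.out z : W) (θ (σ ((Quotient.out z : W) : G)⁻¹ m)) = m) :
    ∃ θ' : Y →+ Y, ∀ m, ∑ x : G ⧸ U, σ (Quotient.out x) (θ' (σ (Quotient.out x)⁻¹ m)) = m := by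
  refine ⟨((Nat.card (G ⧸ W) : ZMod p)⁻¹ • AddMonoidHom.id Y).comp θ, fun m => ?_⟩
  have h0 : ∀ y, (((Nat.card (G ⧸ W) : ZMod p)⁻¹ • AddMonoidHom.id Y).comp θ) y =
      (Nat.card (G ⧸ W) : ZMod p)⁻¹ • θ y := fun y => rfl
  simp only [h0]
  rw [sum_two_step hUW (fun g => σ g ((Nat.card (G ⧸ W) : ZMod p)⁻¹ • θ (σ g⁻¹ m)))]
  · have h1 : ∀ y : G ⧸ W, ∑ z : W ⧸ U.subgroupOf W,
        σ (Quotient.out y * (Quotient.out z : W)) ((Nat.card (G ⧸ W) : ZMod p)⁻¹ •
          θ (σ (Quotient.out y * (Quotient.out z : W))⁻¹ m)) =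
        (Nat.card (G ⧸ W) : ZMod p)⁻¹ • m := by
      intro y
      have h2 : ∀ z : W ⧸ U.subgroupOf W, σ (Quotient.out y * (Quotient.out z : W))
          ((Nat.card (G ⧸ W) : ZMod p)⁻¹ • θ (σ (Quotient.out y * (Quotient.out z : W))⁻¹ m)) =
          (Nat.card (G ⧸ W) : ZMod p)⁻¹ • σ (Quotient.out y) (σ (Quotient.out z : W)
            (θ (σ ((Quotient.out z : W) : G)⁻¹ (σ (Quotient.out y)⁻¹ m)))) := by
        intro z
        rw [ZMod.map_smul, act_mul, mul_inv_rev, act_mul]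
      rw [Finset.sum_congr rfl fun z _ => h2 z, ← Finset.smul_sum, ← map_sum, hθ, act_self_inv]
    rw [Finset.sum_congr rfl fun y _ => h1 y, Finset.sum_const, Finset.card_univ,
      ← Nat.card_eq_fintype_card, ← Nat.cast_smul_eq_nsmul (ZMod p), smul_smul, mul_inv_cancel₀,
      one_smul]
    rwa [Ne, ZMod.natCast_eq_zero_iff]
  · intro g u hu
    rw [act_mul, hU u hu, mul_inv_rev, act_mul, hU u⁻¹ (U.inv_mem hu)]

end Theta

section Steinberg

variable {G : Type} [Group G] {U W V : Subgroup G} [Fintype (G ⧸ V)] [DecidableEq (G ⧸ V)]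
  {M : Type} [AddCommGroup M] (ρ : Act G M)

/-- the base point -/
abbrev base (V : Subgroup G) : G ⧸ V := ((1 : G) : G ⧸ V)

omit [Fintype (G ⧸ V)] [DecidableEq (G ⧸ V)] in
lemma cosetAct_of_normal [hUn : U.Normal] (hUV : U ≤ V) {u : G} (hu : u ∈ U) (x : G ⧸ V) :
    cosetAct V u x = x := by
  obtain ⟨g, rfl⟩ := QuotientGroup.mk_surjective x
  rw [cosetAct_mk, eq_comm, QuotientGroup.eq, ← mul_assoc]
  have := hUn.conj_mem u hu g⁻¹
  rw [inv_inv] at this
  exact hUV this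

omit [Fintype (G ⧸ V)] [DecidableEq (G ⧸ V)] in
lemma exists_orbReps [hUn : U.Normal] (hUV : U ≤ V)
    (hfree : ∀ g ∉ V, ∀ w ∈ W, g⁻¹ * w * g ∈ V → w ∈ U) :
    ∃ R : G ⧸ V → Prop, ∀ x, x ≠ base V →
      ∃! z : W ⧸ U.subgroupOf W, R (cosetAct V ((Quotient.out z : W) : G)⁻¹ x) := by
  let ξ := (cosetAct V).comp W.subtype
  refine ⟨fun x => Quotient.out (⟦x⟧ : Orb ξ) = x, fun x hx => ?_⟩
  have hfix : ∀ w ∈ W, cosetAct V w x = x → w ∈ U := by
    intro w hw h
    obtain ⟨g, rfl⟩ := QuotientGroup.mk_surjective x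
    refine hfree g ?_ w hw ?_
    · intro hg
      apply hx
      rw [eq_comm, QuotientGroup.eq, inv_one, one_mul]
      exact hg
    · rw [cosetAct_mk, eq_comm, QuotientGroup.eq] at h
      rwa [mul_assoc]
  -- the class of translates
  have hcl : ∀ w : W, (⟦cosetAct V (w : G)⁻¹ x⟧ : Orb ξ) = ⟦x⟧ := by
    intro w
    refine Quotient.sound (s := orbSetoid ξ) ⟨w, ?_⟩
    show cosetAct V (w : G) (cosetAct V (w : G)⁻¹ x) = x
    rw [← Equiv.Perm.mul_apply, ← map_mul, mul_inv_cancel, map_one]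
    rfl
  obtain ⟨w, hw⟩ : ∃ w : W, cosetAct V (w : G) (Quotient.out (⟦x⟧ : Orb ξ)) = x :=
    Quotient.mk_out (s := orbSetoid ξ) x
  have hw' : Quotient.out (⟦x⟧ : Orb ξ) = cosetAct V (w : G)⁻¹ x := by
    rw [← hw]
    conv_lhs => rw [hw]
    rw [← Equiv.Perm.mul_apply, ← map_mul, inv_mul_cancel, map_one]
    rfl
  have hconj : ∀ w w' : W, cosetAct V (w : G)⁻¹ x = cosetAct V (w' : G)⁻¹ x →
      (w : W ⧸ U.subgroupOf W) = w' := by
    intro w w' h
    have h1 : cosetAct V ((w' : G) * (w : G)⁻¹) x = x := by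
      rw [map_mul, Equiv.Perm.mul_apply, h, ← Equiv.Perm.mul_apply, ← map_mul, mul_inv_cancel,
        map_one]
      rfl
    have h2 := hfix _ (W.mul_mem w'.2 (W.inv_mem w.2)) h1
    have h3 := hUn.conj_mem _ h2 (w : G)⁻¹
    rw [QuotientGroup.eq]
    show (w : G)⁻¹ * w' ∈ U
    have h4 : (w : G)⁻¹ * ((w' : G) * (w : G)⁻¹) * (w : G)⁻¹⁻¹ = (w : G)⁻¹ * w' := by group
    rwa [h4] at h3
  refine ⟨(w : W ⧸ U.subgroupOf W), ?_, ?_⟩
  · show Quotient.out (⟦_⟧ : Orb ξ) = _
    rw [hcl, hw']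
    obtain ⟨u, hu, h5⟩ := out_mk (U := U.subgroupOf W) w
    rw [h5]
    show cosetAct V (w : G)⁻¹ x = cosetAct V ((w : G) * (u : G))⁻¹ x
    rw [mul_inv_rev, map_mul, Equiv.Perm.mul_apply,
      cosetAct_of_normal hUV (U.inv_mem (show (u : G) ∈ U from hu))]
  · intro z hz
    have hz' : Quotient.out (⟦_⟧ : Orb ξ) = cosetAct V ((Quotient.out z : W) : G)⁻¹ x := hz
    rw [hcl, hw'] at hz'
    exact (QuotientGroup.out_eq' z).symm.trans (hconj _ _ hz').symm

open Classical in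
/-- truncation -/
noncomputable def cutF (M : Type) [AddCommGroup M] (R : G ⧸ V → Prop) :
    (G ⧸ V → M) →+ (G ⧸ V → M) where
  toFun f x := if x ≠ base V ∧ R x then f x else 0
  map_zero' := by
    funext x
    simp
  map_add' f f' := by
    funext x
    by_cases h : x ≠ base V ∧ R x
    · simp only [Pi.add_apply, if_pos h]
    · simp only [Pi.add_apply, if_neg h, add_zero]

/-- the Higman operator on sum-zero functions -/
noncomputable def thetaW (R : G ⧸ V → Prop) :
    (sumHom (cosetAct V) ρ).f.ker →+ (sumHom (cosetAct V) ρ).f.ker where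
  toFun f := ⟨fun x => cutF M R f.1 x - if x = base V then ∑ y, cutF M R f.1 y else 0, by
    rw [AddMonoidHom.mem_ker, sumHom_f, Finset.sum_sub_distrib, Finset.sum_ite_eq',
      if_pos (Finset.mem_univ _), sub_self]⟩
  map_zero' := by
    apply Subtype.ext
    funext x
    show cutF M R 0 x - (if x = base V then ∑ y, cutF M R 0 y else 0) = 0
    rw [map_zero]
    simp
  map_add' f f' := by
    apply Subtype.ext
    funext x
    show cutF M R (f.1 + f'.1) x - (if x = base V then ∑ y, cutF M R (f.1 + f'.1) y else 0) =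
      (cutF M R f.1 x - (if x = base V then ∑ y, cutF M R f.1 y else 0)) +
      (cutF M R f'.1 x - (if x = base V then ∑ y, cutF M R f'.1 y else 0))
    rw [map_add]
    by_cases h : x = base V
    · simp only [if_pos h, Pi.add_apply, Finset.sum_add_distrib]
      abel
    · simp only [if_neg h, Pi.add_apply, sub_zero]

lemma thetaW_apply (R : G ⧸ V → Prop) (f : (sumHom (cosetAct V) ρ).f.ker) {x : G ⧸ V}
    (hx : x ≠ base V) [Decidable (R x)] :
    (thetaW ρ R f).1 x = if R x then f.1 x else 0 := by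
  have h0 : cutF M R f.1 x = if R x then f.1 x else 0 := by
    by_cases h : R x
    · rw [if_pos h]
      exact if_pos ⟨hx, h⟩
    · rw [if_neg h]
      exact if_neg fun h' => h h'.2
  have h1 : (if x = base V then ∑ y, cutF M R f.1 y else 0) = 0 := if_neg hx
  show cutF M R f.1 x - (if x = base V then ∑ y, cutF M R f.1 y else 0) = _
  rw [h1, sub_zero, h0]

lemma sumKer_ext {f f' : (sumHom (cosetAct V) ρ).f.ker} (h : ∀ x, x ≠ base V → f.1 x = f'.1 x) :
    f = f' := by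
  apply Subtype.ext
  funext x
  by_cases hx : x = base V
  · subst hx
    have h1 : ∑ y, (f.1 y - f'.1 y) = f.1 (base V) - f'.1 (base V) := by
      rw [Finset.sum_eq_single (base V)]
      · intro y _ hy
        rw [h y hy, sub_self]
      · intro h
        exact absurd (Finset.mem_univ _) h
    have h2 : ∑ y, f.1 y = 0 := f.2
    have h3 : ∑ y, f'.1 y = 0 := f'.2
    rw [Finset.sum_sub_distrib, h2, h3, sub_zero] at h1
    exact (sub_eq_zero.1 h1.symm)
  · exact h x hx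

lemma thetaW_sum [Fintype (W ⧸ U.subgroupOf W)] (hWV : W ≤ V) (R : G ⧸ V → Prop)
    (hR : ∀ x, x ≠ base V → ∃! z : W ⧸ U.subgroupOf W,
      R (cosetAct V ((Quotient.out z : W) : G)⁻¹ x)) (m : (sumHom (cosetAct V) ρ).f.ker) :
    ∑ z : W ⧸ U.subgroupOf W, kerAct (sumHom (cosetAct V) ρ) ((Quotient.out z : W) : G)
      (thetaW ρ R (kerAct (sumHom (cosetAct V) ρ) ((Quotient.out z : W) : G)⁻¹ m)) = m := by
  classical
  apply sumKer_ext
  intro x hx
  rw [AddSubgroup.val_finsetSum, Finset.sum_apply]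
  have h1 : ∀ z : W ⧸ U.subgroupOf W, (kerAct (sumHom (cosetAct V) ρ) ((Quotient.out z : W) : G)
      (thetaW ρ R (kerAct (sumHom (cosetAct V) ρ) ((Quotient.out z : W) : G)⁻¹ m))).1 x =
      if R (cosetAct V ((Quotient.out z : W) : G)⁻¹ x) then m.1 x else 0 := by
    intro z
    have hb : cosetAct V ((Quotient.out z : W) : G)⁻¹ x ≠ base V := by
      intro h
      apply hx
      have h2 : x = cosetAct V ((Quotient.out z : W) : G) (base V) := by
        rw [← h, ← Equiv.Perm.mul_apply, ← map_mul, mul_inv_cancel, map_one]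
        rfl
      rw [h2, cosetAct_mk, eq_comm, QuotientGroup.eq, inv_one, one_mul, mul_one]
      exact hWV (Quotient.out z : W).2
    show ρ ((Quotient.out z : W) : G) ((thetaW ρ R (kerAct (sumHom (cosetAct V) ρ)
      ((Quotient.out z : W) : G)⁻¹ m)).1 (cosetAct V ((Quotient.out z : W) : G)⁻¹ x)) = _
    rw [thetaW_apply ρ R _ hb]
    by_cases h : R (cosetAct V ((Quotient.out z : W) : G)⁻¹ x)
    · rw [if_pos h, if_pos h]
      show ρ ((Quotient.out z : W) : G) (ρ ((Quotient.out z : W) : G)⁻¹ (m.1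
        (cosetAct V ((Quotient.out z : W) : G)⁻¹⁻¹
          (cosetAct V ((Quotient.out z : W) : G)⁻¹ x)))) = m.1 x
      rw [act_self_inv, ← Equiv.Perm.mul_apply, ← map_mul, inv_mul_cancel, map_one]
      rfl
    · rw [if_neg h, if_neg h, map_zero]
  refine (Finset.sum_congr rfl fun z _ => h1 z).trans ?_
  obtain ⟨z₀, hz₀, huniq⟩ := hR x hx
  rw [Finset.sum_eq_single z₀]
  · exact if_pos hz₀
  · intro z _ hz
    exact if_neg fun h => hz (huniq z h)
  · intro h
    exact absurd (Finset.mem_univ _) h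

end Steinberg

section Main

variable {G : Type} [Group G] {D : PTData G} {p : ℕ} [Fact p.Prime] {μ : Act G (ZMod p)}
  {W₀ : Subgroup G} {e : D.ι → ℕ} (H : PTHyp D p μ W₀ e) {c₀ : G}
  (hc : ∀ a, μ c₀ a = -a) (hp2 : p ≠ 2) (hcc : c₀ * c₀ = 1)
  {U W V : Subgroup G} [hUn : U.Normal] [hWn : (W.subgroupOf V).Normal]
  (hU : IsOpenSub D.L U) (hUW : U ≤ W) (hWV : W ≤ V)
  (hpg : ∀ w ∈ W, ∃ k : ℕ, w ^ p ^ k ∈ U) (hidx : ¬ p ∣ W.index)
  (hμ : ∀ w ∈ W, ∀ t, μ w t = t)

include H hc hU hUW hμ in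
/-- **projective modules** -/
lemma ec_proj (hu : UnitsFor D p μ c₀ U ⊤ le_top) {Y : Type} [AddCommGroup Y] [Finite Y]
    (hp : ∀ y : Y, p • y = 0) {σ : Act G Y} (hσ : ∀ u ∈ U, ∀ y, σ u y = y) (θ : Y →+ Y)
    (hθ : letI : Fintype (G ⧸ U) := @Fintype.ofFinite _ (by
        have := hU.finiteIndex; infer_instance)
      ∀ m, ∑ x : G ⧸ U, σ (Quotient.out x) (θ (σ (Quotient.out x)⁻¹ m)) = m) :
    ECFor D c₀ σ := by
  have := hU.finiteIndex
  letI : Fintype (G ⧸ U) := @Fintype.ofFinite _ (by infer_instance)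
  letI : Module (ZMod p) Y := AddCommGroup.zmodModule hp
  obtain ⟨d, ⟨T⟩⟩ := exists_thetaData (p := p) hσ θ hθ
  have : Finite ((⊤ : Subgroup G) ⧸ U.subgroupOf ⊤) := by
    have h1 : (U.subgroupOf ⊤).FiniteIndex := inferInstance
    infer_instance
  have : Fintype ((⊤ : Subgroup G) ⧸ U.subgroupOf ⊤) := Fintype.ofFinite _
  exact (T.sumOn (hUV := le_top) (fun u hu => hμ u (hUW hu))).ec H (smooth_of_triv hU hσ) hp hU
    hc hu

omit hUn hWn in
include hU hUW in
lemma isOpen_of_le : IsOpenSub D.L W := by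
  obtain ⟨N, hN, h⟩ := hU
  exact ⟨N, hN, h.trans hUW⟩

omit hWn in
include hU hUW hWV in
lemma smooth_ind {N : Type} [AddCommGroup N] {ν : Act V N}
    (hν : ∀ v : V, (v : G) ∈ U → ∀ n, ν v n = n) : Smooth D.L (indAct V ν) :=
  smooth_of_triv hU (indAct_triv (hUW.trans hWV) hν)

include H hc hU hUW hidx hμ in
/-- induced modules, prime-to-`p` case -/
lemma ec_ind_base (hu : UnitsFor D p μ c₀ W V hWV) {N : Type} [AddCommGroup N] [Finite N]
    (hp : ∀ n : N, p • n = 0) {ν : Act V N} (hν : ∀ v : V, (v : G) ∈ W → ∀ n, ν v n = n) :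
    ECFor D c₀ (indAct V ν) := by
  have hWo := isOpen_of_le hU hUW
  have := hWo.finiteIndex
  letI : Module (ZMod p) N := AddCommGroup.zmodModule hp
  letI : Fintype (G ⧸ W) := @Fintype.ofFinite _ (by infer_instance)
  have : Finite (G ⧸ V) := by
    have h1 : V.FiniteIndex := Subgroup.finiteIndex_of_le hWV
    infer_instance
  have : Finite (V ⧸ W.subgroupOf V) := by
    have h1 : (W.subgroupOf V).FiniteIndex := inferInstance
    infer_instance
  have : Fintype (V ⧸ W.subgroupOf V) := Fintype.ofFinite _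
  obtain ⟨d, ⟨F⟩, -⟩ := exists_freeAb p N hp
  have h2 : ¬ p ∣ Nat.card (V ⧸ W.subgroupOf V) := by
    intro h
    apply hidx
    rw [← Subgroup.relIndex_mul_index hWV]
    exact h.mul_right _
  let T := indTheta ν F hWV hν h2
  exact (T.sumOn (hUV := hWV) hμ).ec H (smooth_ind hU hUW hWV fun v hv => hν v (hUW hv))
    (indM_torsion hp) hWo hc hu

end Main

section Fixed

variable {p : ℕ} [Fact p.Prime] {W : Type} [Group W] {N : Type} [AddCommGroup N] [Finite N]
  [Nontrivial N]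

/-- `p`-groups have fixed vectors -/
lemma exists_fixed_vec (hp : ∀ n : N, p • n = 0) (τ : Act W N)
    (hpg : ∀ w, ∃ k : ℕ, τ (w ^ p ^ k) = 1) : ∃ n : N, n ≠ 0 ∧ ∀ w, τ w n = n := by
  let φ : W →* Equiv.Perm N :=
    { toFun := fun w =>
        { toFun := τ w
          invFun := τ w⁻¹
          left_inv := fun n => act_inv_self τ w n
          right_inv := fun n => act_self_inv τ w n }
      map_one' := by
        ext n
        exact act_one τ n
      map_mul' := fun w w' => by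
        ext n
        exact act_mul τ w w' n }
  have hQ : IsPGroup p φ.range := by
    rintro ⟨_, w, rfl⟩
    obtain ⟨k, hk⟩ := hpg w
    refine ⟨k, ?_⟩
    apply Subtype.ext
    show (φ w) ^ p ^ k = 1
    rw [← map_pow]
    ext n
    show τ (w ^ p ^ k) n = n
    rw [hk]
    rfl
  have h1 := hQ.card_modEq_card_fixedPoints N
  have h2 : p ∣ Nat.card N := by
    obtain ⟨d, -, hd⟩ := exists_freeAb p N hp
    have h3 : d ≠ 0 := by
      rintro rfl
      rw [pow_zero] at hd
      have := Finite.one_lt_card_iff_nontrivial.2 ‹Nontrivial N›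
      omega
    rw [hd]
    exact dvd_pow_self p h3
  have h3 : p ∣ Nat.card (MulAction.fixedPoints φ.range N) :=
    (Nat.modEq_zero_iff_dvd.1 (h1.symm.trans (Nat.modEq_zero_iff_dvd.2 h2)))
  have h4 : (0 : N) ∈ MulAction.fixedPoints φ.range N := by
    rintro ⟨_, w, rfl⟩
    exact map_zero (τ w)
  have h5 : 1 < Nat.card (MulAction.fixedPoints φ.range N) := by
    have : Nonempty (MulAction.fixedPoints φ.range N) := ⟨⟨0, h4⟩⟩
    exact lt_of_lt_of_le (Fact.out : p.Prime).one_lt (Nat.le_of_dvd Nat.card_pos h3)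
  have h6 := Finite.one_lt_card_iff_nontrivial.1 h5
  obtain ⟨⟨n, hn⟩, hne⟩ := exists_ne (⟨0, h4⟩ : MulAction.fixedPoints φ.range N)
  refine ⟨n, fun h => hne (Subtype.ext h), fun w => ?_⟩
  exact hn ⟨φ w, w, rfl⟩

end Fixed

section Main2

variable {G : Type} [Group G] {D : PTData G} {p : ℕ} [Fact p.Prime] {μ : Act G (ZMod p)}
  {W₀ : Subgroup G} {e : D.ι → ℕ} (H : PTHyp D p μ W₀ e) {c₀ : G}
  (hc : ∀ a, μ c₀ a = -a) (hp2 : p ≠ 2) (hcc : c₀ * c₀ = 1)
  {U W V : Subgroup G} [hUn : U.Normal] [hWn : (W.subgroupOf V).Normal]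
  (hU : IsOpenSub D.L U) (hUW : U ≤ W) (hWV : W ≤ V)
  (hpg : ∀ w ∈ W, ∃ k : ℕ, w ^ p ^ k ∈ U) (hidx : ¬ p ∣ W.index)
  (hμ : ∀ w ∈ W, ∀ t, μ w t = t)

/-- `W`-fixed vectors -/
def fixW (V W : Subgroup G) {N : Type} [AddCommGroup N] (ν : Act V N) : AddSubgroup N where
  carrier := {n | ∀ v : V, (v : G) ∈ W → ν v n = n}
  zero_mem' := fun v _ => map_zero _
  add_mem' := fun {a b} ha hb v hv => by rw [map_add, ha v hv, hb v hv]
  neg_mem' := fun {a} ha v hv => by rw [map_neg, ha v hv]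

omit [hUn : U.Normal] in
lemma fixW_stable {N : Type} [AddCommGroup N] (ν : Act V N) (v : V) {n : N}
    (hn : n ∈ fixW V W ν) : ν v n ∈ fixW V W ν := by
  intro w hw
  have h1 : w * v = v * (v⁻¹ * w * v) := by group
  rw [← act_mul, h1, act_mul]
  congr 1
  apply hn
  have h2 := hWn.conj_mem w hw v⁻¹
  rw [inv_inv] at h2
  exact h2

/-- action on the fixed vectors -/
def fixAct (V W : Subgroup G) [hWn : (W.subgroupOf V).Normal] {N : Type} [AddCommGroup N]
    (ν : Act V N) : Act V (fixW V W ν) where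
  toFun v :=
    { toFun := fun n => ⟨ν v n, fixW_stable ν v n.2⟩
      map_zero' := Subtype.ext (map_zero _)
      map_add' := fun _ _ => Subtype.ext (map_add _ _ _) }
  map_one' := by
    apply AddMonoidHom.ext
    intro n
    exact Subtype.ext (act_one ν _)
  map_mul' v w := by
    apply AddMonoidHom.ext
    intro n
    exact Subtype.ext (act_mul ν _ _ _)

include H hc hp2 hcc hU hUW hpg hidx hμ in
/-- induced modules -/
lemma ec_ind (hu : UnitsFor D p μ c₀ W V hWV) (n : ℕ) : ∀ (N : Type) [AddCommGroup N] [Finite N]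
    (_ : Nat.card N < n) (_ : ∀ n : N, p • n = 0) (ν : Act V N)
    (_ : ∀ v : V, (v : G) ∈ U → ∀ n, ν v n = n), ECFor D c₀ (indAct V ν) := by
  induction n with
  | zero => exact fun N _ _ h => absurd h (Nat.not_lt_zero _)
  | succ n ih =>
    intro N _ _ hn hp ν hν
    have hVf : Finite (G ⧸ V) := by
      have hWo := isOpen_of_le hU hUW
      have := hWo.finiteIndex
      have h1 : V.FiniteIndex := Subgroup.finiteIndex_of_le hWV
      infer_instance
    by_cases hW : ∀ v : V, (v : G) ∈ W → ∀ n, ν v n = n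
    · exact ec_ind_base H hc hU hUW hWV hidx hμ hu hp hW
    · push Not at hW
      obtain ⟨v₁, hv₁, n₁, hn₁⟩ := hW
      have hnt : Nontrivial N := ⟨ν v₁ n₁, n₁, hn₁⟩
      obtain ⟨n₂, hn₂, hfix⟩ := exists_fixed_vec hp (ν.comp (Subgroup.inclusion hWV))
        (fun w => by
          obtain ⟨k, hk⟩ := hpg w w.2
          refine ⟨k, ?_⟩
          apply AddMonoidHom.ext
          intro n
          exact hν _ hk n)
      let i : EHom (fixAct V W ν) ν := ⟨(fixW V W ν).subtype, fun _ _ => rfl⟩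
      let S := SES.ofInj i Subtype.val_injective
      have hmem : n₂ ∈ fixW V W ν := fun v hv => hfix ⟨v, hv⟩
      have c1 : Nat.card (fixW V W ν) < Nat.card N := by
        refine lt_of_le_of_ne (Nat.card_le_card_of_injective _ Subtype.val_injective) ?_
        intro h
        have h1 : fixW V W ν = ⊤ := AddSubgroup.eq_top_of_card_eq _ h
        have h2 : n₁ ∈ fixW V W ν := by rw [h1]; exact AddSubgroup.mem_top _
        exact hn₁ (h2 v₁ hv₁)
      have c2 : Nat.card (N ⧸ i.f.range) < Nat.card N := by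
        have h1 : Nat.card N = Nat.card (N ⧸ i.f.range) * Nat.card i.f.range :=
          AddSubgroup.card_eq_card_quotient_mul_card_addSubgroup _
        have h2 : 1 < Nat.card i.f.range := by
          rw [Finite.one_lt_card_iff_nontrivial]
          exact ⟨⟨n₂, ⟨n₂, hmem⟩, rfl⟩, 0, fun h => hn₂ (congrArg Subtype.val h)⟩
        have h3 : 0 < Nat.card (N ⧸ i.f.range) := Nat.card_pos
        rw [h1]
        exact lt_mul_of_one_lt_right h3 h2
      have e1 := ih (fixW V W ν) (by omega) (fun n => Subtype.ext (hp n.1)) (fixAct V W ν)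
        (fun v hv n => Subtype.ext (hν v hv n))
      have hpq : ∀ n : N ⧸ i.f.range, p • n = 0 := fun n => by
        obtain ⟨n, rfl⟩ := QuotientAddGroup.mk_surjective n
        rw [← QuotientAddGroup.mk_nsmul, hp, QuotientAddGroup.mk_zero]
      have e2 := ih (N ⧸ i.f.range) (by omega) hpq (quotAct ν i.f.range (by
          rintro g _ ⟨a, rfl⟩; exact ⟨fixAct V W ν g a, i.comm g a⟩))
        (fun v hv n => by
          obtain ⟨n, rfl⟩ := QuotientAddGroup.mk_surjective n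
          exact congrArg (QuotientAddGroup.mk) (hν v hv n))
      exact H.ec_mid (S.ind V) (smooth_ind hU hUW hWV hν) (indM_torsion hp) hp2 hcc e1 e2

include H hc hp2 hcc hU hUW hWV hpg hidx hμ in
/-- **Euler characteristic formula** -/
theorem ec_main (hfree : ∀ g ∉ V, ∀ w ∈ W, g⁻¹ * w * g ∈ V → w ∈ U)
    (hu1 : UnitsFor D p μ c₀ U ⊤ le_top) (hu2 : UnitsFor D p μ c₀ W V hWV)
    {M : Type} [AddCommGroup M] [Finite M] (hp : ∀ m : M, p • m = 0) {ρ : Act G M}
    (hρ : ∀ u ∈ U, ∀ m, ρ u m = m) : ECFor D c₀ ρ := by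
  classical
  have hWo := isOpen_of_le hU hUW
  have := hWo.finiteIndex
  have := hU.finiteIndex
  have hVfi : V.FiniteIndex := Subgroup.finiteIndex_of_le hWV
  letI : Fintype (G ⧸ U) := @Fintype.ofFinite _ (by infer_instance)
  letI : Fintype (G ⧸ V) := @Fintype.ofFinite _ (by infer_instance)
  letI : Fintype (G ⧸ W) := @Fintype.ofFinite _ (by infer_instance)
  letI : Fintype (W ⧸ U.subgroupOf W) := @Fintype.ofFinite _ (by infer_instance)
  have hUV := hUW.trans hWV
  let S := SES.ofSurj (sumHom (cosetAct V) ρ) (sumHom_surj ρ)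
  have hB : ∀ u ∈ U, ∀ f, mapAct (cosetAct V) ρ u f = f := by
    intro u hu f
    funext x
    rw [mapAct_apply, hρ u hu, cosetAct_of_normal hUV (U.inv_mem hu)]
  have hpB : ∀ f : G ⧸ V → M, p • f = 0 := fun f => funext fun x => hp _
  have e2 : ECFor D c₀ (mapAct (cosetAct V) ρ) := by
    refine ecFor_congr (indRes V ρ).symm ?_
    exact ec_ind H hc hp2 hcc hU hUW hWV hpg hidx hμ hu2 (Nat.card M + 1) M (Nat.lt_succ_self _)
      hp (ρ.comp V.subtype) (fun v hv m => hρ v hv m)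
  obtain ⟨R, hR⟩ := exists_orbReps (W := W) hUV hfree
  have hpK : ∀ f : (sumHom (cosetAct V) ρ).f.ker, p • f = 0 := fun f => Subtype.ext (hpB f.1)
  have e1 : ECFor D c₀ (kerAct (sumHom (cosetAct V) ρ)) := by
    letI : Module (ZMod p) (sumHom (cosetAct V) ρ).f.ker := AddCommGroup.zmodModule hpK
    have hK : ∀ u ∈ U, ∀ f, kerAct (sumHom (cosetAct V) ρ) u f = f := fun u hu f =>
      Subtype.ext (hB u hu f.1)
    obtain ⟨θ, hθ⟩ := theta_of_rel (p := p) hUW hK (by
      rwa [← Subgroup.index_eq_card]) (thetaW ρ R) (thetaW_sum ρ hWV R hR)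
    exact ec_proj H hc hU hUW hμ hu1 hpK hK θ hθ
  exact H.ec_right S (smooth_of_triv hU hB) hpB hp2 hcc e1 e2

end Main2

end Fermat.Agent.PT
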