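import Fermat.Agent.PT.ShapiroAll

/-!
# Truncated Euler characteristics
-/

set_option autoImplicit false

namespace Fermat.Agent.PT

section Card

variable {A B C : Type*} [AddCommGroup A] [AddCommGroup B] [AddCommGroup C]

lemma card_eq_ker_mul_range (f : A →+ B) :
    Nat.card A = Nat.card f.ker * Nat.card f.range := by
  rw [AddSubgroup.card_eq_card_quotient_mul_card_addSubgroup f.ker, mul_comm,
    Nat.card_congr (QuotientAddGroup.quotientKerEquivRange f).toEquiv]

lemma card_eq_of_exact (f : A →+ B) (g : B →+ C) (h : ∀ x, g x = 0 ↔ ∃ y, f y = x) :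
    Nat.card B = Nat.card f.range * Nat.card g.range := by
  have : g.ker = f.range := by
    ext x
    rw [AddMonoidHom.mem_ker, AddMonoidHom.mem_range]
    exact h x
  rw [card_eq_ker_mul_range g, this]

lemma finite_of_exact (f : A →+ B) (g : B →+ C) (h : ∀ x, g x = 0 ↔ ∃ y, f y = x)
    [Finite A] [Finite C] : Finite B := by
  have hk : Finite g.ker := by
    have : g.ker = f.range := by
      ext x
      rw [AddMonoidHom.mem_ker, AddMonoidHom.mem_range]
      exact h x
    rw [this]
    exact Set.finite_range f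
  have hr : Finite g.range := Subtype.finite
  have h2 : Finite (B ⧸ g.ker) :=
    Finite.of_equiv _ (QuotientAddGroup.quotientKerEquivRange g).symm.toEquiv
  exact Finite.of_equiv _ (AddSubgroup.addGroupEquivQuotientProdAddSubgroup (s := g.ker)).symm

lemma card_eq_range_mul_index (f : A →+ B) :
    Nat.card B = Nat.card f.range * f.range.index := by
  rw [AddSubgroup.card_mul_index]

lemma card_range_pos (f : A →+ B) [Finite B] : 0 < Nat.card f.range := Nat.card_pos

end Card

variable {G : Type*} [Group G] {A B C : Type*} [AddCommGroup A] [AddCommGroup B] [AddCommGroup C]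
  {ρA : Act G A} {ρB : Act G B} {ρC : Act G C}

/-- all cohomology groups up to degree two are finite -/
structure Fin012 (L : Levels G) (ρ : Act G A) : Prop where
  h0 : Finite (H0 ρ)
  h1 : Finite (H1 L ρ)
  h2 : Finite (H2 L ρ)

/-- truncated Euler characteristic -/
noncomputable def chi (L : Levels G) (ρ : Act G A) : ℝ :=
  Nat.card (H0 ρ) * Nat.card (H2 L ρ) / Nat.card (H1 L ρ)

lemma chi_pos {L : Levels G} {ρ : Act G A} (h : Fin012 L ρ) : 0 < chi L ρ := by
  have := h.h0
  have := h.h1
  have := h.h2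
  unfold chi
  have h0 : 0 < Nat.card (H0 ρ) := Nat.card_pos
  have h1 : 0 < Nat.card (H1 L ρ) := Nat.card_pos
  have h2 : 0 < Nat.card (H2 L ρ) := Nat.card_pos
  positivity

lemma SES.fin012_mid {L : Levels G} (S : SES ρA ρB ρC) (hB : Smooth L ρB) (hA : Fin012 L ρA)
    (hC : Fin012 L ρC) : Fin012 L ρB := by
  have := hA.h0
  have := hA.h1
  have := hA.h2
  have := hC.h0
  have := hC.h1
  have := hC.h2
  exact ⟨finite_of_exact S.i.h0 S.p.h0 S.exact_H0_left,
    finite_of_exact (S.i.h1 L) (S.p.h1 L) (S.exact_H1_mid hB),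
    finite_of_exact (S.i.h2 L) (S.p.h2 L) (S.exact_H2_mid hB)⟩

/-- multiplicativity of the truncated Euler characteristic, with defect -/
theorem SES.chi_mul {L : Levels G} (S : SES ρA ρB ρC) (hB : Smooth L ρB) (hA : Fin012 L ρA)
    (hC : Fin012 L ρC) :
    chi L ρA * chi L ρC = chi L ρB * ((S.p.h2 L).range.index : ℝ) := by
  have hBf := S.fin012_mid hB hA hC
  have := hA.h0
  have := hA.h1
  have := hA.h2
  have := hC.h0
  have := hC.h1
  have := hC.h2
  have := hBf.h0
  have := hBf.h1
  have := hBf.h2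
  have e0 : Nat.card (H0 ρA) = Nat.card S.i.h0.range := by
    rw [← Nat.card_congr (AddMonoidHom.ofInjective S.inj_H0).toEquiv]
  have e1 := card_eq_of_exact S.i.h0 S.p.h0 S.exact_H0_left
  have e2 := card_eq_of_exact S.p.h0 (S.δ0 hB) (S.exact_H0_right hB)
  have e3 := card_eq_of_exact (S.δ0 hB) (S.i.h1 L) (S.exact_H1_left hB)
  have e4 := card_eq_of_exact (S.i.h1 L) (S.p.h1 L) (S.exact_H1_mid hB)
  have e5 := card_eq_of_exact (S.p.h1 L) (S.δ1 hB) (S.exact_H1_right hB)
  have e6 := card_eq_of_exact (S.δ1 hB) (S.i.h2 L) (S.exact_H2_left hB)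
  have e7 := card_eq_of_exact (S.i.h2 L) (S.p.h2 L) (S.exact_H2_mid hB)
  have e8 := card_eq_range_mul_index (S.p.h2 L)
  unfold chi
  rw [e0, e1, e2, e3, e4, e5, e6, e7, e8]
  have p1 := card_range_pos S.p.h0
  have p2 := card_range_pos (S.δ0 hB)
  have p3 := card_range_pos (S.i.h1 L)
  have p4 := card_range_pos (S.p.h1 L)
  have p5 := card_range_pos (S.δ1 hB)
  push_cast
  generalize (Nat.card S.i.h0.range : ℝ) = x0
  have q1 : (0 : ℝ) < Nat.card S.p.h0.range := by exact_mod_cast p1
  have q2 : (0 : ℝ) < Nat.card (S.δ0 hB).range := by exact_mod_cast p2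
  have q3 : (0 : ℝ) < Nat.card (S.i.h1 L).range := by exact_mod_cast p3
  have q4 : (0 : ℝ) < Nat.card (S.p.h1 L).range := by exact_mod_cast p4
  have q5 : (0 : ℝ) < Nat.card (S.δ1 hB).range := by exact_mod_cast p5
  field_simp

end Fermat.Agent.PT
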