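import Fermat.Agent.PT.Snake3

/-!
# The formal duality theorem `|Ш²(M)| = |Ш¹(M')|`
-/

set_option autoImplicit false

namespace Fermat.Agent.PT

section Finiteness

lemma Levels.exists_le_finite {G : Type*} [Group G] (L : Levels G) {ι : Type*} [Finite ι]
    (N : ι → Subgroup G) (hN : ∀ i, N i ∈ L.carrier) :
    ∃ M ∈ L.carrier, ∀ i, M ≤ N i := by
  have : ∀ s : Set ι, s.Finite → ∃ M ∈ L.carrier, ∀ i ∈ s, M ≤ N i := by
    intro s hs
    induction s, hs using Set.Finite.induction_on with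
    | empty =>
      obtain ⟨M, hM⟩ := L.nonempty'
      exact ⟨M, hM, fun i hi => absurd hi (Set.notMem_empty i)⟩
    | @insert a s _ _ ih =>
      obtain ⟨M, hM, h⟩ := ih
      obtain ⟨K, hK, h1, h2⟩ := L.directed' M hM (N a) (hN a)
      refine ⟨K, hK, fun i hi => ?_⟩
      rcases Set.mem_insert_iff.1 hi with rfl | hi
      · exact h2
      · exact h1.trans (h i hi)
  obtain ⟨M, hM, h⟩ := this Set.univ Set.finite_univ
  exact ⟨M, hM, fun i => h i (Set.mem_univ i)⟩

lemma exists_level_H1 {G : Type*} [Group G] {L : Levels G} {A : Type*} [AddCommGroup A]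
    {σ : Act G A} [Finite (H1 L σ)] {N₀ : Subgroup G} (hN₀ : N₀ ∈ L.carrier) :
    ∃ N ∈ L.carrier, N ≤ N₀ ∧ ∀ x : H1 L σ, ∃ f : Z1 L σ, H1.mk L σ f = x ∧
      ∀ g, ∀ s ∈ N, (f : G → A) (g * s) = (f : G → A) g := by
  choose f hf using H1.mk_surjective L σ
  choose N hN h using fun x => (mem_Z1'.1 (f x).2).1
  obtain ⟨M, hM, hle⟩ := L.exists_le_finite N hN
  obtain ⟨K, hK, h1, h2⟩ := L.directed' M hM N₀ hN₀
  exact ⟨K, hK, h2, fun x => ⟨f x, hf x, fun g s hs => h x g s (hle x (h1 hs))⟩⟩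

/-- finiteness of cohomology over a `p`-group modulo `N`, descended to the whole group -/
theorem fin012_of_chi {G : Type} [Group G] {p : ℕ} [Fact p.Prime] (L : Levels G)
    (W : Subgroup G) (hWo : IsOpenSub L W) (hWp : ¬ p ∣ W.index)
    (hfin : ∀ V : Subgroup G, IsOpenSub L V → V ≤ W → Fin012 (L.sub V) (trivAct V (ZMod p)))
    {A : Type} [AddCommGroup A] [Finite A] {ρ : Act G A} (hρ : Smooth L ρ)
    (hp : ∀ a : A, p • a = 0) : Fin012 L ρ := by
  obtain ⟨N₁, hN₁, h₁⟩ := hρ.exists_level Set.finite_univ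
  obtain ⟨N, hN, hNN₁, hNW⟩ := hWo.exists_le hN₁
  have := L.normal' N hN
  have := L.finiteIndex' N hN
  obtain ⟨P, hNP, hPW, hPp, hPG⟩ := exists_sylow_sub (p := p) N W hNW hWp
  have hPo : IsOpenSub L P := ⟨N, hN, hNP⟩
  have := hPo.finiteIndex
  have : Fintype (G ⧸ P) := Fintype.ofFinite _
  obtain ⟨d, -, hd⟩ := exists_freeAb p A hp
  have h1 := (devissage (L.sub P) (N.subgroupOf P) hPG (hfin P hPo hPW) d A (resAct ρ P)
    (hρ.sub P) (fun u hu a => h₁ a (Set.mem_univ a) _ (hNN₁ hu)) hp hd).1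
  have h2 := (shapiro_coset hPo hρ).1.2 h1
  have := h2.h1
  have := h2.h2
  have hinj : ∀ {V : Type} [AddCommGroup V], (∀ x : V, p • x = 0) → ∀ x : V,
      Fintype.card (G ⧸ P) • x = 0 → x = 0 := by
    intro V _ hV x hx
    have := mem_of_nsmul_mem (⊥ : AddSubgroup V) (n := Fintype.card (G ⧸ P)) (p := p) (x := x)
      (by rw [← Nat.card_eq_fintype_card, ← Subgroup.index_eq_card]; exact hPp)
      (by rw [hx]; exact AddSubgroup.zero_mem _) (by rw [hV]; exact AddSubgroup.zero_mem _)
    exact AddSubgroup.mem_bot.1 this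
  refine ⟨inferInstance, ?_, ?_⟩
  · refine Finite.of_injective ((constHom (cosetAct P) ρ).h1 L) ?_
    rw [injective_iff_map_eq_zero]
    intro x hx
    apply hinj (h1_torsion hp)
    rw [← sum_const_h1 (cosetAct P), hx, map_zero]
  · refine Finite.of_injective ((constHom (cosetAct P) ρ).h2 L) ?_
    rw [injective_iff_map_eq_zero]
    intro x hx
    apply hinj (h2_torsion hp)
    rw [← sum_const_h2 (cosetAct P), hx, map_zero]

end Finiteness

section Selfdual

variable {G : Type*} [Group G] {p : ℕ} [Fact p.Prime] {X : Type*} [Fintype X]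

/-- `Hom(Map(X, μ), μ) = Map(X, 𝔽_p)` -/
noncomputable def dualMapEquiv (ξ : G →* Equiv.Perm X) (μ : Act G (ZMod p)) :
    EEquiv (dualAct μ (mapAct ξ μ)) (mapAct ξ (trivAct G (ZMod p))) :=
  letI := Classical.decEq X
  have hadd : ∀ (h : ZMod p →+ ZMod p) (c : ZMod p), h c = h 1 * c := by
    intro h c
    have h1 : h c = c.val • h 1 := by
      rw [← map_nsmul]
      congr 1
      rw [nsmul_eq_mul, mul_one, ZMod.natCast_zmod_val]
    rw [h1, nsmul_eq_mul, ZMod.natCast_zmod_val, mul_comm]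
  { e :=
    { toFun := fun φ x => φ (Pi.single x 1)
      invFun := fun a =>
        { toFun := fun f => ∑ x, a x * f x
          map_zero' := by simp
          map_add' := fun f g => by simp [mul_add, Finset.sum_add_distrib] }
      left_inv := fun φ => by
        apply AddMonoidHom.ext
        intro f
        show ∑ x, φ (Pi.single x 1) * f x = φ f
        have hf : f = ∑ x, Pi.single x (f x) := by
          ext y
          rw [Finset.sum_apply, Finset.sum_pi_single]
          simp
        conv_rhs => rw [hf, map_sum]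
        refine Finset.sum_congr rfl fun x _ => ?_
        exact (hadd (φ.comp (AddMonoidHom.single (fun _ : X => ZMod p) x)) (f x)).symm
      right_inv := fun a => by
        ext x
        show ∑ y, a y * (Pi.single x 1 : X → ZMod p) y = a x
        rw [Finset.sum_eq_single x]
        · rw [Pi.single_eq_same, mul_one]
        · intro y _ hy
          rw [Pi.single_eq_of_ne hy, mul_zero]
        · intro h
          exact absurd (Finset.mem_univ x) h
      map_add' := fun φ ψ => rfl }
    comm := fun g φ => by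
      ext x
      show μ g (φ (mapAct ξ μ g⁻¹ (Pi.single x 1))) = φ (Pi.single (ξ g⁻¹ x) 1)
      have h1 : mapAct ξ μ g⁻¹ (Pi.single x 1) = Pi.single (ξ g⁻¹ x) (μ g⁻¹ 1) := by
        ext y
        rw [mapAct_apply, inv_inv]
        by_cases hy : y = ξ g⁻¹ x
        · subst hy
          have : ξ g (ξ g⁻¹ x) = x := by
            rw [← Equiv.Perm.mul_apply, ← map_mul, mul_inv_cancel, map_one]; rfl
          rw [this, Pi.single_eq_same, Pi.single_eq_same]
        · have : ξ g y ≠ x := by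
            intro h
            apply hy
            rw [← h, ← Equiv.Perm.mul_apply, ← map_mul, inv_mul_cancel, map_one]; rfl
          rw [Pi.single_eq_of_ne hy, Pi.single_eq_of_ne this, map_zero]
      rw [h1]
      have h2 := hadd (φ.comp (AddMonoidHom.single (fun _ : X => ZMod p) (ξ g⁻¹ x))) (μ g⁻¹ 1)
      have h3 : φ (Pi.single (ξ g⁻¹ x) (μ g⁻¹ 1)) = φ (Pi.single (ξ g⁻¹ x) 1) * μ g⁻¹ 1 := h2
      rw [h3]
      have h4 : ∀ a b : ZMod p, μ g (a * b) = a * μ g b := by
        intro a b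
        have e1 : μ g (a * b) = μ g 1 * (a * b) := hadd (μ g) (a * b)
        have e2 : μ g b = μ g 1 * b := hadd (μ g) b
        rw [e1, e2]; ring
      rw [h4, act_self_inv, mul_one] }

/-- untwisting -/
noncomputable def twistEquiv {G : Type*} [Group G] {A : Type*} [AddCommGroup A] {X : Type*}
    {ξ : G →* Equiv.Perm X} {W : Subgroup G} (T : Triv ξ W) {ρ σ : Act G A}
    (hρ : ∀ u ∈ W, ∀ a, ρ u a = a) (hσ : ∀ u ∈ W, ∀ b, σ u b = b) :
    EEquiv (mapAct ξ ρ) (mapAct ξ σ) where
  e :=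
    { toFun := (T.twist hρ hσ (AddMonoidHom.id A)).f
      invFun := (T.twist hσ hρ (AddMonoidHom.id A)).f
      left_inv := fun φ => by
        rw [T.twist_comp]
        ext x
        rw [Triv.twist_f]
        simp
      right_inv := fun φ => by
        rw [T.twist_comp]
        ext x
        rw [Triv.twist_f]
        simp
      map_add' := map_add _ }
  comm := (T.twist hρ hσ (AddMonoidHom.id A)).comm

end Selfdual

variable {G : Type} [Group G] {D : PTData G} {p : ℕ} [Fact p.Prime] {μ : Act G (ZMod p)}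
  {W : Subgroup G} {e : D.ι → ℕ} (H : PTHyp D p μ W e)

include H in
lemma PTHyp.finite {A : Type} [AddCommGroup A] [Finite A] {ρ : Act G A} (hρ : Smooth D.L ρ)
    (hp : ∀ a : A, p • a = 0) : Fin012 D.L ρ :=
  fin012_of_chi D.L W H.isOpen H.idx (fun _ hV hVW => (chi_triv_eq H hV hVW).1) hρ hp

/-- the total local pairing -/
noncomputable def isoPair (D : PTData G) {μ : Act G (ZMod p)} {A : Type} [AddCommGroup A]
    {ρ : Act G A} (hρ : Smooth D.L ρ) :
    (∀ v, H1 (D.Lv v) (dualAct (μ.comp (D.r v)) (ρ.comp (D.r v)))) →+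
      (∀ v, H1 (D.Lv v) (ρ.comp (D.r v))) →+ D.Coker μ where
  toFun y :=
    { toFun := fun x => ∑ v, D.inv μ v ((evP (μ.comp (D.r v)) (ρ.comp (D.r v))).cup
        (hρ.along v) (y v) (x v))
      map_zero' := by simp
      map_add' := fun x x' => by simp [Finset.sum_add_distrib] }
  map_zero' := by ext x; simp
  map_add' y y' := by ext x; simp [Finset.sum_add_distrib]

include H in
/-- the isotropy bound -/
theorem isotropy {A : Type} [AddCommGroup A] [Finite A] {ρ : Act G A} (hρ : Smooth D.L ρ)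
    (hp : ∀ a : A, p • a = 0) (hfin : ∀ v, Finite (H1 (D.Lv v) (ρ.comp (D.r v)))) :
    Nat.card (H1 D.L (dualAct μ ρ)) * Nat.card (H1 D.L ρ) ≤
      Nat.card (D.sha1 (dualAct μ ρ)) * Nat.card (D.sha1 ρ) *
        Nat.card (∀ v, H1 (D.Lv v) (ρ.comp (D.r v))) := by
  classical
  have hpr := (Fact.out (p := p.Prime))
  -- localisation maps
  let tI : H1 D.L (dualAct μ ρ) →+
      ∀ v, H1 (D.Lv v) (dualAct (μ.comp (D.r v)) (ρ.comp (D.r v))) :=
    AddMonoidHom.pi fun v => (locDual D μ v ρ).h1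
  let tJ := D.tot1 ρ
  have hkI : tI.ker = D.sha1 (dualAct μ ρ) := by
    ext x
    rw [mem_sha1_dual, AddMonoidHom.mem_ker, funext_iff]
    rfl
  have e1 := card_eq_ker_mul_range tI
  have e2 := card_eq_ker_mul_range tJ
  rw [hkI] at e1
  have hkJ : tJ.ker = D.sha1 ρ := rfl
  rw [hkJ] at e2
  -- orthogonality
  have horth : ∀ y x, isoPair D (μ := μ) hρ (tI y) (tJ x) = 0 := by
    intro y x
    have h1 : ∀ v, (evP (μ.comp (D.r v)) (ρ.comp (D.r v))).cup (hρ.along v)
        ((locDual D μ v ρ).h1 y) ((D.loc v ρ).h1 x) =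
        (D.loc v μ).h2 ((evP μ ρ).cup hρ y x) := fun v =>
      ((evP μ ρ).cup_nat (evP (μ.comp (D.r v)) (ρ.comp (D.r v))) hρ (hρ.along v)
        (locDual D μ v ρ) (D.loc v ρ) (D.loc v μ) (fun _ => rfl) (fun _ => rfl)
        (fun _ _ => rfl) y x).symm
    have h2 : isoPair D (μ := μ) hρ (tI y) (tJ x) =
        ((D.tot2 μ ((evP μ ρ).cup hρ y x) : D.P2 μ) : D.Coker μ) := by
      rw [sum_inv]
      exact Finset.sum_congr rfl fun v _ => congrArg _ (h1 v)
    rw [h2, QuotientAddGroup.eq_zero_iff]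
    exact ⟨_, rfl⟩
  -- nondegeneracy
  have hnd : ∀ y, (∀ x, isoPair D (μ := μ) hρ y x = 0) → y = 0 := by
    intro y hy
    funext v
    refine (H.loc v).nondeg (ρ.comp (D.r v)) (hρ.along v) hp (y v) fun x => ?_
    apply (H.inv_bij v).1
    rw [map_zero]
    have h1 := hy (Pi.single v x)
    have h2 : isoPair D (μ := μ) hρ y (Pi.single v x) =
        ∑ w, D.inv μ w ((evP (μ.comp (D.r w)) (ρ.comp (D.r w))).cup
        (hρ.along w) (y w) ((Pi.single v x : ∀ v, H1 (D.Lv v) (ρ.comp (D.r v))) w)) := rfl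
    rw [h2, Finset.sum_eq_single v] at h1
    · rwa [Pi.single_eq_same] at h1
    · intro w _ hw
      rw [Pi.single_eq_of_ne hw, map_zero, map_zero]
    · intro h
      exact absurd (Finset.mem_univ v) h
  -- counting
  have hfinP : Finite (∀ v, H1 (D.Lv v) (ρ.comp (D.r v))) := Pi.finite
  let Q := (∀ v, H1 (D.Lv v) (ρ.comp (D.r v))) ⧸ tJ.range
  have hQt : ∀ x : Q, p • x = 0 := by
    intro x
    obtain ⟨x, rfl⟩ := QuotientAddGroup.mk_surjective x
    rw [← QuotientAddGroup.mk_nsmul]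
    have : p • x = 0 := funext fun v => h1_torsion hp (x v)
    rw [this, QuotientAddGroup.mk_zero]
  have hfinC : Finite (D.Coker μ) :=
    Nat.finite_of_card_ne_zero (by rw [H.coker_card]; exact hpr.ne_zero)
  have hfinQ : Finite (Q →+ D.Coker μ) := DFunLike.finite _
  let Ψ : tI.range → (Q →+ D.Coker μ) := fun y =>
    QuotientAddGroup.lift tJ.range (isoPair D (μ := μ) hρ y.1) (by
      rintro _ ⟨x, rfl⟩
      obtain ⟨_, y, rfl⟩ := y
      exact horth y x)
  have hΨ : Function.Injective Ψ := by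
    rintro ⟨y, hy⟩ ⟨y', hy'⟩ h
    apply Subtype.ext
    have h3 : y - y' = 0 := by
      apply hnd
      intro x
      have := DFunLike.congr_fun h ((x : ∀ v, H1 (D.Lv v) (ρ.comp (D.r v))) : Q)
      have h4 : isoPair D (μ := μ) hρ y x = isoPair D (μ := μ) hρ y' x := this
      rw [map_sub, AddMonoidHom.sub_apply, h4, sub_self]
    exact sub_eq_zero.1 h3
  have h5 : Nat.card tI.range ≤ Nat.card Q := by
    have := Nat.card_le_card_of_injective Ψ hΨ
    rwa [card_hom hQt H.coker_card] at this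
  have h6 : Nat.card (∀ v, H1 (D.Lv v) (ρ.comp (D.r v))) = Nat.card Q * Nat.card tJ.range :=
    AddSubgroup.card_eq_card_quotient_mul_card_addSubgroup _
  rw [e1, e2, h6]
  calc Nat.card (D.sha1 (dualAct μ ρ)) * Nat.card tI.range *
        (Nat.card (D.sha1 ρ) * Nat.card tJ.range)
      = Nat.card (D.sha1 (dualAct μ ρ)) * Nat.card (D.sha1 ρ) * Nat.card tJ.range *
        Nat.card tI.range := by ring
    _ ≤ Nat.card (D.sha1 (dualAct μ ρ)) * Nat.card (D.sha1 ρ) * Nat.card tJ.range *
        Nat.card Q := Nat.mul_le_mul_left _ h5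
    _ = _ := by ring

end Fermat.Agent.PT
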