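import Fermat.Agent.PT.Cohomology

/-!
# Functoriality of level cohomology
-/

set_option autoImplicit false

namespace Fermat.Agent.PT

variable {G Γ Θ : Type*} [Group G] [Group Γ] [Group Θ] {A B C : Type*} [AddCommGroup A]
  [AddCommGroup B] [AddCommGroup C]

/-- A morphism `(G, L, A) → (Γ, L', B)`: a group hom `r : Γ → G` compatible with levels and
an additive map `f : A → B` with `f (r γ • a) = γ • f a`. -/
structure PairHom (L : Levels G) (ρ : Act G A) (L' : Levels Γ) (σ : Act Γ B) where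
  r : Γ →* G
  f : A →+ B
  lev : ∀ N ∈ L.carrier, ∃ N' ∈ L'.carrier, ∀ γ ∈ N', r γ ∈ N
  comm : ∀ γ a, f (ρ (r γ) a) = σ γ (f a)

namespace PairHom

variable {L : Levels G} {ρ : Act G A} {L' : Levels Γ} {σ : Act Γ B} {L'' : Levels Θ}
  {τ : Act Θ C}

/-- identity -/
def id (L : Levels G) (ρ : Act G A) : PairHom L ρ L ρ where
  r := MonoidHom.id G
  f := AddMonoidHom.id A
  lev N hN := ⟨N, hN, fun _ h => h⟩
  comm _ _ := rfl

/-- composition: first `φ : (G,A) → (Γ,B)` then `ψ : (Γ,B) → (Θ,C)`. -/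
def comp (ψ : PairHom L' σ L'' τ) (φ : PairHom L ρ L' σ) : PairHom L ρ L'' τ where
  r := φ.r.comp ψ.r
  f := ψ.f.comp φ.f
  lev N hN := by
    obtain ⟨N', hN', h'⟩ := φ.lev N hN
    obtain ⟨N'', hN'', h''⟩ := ψ.lev N' hN'
    exact ⟨N'', hN'', fun γ hγ => h' _ (h'' γ hγ)⟩
  comm γ a := by
    simp only [AddMonoidHom.comp_apply, MonoidHom.comp_apply, φ.comm, ψ.comm]

lemma lc₁ (φ : PairHom L ρ L' σ) {X : Type*} {f : G → X} (hf : IsLC₁ L f) :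
    IsLC₁ L' (fun γ => f (φ.r γ)) := by
  obtain ⟨N, hN, h⟩ := hf
  obtain ⟨N', hN', h'⟩ := φ.lev N hN
  exact ⟨N', hN', fun γ s hs => by simp only [map_mul, h _ _ (h' s hs)]⟩

lemma lc₂ (φ : PairHom L ρ L' σ) {X : Type*} {f : G → G → X} (hf : IsLC₂ L f) :
    IsLC₂ L' (fun γ δ => f (φ.r γ) (φ.r δ)) := by
  obtain ⟨N, hN, h⟩ := hf
  obtain ⟨N', hN', h'⟩ := φ.lev N hN
  exact ⟨N', hN', fun γ δ s hs t ht => by simp only [map_mul, h _ _ _ (h' s hs) _ (h' t ht)]⟩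

/-- pull-push on 1-cochains -/
def c1 (φ : PairHom L ρ L' σ) : (G → A) →+ (Γ → B) where
  toFun f := fun γ => φ.f (f (φ.r γ))
  map_zero' := by ext; simp
  map_add' a b := by ext; simp

/-- pull-push on 2-cochains -/
def c2 (φ : PairHom L ρ L' σ) : (G → G → A) →+ (Γ → Γ → B) where
  toFun f := fun γ δ => φ.f (f (φ.r γ) (φ.r δ))
  map_zero' := by ext; simp
  map_add' a b := by ext; simp

lemma c1_apply (φ : PairHom L ρ L' σ) (f : G → A) (γ : Γ) : φ.c1 f γ = φ.f (f (φ.r γ)) := rfl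

lemma c2_apply (φ : PairHom L ρ L' σ) (f : G → G → A) (γ δ : Γ) :
    φ.c2 f γ δ = φ.f (f (φ.r γ) (φ.r δ)) := rfl

lemma c1_d0 (φ : PairHom L ρ L' σ) (a : A) : φ.c1 (d0 ρ a) = d0 σ (φ.f a) := by
  ext γ; simp only [c1_apply, d0_apply, map_sub, φ.comm]

lemma c2_d1 (φ : PairHom L ρ L' σ) (f : G → A) : φ.c2 (d1 ρ f) = d1 σ (φ.c1 f) := by
  ext γ δ; simp only [c2_apply, c1_apply, d1_apply, map_sub, map_add, φ.comm, map_mul]

lemma d1_c1_eq_zero (φ : PairHom L ρ L' σ) {f : G → A} (hf : d1 ρ f = 0) :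
    d1 σ (φ.c1 f) = 0 := by rw [← c2_d1, hf, map_zero]

lemma d2_c2_eq_zero (φ : PairHom L ρ L' σ) {f : G → G → A} (hf : d2 ρ f = 0) :
    d2 σ (φ.c2 f) = 0 := by
  ext γ δ ε
  have := congrArg φ.f (congrFun (congrFun (congrFun hf (φ.r γ)) (φ.r δ)) (φ.r ε))
  simp only [d2_apply, map_sub, map_add, φ.comm, Pi.zero_apply, map_zero] at this
  simp only [d2_apply, c2_apply, map_mul, this, Pi.zero_apply]

/-- map on `H⁰` -/
def h0 (φ : PairHom L ρ L' σ) : H0 ρ →+ H0 σ :=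
  (φ.f.comp (H0 ρ).subtype).codRestrict (H0 σ) (fun a => by
    rw [mem_H0]; intro g
    have := mem_H0.1 a.2 (φ.r g)
    simp only [AddMonoidHom.comp_apply, AddSubgroup.subtype_apply, ← φ.comm, this])

@[simp] lemma coe_h0 (φ : PairHom L ρ L' σ) (a : H0 ρ) : (φ.h0 a : B) = φ.f a := rfl

/-- map on `Z¹` -/
def z1 (φ : PairHom L ρ L' σ) : Z1 L ρ →+ Z1 L' σ :=
  (φ.c1.comp (Z1 L ρ).subtype).codRestrict (Z1 L' σ) (fun a =>
    ⟨(φ.lc₁ a.2.1).comp _, φ.d1_c1_eq_zero a.2.2⟩)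

/-- map on `Z²` -/
def z2 (φ : PairHom L ρ L' σ) : Z2 L ρ →+ Z2 L' σ :=
  (φ.c2.comp (Z2 L ρ).subtype).codRestrict (Z2 L' σ) (fun a =>
    ⟨(φ.lc₂ a.2.1).comp _, φ.d2_c2_eq_zero a.2.2⟩)

@[simp] lemma coe_z1 (φ : PairHom L ρ L' σ) (a : Z1 L ρ) : (φ.z1 a : Γ → B) = φ.c1 a := rfl

@[simp] lemma coe_z2 (φ : PairHom L ρ L' σ) (a : Z2 L ρ) : (φ.z2 a : Γ → Γ → B) = φ.c2 a := rfl

/-- map on `H¹` -/
def h1 (φ : PairHom L ρ L' σ) : H1 L ρ →+ H1 L' σ :=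
  QuotientAddGroup.lift _ ((H1.mk L' σ).comp φ.z1) (by
    intro a ha
    rw [AddSubgroup.mem_addSubgroupOf] at ha
    obtain ⟨c, hc⟩ := ha
    rw [AddMonoidHom.mem_ker, AddMonoidHom.comp_apply, H1.mk_eq_zero]
    exact ⟨φ.f c, by rw [coe_z1, ← hc, c1_d0]⟩)

/-- map on `H²` -/
def h2 (φ : PairHom L ρ L' σ) : H2 L ρ →+ H2 L' σ :=
  QuotientAddGroup.lift _ ((H2.mk L' σ).comp φ.z2) (by
    intro a ha
    rw [AddSubgroup.mem_addSubgroupOf] at ha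
    obtain ⟨c, hc, hca⟩ := ha
    rw [AddMonoidHom.mem_ker, AddMonoidHom.comp_apply, H2.mk_eq_zero]
    exact ⟨φ.c1 c, (φ.lc₁ hc).comp _, by rw [coe_z2, ← hca, c2_d1]⟩)

@[simp] lemma h1_mk (φ : PairHom L ρ L' σ) (a : Z1 L ρ) :
    φ.h1 (H1.mk L ρ a) = H1.mk L' σ (φ.z1 a) := rfl

@[simp] lemma h2_mk (φ : PairHom L ρ L' σ) (a : Z2 L ρ) :
    φ.h2 (H2.mk L ρ a) = H2.mk L' σ (φ.z2 a) := rfl

lemma h0_comp (ψ : PairHom L' σ L'' τ) (φ : PairHom L ρ L' σ) (x : H0 ρ) :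
    (ψ.comp φ).h0 x = ψ.h0 (φ.h0 x) := rfl

lemma h1_comp (ψ : PairHom L' σ L'' τ) (φ : PairHom L ρ L' σ) (x : H1 L ρ) :
    (ψ.comp φ).h1 x = ψ.h1 (φ.h1 x) := by
  obtain ⟨a, rfl⟩ := H1.mk_surjective L ρ x
  rfl

lemma h2_comp (ψ : PairHom L' σ L'' τ) (φ : PairHom L ρ L' σ) (x : H2 L ρ) :
    (ψ.comp φ).h2 x = ψ.h2 (φ.h2 x) := by
  obtain ⟨a, rfl⟩ := H2.mk_surjective L ρ x
  rfl

lemma h0_id (x : H0 ρ) : (id L ρ).h0 x = x := rfl

lemma h1_id (x : H1 L ρ) : (id L ρ).h1 x = x := by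
  obtain ⟨a, rfl⟩ := H1.mk_surjective L ρ x
  rfl

lemma h2_id (x : H2 L ρ) : (id L ρ).h2 x = x := by
  obtain ⟨a, rfl⟩ := H2.mk_surjective L ρ x
  rfl

/-- equality of maps on `H¹` from pointwise equality of data -/
lemma h1_congr {φ ψ : PairHom L ρ L' σ} (hr : ∀ γ, φ.r γ = ψ.r γ) (hf : ∀ a, φ.f a = ψ.f a)
    (x : H1 L ρ) : φ.h1 x = ψ.h1 x := by
  obtain ⟨a, rfl⟩ := H1.mk_surjective L ρ x
  rw [h1_mk, h1_mk]
  congr 1
  ext γ
  simp only [coe_z1, c1_apply, hr, hf]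

lemma h2_congr {φ ψ : PairHom L ρ L' σ} (hr : ∀ γ, φ.r γ = ψ.r γ) (hf : ∀ a, φ.f a = ψ.f a)
    (x : H2 L ρ) : φ.h2 x = ψ.h2 x := by
  obtain ⟨a, rfl⟩ := H2.mk_surjective L ρ x
  rw [h2_mk, h2_mk]
  congr 1
  ext γ
  simp only [coe_z2, c2_apply, hr, hf]

/-- sums of coefficient maps over the same group -/
lemma h2_add {f g : A →+ B} {σ' : Act G B} (hf : ∀ γ a, f (ρ γ a) = σ' γ (f a))
    (hg : ∀ γ a, g (ρ γ a) = σ' γ (g a)) (hfg : ∀ γ a, (f + g) (ρ γ a) = σ' γ ((f + g) a))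
    (hlev : ∀ N ∈ L.carrier, ∃ N' ∈ L.carrier, ∀ γ ∈ N', (MonoidHom.id G) γ ∈ N)
    (x : H2 L ρ) :
    (PairHom.mk (MonoidHom.id G) (f + g) hlev hfg : PairHom L ρ L σ').h2 x =
      (PairHom.mk (MonoidHom.id G) f hlev hf : PairHom L ρ L σ').h2 x +
      (PairHom.mk (MonoidHom.id G) g hlev hg : PairHom L ρ L σ').h2 x := by
  obtain ⟨a, rfl⟩ := H2.mk_surjective L ρ x
  rw [h2_mk, h2_mk, h2_mk, ← map_add]
  rfl

end PairHom

/-- An equivariant additive map, over the same group and levels. -/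
structure EHom (ρ : Act G A) (σ : Act G B) where
  f : A →+ B
  comm : ∀ g a, f (ρ g a) = σ g (f a)

namespace EHom

variable {ρ : Act G A} {σ : Act G B} {τ : Act G C}

/-- an equivariant map as a morphism of pairs -/
def pair (L : Levels G) (φ : EHom ρ σ) : PairHom L ρ L σ where
  r := MonoidHom.id G
  f := φ.f
  lev N hN := ⟨N, hN, fun _ h => h⟩
  comm := φ.comm

/-- identity -/
def id (ρ : Act G A) : EHom ρ ρ := ⟨AddMonoidHom.id A, fun _ _ => rfl⟩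

/-- composition -/
def comp (ψ : EHom σ τ) (φ : EHom ρ σ) : EHom ρ τ :=
  ⟨ψ.f.comp φ.f, fun g a => by simp only [AddMonoidHom.comp_apply, φ.comm, ψ.comm]⟩

/-- map on `H¹` -/
abbrev h1 (L : Levels G) (φ : EHom ρ σ) : H1 L ρ →+ H1 L σ := (φ.pair L).h1

/-- map on `H²` -/
abbrev h2 (L : Levels G) (φ : EHom ρ σ) : H2 L ρ →+ H2 L σ := (φ.pair L).h2

/-- map on `H⁰` -/
def h0 (φ : EHom ρ σ) : H0 ρ →+ H0 σ :=
  (φ.f.comp (H0 ρ).subtype).codRestrict (H0 σ) (fun a => by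
    rw [mem_H0]; intro g
    have := mem_H0.1 a.2 g
    simp only [AddMonoidHom.comp_apply, AddSubgroup.subtype_apply, ← φ.comm, this])

@[simp] lemma coe_h0 (φ : EHom ρ σ) (a : H0 ρ) : (φ.h0 a : B) = φ.f a := rfl

lemma h1_comp (L : Levels G) (ψ : EHom σ τ) (φ : EHom ρ σ) (x : H1 L ρ) :
    (ψ.comp φ).h1 L x = ψ.h1 L (φ.h1 L x) := by
  obtain ⟨a, rfl⟩ := H1.mk_surjective L ρ x
  rfl

lemma h2_comp (L : Levels G) (ψ : EHom σ τ) (φ : EHom ρ σ) (x : H2 L ρ) :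
    (ψ.comp φ).h2 L x = ψ.h2 L (φ.h2 L x) := by
  obtain ⟨a, rfl⟩ := H2.mk_surjective L ρ x
  rfl

lemma h1_congr (L : Levels G) {φ ψ : EHom ρ σ} (h : ∀ a, φ.f a = ψ.f a) (x : H1 L ρ) :
    φ.h1 L x = ψ.h1 L x :=
  PairHom.h1_congr (φ := φ.pair L) (ψ := ψ.pair L) (fun _ => rfl) h x

lemma h2_congr (L : Levels G) {φ ψ : EHom ρ σ} (h : ∀ a, φ.f a = ψ.f a) (x : H2 L ρ) :
    φ.h2 L x = ψ.h2 L x :=
  PairHom.h2_congr (φ := φ.pair L) (ψ := ψ.pair L) (fun _ => rfl) h x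

lemma h1_of_id (L : Levels G) {φ : EHom ρ ρ} (h : ∀ a, φ.f a = a) (x : H1 L ρ) :
    φ.h1 L x = x := by
  obtain ⟨a, rfl⟩ := H1.mk_surjective L ρ x
  rw [h1, PairHom.h1_mk]
  congr 1
  ext γ
  exact h _

lemma h2_of_id (L : Levels G) {φ : EHom ρ ρ} (h : ∀ a, φ.f a = a) (x : H2 L ρ) :
    φ.h2 L x = x := by
  obtain ⟨a, rfl⟩ := H2.mk_surjective L ρ x
  rw [h2, PairHom.h2_mk]
  congr 1
  ext γ
  exact h _

lemma h1_nsmul (L : Levels G) {φ : EHom ρ ρ} {n : ℕ} (h : ∀ a, φ.f a = n • a) (x : H1 L ρ) :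
    φ.h1 L x = n • x := by
  obtain ⟨a, rfl⟩ := H1.mk_surjective L ρ x
  rw [h1, PairHom.h1_mk, ← map_nsmul]
  congr 1
  ext γ
  exact h _

lemma h2_nsmul (L : Levels G) {φ : EHom ρ ρ} {n : ℕ} (h : ∀ a, φ.f a = n • a) (x : H2 L ρ) :
    φ.h2 L x = n • x := by
  obtain ⟨a, rfl⟩ := H2.mk_surjective L ρ x
  rw [h2, PairHom.h2_mk, ← map_nsmul]
  congr 1
  ext γ
  exact h _

lemma h1_zero (L : Levels G) {φ : EHom ρ σ} (h : ∀ a, φ.f a = 0) (x : H1 L ρ) :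
    φ.h1 L x = 0 := by
  obtain ⟨a, rfl⟩ := H1.mk_surjective L ρ x
  rw [h1, PairHom.h1_mk, ← map_zero (H1.mk L σ)]
  congr 1
  ext γ
  exact h _

lemma h2_zero (L : Levels G) {φ : EHom ρ σ} (h : ∀ a, φ.f a = 0) (x : H2 L ρ) :
    φ.h2 L x = 0 := by
  obtain ⟨a, rfl⟩ := H2.mk_surjective L ρ x
  rw [h2, PairHom.h2_mk, ← map_zero (H2.mk L σ)]
  congr 1
  ext γ
  exact h _

end EHom

/-- An equivariant isomorphism. -/
structure EEquiv (ρ : Act G A) (σ : Act G B) where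
  e : A ≃+ B
  comm : ∀ g a, e (ρ g a) = σ g (e a)

namespace EEquiv

variable {ρ : Act G A} {σ : Act G B}

/-- inverse -/
def symm (E : EEquiv ρ σ) : EEquiv σ ρ :=
  ⟨E.e.symm, fun g a => by
    apply E.e.injective
    rw [AddEquiv.apply_symm_apply, E.comm, AddEquiv.apply_symm_apply]⟩

/-- underlying equivariant map -/
def hom (E : EEquiv ρ σ) : EHom ρ σ := ⟨E.e.toAddMonoidHom, E.comm⟩

/-- induced iso on `H¹` -/
def h1 (L : Levels G) (E : EEquiv ρ σ) : H1 L ρ ≃+ H1 L σ where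
  toFun := E.hom.h1 L
  invFun := E.symm.hom.h1 L
  left_inv x := by
    rw [← EHom.h1_comp]; exact EHom.h1_of_id L (fun a => E.e.symm_apply_apply a) x
  right_inv x := by
    rw [← EHom.h1_comp]; exact EHom.h1_of_id L (fun a => E.e.apply_symm_apply a) x
  map_add' := map_add _

/-- induced iso on `H²` -/
def h2 (L : Levels G) (E : EEquiv ρ σ) : H2 L ρ ≃+ H2 L σ where
  toFun := E.hom.h2 L
  invFun := E.symm.hom.h2 L
  left_inv x := by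
    rw [← EHom.h2_comp]; exact EHom.h2_of_id L (fun a => E.e.symm_apply_apply a) x
  right_inv x := by
    rw [← EHom.h2_comp]; exact EHom.h2_of_id L (fun a => E.e.apply_symm_apply a) x
  map_add' := map_add _

@[simp] lemma h1_apply (L : Levels G) (E : EEquiv ρ σ) (x : H1 L ρ) :
    E.h1 L x = E.hom.h1 L x := rfl

@[simp] lemma h2_apply (L : Levels G) (E : EEquiv ρ σ) (x : H2 L ρ) :
    E.h2 L x = E.hom.h2 L x := rfl

/-- induced iso on `H⁰` -/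
def h0 (E : EEquiv ρ σ) : H0 ρ ≃+ H0 σ where
  toFun := E.hom.h0
  invFun := E.symm.hom.h0
  left_inv _ := Subtype.ext (E.e.symm_apply_apply _)
  right_inv _ := Subtype.ext (E.e.apply_symm_apply _)
  map_add' := map_add _

end EEquiv

end Fermat.Agent.PT
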