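import Fermat.Agent.PT.LES

/-!
# Coefficients `X → A` for finite `G`-sets `X`, coinduced modules, Shapiro's lemma
-/

set_option autoImplicit false

namespace Fermat.Agent.PT

variable {G Γ : Type*} [Group G] [Group Γ]

section Naturality

variable {A B C A' B' C' : Type*} [AddCommGroup A] [AddCommGroup B] [AddCommGroup C]
  [AddCommGroup A'] [AddCommGroup B'] [AddCommGroup C']
  {ρA : Act G A} {ρB : Act G B} {ρC : Act G C} {σA : Act Γ A'} {σB : Act Γ B'} {σC : Act Γ C'}
  {L : Levels G} {L' : Levels Γ}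

lemma SES.δ0_nat (S : SES ρA ρB ρC) (S' : SES σA σB σC) (hB : Smooth L ρB)
    (hB' : Smooth L' σB) (φA : PairHom L ρA L' σA) (φB : PairHom L ρB L' σB)
    (φC : PairHom L ρC L' σC) (hA : ∀ γ, φA.r γ = φB.r γ)
    (hi : ∀ a, φB.f (S.i.f a) = S'.i.f (φA.f a)) (hp : ∀ b, φC.f (S.p.f b) = S'.p.f (φB.f b))
    (x : H0 ρC) : φA.h1 (S.δ0 hB x) = S'.δ0 hB' (φC.h0 x) := by
  obtain ⟨b, a, hb, ha, hδ⟩ := S.exists_δ0 hB x
  rw [hδ, PairHom.h1_mk]
  symm
  refine S'.δ0_eq hB' _ (φB.f b) _ ?_ (fun g => ?_)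
  · rw [← hp, hb]; rfl
  · show S'.i.f (φA.f ((a : G → A) (φA.r g))) = d0 σB (φB.f b) g
    rw [← hi, ha, ← φB.c1_d0, hA]; rfl

lemma SES.δ1_nat (S : SES ρA ρB ρC) (S' : SES σA σB σC) (hB : Smooth L ρB)
    (hB' : Smooth L' σB) (φA : PairHom L ρA L' σA) (φB : PairHom L ρB L' σB)
    (φC : PairHom L ρC L' σC) (hA : ∀ γ, φA.r γ = φB.r γ) (hC : ∀ γ, φC.r γ = φB.r γ)
    (hi : ∀ a, φB.f (S.i.f a) = S'.i.f (φA.f a)) (hp : ∀ b, φC.f (S.p.f b) = S'.p.f (φB.f b))
    (x : H1 L ρC) : φA.h2 (S.δ1 hB x) = S'.δ1 hB' (φC.h1 x) := by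
  obtain ⟨c, rfl⟩ := H1.mk_surjective L ρC x
  obtain ⟨b, a, hbL, hb, ha, hδ⟩ := S.exists_δ1 hB c
  rw [hδ, PairHom.h2_mk, PairHom.h1_mk]
  symm
  refine S'.δ1_eq hB' _ (φB.c1 b) (IsLC₁.comp (φB.lc₁ hbL) _) _ (fun g => ?_) (fun g h => ?_)
  · show S'.p.f (φB.f (b (φB.r g))) = φC.f ((c : G → C) (φC.r g))
    rw [← hp, hb, hC]
  · show S'.i.f (φA.f ((a : G → G → A) (φA.r g) (φA.r h))) = d1 σB (φB.c1 b) g h
    rw [← hi, ha, ← φB.c2_d1, hA, hA]; rfl

end Naturality

section MapAct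

variable {A B C : Type*} [AddCommGroup A] [AddCommGroup B] [AddCommGroup C] {X X' : Type*}

/-- The action of `G` on functions `X → A`: `(g f) x = g (f (g⁻¹ x))`. -/
def mapAct (ξ : G →* Equiv.Perm X) (ρ : Act G A) : Act G (X → A) where
  toFun g :=
    { toFun := fun f x => ρ g (f (ξ g⁻¹ x))
      map_zero' := by ext x; simp
      map_add' := fun f f' => by ext x; simp }
  map_one' := by
    ext f x
    show ρ 1 (f (ξ 1⁻¹ x)) = f x
    simp
  map_mul' g h := by
    ext f x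
    show ρ (g * h) (f (ξ (g * h)⁻¹ x)) = ρ g (ρ h (f (ξ h⁻¹ (ξ g⁻¹ x))))
    rw [act_mul, mul_inv_rev, map_mul]; rfl

lemma mapAct_apply (ξ : G →* Equiv.Perm X) (ρ : Act G A) (g : G) (f : X → A) (x : X) :
    mapAct ξ ρ g f x = ρ g (f (ξ g⁻¹ x)) := rfl

lemma mem_H0_mapAct {ξ : G →* Equiv.Perm X} {ρ : Act G A} {f : X → A} :
    f ∈ H0 (mapAct ξ ρ) ↔ ∀ g x, f (ξ g x) = ρ g (f x) := by
  rw [mem_H0]
  constructor
  · intro h g x
    have := congrFun (h g) (ξ g x)
    rw [mapAct_apply] at this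
    rw [← this]
    congr 2
    rw [← Equiv.Perm.mul_apply, ← map_mul, inv_mul_cancel, map_one]; rfl
  · intro h g
    ext x
    rw [mapAct_apply, ← h, ← Equiv.Perm.mul_apply, ← map_mul, mul_inv_cancel, map_one]; rfl

/-- some level acts trivially on `X` -/
def LevelTrivial (L : Levels G) (ξ : G →* Equiv.Perm X) : Prop :=
  ∃ N ∈ L.carrier, ∀ s ∈ N, ∀ x, ξ s x = x

lemma Smooth.mapAct [Finite X] {L : Levels G} {ξ : G →* Equiv.Perm X} {ρ : Act G A}
    (hξ : LevelTrivial L ξ) (hρ : Smooth L ρ) : Smooth L (mapAct ξ ρ) := by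
  intro f
  obtain ⟨N, hN, h⟩ := hξ
  obtain ⟨M, hM, hfix⟩ := hρ.exists_level (Set.finite_range f)
  obtain ⟨K, hK, hKN, hKM⟩ := L.directed' N hN M hM
  refine ⟨K, hK, fun s hs => ?_⟩
  ext x
  rw [mapAct_apply, h _ (hKN (K.inv_mem hs)), hfix _ ⟨x, rfl⟩ s (hKM hs)]

/-- postcomposition -/
def EHom.mapX {ρ : Act G A} {σ : Act G B} (ξ : G →* Equiv.Perm X) (φ : EHom ρ σ) :
    EHom (mapAct ξ ρ) (mapAct ξ σ) where
  f :=
    { toFun := fun f x => φ.f (f x)
      map_zero' := by ext x; simp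
      map_add' := fun f f' => by ext x; simp }
  comm g f := by
    ext x
    exact φ.comm _ _

@[simp] lemma EHom.mapX_f {ρ : Act G A} {σ : Act G B} (ξ : G →* Equiv.Perm X) (φ : EHom ρ σ)
    (f : X → A) (x : X) : (φ.mapX ξ).f f x = φ.f (f x) := rfl

/-- postcomposition with an iso -/
def EEquiv.mapX {ρ : Act G A} {σ : Act G B} (ξ : G →* Equiv.Perm X) (E : EEquiv ρ σ) :
    EEquiv (mapAct ξ ρ) (mapAct ξ σ) where
  e :=
    { toFun := fun f x => E.e (f x)
      invFun := fun f x => E.e.symm (f x)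
      left_inv := fun f => by ext x; simp
      right_inv := fun f => by ext x; simp
      map_add' := fun f f' => by ext x; simp }
  comm g f := by
    ext x
    exact E.comm _ _

/-- exactness of `X → -` -/
def SES.mapX {ρA : Act G A} {ρB : Act G B} {ρC : Act G C} (ξ : G →* Equiv.Perm X)
    (S : SES ρA ρB ρC) : SES (mapAct ξ ρA) (mapAct ξ ρB) (mapAct ξ ρC) where
  i := S.i.mapX ξ
  p := S.p.mapX ξ
  inj f f' h := by
    ext x
    exact S.inj (congrFun h x)
  surj f := ⟨fun x => Function.surjInv S.surj (f x), by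
    ext x
    exact Function.surjInv_eq S.surj _⟩
  exact f := by
    constructor
    · intro h
      choose a ha using fun x => (S.exact (f x)).1 (congrFun h x)
      exact ⟨a, funext ha⟩
    · rintro ⟨a, rfl⟩
      ext x
      exact S.p_i _

/-- pullback along an equivariant map of `G`-sets -/
def pullHom (ρ : Act G A) {ξ : G →* Equiv.Perm X} {ξ' : G →* Equiv.Perm X'} (π : X' → X)
    (hπ : ∀ g x, π (ξ' g x) = ξ g (π x)) : EHom (mapAct ξ ρ) (mapAct ξ' ρ) where
  f :=
    { toFun := fun f x => f (π x)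
      map_zero' := rfl
      map_add' := fun f f' => rfl }
  comm g f := by
    ext x
    show ρ g (f (ξ g⁻¹ (π x))) = ρ g (f (π (ξ' g⁻¹ x)))
    rw [hπ]

@[simp] lemma pullHom_f (ρ : Act G A) {ξ : G →* Equiv.Perm X} {ξ' : G →* Equiv.Perm X'}
    (π : X' → X) (hπ : ∀ g x, π (ξ' g x) = ξ g (π x)) (f : X → A) (x : X') :
    (pullHom ρ π hπ).f f x = f (π x) := rfl

/-- push-forward (sum over fibres) along an equivariant map of finite `G`-sets -/
noncomputable def pushHom (ρ : Act G A) [Fintype X'] [DecidableEq X] {ξ : G →* Equiv.Perm X}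
    {ξ' : G →* Equiv.Perm X'} (π : X' → X)
    (hπ : ∀ g x, π (ξ' g x) = ξ g (π x)) : EHom (mapAct ξ' ρ) (mapAct ξ ρ) where
  f :=
    { toFun := fun f x => ∑ y, if π y = x then f y else 0
      map_zero' := by ext x; simp
      map_add' := fun f f' => by
        ext x
        simp only [Pi.add_apply, ← Finset.sum_add_distrib]
        refine Finset.sum_congr rfl fun y _ => ?_
        split_ifs <;> simp }
  comm g f := by
    ext x
    show (∑ y, if π y = x then ρ g (f (ξ' g⁻¹ y)) else 0) =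
      ρ g (∑ y, if π y = ξ g⁻¹ x then f y else 0)
    rw [map_sum]
    refine Fintype.sum_equiv (ξ' g⁻¹) _ _ fun y => ?_
    have h1 : π (ξ' g⁻¹ y) = ξ g⁻¹ (π y) := hπ _ _
    rw [h1]
    by_cases h : π y = x
    · rw [if_pos h, if_pos (by rw [h])]
    · rw [if_neg h, if_neg (fun h' => h ((ξ g⁻¹).injective h')), map_zero]

lemma pushHom_f (ρ : Act G A) [Fintype X'] [DecidableEq X] {ξ : G →* Equiv.Perm X}
    {ξ' : G →* Equiv.Perm X'} (π : X' → X)
    (hπ : ∀ g x, π (ξ' g x) = ξ g (π x)) (f : X' → A) (x : X) :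
    (pushHom ρ π hπ).f f x = ∑ y, if π y = x then f y else 0 := rfl

/-- constant functions -/
def constHom (ξ : G →* Equiv.Perm X) (ρ : Act G A) : EHom ρ (mapAct ξ ρ) where
  f :=
    { toFun := fun a _ => a
      map_zero' := rfl
      map_add' := fun _ _ => rfl }
  comm _ _ := rfl

/-- sum of all values -/
def sumHom [Fintype X] (ξ : G →* Equiv.Perm X) (ρ : Act G A) : EHom (mapAct ξ ρ) ρ where
  f :=
    { toFun := fun f => ∑ x, f x
      map_zero' := by simp
      map_add' := fun f f' => by simp [Finset.sum_add_distrib] }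
  comm g f := by
    show ∑ x, ρ g (f (ξ g⁻¹ x)) = ρ g (∑ x, f x)
    rw [map_sum]
    exact Fintype.sum_equiv (ξ g⁻¹) _ _ fun y => rfl

@[simp] lemma constHom_f (ξ : G →* Equiv.Perm X) (ρ : Act G A) (a : A) (x : X) :
    (constHom ξ ρ).f a x = a := rfl

@[simp] lemma sumHom_f [Fintype X] (ξ : G →* Equiv.Perm X) (ρ : Act G A) (f : X → A) :
    (sumHom ξ ρ).f f = ∑ x, f x := rfl

end MapAct

/-! ### Coinduced modules -/

section Coind

variable {A : Type*} [AddCommGroup A]

variable (A) in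
/-- The coinduced module: level-constant functions `G → A` with right translation. -/
def coindAct (L : Levels G) : Act G (C1 A L) where
  toFun g :=
    { toFun := fun φ => ⟨fun x => (φ : G → A) (x * g), by
        obtain ⟨N, hN, h⟩ := φ.2
        refine ⟨N, hN, fun x s hs => ?_⟩
        have hn := (L.normal' N hN).conj_mem s hs g⁻¹
        have h2 : x * s * g = x * g * (g⁻¹ * s * g⁻¹⁻¹) := by group
        show (φ : G → A) (x * s * g) = (φ : G → A) (x * g)
        rw [h2, h _ _ hn]⟩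
      map_zero' := rfl
      map_add' := fun _ _ => rfl }
  map_one' := by
    ext φ x
    show (φ : G → A) (x * 1) = (φ : G → A) x
    rw [mul_one]
  map_mul' g h := by
    ext φ x
    show (φ : G → A) (x * (g * h)) = (φ : G → A) (x * g * h)
    rw [mul_assoc]

lemma coindAct_apply (L : Levels G) (g : G) (φ : C1 A L) (x : G) :
    (coindAct A L g φ : G → A) x = (φ : G → A) (x * g) := rfl

lemma smooth_coindAct (L : Levels G) : Smooth L (coindAct A L) := by
  intro φ
  obtain ⟨N, hN, h⟩ := φ.2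
  refine ⟨N, hN, fun s hs => ?_⟩
  apply Subtype.ext
  ext x
  exact h x s hs

/-- the canonical embedding `A → coind A` -/
def coindι {L : Levels G} {ρ : Act G A} (hρ : Smooth L ρ) : EHom ρ (coindAct A L) where
  f :=
    { toFun := fun a => ⟨fun x => ρ x a, hρ.isLC₁ a⟩
      map_zero' := by apply Subtype.ext; ext x; simp
      map_add' := fun a b => by apply Subtype.ext; ext x; simp }
  comm g a := by
    apply Subtype.ext; ext x
    show ρ x (ρ g a) = ρ (x * g) a
    rw [act_mul]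

lemma coindι_inj {L : Levels G} {ρ : Act G A} (hρ : Smooth L ρ) :
    Function.Injective (coindι hρ).f := by
  intro a b h
  have := congrFun (congrArg Subtype.val h) 1
  simpa [coindι] using this

/-- quotient action -/
def quotAct {B : Type*} [AddCommGroup B] (ρ : Act G B) (K : AddSubgroup B)
    (hK : ∀ g, ∀ b ∈ K, ρ g b ∈ K) : Act G (B ⧸ K) where
  toFun g := QuotientAddGroup.map K K (ρ g) (fun b hb => hK g b hb)
  map_one' := by
    ext b
    obtain ⟨b, rfl⟩ := QuotientAddGroup.mk_surjective b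
    show ((ρ 1 b : B) : B ⧸ K) = (b : B ⧸ K)
    rw [act_one]
  map_mul' g h := by
    ext b
    obtain ⟨b, rfl⟩ := QuotientAddGroup.mk_surjective b
    show ((ρ (g * h) b : B) : B ⧸ K) = ((ρ g (ρ h b) : B) : B ⧸ K)
    rw [act_mul]

/-- a canonical short exact sequence from an injective equivariant map -/
def SES.ofInj {B : Type*} [AddCommGroup B] {ρA : Act G A} {ρB : Act G B} (i : EHom ρA ρB)
    (hi : Function.Injective i.f) :
    SES ρA ρB (quotAct ρB i.f.range (by
      rintro g _ ⟨a, rfl⟩; exact ⟨ρA g a, i.comm g a⟩)) where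
  i := i
  p := ⟨QuotientAddGroup.mk' _, fun _ _ => rfl⟩
  inj := hi
  surj := QuotientAddGroup.mk'_surjective _
  exact b := by
    show (b : B ⧸ i.f.range) = 0 ↔ _
    rw [QuotientAddGroup.eq_zero_iff]; rfl

/-- a canonical short exact sequence from a surjective equivariant map -/
def kerAct {B C : Type*} [AddCommGroup B] [AddCommGroup C] {ρB : Act G B} {ρC : Act G C}
    (p : EHom ρB ρC) : Act G p.f.ker where
  toFun g :=
    { toFun := fun b => ⟨ρB g b, by rw [AddMonoidHom.mem_ker, p.comm, b.2, map_zero]⟩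
      map_zero' := by apply Subtype.ext; simp
      map_add' := fun a b => by apply Subtype.ext; simp }
  map_one' := by
    ext b
    show ρB 1 b = b
    rw [act_one]
  map_mul' g h := by
    ext b
    show ρB (g * h) b = ρB g (ρB h b)
    rw [act_mul]

/-- a canonical short exact sequence from a surjective equivariant map -/
def SES.ofSurj {B C : Type*} [AddCommGroup B] [AddCommGroup C] {ρB : Act G B} {ρC : Act G C}
    (p : EHom ρB ρC) (hp : Function.Surjective p.f) : SES (kerAct p) ρB ρC where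
  i := ⟨p.f.ker.subtype, fun _ _ => rfl⟩
  p := p
  inj := Subtype.val_injective
  surj := hp
  exact b := ⟨fun h => ⟨⟨b, h⟩, rfl⟩, by rintro ⟨a, rfl⟩; exact a.2⟩

/-- `H¹(G, X → coind A) = 0` -/
theorem h1_mapAct_coind {X : Type*} {L : Levels G} {ξ : G →* Equiv.Perm X}
    (hξ : LevelTrivial L ξ) (x : H1 L (mapAct ξ (coindAct A L))) : x = 0 := by
  obtain ⟨f, rfl⟩ := H1.mk_surjective _ _ x
  obtain ⟨hfL, hf⟩ := mem_Z1'.1 f.2
  obtain ⟨M, hM, hMX⟩ := hξ
  refine H1.mk_eq_zero.2 ⟨fun x => ⟨fun y => ((f : G → X → C1 A L) y (ξ y x) : G → A) 1, ?_⟩, ?_⟩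
  · obtain ⟨N, hN, h⟩ := hfL
    obtain ⟨K, hK, hKN, hKM⟩ := L.directed' N hN M hM
    refine ⟨K, hK, fun g s hs => ?_⟩
    show ((f : G → X → C1 A L) (g * s) (ξ (g * s) x) : G → A) 1 = _
    rw [h g s (hKN hs), map_mul, Equiv.Perm.mul_apply, hMX s (hKM hs)]
  · ext h x y
    have h2 := hf y h
    have h3 := congrFun (congrArg Subtype.val (congrFun h2 (ξ y x))) 1
    simp only [Pi.add_apply, AddSubgroup.coe_add, mapAct_apply, coindAct_apply, one_mul] at h3
    have h4 : ξ y⁻¹ (ξ y x) = x := by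
      rw [← Equiv.Perm.mul_apply, ← map_mul, inv_mul_cancel, map_one]; rfl
    rw [h4] at h3
    have h5 : ξ (y * h) (ξ h⁻¹ x) = ξ y x := by
      rw [← Equiv.Perm.mul_apply, ← map_mul, mul_assoc, mul_inv_cancel, mul_one]
    show ((f : G → X → C1 A L) (y * h) (ξ (y * h) (ξ h⁻¹ x)) : G → A) 1 -
      ((f : G → X → C1 A L) y (ξ y x) : G → A) 1 = _
    rw [h5, h3]; abel

/-- `H²(G, X → coind A) = 0` -/
theorem h2_mapAct_coind {X : Type*} {L : Levels G} {ξ : G →* Equiv.Perm X}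
    (hξ : LevelTrivial L ξ) (x : H2 L (mapAct ξ (coindAct A L))) : x = 0 := by
  obtain ⟨f, rfl⟩ := H2.mk_surjective _ _ x
  obtain ⟨hfL, hf⟩ := mem_Z2'.1 f.2
  obtain ⟨M, hM, hMX⟩ := hξ
  obtain ⟨N, hN, hc⟩ := hfL
  obtain ⟨K, hK, hKN, hKM⟩ := L.directed' N hN M hM
  refine H2.mk_eq_zero.2 ⟨fun h x => ⟨fun y => ((f : G → G → X → C1 A L) y h (ξ y x) : G → A) 1,
    ?_⟩, ?_, ?_⟩
  · refine ⟨K, hK, fun g s hs => ?_⟩
    have := hc g h s (hKN hs) 1 N.one_mem
    rw [mul_one] at this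
    show ((f : G → G → X → C1 A L) (g * s) h (ξ (g * s) x) : G → A) 1 = _
    rw [this, map_mul, Equiv.Perm.mul_apply, hMX s (hKM hs)]
  · refine ⟨K, hK, fun g s hs => ?_⟩
    ext x y
    have := hc y g 1 N.one_mem s (hKN hs)
    rw [mul_one] at this
    show ((f : G → G → X → C1 A L) y (g * s) (ξ y x) : G → A) 1 = _
    rw [this]
  · ext h j x y
    have h2 := hf y h j
    have h3 := congrFun (congrArg Subtype.val (congrFun h2 (ξ y x))) 1
    simp only [Pi.add_apply, AddSubgroup.coe_add, mapAct_apply, coindAct_apply, one_mul] at h3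
    have h4 : ξ y⁻¹ (ξ y x) = x := by
      rw [← Equiv.Perm.mul_apply, ← map_mul, inv_mul_cancel, map_one]; rfl
    rw [h4] at h3
    have h5 : ξ (y * h) (ξ h⁻¹ x) = ξ y x := by
      rw [← Equiv.Perm.mul_apply, ← map_mul, mul_assoc, mul_inv_cancel, mul_one]
    show ((f : G → G → X → C1 A L) (y * h) j (ξ (y * h) (ξ h⁻¹ x)) : G → A) 1 -
      ((f : G → G → X → C1 A L) y (h * j) (ξ y x) : G → A) 1 +
      ((f : G → G → X → C1 A L) y h (ξ y x) : G → A) 1 = _
    rw [h5]
    have h6 : ((f : G → G → X → C1 A L) h j x : G → A) y =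
      ((f : G → G → X → C1 A L) (y * h) j (ξ y x) : G → A) 1 +
      ((f : G → G → X → C1 A L) y h (ξ y x) : G → A) 1 -
      ((f : G → G → X → C1 A L) y (h * j) (ξ y x) : G → A) 1 := by
      rw [h3]; abel
    rw [h6]; abel

end Coind

end Fermat.Agent.PT
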