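import Fermat.Agent.PT.Formal

/-!
# Poitou–Tate: middle exactness, and the Greenberg–Wiles formula (formal part)
-/

set_option autoImplicit false

namespace Fermat.Agent.PT

section FreeDual

variable {G Γ : Type*} [Group G] [Group Γ] {A B : Type*} [AddCommGroup A] [AddCommGroup B]
  {ρ : Act G A} {σ : Act G B} {J : Type*} [Fintype J] [DecidableEq J]

/-- restriction of a free structure along a homomorphism -/
def FreeOn.along (F : FreeOn J ρ σ) (r : Γ →* G) : FreeOn J (ρ.comp r) (σ.comp r) where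
  a j := (F.a j).along r
  b j := (F.b j).along r
  ba := F.ba
  ab := F.ab

/-- dual of a free structure -/
def FreeOn.dual {p : ℕ} (μ : Act G (ZMod p)) (F : FreeOn J ρ σ) :
    FreeOn J (dualAct μ ρ) (dualAct μ σ) where
  a j := (F.b j).dual μ
  b j := (F.a j).dual μ
  ba i j φ := by
    apply AddMonoidHom.ext
    intro z
    show φ ((F.b j).f ((F.a i).f z)) = _
    rw [F.ba]
    by_cases h : i = j
    · subst h
      rw [if_pos rfl, if_pos rfl]
    · rw [if_neg h, if_neg (Ne.symm h), map_zero]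
      rfl
  ab φ := by
    apply AddMonoidHom.ext
    intro z
    conv_rhs => rw [← F.ab z, map_sum]
    rw [AddMonoidHom.finsetSum_apply]
    rfl

lemma FreeOn.chi_eq (F : FreeOn J ρ σ) (L : Levels G) :
    chi L σ = chi L ρ ^ Fintype.card J := by
  unfold chi
  rw [F.card_h0, F.card_h1 L, F.card_h2 L]
  push_cast
  rw [div_pow, mul_pow]

lemma EEquiv.chi_eq (E : EEquiv ρ σ) (L : Levels G) : chi L σ = chi L ρ := by
  unfold chi
  rw [Nat.card_congr E.h0.toEquiv, Nat.card_congr (E.h1 L).toEquiv,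
    Nat.card_congr (E.h2 L).toEquiv]

end FreeDual

section DoubleDual

variable {G : Type*} [Group G] {p : ℕ} [Fact p.Prime] {A : Type*} [AddCommGroup A] [Finite A]

lemma card_hom_zmod (hp : ∀ a : A, p • a = 0) : Nat.card (A →+ ZMod p) = Nat.card A :=
  card_hom hp (Nat.card_zmod p)

/-- evaluation is bijective -/
lemma eval_bijective (hp : ∀ a : A, p • a = 0) :
    Function.Bijective (AddMonoidHom.eval : A →+ (A →+ ZMod p) →+ ZMod p) := by
  have : Finite (A →+ ZMod p) := DFunLike.finite _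
  have : Finite ((A →+ ZMod p) →+ ZMod p) := DFunLike.finite _
  have hinj : Function.Injective (AddMonoidHom.eval : A →+ (A →+ ZMod p) →+ ZMod p) := by
    rw [injective_iff_map_eq_zero]
    intro a ha
    by_contra hne
    obtain ⟨l, hl⟩ := exists_hom_ne_zero hp (Nat.card_zmod p) hne
    exact hl (DFunLike.congr_fun ha l)
  refine hinj.bijective_of_nat_card_le ?_
  rw [card_hom_zmod (fun φ => by
    apply AddMonoidHom.ext
    intro a
    show p • φ a = 0
    rw [← map_nsmul, hp, map_zero]), card_hom_zmod hp]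

/-- the double dual -/
noncomputable def ddEquiv (hp : ∀ a : A, p • a = 0) (μ : Act G (ZMod p)) (ρ : Act G A) :
    EEquiv ρ (dualAct μ (dualAct μ ρ)) where
  e := AddEquiv.ofBijective _ (eval_bijective hp)
  comm g a := by
    apply AddMonoidHom.ext
    intro φ
    show φ (ρ g a) = μ g (μ g⁻¹ (φ (ρ g⁻¹⁻¹ a)))
    rw [act_self_inv, inv_inv]

end DoubleDual

section Theta

variable {G : Type} [Group G] {p : ℕ} [Fact p.Prime] {L : Levels G} {F : CFun G p L}
  {μ : Act G (ZMod p)} {W : Subgroup G}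

lemma CFun.ThetaHyp.card_obj (H : F.ThetaHyp μ W) {X : Type} [AddCommGroup X] [Finite X]
    (ρ : Act G X) (hρ : Smooth L ρ) (hp : ∀ x : X, p • x = 0) :
    Nat.card (F.obj ρ) = Nat.card (H0 (dualAct μ ρ)) := by
  have : Finite (X →+ ZMod p) := DFunLike.finite _
  have h := H.main ρ hρ hp
  have hb : Function.Bijective (F.thetaHom μ ρ) := by
    constructor
    · rw [injective_iff_map_eq_zero]
      intro x hx
      exact h.1 x fun φ => DFunLike.congr_fun hx φ
    · intro l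
      obtain ⟨x, hx⟩ := h.2 l
      exact ⟨x, AddMonoidHom.ext hx⟩
  rw [Nat.card_congr (Equiv.ofBijective _ hb)]
  exact card_hom (h0_dual_torsion μ ρ) H.card

end Theta

variable {G : Type} [Group G] {D : PTData G} {p : ℕ} [Fact p.Prime] {μ : Act G (ZMod p)}
  {W : Subgroup G} {e : D.ι → ℕ} (H : PTHyp D p μ W e)

section Basic

variable {A B C : Type} [AddCommGroup A] [AddCommGroup B] [AddCommGroup C]

include H in
lemma PTHyp.finite_loc [Finite A] {ρ : Act G A} (hρ : Smooth D.L ρ) (hp : ∀ a : A, p • a = 0)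
    (v : D.ι) : Fin012 (D.Lv v) (ρ.comp (D.r v)) :=
  fin012_of_chi (D.Lv v) _ (H.loc v).isOpen (H.loc v).idx
    (fun _ hV hVW => (H.loc v).fin012 hV hVW) (hρ.along v) hp

include H in
/-- `|H²(M)| |H⁰(M')| = |Ш²(M)| ∏ |H²(Γ_v, M)|` -/
theorem PTHyp.card_H2_mul [Finite A] {ρ : Act G A} (hρ : Smooth D.L ρ)
    (hp : ∀ a : A, p • a = 0) :
    Nat.card (H2 D.L ρ) * Nat.card (H0 (dualAct μ ρ)) =
      Nat.card (D.sha2 ρ) * Nat.card (D.P2 ρ) := by
  have h1 : Nat.card (D.Coker ρ) = Nat.card (H0 (dualAct μ ρ)) := H.dTheta.card_obj ρ hρ hp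
  have h2 := card_eq_ker_mul_range (D.tot2 ρ)
  have h3 : Nat.card (D.P2 ρ) = Nat.card (D.Coker ρ) * Nat.card (D.tot2 ρ).range :=
    AddSubgroup.card_eq_card_quotient_mul_card_addSubgroup _
  rw [h2, ← h1, h3, mul_assoc, mul_comm (Nat.card (D.tot2 ρ).range)]
  rfl

include H in
/-- local duality in degrees 0 and 2 -/
lemma PTHyp.card_loc_H2_eq [Finite A] {ρ : Act G A} (hρ : Smooth D.L ρ)
    (hp : ∀ a : A, p • a = 0) (v : D.ι) :
    Nat.card (H2 (D.Lv v) (ρ.comp (D.r v))) =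
      Nat.card (H0 ((dualAct μ ρ).comp (D.r v))) := by
  rw [Nat.card_congr (dualComp μ ρ (D.r v)).h0.toEquiv]
  exact (H.loc v).theta.card_obj _ (hρ.along v) hp

include H in
lemma PTHyp.card_loc_H2_dual [Finite A] {ρ : Act G A} (hρ : Smooth D.L ρ)
    (hp : ∀ a : A, p • a = 0) (v : D.ι) :
    Nat.card (H2 (D.Lv v) ((dualAct μ ρ).comp (D.r v))) =
      Nat.card (H0 (ρ.comp (D.r v))) := by
  have : Finite (A →+ ZMod p) := DFunLike.finite _
  rw [H.card_loc_H2_eq (Smooth.dual H.smooth hρ) (fun a => dual_torsion a) v,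
    Nat.card_congr ((ddEquiv hp μ ρ).along (D.r v)).h0.toEquiv]

/-- the combined Euler characteristic -/
noncomputable def FF (D : PTData G) (μ : Act G (ZMod p)) (ρ : Act G A) : ℝ :=
  chi D.L ρ * chi D.L (dualAct μ ρ) / ∏ v, chi (D.Lv v) (ρ.comp (D.r v))

/-- dual equivalence -/
def EEquiv.dual {ρ : Act G A} {σ : Act G B} (μ : Act G (ZMod p)) (E : EEquiv ρ σ) :
    EEquiv (dualAct μ σ) (dualAct μ ρ) where
  e :=
    { toFun := (E.hom.dual μ).f
      invFun := (E.symm.hom.dual μ).f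
      left_inv := fun φ => by
        apply AddMonoidHom.ext
        intro b
        show φ (E.e (E.e.symm b)) = φ b
        rw [AddEquiv.apply_symm_apply]
      right_inv := fun φ => by
        apply AddMonoidHom.ext
        intro b
        show φ (E.e.symm (E.e b)) = φ b
        rw [AddEquiv.symm_apply_apply]
      map_add' := map_add _ }
  comm := (E.hom.dual μ).comm

lemma FF_congr {ρ : Act G A} {σ : Act G B} (E : EEquiv ρ σ) : FF D μ σ = FF D μ ρ := by
  unfold FF
  rw [E.chi_eq D.L, (E.dual μ).chi_eq D.L,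
    Finset.prod_congr rfl fun v _ => (E.along (D.r v)).chi_eq (D.Lv v)]

lemma FF_free {J : Type} [Fintype J] [DecidableEq J] {ρ : Act G A} {σ : Act G B}
    (F : FreeOn J ρ σ) : FF D μ σ = FF D μ ρ ^ Fintype.card J := by
  unfold FF
  rw [F.chi_eq D.L, (F.dual μ).chi_eq D.L,
    Finset.prod_congr rfl fun v _ => (F.along (D.r v)).chi_eq (D.Lv v), Finset.prod_pow,
    div_pow, mul_pow]

include H in
lemma PTHyp.chi_mul {ρA : Act G A} {ρB : Act G B} {ρC : Act G C} [Finite B]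
    (S : SES ρA ρB ρC) (hB : Smooth D.L ρB) (hp : ∀ b : B, p • b = 0) :
    chi D.L ρA * chi D.L ρC = chi D.L ρB := by
  have : Finite A := Finite.of_injective _ S.inj
  have : Finite C := Finite.of_surjective _ S.surj
  have hpA : ∀ a : A, p • a = 0 := fun a => S.inj (by rw [map_nsmul, hp, map_zero])
  have hpC : ∀ c : C, p • c = 0 := fun c => by
    obtain ⟨b, rfl⟩ := S.surj c
    rw [← map_nsmul, hp, map_zero]
  rw [S.chi_mul hB (H.finite (S.smooth_left hB) hpA) (H.finite (S.smooth_right hB) hpC),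
    AddMonoidHom.range_eq_top.2 (H.surj S hB hp), AddSubgroup.index_top, Nat.cast_one, mul_one]

include H in
lemma PTHyp.chi_mul_loc {ρA : Act G A} {ρB : Act G B} {ρC : Act G C} [Finite B]
    (S : SES ρA ρB ρC) (hB : Smooth D.L ρB) (hp : ∀ b : B, p • b = 0) (v : D.ι) :
    chi (D.Lv v) (ρA.comp (D.r v)) * chi (D.Lv v) (ρC.comp (D.r v)) =
      chi (D.Lv v) (ρB.comp (D.r v)) := by
  have : Finite A := Finite.of_injective _ S.inj
  have : Finite C := Finite.of_surjective _ S.surj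
  have hpA : ∀ a : A, p • a = 0 := fun a => S.inj (by rw [map_nsmul, hp, map_zero])
  have hpC : ∀ c : C, p • c = 0 := fun c => by
    obtain ⟨b, rfl⟩ := S.surj c
    rw [← map_nsmul, hp, map_zero]
  rw [(S.along (D.r v)).chi_mul (hB.along v) (H.finite_loc (S.smooth_left hB) hpA v)
    (H.finite_loc (S.smooth_right hB) hpC v),
    AddMonoidHom.range_eq_top.2 ((H.loc v).surj (S.along (D.r v)) (hB.along v) hp),
    AddSubgroup.index_top, Nat.cast_one, mul_one]

include H in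
lemma PTHyp.chi_pos [Finite A] {ρ : Act G A} (hρ : Smooth D.L ρ) (hp : ∀ a : A, p • a = 0) :
    0 < chi D.L ρ := PT.chi_pos (H.finite hρ hp)

include H in
lemma PTHyp.chi_pos_loc [Finite A] {ρ : Act G A} (hρ : Smooth D.L ρ)
    (hp : ∀ a : A, p • a = 0) (v : D.ι) : 0 < chi (D.Lv v) (ρ.comp (D.r v)) :=
  PT.chi_pos (H.finite_loc hρ hp v)

include H in
lemma PTHyp.FF_mul {ρA : Act G A} {ρB : Act G B} {ρC : Act G C} [Finite B]
    (S : SES ρA ρB ρC) (hB : Smooth D.L ρB) (hp : ∀ b : B, p • b = 0) :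
    FF D μ ρA * FF D μ ρC = FF D μ ρB := by
  have : Finite (B →+ ZMod p) := DFunLike.finite _
  have h1 := H.chi_mul S hB hp
  have h2 := H.chi_mul (S.dual μ hp) (Smooth.dual H.smooth hB) (fun a => dual_torsion a)
  have h3 : (∏ v, chi (D.Lv v) (ρA.comp (D.r v))) * ∏ v, chi (D.Lv v) (ρC.comp (D.r v)) =
      ∏ v, chi (D.Lv v) (ρB.comp (D.r v)) := by
    rw [← Finset.prod_mul_distrib]
    exact Finset.prod_congr rfl fun v _ => H.chi_mul_loc S hB hp v
  unfold FF
  rw [← h1, ← h2, ← h3, div_mul_div_comm]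
  congr 1
  ring

end Basic

include H in
/-- order of local `H⁰` of `Map(G/U, μ)` -/
lemma card_loc_H0 (v : D.ι) {U : Subgroup G} (hU : IsOpenSub D.L U) (hUW : U ≤ W) :
    Nat.card (H0 ((mapAct (cosetAct U) μ).comp (D.r v))) =
      p ^ Nat.card (Orb ((cosetAct U).comp (D.r v))) := by
  have := hU.finiteIndex
  have : Finite (Orb ((cosetAct U).comp (D.r v))) := Quotient.finite _
  have : Fintype (Orb ((cosetAct U).comp (D.r v))) := Fintype.ofFinite _
  rw [Nat.card_congr (mapComp (cosetAct U) μ (D.r v)).h0.toEquiv,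
    Nat.card_congr (Equiv.ofBijective _ ((reps_orb ((cosetAct U).comp (D.r v))).h0_bijective
      (L := D.Lv v) (ρ := μ.comp (D.r v)))), Nat.card_pi,
    Nat.card_eq_fintype_card (α := Orb _), Finset.prod_eq_pow_card]
  · rw [Finset.card_univ]
  · intro j _
    have h1 := stab_le H v hUW (Quotient.out j)
    have hres : resAct (μ.comp (D.r v)) (stab ((cosetAct U).comp (D.r v)) (Quotient.out j)) =
        trivAct _ (ZMod p) := by
      ext u a
      exact (H.loc v).triv u (h1 u.2) a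
    rw [hres]
    exact card_H0_triv _ p

include H in
lemma PTHyp.FF_coset {U : Subgroup G} (hU : IsOpenSub D.L U) (hUW : U ≤ W) :
    FF D μ (mapAct (cosetAct U) μ) = 1 := by
  have hpr := (Fact.out (p := p.Prime))
  have hp0 : (0 : ℝ) < p := by exact_mod_cast hpr.pos
  have := hU.finiteIndex
  have : Fintype (G ⧸ U) := Fintype.ofFinite _
  let E := dualMapEquiv (cosetAct U) μ
  let E' := twistEquiv (cosetTriv U) (ρ := trivAct G (ZMod p)) (σ := μ) (fun _ _ _ => rfl)
    (fun u hu a => H.triv u (hUW hu) a)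
  have c1 : chi D.L (dualAct μ (mapAct (cosetAct U) μ)) = chi D.L (mapAct (cosetAct U) μ) :=
    (E.chi_eq D.L).symm.trans (E'.chi_eq D.L).symm
  have h1 := (chi_main H hU hUW).1
  have h2 : ∏ v, chi (D.Lv v) ((mapAct (cosetAct U) μ).comp (D.r v)) =
      ((p : ℝ) ^ U.index)⁻¹ := by
    have : ∀ v, chi (D.Lv v) ((mapAct (cosetAct U) μ).comp (D.r v)) =
        ((p : ℝ) ^ (e v * U.index))⁻¹ := by
      intro v
      unfold chi
      rw [card_loc_H0 H v hU hUW, card_loc_H1 H v hU hUW, card_loc_H2 H v hU hUW]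
      push_cast
      rw [pow_add, two_mul, pow_add]
      field_simp
    rw [Finset.prod_congr rfl fun v _ => this v, Finset.prod_inv_distrib,
      Finset.prod_pow_eq_pow_sum, ← Finset.sum_mul, H.he, one_mul]
  unfold FF
  rw [c1, h2, div_inv_eq_mul, ← sq]
  exact h1

lemma ff_aux {a0 a1 a2 b0 b1 b2 s s' v0 v1 v2 F : ℝ} (P0 : 0 < v0) (_P1 : 0 < v1)
    (P2 : 0 < v2) (_Pa0 : 0 < a0) (Pa1 : 0 < a1) (_Pb0 : 0 < b0) (Pb1 : 0 < b1)
    (I1 : a2 * b0 = s' * v2) (I2 : b2 * a0 = s * v0)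
    (hF : F = a0 * a2 / a1 * (b0 * b2 / b1) / (v0 * v2 / v1)) :
    F = s' * s * v1 / (a1 * b1) := by
  rw [hF, div_mul_div_comm, div_div_div_eq, div_eq_div_iff (by positivity) (by positivity)]
  have : a0 * a2 * (b0 * b2) = (a2 * b0) * (b2 * a0) := by ring
  rw [this, I1, I2]
  ring

section Main

variable {A B C : Type} [AddCommGroup A] [AddCommGroup B] [AddCommGroup C]

include H in
/-- isotropy in terms of Euler characteristics -/
lemma PTHyp.one_le_FF [Finite A] {ρ : Act G A} (hρ : Smooth D.L ρ)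
    (hp : ∀ a : A, p • a = 0) : 1 ≤ FF D μ ρ ∧
      FF D μ ρ * (Nat.card (H1 D.L ρ) * Nat.card (H1 D.L (dualAct μ ρ)) : ℝ) =
        Nat.card (D.sha1 (dualAct μ ρ)) * Nat.card (D.sha1 ρ) *
          Nat.card (∀ v, H1 (D.Lv v) (ρ.comp (D.r v))) := by
  have : Finite (A →+ ZMod p) := DFunLike.finite _
  have hρ' : Smooth D.L (dualAct μ ρ) := Smooth.dual H.smooth hρ
  have hp' : ∀ φ : A →+ ZMod p, p • φ = 0 := fun a => dual_torsion a
  have hf := H.finite hρ hp
  have hf' := H.finite hρ' hp'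
  have hfv := fun v => H.finite_loc hρ hp v
  have := hf.h0
  have := hf.h1
  have := hf.h2
  have := hf'.h0
  have := hf'.h1
  have := hf'.h2
  have hv0 := fun v => (hfv v).h0
  have hv1 := fun v => (hfv v).h1
  have hv2 := fun v => (hfv v).h2
  have i1 := H.card_H2_mul hρ hp
  have i2 := H.card_H2_mul hρ' hp'
  rw [← Nat.card_congr (ddEquiv hp μ ρ).h0.toEquiv, Nat.card_pi,
    Finset.prod_congr rfl fun v _ => H.card_loc_H2_dual hρ hp v] at i2
  rw [Nat.card_pi] at i1
  have s1 := (formal_duality H hρ hp).2.2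
  have s2 := (formal_duality H hρ' hp').2.2
  rw [← D.card_sha1_congr (ddEquiv hp μ ρ)] at s2
  have iso := isotropy H hρ hp hv1
  rw [Nat.card_pi] at iso ⊢
  rw [s1] at i1
  rw [s2] at i2
  -- real versions
  have P0 : (0 : ℝ) < ∏ v, (Nat.card (H0 (ρ.comp (D.r v))) : ℝ) :=
    Finset.prod_pos fun v _ => by
      have := hv0 v
      exact_mod_cast Nat.card_pos
  have P1 : (0 : ℝ) < ∏ v, (Nat.card (H1 (D.Lv v) (ρ.comp (D.r v))) : ℝ) :=
    Finset.prod_pos fun v _ => by
      have := hv1 v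
      exact_mod_cast Nat.card_pos
  have P2 : (0 : ℝ) < ∏ v, (Nat.card (H2 (D.Lv v) (ρ.comp (D.r v))) : ℝ) :=
    Finset.prod_pos fun v _ => by
      have := hv2 v
      exact_mod_cast Nat.card_pos
  have Pa0 : (0 : ℝ) < Nat.card (H0 ρ) := by exact_mod_cast Nat.card_pos
  have Pa1 : (0 : ℝ) < Nat.card (H1 D.L ρ) := by exact_mod_cast Nat.card_pos
  have Pb0 : (0 : ℝ) < Nat.card (H0 (dualAct μ ρ)) := by exact_mod_cast Nat.card_pos
  have Pb1 : (0 : ℝ) < Nat.card (H1 D.L (dualAct μ ρ)) := by exact_mod_cast Nat.card_pos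
  have hFF : FF D μ ρ = _ := ff_aux P0 P1 P2 Pa0 Pa1 Pb0 Pb1
    (s := (Nat.card (D.sha1 ρ) : ℝ)) (s' := (Nat.card (D.sha1 (dualAct μ ρ)) : ℝ))
    (a2 := (Nat.card (H2 D.L ρ) : ℝ)) (b2 := (Nat.card (H2 D.L (dualAct μ ρ)) : ℝ))
    (by exact_mod_cast i1) (by exact_mod_cast i2) (by
      unfold FF chi
      rw [Finset.prod_div_distrib, Finset.prod_mul_distrib])
  have hpos := mul_pos Pa1 Pb1
  constructor
  · rw [hFF, le_div_iff₀ hpos, one_mul, mul_comm (Nat.card (H1 D.L ρ) : ℝ)]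
    exact_mod_cast iso
  · rw [hFF, div_mul_cancel₀ _ hpos.ne']
    push_cast
    rfl

include H in
/-- **`χ(M) χ(M') = ∏ χ_v(M)`** -/
theorem PTHyp.FF_eq_one [Finite A] {ρ : Act G A} (hρ : Smooth D.L ρ)
    (hp : ∀ a : A, p • a = 0) : FF D μ ρ = 1 := by
  obtain ⟨N₁, hN₁, h₁⟩ := hρ.exists_level Set.finite_univ
  obtain ⟨N, hN, hNN₁, hNW⟩ := H.isOpen.exists_le hN₁
  have := D.L.normal' N hN
  have := D.L.finiteIndex' N hN
  have : Fintype (G ⧸ N) := Fintype.ofFinite _
  have hNA : ∀ u ∈ N, ∀ x, ρ u x = x := fun u hu x => h₁ x (Set.mem_univ x) u (hNN₁ hu)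
  have hNo : IsOpenSub D.L N := ⟨N, hN, le_rfl⟩
  have hl := levelTrivial_cosetAct hNo
  have hB : Smooth D.L (mapAct (cosetAct N) ρ) := hρ.mapAct hl
  have hpB : ∀ f : G ⧸ N → A, p • f = 0 := fun f => by ext x; exact hp _
  obtain ⟨d, ⟨F⟩, -⟩ := exists_freeAb p A hp
  let F' := (cosetTriv N).free (ρ := μ) (σ := ρ) (fun u hu => H.triv u (hNW hu)) hNA F
  have h1 : FF D μ (mapAct (cosetAct N) ρ) = 1 := by
    rw [FF_free F', H.FF_coset hNo hNW, one_pow]
  let S := SES.ofSurj (sumHom (cosetAct N) ρ) (sumHom_surj ρ)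
  have h2 := H.FF_mul S hB hpB
  rw [h1] at h2
  have h3 := (H.one_le_FF (S.smooth_left hB) (fun a => Subtype.ext (hpB a.1))).1
  have h4 := (H.one_le_FF hρ hp).1
  nlinarith

include H in
/-- `|H¹(M)| |H¹(M')| = |Ш¹(M)| |Ш¹(M')| ∏ |H¹(Γ_v, M)|` -/
theorem PTHyp.card_H1_mul [Finite A] {ρ : Act G A} (hρ : Smooth D.L ρ)
    (hp : ∀ a : A, p • a = 0) :
    Nat.card (H1 D.L ρ) * Nat.card (H1 D.L (dualAct μ ρ)) =
      Nat.card (D.sha1 (dualAct μ ρ)) * Nat.card (D.sha1 ρ) *
        Nat.card (∀ v, H1 (D.Lv v) (ρ.comp (D.r v))) := by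
  have h := (H.one_le_FF hρ hp).2
  rw [H.FF_eq_one hρ hp, one_mul] at h
  exact_mod_cast h

end Main

end Fermat.Agent.PT
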