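import Fermat.Agent.PT.Crit

/-!
# Induced modules
-/

set_option autoImplicit false

namespace Fermat.Agent.PT

section Ind

variable {G : Type} [Group G] (V : Subgroup G) {N : Type} [AddCommGroup N] (ν : Act V N)

/-- the induced module -/
def indM : AddSubgroup (G → N) where
  carrier := {f | ∀ (g : G) (v : V), f (g * v) = ν v⁻¹ (f g)}
  zero_mem' := fun _ _ => (map_zero _).symm
  add_mem' := fun {a b} ha hb g v => by
    rw [Pi.add_apply, Pi.add_apply, map_add, show a (g * v) = _ from ha g v,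
      show b (g * v) = _ from hb g v]
  neg_mem' := fun {a} ha g v => by
    rw [Pi.neg_apply, Pi.neg_apply, map_neg, show a (g * v) = _ from ha g v]

variable {V ν} in
lemma indM_mul (f : indM V ν) (g : G) (v : V) : f.1 (g * v) = ν v⁻¹ (f.1 g) := f.2 g v

/-- the induced action -/
def indAct : Act G (indM V ν) where
  toFun g :=
    { toFun := fun f => ⟨fun x => f.1 (g⁻¹ * x), fun x v => by
        show f.1 (g⁻¹ * (x * v)) = _
        rw [← mul_assoc]
        exact f.2 _ v⟩
      map_zero' := rfl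
      map_add' := fun _ _ => rfl }
  map_one' := by
    apply AddMonoidHom.ext
    intro f
    apply Subtype.ext
    funext x
    show f.1 (1⁻¹ * x) = f.1 x
    rw [inv_one, one_mul]
  map_mul' g h := by
    apply AddMonoidHom.ext
    intro f
    apply Subtype.ext
    funext x
    show f.1 ((g * h)⁻¹ * x) = f.1 (h⁻¹ * (g⁻¹ * x))
    rw [mul_inv_rev, mul_assoc]

@[simp] lemma indAct_apply (g : G) (f : indM V ν) (x : G) :
    (indAct V ν g f).1 x = f.1 (g⁻¹ * x) := rfl

variable {V ν} in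
lemma indM_ext {f f' : indM V ν} (h : ∀ x : G ⧸ V, f.1 (Quotient.out x) = f'.1 (Quotient.out x)) :
    f = f' := by
  apply Subtype.ext
  funext g
  obtain ⟨v, hv, hg⟩ := out_mk (U := V) g
  have h1 : g = Quotient.out (g : G ⧸ V) * ((⟨v, hv⟩⁻¹ : V) : G) := by
    rw [hg]
    show g = g * v * v⁻¹
    group
  rw [h1, indM_mul, indM_mul, h]

instance indM_finite [Finite (G ⧸ V)] [Finite N] : Finite (indM V ν) :=
  Finite.of_injective (fun (f : indM V ν) (x : G ⧸ V) => f.1 (Quotient.out x))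
    fun _ _ h => indM_ext (congrFun h)

variable {V ν} in
lemma indM_torsion {p : ℕ} (hp : ∀ n : N, p • n = 0) (f : indM V ν) : p • f = 0 := by
  apply Subtype.ext
  funext g
  exact hp _

variable {V ν} in
lemma indAct_triv {U : Subgroup G} [hU : U.Normal] (hUV : U ≤ V)
    (h : ∀ v : V, (v : G) ∈ U → ∀ n, ν v n = n) : ∀ u ∈ U, ∀ f, indAct V ν u f = f := by
  intro u hu f
  apply Subtype.ext
  funext x
  rw [indAct_apply]
  have h1 : x⁻¹ * u⁻¹ * x ∈ U := by
    have := hU.conj_mem u⁻¹ (U.inv_mem hu) x⁻¹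
    rwa [inv_inv] at this
  have h2 : u⁻¹ * x = x * ((⟨x⁻¹ * u⁻¹ * x, hUV h1⟩ : V) : G) := by
    show u⁻¹ * x = x * (x⁻¹ * u⁻¹ * x)
    group
  rw [h2, indM_mul, h]
  exact U.inv_mem h1

lemma smooth_of_triv {L : Levels G} {A : Type*} [AddCommGroup A] {ρ : Act G A} {U : Subgroup G}
    (hU : IsOpenSub L U) (h : ∀ u ∈ U, ∀ a, ρ u a = a) : Smooth L ρ := by
  obtain ⟨M, hM, hMU⟩ := hU
  exact fun a => ⟨M, hM, fun s hs => h s (hMU hs) a⟩

variable {A B C : Type} [AddCommGroup A] [AddCommGroup B] [AddCommGroup C]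
  {νA : Act V A} {νB : Act V B} {νC : Act V C}

/-- functoriality of induction -/
def EHom.ind (φ : EHom νA νB) : EHom (indAct V νA) (indAct V νB) where
  f :=
    { toFun := fun f => ⟨fun g => φ.f (f.1 g), fun g v => by
        show φ.f (f.1 (g * v)) = νB v⁻¹ (φ.f (f.1 g))
        rw [indM_mul, φ.comm]⟩
      map_zero' := Subtype.ext (funext fun _ => map_zero _)
      map_add' := fun _ _ => Subtype.ext (funext fun _ => map_add _ _ _) }
  comm _ _ := rfl

/-- exactness of induction -/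
def SES.ind (S : SES νA νB νC) : SES (indAct V νA) (indAct V νB) (indAct V νC) where
  i := S.i.ind V
  p := S.p.ind V
  inj f f' h := by
    apply Subtype.ext
    funext g
    exact S.inj (congrFun (congrArg Subtype.val h) g)
  surj f := by
    have hv : ∀ g : G, (Quotient.out (g : G ⧸ V))⁻¹ * g ∈ V := fun g => by
      obtain ⟨v, hv, hg⟩ := out_mk (U := V) g
      rw [hg]
      have : (g * v)⁻¹ * g = v⁻¹ := by group
      rw [this]
      exact V.inv_mem hv
    refine ⟨⟨fun g => νB (⟨_, hv g⟩ : V)⁻¹ (Function.surjInv S.surj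
      (f.1 (Quotient.out (g : G ⧸ V)))), ?_⟩, ?_⟩
    · intro g v
      have h1 : ((g * v : G) : G ⧸ V) = (g : G ⧸ V) := by
        rw [eq_comm, QuotientGroup.eq, inv_mul_cancel_left]
        exact v.2
      have h2 : (⟨_, hv (g * v)⟩ : V) = ⟨_, hv g⟩ * v := by
        apply Subtype.ext
        show (Quotient.out ((g * v : G) : G ⧸ V))⁻¹ * (g * v) =
          (Quotient.out (g : G ⧸ V))⁻¹ * g * v
        rw [h1, mul_assoc]
      show νB (⟨_, hv (g * v)⟩ : V)⁻¹ _ = νB v⁻¹ _
      rw [h2, h1, mul_inv_rev, act_mul]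
    · apply Subtype.ext
      funext g
      show S.p.f (νB (⟨_, hv g⟩ : V)⁻¹ (Function.surjInv S.surj
        (f.1 (Quotient.out (g : G ⧸ V))))) = f.1 g
      rw [S.p.comm, Function.surjInv_eq S.surj, ← indM_mul]
      have h3 : Quotient.out (g : G ⧸ V) * ((⟨_, hv g⟩ : V) : G) = g := by
        show Quotient.out (g : G ⧸ V) * ((Quotient.out (g : G ⧸ V))⁻¹ * g) = g
        group
      rw [h3]
  exact f := by
    constructor
    · intro h
      have h0 : ∀ g, S.p.f (f.1 g) = 0 := fun g => congrFun (congrArg Subtype.val h) g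
      choose a ha using fun g => (S.exact (f.1 g)).1 (h0 g)
      refine ⟨⟨a, fun g v => ?_⟩, ?_⟩
      · apply S.inj
        rw [ha, indM_mul, S.i.comm, ha]
      · apply Subtype.ext
        exact funext ha
    · rintro ⟨a, rfl⟩
      apply Subtype.ext
      funext g
      exact S.p_i _

/-- induction of a restriction -/
noncomputable def indRes {M : Type} [AddCommGroup M] (ρ : Act G M) :
    EEquiv (mapAct (cosetAct V) ρ) (indAct V (ρ.comp V.subtype)) where
  e :=
    { toFun := fun F => ⟨fun g => ρ g⁻¹ (F (g : G ⧸ V)), fun g v => by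
        have h1 : ((g * v : G) : G ⧸ V) = (g : G ⧸ V) := by
          rw [eq_comm, QuotientGroup.eq, inv_mul_cancel_left]
          exact v.2
        show ρ (g * v)⁻¹ (F ((g * v : G) : G ⧸ V)) = ρ (v⁻¹ : V) (ρ g⁻¹ (F (g : G ⧸ V)))
        rw [h1, mul_inv_rev, act_mul]
        rfl⟩
      invFun := fun f x => ρ (Quotient.out x) (f.1 (Quotient.out x))
      left_inv := fun F => by
        funext x
        show ρ (Quotient.out x) (ρ (Quotient.out x)⁻¹ (F ((Quotient.out x : G) : G ⧸ V))) = F x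
        rw [act_self_inv, QuotientGroup.out_eq']
      right_inv := fun f => by
        apply indM_ext
        intro x
        show ρ (Quotient.out x)⁻¹ (ρ (Quotient.out ((Quotient.out x : G) : G ⧸ V))
          (f.1 (Quotient.out ((Quotient.out x : G) : G ⧸ V)))) = _
        rw [QuotientGroup.out_eq', act_inv_self]
      map_add' := fun F F' => by
        apply Subtype.ext
        funext g
        exact map_add _ _ _ }
  comm g F := by
    apply Subtype.ext
    funext h
    show ρ h⁻¹ (ρ g (F (cosetAct V g⁻¹ (h : G ⧸ V)))) = ρ (g⁻¹ * h)⁻¹ (F ((g⁻¹ * h : G) : G ⧸ V))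
    rw [cosetAct_mk, mul_inv_rev, inv_inv, act_mul]

end Ind

section Count

variable {G : Type} [Group G] {W V : Subgroup G} [Fintype (G ⧸ W)] [DecidableEq (G ⧸ V)]

lemma sum_fiber {A : Type*} [AddCommMonoid A] (hWV : W ≤ V) (h : G) (a : A) :
    ∑ x : G ⧸ W, (if ((Quotient.out x : G) : G ⧸ V) = (h : G ⧸ V) then a else 0) =
      Nat.card (V ⧸ W.subgroupOf V) • a := by
  classical
  let E := Subgroup.quotientEquivProdOfLE hWV
  have : Finite ((G ⧸ V) × (V ⧸ W.subgroupOf V)) := Finite.of_equiv _ E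
  have : Finite (G ⧸ V) := Finite.of_surjective (fun x => (E x).1)
    (fun y => ⟨E.symm (y, ((1 : V) : V ⧸ W.subgroupOf V)), by simp⟩)
  have : Finite (V ⧸ W.subgroupOf V) :=
    Finite.of_injective (fun z => E.symm ((h : G ⧸ V), z)) (fun z z' hz => by
      have := E.symm.injective hz
      exact (Prod.ext_iff.1 this).2)
  have : Fintype (G ⧸ V) := Fintype.ofFinite _
  have : Fintype (V ⧸ W.subgroupOf V) := Fintype.ofFinite _
  have h1 : ∀ x : G ⧸ W, (E x).1 = ((Quotient.out x : G) : G ⧸ V) := by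
    intro x
    conv_lhs => rw [← QuotientGroup.out_eq' x]
    rfl
  rw [Fintype.sum_equiv E _ (fun y => if y.1 = (h : G ⧸ V) then a else 0)
    (fun x => by rw [h1]), Fintype.sum_prod_type, Finset.sum_comm]
  simp only [Finset.sum_ite_eq', Finset.mem_univ, if_true, Finset.sum_const, Finset.card_univ]
  rw [Nat.card_eq_fintype_card]

end Count

section IndTheta

variable {G : Type} [Group G] {W V : Subgroup G} [Fintype (G ⧸ W)]
  [(W.subgroupOf V).Normal] {p : ℕ} [Fact p.Prime] {N : Type} [AddCommGroup N]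
  (ν : Act V N) {J : Type} [Fintype J] [DecidableEq J] (F : FreeAb J (ZMod p) N)

open Classical in
/-- the functions supported on `V` -/
noncomputable def yInd (n : N) : indM V ν :=
  ⟨fun g => if h : g ∈ V then ν (⟨g, h⟩ : V)⁻¹ n else 0, fun g v => by
    show (if h : g * v ∈ V then ν (⟨g * v, h⟩ : V)⁻¹ n else 0) =
      ν v⁻¹ (if h : g ∈ V then ν (⟨g, h⟩ : V)⁻¹ n else 0)
    by_cases h : g ∈ V
    · rw [dif_pos h, dif_pos (V.mul_mem h v.2), ← act_mul, ← mul_inv_rev]
      rfl
    · rw [dif_neg h, dif_neg (fun h' => h ((V.mul_mem_cancel_right v.2).1 h')), map_zero]⟩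

omit [Fintype (G ⧸ W)] [(W.subgroupOf V).Normal] in
lemma yInd_pos (n : N) (g : V) : (yInd ν n).1 g = ν g⁻¹ n := dif_pos g.2

omit [Fintype (G ⧸ W)] [(W.subgroupOf V).Normal] in
lemma yInd_neg (n : N) {g : G} (h : g ∉ V) : (yInd ν n).1 g = 0 := dif_neg h

lemma sum_smul_free {p : ℕ} {N : Type} [AddCommGroup N] [Module (ZMod p) N] {J : Type}
    [Fintype J] [DecidableEq J] (F : FreeAb J (ZMod p) N) (n : N) :
    ∑ j, F.b j n • F.a j 1 = n := by
  conv_rhs => rw [← F.ab n]
  refine Finset.sum_congr rfl fun j _ => ?_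
  rw [← ZMod.map_smul, smul_eq_mul, mul_one]

/-- Theta data for an induced module, prime-to-`p` case -/
noncomputable def indTheta [Module (ZMod p) N] (hWV : W ≤ V)
    (hW : ∀ v : V, (v : G) ∈ W → ∀ n, ν v n = n)
    (hp : ¬ p ∣ Nat.card (V ⧸ W.subgroupOf V)) : ThetaData W V p (indAct V ν) J where
  y j := yInd ν (F.a j 1)
  φ j := (AddMonoidHom.mulLeft ((Nat.card (V ⧸ W.subgroupOf V) : ZMod p)⁻¹)).comp
    ((F.b j).comp ((Pi.evalAddMonoidHom (fun _ : G => N) 1).comp (indM V ν).subtype))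
  hy j w hw := by
    apply Subtype.ext
    funext g
    rw [indAct_apply]
    by_cases h : g ∈ V
    · have h1 : w⁻¹ * g = ((⟨w⁻¹, V.inv_mem (hWV hw)⟩ * ⟨g, h⟩ : V) : G) := rfl
      rw [h1, yInd_pos, show (yInd ν (F.a j 1)).1 g = _ from yInd_pos ν _ ⟨g, h⟩, mul_inv_rev,
        act_mul]
      congr 1
      apply hW
      show w⁻¹⁻¹ ∈ W
      rwa [inv_inv]
    · rw [yInd_neg ν _ h, yInd_neg ν]
      intro h'
      exact h ((V.mul_mem_cancel_left (V.inv_mem (hWV hw))).1 h')
  hφ j w hw f := by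
    show _ * F.b j (f.1 (w⁻¹ * 1)) = _ * F.b j (f.1 1)
    have h1 : f.1 (w⁻¹ * 1) = f.1 1 := by
      have h2 : w⁻¹ * 1 = 1 * ((⟨w⁻¹, V.inv_mem (hWV hw)⟩ : V) : G) := by
        rw [mul_one, one_mul]
      rw [h2, indM_mul]
      apply hW
      show w⁻¹⁻¹ ∈ W
      rwa [inv_inv]
    rw [h1]
  sum f := by
    classical
    have key : ∀ x : G ⧸ W, ∀ h : G, (∑ j, ((Nat.card (V ⧸ W.subgroupOf V) : ZMod p)⁻¹ *
        F.b j (f.1 ((Quotient.out x)⁻¹⁻¹ * 1))) •
        (yInd ν (F.a j 1)).1 ((Quotient.out x)⁻¹ * h)) =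
        if ((Quotient.out x : G) : G ⧸ V) = (h : G ⧸ V) then
          (Nat.card (V ⧸ W.subgroupOf V) : ZMod p)⁻¹ • f.1 h else 0 := by
      intro x h
      rw [inv_inv, mul_one]
      by_cases hx : ((Quotient.out x : G) : G ⧸ V) = (h : G ⧸ V)
      · rw [if_pos hx]
        have hv : (Quotient.out x)⁻¹ * h ∈ V := QuotientGroup.eq.1 hx
        have h1 : ∀ j, (yInd ν (F.a j 1)).1 ((Quotient.out x)⁻¹ * h) =
            ν (⟨_, hv⟩ : V)⁻¹ (F.a j 1) := fun j => yInd_pos ν _ ⟨_, hv⟩
        simp only [h1, mul_smul]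
        rw [← Finset.smul_sum]
        congr 1
        have h2 : ∀ j, F.b j (f.1 (Quotient.out x)) • ν (⟨_, hv⟩ : V)⁻¹ (F.a j 1) =
            ν (⟨_, hv⟩ : V)⁻¹ (F.b j (f.1 (Quotient.out x)) • F.a j 1) := fun j =>
          (ZMod.map_smul _ _ _).symm
        simp only [h2]
        rw [← map_sum, sum_smul_free F, ← indM_mul]
        have h5 : Quotient.out x * ((⟨_, hv⟩ : V) : G) = h := by
          show Quotient.out x * ((Quotient.out x)⁻¹ * h) = h
          group
        rw [h5]
      · rw [if_neg hx]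
        refine Finset.sum_eq_zero fun j _ => ?_
        rw [yInd_neg, smul_zero]
        intro hv
        exact hx (QuotientGroup.eq.2 hv)
    apply Subtype.ext
    funext h
    rw [AddSubgroup.val_finsetSum, Finset.sum_apply]
    have h3 : ∀ x : G ⧸ W, ((∑ j, ((Nat.card (V ⧸ W.subgroupOf V) : ZMod p)⁻¹ *
        F.b j (f.1 ((Quotient.out x)⁻¹⁻¹ * 1))) •
        indAct V ν (Quotient.out x) (yInd ν (F.a j 1)) : indM V ν) : G → N) h =
        if ((Quotient.out x : G) : G ⧸ V) = (h : G ⧸ V) then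
          (Nat.card (V ⧸ W.subgroupOf V) : ZMod p)⁻¹ • f.1 h else 0 := by
      intro x
      rw [← key x h, AddSubgroup.val_finsetSum, Finset.sum_apply]
      refine Finset.sum_congr rfl fun j _ => ?_
      have h4 := ZMod.map_smul (((Pi.evalAddMonoidHom (fun _ : G => N) h).comp
        (indM V ν).subtype)) ((Nat.card (V ⧸ W.subgroupOf V) : ZMod p)⁻¹ *
        F.b j (f.1 ((Quotient.out x)⁻¹⁻¹ * 1))) (indAct V ν (Quotient.out x) (yInd ν (F.a j 1)))
      exact h4
    refine (Finset.sum_congr rfl fun x _ => h3 x).trans ?_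
    rw [sum_fiber hWV, ← Nat.cast_smul_eq_nsmul (ZMod p), smul_smul, mul_inv_cancel₀, one_smul]
    rwa [Ne, ZMod.natCast_eq_zero_iff]
  supp i j g hg := by
    show _ * F.b i ((yInd ν (F.a j 1)).1 (g⁻¹ * 1)) = 0
    rw [yInd_neg, map_zero, mul_zero]
    rw [mul_one, V.inv_mem_iff]
    exact hg

end IndTheta

end Fermat.Agent.PT
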