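import Fermat.Agent.PT.Functor

/-!
# Long exact sequences in level cohomology
-/

set_option autoImplicit false

namespace Fermat.Agent.PT

variable {G : Type*} [Group G] {A B C : Type*} [AddCommGroup A] [AddCommGroup B] [AddCommGroup C]

/-- Short exact sequence of modules with action. -/
structure SES (ρA : Act G A) (ρB : Act G B) (ρC : Act G C) where
  i : EHom ρA ρB
  p : EHom ρB ρC
  inj : Function.Injective i.f
  surj : Function.Surjective p.f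
  exact : ∀ b, p.f b = 0 ↔ ∃ a, i.f a = b

namespace SES

variable {ρA : Act G A} {ρB : Act G B} {ρC : Act G C} (S : SES ρA ρB ρC)

lemma p_i (a : A) : S.p.f (S.i.f a) = 0 := (S.exact _).2 ⟨a, rfl⟩

include S in
lemma smooth_left {L : Levels G} (hB : Smooth L ρB) : Smooth L ρA := by
  intro a
  obtain ⟨N, hN, h⟩ := hB (S.i.f a)
  exact ⟨N, hN, fun s hs => S.inj (by rw [S.i.comm, h s hs])⟩

include S in
lemma smooth_right {L : Levels G} (hB : Smooth L ρB) : Smooth L ρC := by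
  intro c
  obtain ⟨b, rfl⟩ := S.surj c
  obtain ⟨N, hN, h⟩ := hB b
  exact ⟨N, hN, fun s hs => by rw [← S.p.comm, h s hs]⟩

lemma lift_C1 {L : Levels G} {c : G → C} (hc : IsLC₁ L c) :
    ∃ b : G → B, IsLC₁ L b ∧ ∀ g, S.p.f (b g) = c g :=
  ⟨fun g => Function.surjInv S.surj (c g), hc.comp _, fun _ => Function.surjInv_eq S.surj _⟩

lemma lift_C2 {L : Levels G} {c : G → G → C} (hc : IsLC₂ L c) :
    ∃ b : G → G → B, IsLC₂ L b ∧ ∀ g h, S.p.f (b g h) = c g h :=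
  ⟨fun g h => Function.surjInv S.surj (c g h), hc.comp _, fun _ _ => Function.surjInv_eq S.surj _⟩

lemma pull_C1 {L : Levels G} {b : G → B} (hb : IsLC₁ L b) (h : ∀ g, S.p.f (b g) = 0) :
    ∃ a : G → A, IsLC₁ L a ∧ ∀ g, S.i.f (a g) = b g := by
  choose a ha using fun g => (S.exact _).1 (h g)
  refine ⟨a, ?_, ha⟩
  obtain ⟨N, hN, hc⟩ := hb
  exact ⟨N, hN, fun g s hs => S.inj (by rw [ha, ha, hc g s hs])⟩

lemma pull_C2 {L : Levels G} {b : G → G → B} (hb : IsLC₂ L b) (h : ∀ g g', S.p.f (b g g') = 0) :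
    ∃ a : G → G → A, IsLC₂ L a ∧ ∀ g g', S.i.f (a g g') = b g g' := by
  choose a ha using fun g g' => (S.exact _).1 (h g g')
  refine ⟨a, ?_, ha⟩
  obtain ⟨N, hN, hc⟩ := hb
  exact ⟨N, hN, fun g g' s hs t ht => S.inj (by rw [ha, ha, hc g g' s hs t ht])⟩

lemma i_d1 (a : G → A) (g h : G) :
    S.i.f (d1 ρA a g h) = d1 ρB (fun g => S.i.f (a g)) g h := by
  simp only [d1_apply, map_add, map_sub, S.i.comm]

lemma p_d1 (b : G → B) (g h : G) :
    S.p.f (d1 ρB b g h) = d1 ρC (fun g => S.p.f (b g)) g h := by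
  simp only [d1_apply, map_add, map_sub, S.p.comm]

lemma i_d2 (a : G → G → A) (g h j : G) :
    S.i.f (d2 ρA a g h j) = d2 ρB (fun g h => S.i.f (a g h)) g h j := by
  simp only [d2_apply, map_add, map_sub, S.i.comm]

lemma p_d2 (b : G → G → B) (g h j : G) :
    S.p.f (d2 ρB b g h j) = d2 ρC (fun g h => S.p.f (b g h)) g h j := by
  simp only [d2_apply, map_add, map_sub, S.p.comm]

/-! ### the connecting map `H⁰(C) → H¹(A)` -/

/-- pairs `(b, a)` with `i ∘ a = d⁰ b` -/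
def T0 (L : Levels G) : AddSubgroup (B × Z1 L ρA) where
  carrier := {x | ∀ g, S.i.f ((x.2 : G → A) g) = d0 ρB x.1 g}
  zero_mem' := by intro g; simp
  add_mem' := by
    intro x y hx hy g
    simp only [Prod.snd_add, Prod.fst_add, AddSubgroup.coe_add, Pi.add_apply, map_add]
    rw [hx g, hy g]
  neg_mem' := by
    intro x hx g
    simp only [Prod.snd_neg, Prod.fst_neg, AddSubgroup.coe_neg, Pi.neg_apply, map_neg]
    rw [hx g]

/-- projection of `T0` to `H⁰(C)` -/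
def T0C (L : Levels G) : S.T0 L →+ H0 ρC :=
  ((S.p.f.comp (AddMonoidHom.fst _ _)).comp (S.T0 L).subtype).codRestrict (H0 ρC) (fun x => by
    rw [mem_H0]
    intro g
    have hx : ∀ g, S.i.f ((x.1.2 : G → A) g) = d0 ρB x.1.1 g := x.2
    show ρC g (S.p.f x.1.1) = S.p.f x.1.1
    have h := congrArg S.p.f (hx g)
    rw [S.p_i, d0_apply, map_sub, S.p.comm] at h
    exact (sub_eq_zero.1 h.symm))

/-- projection of `T0` to `H¹(A)` -/
def T0A (L : Levels G) : S.T0 L →+ H1 L ρA :=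
  ((H1.mk L ρA).comp (AddMonoidHom.snd _ _)).comp (S.T0 L).subtype

lemma T0C_surjective {L : Levels G} (hB : Smooth L ρB) : Function.Surjective (S.T0C L) := by
  intro c
  obtain ⟨b, hb⟩ := S.surj (c : C)
  have hc := mem_H0.1 c.2
  have h1 : ∀ g, S.p.f (d0 ρB b g) = 0 := by
    intro g
    rw [d0_apply, map_sub, S.p.comm, hb, hc g, sub_self]
  obtain ⟨a, haL, ha⟩ := S.pull_C1 (d0_mem_C1 hB b) h1
  have haz : a ∈ Z1 L ρA := by
    refine ⟨haL, ?_⟩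
    show d1 ρA a = 0
    ext g h
    apply S.inj
    rw [S.i_d1]
    have : (fun g => S.i.f (a g)) = d0 ρB b := funext ha
    rw [this, d1_d0]
    simp
  exact ⟨⟨(b, ⟨a, haz⟩), ha⟩, Subtype.ext hb⟩

lemma T0_ker (L : Levels G) : (S.T0C L).ker ≤ (S.T0A L).ker := by
  intro x hx
  rw [AddMonoidHom.mem_ker] at hx ⊢
  have hx1 : S.p.f x.1.1 = 0 := congrArg Subtype.val hx
  obtain ⟨a', ha'⟩ := (S.exact _).1 hx1
  refine H1.mk_eq_zero.2 ⟨a', ?_⟩
  ext g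
  apply S.inj
  have hx2 : ∀ g, S.i.f ((x.1.2 : G → A) g) = d0 ρB x.1.1 g := x.2
  show S.i.f (d0 ρA a' g) = S.i.f ((x.1.2 : G → A) g)
  rw [hx2 g, d0_apply, d0_apply, map_sub, S.i.comm, ha']

/-- the connecting homomorphism `H⁰(C) → H¹(A)` -/
noncomputable def δ0 {L : Levels G} (hB : Smooth L ρB) : H0 ρC →+ H1 L ρA :=
  AddMonoidHom.liftOfSurjective (S.T0C L) (S.T0C_surjective hB) ⟨S.T0A L, S.T0_ker L⟩

lemma δ0_eq {L : Levels G} (hB : Smooth L ρB) (c : H0 ρC) (b : B) (a : Z1 L ρA)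
    (hb : S.p.f b = c) (ha : ∀ g, S.i.f ((a : G → A) g) = d0 ρB b g) :
    S.δ0 hB c = H1.mk L ρA a := by
  have h := AddMonoidHom.liftOfRightInverse_comp_apply (S.T0C L)
    (Function.surjInv (S.T0C_surjective hB)) (Function.rightInverse_surjInv _)
    ⟨S.T0A L, S.T0_ker L⟩ ⟨(b, a), ha⟩
  have hc : S.T0C L ⟨(b, a), ha⟩ = c := Subtype.ext hb
  rw [hc] at h
  exact h

lemma exists_δ0 {L : Levels G} (hB : Smooth L ρB) (c : H0 ρC) :
    ∃ (b : B) (a : Z1 L ρA), S.p.f b = c ∧ (∀ g, S.i.f ((a : G → A) g) = d0 ρB b g) ∧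
      S.δ0 hB c = H1.mk L ρA a := by
  obtain ⟨⟨⟨b, a⟩, ha⟩, hx⟩ := S.T0C_surjective hB c
  exact ⟨b, a, congrArg Subtype.val hx, ha,
    S.δ0_eq hB c b a (congrArg Subtype.val hx) ha⟩

/-! ### the connecting map `H¹(C) → H²(A)` -/

/-- pairs `(b, a)`, `b` a 1-cochain, `a` a 2-cocycle with `i ∘ a = d¹ b` -/
def T1 (L : Levels G) : AddSubgroup (C1 B L × Z2 L ρA) where
  carrier := {x | ∀ g h, S.i.f ((x.2 : G → G → A) g h) = d1 ρB (x.1 : G → B) g h}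
  zero_mem' := by intro g; simp
  add_mem' := by
    intro x y hx hy g h
    simp only [Prod.snd_add, Prod.fst_add, AddSubgroup.coe_add, Pi.add_apply, map_add]
    rw [hx g, hy g]
  neg_mem' := by
    intro x hx g h
    simp only [Prod.snd_neg, Prod.fst_neg, AddSubgroup.coe_neg, Pi.neg_apply, map_neg]
    rw [hx g]

/-- projection of `T1` to `Z¹(C)` -/
def T1Z (L : Levels G) : S.T1 L →+ Z1 L ρC where
  toFun x := ⟨fun g => S.p.f ((x.1.1 : G → B) g), by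
    refine ⟨IsLC₁.comp x.1.1.2 _, ?_⟩
    show d1 ρC _ = 0
    ext g h
    have hx : ∀ g h, S.i.f ((x.1.2 : G → G → A) g h) = d1 ρB (x.1.1 : G → B) g h := x.2
    rw [← S.p_d1, ← hx, S.p_i]; rfl⟩
  map_zero' := by ext g; simp
  map_add' x y := by ext g; simp

/-- projection of `T1` to `H¹(C)` -/
def T1C (L : Levels G) : S.T1 L →+ H1 L ρC := (H1.mk L ρC).comp (S.T1Z L)

/-- projection of `T1` to `H²(A)` -/
def T1A (L : Levels G) : S.T1 L →+ H2 L ρA :=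
  ((H2.mk L ρA).comp (AddMonoidHom.snd _ _)).comp (S.T1 L).subtype

lemma T1Z_surjective {L : Levels G} (hB : Smooth L ρB) : Function.Surjective (S.T1Z L) := by
  intro c
  obtain ⟨b, hbL, hb⟩ := S.lift_C1 c.2.1
  have hc : d1 ρC (c : G → C) = 0 := c.2.2
  have h1 : ∀ g h, S.p.f (d1 ρB b g h) = 0 := by
    intro g h
    have : (fun g => S.p.f (b g)) = (c : G → C) := funext hb
    rw [S.p_d1, this, hc]; rfl
  obtain ⟨a, haL, ha⟩ := S.pull_C2 (d1_mem_C2 hB (f := b) hbL) h1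
  have haz : a ∈ Z2 L ρA := by
    refine ⟨haL, ?_⟩
    show d2 ρA a = 0
    ext g h j
    apply S.inj
    rw [S.i_d2]
    have : (fun g h => S.i.f (a g h)) = d1 ρB b := by ext g h; exact ha g h
    rw [this, d2_d1]
    simp
  exact ⟨⟨(⟨b, hbL⟩, ⟨a, haz⟩), ha⟩, Subtype.ext (funext hb)⟩

lemma T1C_surjective {L : Levels G} (hB : Smooth L ρB) : Function.Surjective (S.T1C L) :=
  (H1.mk_surjective L ρC).comp (S.T1Z_surjective hB)

lemma T1_ker {L : Levels G} (hB : Smooth L ρB) : (S.T1C L).ker ≤ (S.T1A L).ker := by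
  intro x hx
  rw [AddMonoidHom.mem_ker] at hx ⊢
  obtain ⟨c0, hc0⟩ := H1.mk_eq_zero.1 hx
  obtain ⟨b0, rfl⟩ := S.surj c0
  have h1 : ∀ g, S.p.f ((x.1.1 : G → B) g - d0 ρB b0 g) = 0 := by
    intro g
    have := congrFun hc0 g
    rw [d0_apply] at this
    rw [map_sub, d0_apply, map_sub, S.p.comm, this]
    exact sub_self _
  obtain ⟨a, hL, ha⟩ := S.pull_C1 (IsLC₁.comp₂ x.1.1.2 (d0_mem_C1 hB b0) (· - ·)) h1
  have hx2 : ∀ g h, S.i.f ((x.1.2 : G → G → A) g h) = d1 ρB (x.1.1 : G → B) g h := x.2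
  have key : ∀ g h, d1 ρA a g h = (x.1.2 : G → G → A) g h := by
    intro g h
    apply S.inj
    rw [S.i_d1, hx2]
    have : (fun g => S.i.f (a g)) = (x.1.1 : G → B) - d0 ρB b0 := by
      ext g; rw [ha]; rfl
    rw [this, map_sub, d1_d0, sub_zero]
  exact H2.mk_eq_zero.2 ⟨a, hL, by ext g h; exact key g h⟩

/-- the connecting homomorphism `H¹(C) → H²(A)` -/
noncomputable def δ1 {L : Levels G} (hB : Smooth L ρB) : H1 L ρC →+ H2 L ρA :=
  AddMonoidHom.liftOfSurjective (S.T1C L) (S.T1C_surjective hB) ⟨S.T1A L, S.T1_ker hB⟩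

lemma δ1_eq {L : Levels G} (hB : Smooth L ρB) (c : Z1 L ρC) (b : G → B) (hbL : IsLC₁ L b)
    (a : Z2 L ρA) (hb : ∀ g, S.p.f (b g) = (c : G → C) g)
    (ha : ∀ g h, S.i.f ((a : G → G → A) g h) = d1 ρB b g h) :
    S.δ1 hB (H1.mk L ρC c) = H2.mk L ρA a := by
  have h := AddMonoidHom.liftOfRightInverse_comp_apply (S.T1C L)
    (Function.surjInv (S.T1C_surjective hB)) (Function.rightInverse_surjInv _)
    ⟨S.T1A L, S.T1_ker hB⟩ ⟨(⟨b, hbL⟩, a), ha⟩
  have hc : S.T1C L ⟨(⟨b, hbL⟩, a), ha⟩ = H1.mk L ρC c := by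
    show H1.mk L ρC _ = _
    congr 1
    ext g
    exact hb g
  rw [hc] at h
  exact h

lemma exists_δ1 {L : Levels G} (hB : Smooth L ρB) (c : Z1 L ρC) :
    ∃ (b : G → B) (a : Z2 L ρA), IsLC₁ L b ∧ (∀ g, S.p.f (b g) = (c : G → C) g) ∧
      (∀ g h, S.i.f ((a : G → G → A) g h) = d1 ρB b g h) ∧
      S.δ1 hB (H1.mk L ρC c) = H2.mk L ρA a := by
  obtain ⟨⟨⟨⟨b, hbL⟩, a⟩, ha⟩, hx⟩ := S.T1Z_surjective hB c
  have hb : ∀ g, S.p.f (b g) = (c : G → C) g := fun g => congrFun (congrArg Subtype.val hx) g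
  exact ⟨b, a, hbL, hb, ha, S.δ1_eq hB c b hbL a hb ha⟩

/-! ### exactness -/

lemma exact_H0_left (x : H0 ρB) : S.p.h0 x = 0 ↔ ∃ y : H0 ρA, S.i.h0 y = x := by
  constructor
  · intro h
    obtain ⟨a, ha⟩ := (S.exact (x : B)).1 (congrArg Subtype.val h)
    refine ⟨⟨a, mem_H0.2 fun g => S.inj ?_⟩, Subtype.ext ha⟩
    rw [S.i.comm, ha, mem_H0.1 x.2 g]
  · rintro ⟨y, rfl⟩
    exact Subtype.ext (S.p_i _)

lemma inj_H0 : Function.Injective S.i.h0 := fun _ _ h =>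
  Subtype.ext (S.inj (congrArg Subtype.val h))

lemma exact_H0_right {L : Levels G} (hB : Smooth L ρB) (x : H0 ρC) :
    S.δ0 hB x = 0 ↔ ∃ y : H0 ρB, S.p.h0 y = x := by
  constructor
  · intro h
    obtain ⟨b, a, hb, ha, hδ⟩ := S.exists_δ0 hB x
    rw [h] at hδ
    obtain ⟨a0, ha0⟩ := H1.mk_eq_zero.1 hδ.symm
    refine ⟨⟨b - S.i.f a0, mem_H0.2 fun g => ?_⟩, Subtype.ext ?_⟩
    · have h1 := ha g
      rw [← ha0, d0_apply, d0_apply, map_sub, S.i.comm] at h1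
      rw [map_sub, ← sub_eq_zero]
      rw [← sub_eq_zero] at h1
      rw [← neg_eq_zero, ← h1]; abel
    · show S.p.f (b - S.i.f a0) = x
      rw [map_sub, S.p_i, sub_zero, hb]
  · rintro ⟨y, rfl⟩
    rw [S.δ0_eq hB _ (y : B) 0 rfl (fun g => ?_), map_zero]
    rw [d0_apply, mem_H0.1 y.2 g, sub_self]
    exact map_zero _

lemma exact_H1_left {L : Levels G} (hB : Smooth L ρB) (x : H1 L ρA) :
    S.i.h1 L x = 0 ↔ ∃ y : H0 ρC, S.δ0 hB y = x := by
  constructor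
  · intro h
    obtain ⟨a, rfl⟩ := H1.mk_surjective L ρA x
    rw [EHom.h1, PairHom.h1_mk] at h
    obtain ⟨b, hb⟩ := H1.mk_eq_zero.1 h
    have hb' : ∀ g, S.i.f ((a : G → A) g) = d0 ρB b g := fun g => (congrFun hb g).symm
    refine ⟨⟨S.p.f b, mem_H0.2 fun g => ?_⟩, S.δ0_eq hB _ b a rfl hb'⟩
    have := congrArg S.p.f (hb' g)
    rw [S.p_i, d0_apply, map_sub, S.p.comm] at this
    exact sub_eq_zero.1 this.symm
  · rintro ⟨y, rfl⟩
    obtain ⟨b, a, hb, ha, hδ⟩ := S.exists_δ0 hB y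
    rw [hδ, EHom.h1, PairHom.h1_mk]
    exact H1.mk_eq_zero.2 ⟨b, by ext g; exact (ha g).symm⟩

lemma exact_H1_mid {L : Levels G} (hB : Smooth L ρB) (x : H1 L ρB) :
    S.p.h1 L x = 0 ↔ ∃ y : H1 L ρA, S.i.h1 L y = x := by
  constructor
  · intro h
    obtain ⟨b, rfl⟩ := H1.mk_surjective L ρB x
    rw [EHom.h1, PairHom.h1_mk] at h
    obtain ⟨c, hc⟩ := H1.mk_eq_zero.1 h
    obtain ⟨b0, rfl⟩ := S.surj c
    have h1 : ∀ g, S.p.f ((b : G → B) g - d0 ρB b0 g) = 0 := by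
      intro g
      have := congrFun hc g
      rw [d0_apply] at this
      rw [map_sub, d0_apply, map_sub, S.p.comm, this]
      exact sub_self _
    obtain ⟨a, hL, ha⟩ := S.pull_C1 (IsLC₁.comp₂ b.2.1 (d0_mem_C1 hB b0) (· - ·)) h1
    have key : d1 ρA a = 0 := by
      ext g h
      apply S.inj
      rw [S.i_d1]
      have : (fun g => S.i.f (a g)) = (b : G → B) - d0 ρB b0 := by
        ext g; rw [ha]; rfl
      have hb : d1 ρB (b : G → B) = 0 := b.2.2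
      rw [this, map_sub, d1_d0, sub_zero, hb]
      exact (map_zero _).symm
    refine ⟨H1.mk L ρA ⟨a, hL, key⟩, ?_⟩
    rw [EHom.h1, PairHom.h1_mk, ← sub_eq_zero, ← map_sub]
    refine H1.mk_eq_zero.2 ⟨-b0, ?_⟩
    ext g
    show d0 ρB (-b0) g = S.i.f (a g) - (b : G → B) g
    rw [ha g, map_neg]
    show -(d0 ρB b0 g) = _
    abel
  · rintro ⟨y, rfl⟩
    rw [← EHom.h1_comp]
    exact EHom.h1_zero L (fun a => S.p_i a) y

lemma exact_H1_right {L : Levels G} (hB : Smooth L ρB) (x : H1 L ρC) :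
    S.δ1 hB x = 0 ↔ ∃ y : H1 L ρB, S.p.h1 L y = x := by
  constructor
  · intro h
    obtain ⟨c, rfl⟩ := H1.mk_surjective L ρC x
    obtain ⟨b, a, hbL, hb, ha, hδ⟩ := S.exists_δ1 hB c
    rw [h] at hδ
    obtain ⟨a0, ha0L, ha0⟩ := H2.mk_eq_zero.1 hδ.symm
    have hz : d1 ρB (fun g => b g - S.i.f (a0 g)) = 0 := by
      ext g h
      have h1 : d1 ρB (fun g => b g - S.i.f (a0 g)) g h =
          d1 ρB b g h - d1 ρB (fun g => S.i.f (a0 g)) g h := by
        simp only [d1_apply, map_sub]; abel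
      rw [h1, ← ha, ← S.i_d1, ha0, sub_self]; rfl
    refine ⟨H1.mk L ρB ⟨fun g => b g - S.i.f (a0 g),
      IsLC₁.comp₂ hbL (IsLC₁.comp ha0L S.i.f) (· - ·), hz⟩, ?_⟩
    rw [EHom.h1, PairHom.h1_mk]
    congr 1
    ext g
    show S.p.f (b g - S.i.f (a0 g)) = _
    rw [map_sub, S.p_i, sub_zero, hb]
  · rintro ⟨y, rfl⟩
    obtain ⟨b, rfl⟩ := H1.mk_surjective L ρB y
    rw [EHom.h1, PairHom.h1_mk]
    rw [S.δ1_eq hB _ (b : G → B) b.2.1 0 (fun g => rfl) (fun g h => ?_), map_zero]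
    have hb : d1 ρB (b : G → B) = 0 := b.2.2
    rw [hb]
    exact map_zero _

lemma exact_H2_left {L : Levels G} (hB : Smooth L ρB) (x : H2 L ρA) :
    S.i.h2 L x = 0 ↔ ∃ y : H1 L ρC, S.δ1 hB y = x := by
  constructor
  · intro h
    obtain ⟨a, rfl⟩ := H2.mk_surjective L ρA x
    rw [EHom.h2, PairHom.h2_mk] at h
    obtain ⟨b, hbL, hb⟩ := H2.mk_eq_zero.1 h
    have hb' : ∀ g h, S.i.f ((a : G → G → A) g h) = d1 ρB b g h :=
      fun g h => (congrFun (congrFun hb g) h).symm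
    have hz : d1 ρC (fun g => S.p.f (b g)) = 0 := by
      ext g h
      rw [← S.p_d1, ← hb', S.p_i]; rfl
    exact ⟨H1.mk L ρC ⟨fun g => S.p.f (b g), IsLC₁.comp hbL _, hz⟩,
      S.δ1_eq hB _ b hbL a (fun g => rfl) hb'⟩
  · rintro ⟨y, rfl⟩
    obtain ⟨c, rfl⟩ := H1.mk_surjective L ρC y
    obtain ⟨b, a, hbL, hb, ha, hδ⟩ := S.exists_δ1 hB c
    rw [hδ, EHom.h2, PairHom.h2_mk]
    exact H2.mk_eq_zero.2 ⟨b, hbL, by ext g h; exact (ha g h).symm⟩

lemma exact_H2_mid {L : Levels G} (hB : Smooth L ρB) (x : H2 L ρB) :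
    S.p.h2 L x = 0 ↔ ∃ y : H2 L ρA, S.i.h2 L y = x := by
  constructor
  · intro h
    obtain ⟨b, rfl⟩ := H2.mk_surjective L ρB x
    rw [EHom.h2, PairHom.h2_mk] at h
    obtain ⟨c, hcL, hc⟩ := H2.mk_eq_zero.1 h
    obtain ⟨b1, hb1L, hb1⟩ := S.lift_C1 hcL
    have h1 : ∀ g h, S.p.f ((b : G → G → B) g h - d1 ρB b1 g h) = 0 := by
      intro g h
      rw [map_sub, S.p_d1]
      have : (fun g => S.p.f (b1 g)) = c := funext hb1
      rw [this, hc]
      exact sub_self _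
    obtain ⟨a, hL, ha⟩ := S.pull_C2 (IsLC₂.comp₂ b.2.1 (d1_mem_C2 hB hb1L) (· - ·)) h1
    have key : d2 ρA a = 0 := by
      ext g h j
      apply S.inj
      rw [S.i_d2]
      have : (fun g h => S.i.f (a g h)) = (b : G → G → B) - d1 ρB b1 := by
        ext g h; rw [ha]; rfl
      have hb : d2 ρB (b : G → G → B) = 0 := b.2.2
      rw [this, map_sub, d2_d1, sub_zero, hb]
      exact (map_zero _).symm
    refine ⟨H2.mk L ρA ⟨a, hL, key⟩, ?_⟩
    rw [EHom.h2, PairHom.h2_mk, ← sub_eq_zero, ← map_sub]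
    refine H2.mk_eq_zero.2 ⟨-b1, IsLC₁.comp hb1L (- ·), ?_⟩
    ext g h
    show d1 ρB (-b1) g h = S.i.f (a g h) - (b : G → G → B) g h
    rw [ha g h, map_neg]
    show -(d1 ρB b1 g h) = _
    abel
  · rintro ⟨y, rfl⟩
    rw [← EHom.h2_comp]
    exact EHom.h2_zero L (fun a => S.p_i a) y

end SES

end Fermat.Agent.PT
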