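import Fermat.Agent.PT.GW2

/-!
# Multiplicative functions on finite `𝔽_p[Δ]`-modules, right translations on `Map(G/U, A)`
-/

set_option autoImplicit false

namespace Fermat.Agent.PT

/-- A multiplicative function on finite `𝔽_p[Δ]`-modules. -/
structure MulFun (p : ℕ) (Δ : Type) [Group Δ] where
  h : ∀ {Y : Type} [AddCommGroup Y], Act Δ Y → ℕ
  pos : ∀ {Y : Type} [AddCommGroup Y] [Finite Y] (σ : Act Δ Y), (∀ y : Y, p • y = 0) → 0 < h σ
  mul : ∀ {A B C : Type} [AddCommGroup A] [AddCommGroup B] [AddCommGroup C] [Finite B]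
    {ρA : Act Δ A} {ρB : Act Δ B} {ρC : Act Δ C}, SES ρA ρB ρC → (∀ b : B, p • b = 0) →
    h ρB = h ρA * h ρC

namespace MulFun

variable {p : ℕ} {Δ : Type} [Group Δ] (m : MulFun p Δ)

/-- the trivial exact sequence `0 → A → B → 0 → 0` -/
def _root_.Fermat.Agent.PT.EEquiv.ses {A B : Type} [AddCommGroup A] [AddCommGroup B]
    {ρ : Act Δ A} {σ : Act Δ B} (E : EEquiv ρ σ) : SES ρ σ (trivAct Δ PUnit) where
  i := E.hom
  p := ⟨0, fun _ _ => rfl⟩
  inj := E.e.injective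
  surj := fun _ => ⟨0, rfl⟩
  exact b := ⟨fun _ => ⟨E.e.symm b, E.e.apply_symm_apply b⟩, fun _ => rfl⟩

lemma h_punit : m.h (trivAct Δ PUnit) = 1 := by
  let E : EEquiv (trivAct Δ PUnit) (trivAct Δ PUnit) := ⟨AddEquiv.refl _, fun _ _ => rfl⟩
  have h1 := m.mul E.ses (fun _ => rfl)
  have h2 := m.pos (trivAct Δ PUnit) (fun _ => rfl)
  have h3 : m.h (trivAct Δ PUnit) * m.h (trivAct Δ PUnit) =
      m.h (trivAct Δ PUnit) * 1 := by rw [mul_one]; exact h1.symm
  exact Nat.eq_of_mul_eq_mul_left h2 h3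

lemma h_congr {A B : Type} [AddCommGroup A] [AddCommGroup B] [Finite B]
    {ρ : Act Δ A} {σ : Act Δ B} (E : EEquiv ρ σ) (hp : ∀ b : B, p • b = 0) :
    m.h σ = m.h ρ := by
  have h1 := m.mul E.ses hp
  rwa [h_punit, mul_one] at h1

lemma h_subsingleton {A : Type} [AddCommGroup A] [Subsingleton A] (ρ : Act Δ A) :
    m.h ρ = 1 := by
  let E : EEquiv ρ (trivAct Δ PUnit) :=
    ⟨{ toFun := fun _ => PUnit.unit, invFun := fun _ => 0,
       left_inv := fun _ => Subsingleton.elim _ _, right_inv := fun _ => rfl,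
       map_add' := fun _ _ => rfl }, fun _ _ => rfl⟩
  rw [← m.h_congr E (fun _ => rfl), m.h_punit]

end MulFun

section CommAct

variable {G Δ : Type} [Group G] [Group Δ] {A B : Type} [AddCommGroup A] [AddCommGroup B]

/-- commuting actions -/
def CommAct (τ : Act Δ A) (ρ : Act G A) : Prop := ∀ δ g a, τ δ (ρ g a) = ρ g (τ δ a)

namespace CommAct

variable {τ : Act Δ A} {ρ : Act G A} (h : CommAct τ ρ)

/-- the equivariant endomorphism -/
def ehom (δ : Δ) : EHom ρ ρ := ⟨τ δ, fun g a => h δ g a⟩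

@[simp] lemma ehom_f (δ : Δ) (a : A) : (h.ehom δ).f a = τ δ a := rfl

/-- action on `H⁰` -/
def h0 : Act Δ (H0 ρ) where
  toFun δ := (h.ehom δ).h0
  map_one' := by
    apply AddMonoidHom.ext
    intro a
    apply Subtype.ext
    show τ 1 (a : A) = a
    rw [act_one]
  map_mul' δ ε := by
    apply AddMonoidHom.ext
    intro a
    apply Subtype.ext
    show τ (δ * ε) (a : A) = τ δ (τ ε a)
    rw [act_mul]

@[simp] lemma coe_h0 (δ : Δ) (a : H0 ρ) : ((h.h0 δ a : H0 ρ) : A) = τ δ a := rfl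

/-- action on `H¹` -/
def h1 (L : Levels G) : Act Δ (H1 L ρ) where
  toFun δ := (h.ehom δ).h1 L
  map_one' := by
    apply AddMonoidHom.ext
    intro x
    exact EHom.h1_of_id L (fun a => act_one τ a) x
  map_mul' δ ε := by
    apply AddMonoidHom.ext
    intro x
    show (h.ehom (δ * ε)).h1 L x = (h.ehom δ).h1 L ((h.ehom ε).h1 L x)
    rw [← EHom.h1_comp]
    exact EHom.h1_congr L (fun a => act_mul τ δ ε a) x

lemma h1_apply (L : Levels G) (δ : Δ) (x : H1 L ρ) : h.h1 L δ x = (h.ehom δ).h1 L x := rfl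

/-- action on `H²` -/
def h2 (L : Levels G) : Act Δ (H2 L ρ) where
  toFun δ := (h.ehom δ).h2 L
  map_one' := by
    apply AddMonoidHom.ext
    intro x
    exact EHom.h2_of_id L (fun a => act_one τ a) x
  map_mul' δ ε := by
    apply AddMonoidHom.ext
    intro x
    show (h.ehom (δ * ε)).h2 L x = (h.ehom δ).h2 L ((h.ehom ε).h2 L x)
    rw [← EHom.h2_comp]
    exact EHom.h2_congr L (fun a => act_mul τ δ ε a) x

lemma h2_apply (L : Levels G) (δ : Δ) (x : H2 L ρ) : h.h2 L δ x = (h.ehom δ).h2 L x := rfl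

end CommAct

end CommAct

section Rt

variable {G : Type} [Group G] (U V : Subgroup G) (hUV : U ≤ V)
  [hN : (U.subgroupOf V).Normal] {A : Type} [AddCommGroup A]

/-- right translation `gU ↦ gvU` on `G/U`, for `v ∈ V/U` -/
def rtFun (δ : V ⧸ U.subgroupOf V) (x : G ⧸ U) : G ⧸ U :=
  Quotient.liftOn₂' δ x (fun v g => ((g * (v : G) : G) : G ⧸ U)) (by
    intro v g v' g' hv hg
    have hv1 : v⁻¹ * v' ∈ U.subgroupOf V := QuotientGroup.leftRel_apply.1 hv
    have hv' : (v : G)⁻¹ * v' ∈ U := hv1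
    have hg' : g⁻¹ * g' ∈ U := QuotientGroup.leftRel_apply.1 hg
    rw [QuotientGroup.eq]
    have h1 : (⟨g⁻¹ * g', hUV hg'⟩ : V) ∈ U.subgroupOf V := hg'
    have h2 := hN.conj_mem _ h1 v⁻¹
    have h3 : (v : G)⁻¹ * (g⁻¹ * g') * v ∈ U := by
      have : (v : G)⁻¹ * (g⁻¹ * g') * (v : G)⁻¹⁻¹ ∈ U := h2
      rwa [inv_inv] at this
    have h4 : (g * (v : G))⁻¹ * (g' * v') = ((v : G)⁻¹ * (g⁻¹ * g') * v) * ((v : G)⁻¹ * v') := by
      group
    rw [h4]
    exact U.mul_mem h3 hv')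

@[simp] lemma rtFun_mk (v : V) (g : G) :
    rtFun U V hUV (v : V ⧸ U.subgroupOf V) (g : G ⧸ U) = ((g * (v : G) : G) : G ⧸ U) := rfl

lemma rtFun_one (x : G ⧸ U) : rtFun U V hUV 1 x = x := by
  obtain ⟨g, rfl⟩ := QuotientGroup.mk_surjective x
  show ((g * ((1 : V) : G) : G) : G ⧸ U) = g
  rw [Subgroup.coe_one, mul_one]

lemma rtFun_mul (δ ε : V ⧸ U.subgroupOf V) (x : G ⧸ U) :
    rtFun U V hUV (δ * ε) x = rtFun U V hUV ε (rtFun U V hUV δ x) := by
  obtain ⟨g, rfl⟩ := QuotientGroup.mk_surjective x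
  obtain ⟨v, rfl⟩ := QuotientGroup.mk_surjective δ
  obtain ⟨w, rfl⟩ := QuotientGroup.mk_surjective ε
  show ((g * ((v * w : V) : G) : G) : G ⧸ U) = ((g * (v : G) * (w : G) : G) : G ⧸ U)
  rw [Subgroup.coe_mul, mul_assoc]

lemma rtFun_cosetAct (δ : V ⧸ U.subgroupOf V) (g : G) (x : G ⧸ U) :
    rtFun U V hUV δ (cosetAct U g x) = cosetAct U g (rtFun U V hUV δ x) := by
  obtain ⟨g', rfl⟩ := QuotientGroup.mk_surjective x
  obtain ⟨v, rfl⟩ := QuotientGroup.mk_surjective δ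
  show ((g * g' * (v : G) : G) : G ⧸ U) = ((g * (g' * (v : G)) : G) : G ⧸ U)
  rw [mul_assoc]

/-- right translation as a permutation -/
def rtEquiv (δ : V ⧸ U.subgroupOf V) : Equiv.Perm (G ⧸ U) where
  toFun := rtFun U V hUV δ
  invFun := rtFun U V hUV δ⁻¹
  left_inv x := by rw [← rtFun_mul, mul_inv_cancel, rtFun_one]
  right_inv x := by rw [← rtFun_mul, inv_mul_cancel, rtFun_one]

/-- the action of `V/U` on `Map(G/U, A)` by right translations -/
def rtAct (A : Type) [AddCommGroup A] : Act (V ⧸ U.subgroupOf V) (G ⧸ U → A) where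
  toFun δ :=
    { toFun := fun f x => f (rtFun U V hUV δ x)
      map_zero' := rfl
      map_add' := fun _ _ => rfl }
  map_one' := by
    apply AddMonoidHom.ext
    intro f
    funext x
    show f (rtFun U V hUV 1 x) = f x
    rw [rtFun_one]
  map_mul' δ ε := by
    apply AddMonoidHom.ext
    intro f
    funext x
    show f (rtFun U V hUV (δ * ε) x) = f (rtFun U V hUV ε (rtFun U V hUV δ x))
    rw [rtFun_mul]

@[simp] lemma rtAct_apply (δ : V ⧸ U.subgroupOf V) (f : G ⧸ U → A) (x : G ⧸ U) :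
    rtAct U V hUV A δ f x = f (rtFun U V hUV δ x) := rfl

lemma rt_comm (ρ : Act G A) : CommAct (rtAct U V hUV A) (mapAct (cosetAct U) ρ) := by
  intro δ g f
  funext x
  rw [rtAct_apply, mapAct_apply, mapAct_apply, rtAct_apply, rtFun_cosetAct]

/-- `H¹(G, Map(G/U, A))` as a `V/U`-module -/
def rtH1 (L : Levels G) (ρ : Act G A) :
    Act (V ⧸ U.subgroupOf V) (H1 L (mapAct (cosetAct U) ρ)) := (rt_comm U V hUV ρ).h1 L

/-- `H⁰(G, Map(G/U, A))` as a `V/U`-module -/
def rtH0 (ρ : Act G A) :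
    Act (V ⧸ U.subgroupOf V) (H0 (mapAct (cosetAct U) ρ)) := (rt_comm U V hUV ρ).h0

/-- `H`-invariant functions on `G/U` -/
def invM (p : ℕ) (H : Subgroup G) : AddSubgroup (G ⧸ U → ZMod p) where
  carrier := {a | ∀ h ∈ H, ∀ x, a (cosetAct U h x) = a x}
  zero_mem' := fun _ _ _ => rfl
  add_mem' := fun {a b} ha hb h hh x => by
    rw [Pi.add_apply, Pi.add_apply, ha h hh, hb h hh]
  neg_mem' := fun {a} ha h hh x => by rw [Pi.neg_apply, Pi.neg_apply, ha h hh]

/-- right translation on invariant functions -/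
def rtInv (p : ℕ) (H : Subgroup G) : Act (V ⧸ U.subgroupOf V) (invM U p H) where
  toFun δ :=
    { toFun := fun a => ⟨rtAct U V hUV (ZMod p) δ a, fun h hh x => by
        rw [rtAct_apply, rtAct_apply, rtFun_cosetAct, a.2 h hh]⟩
      map_zero' := rfl
      map_add' := fun _ _ => rfl }
  map_one' := by
    apply AddMonoidHom.ext
    intro f
    apply Subtype.ext
    exact act_one (rtAct U V hUV (ZMod p)) (f : G ⧸ U → ZMod p)
  map_mul' δ ε := by
    apply AddMonoidHom.ext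
    intro f
    apply Subtype.ext
    exact act_mul (rtAct U V hUV (ZMod p)) δ ε (f : G ⧸ U → ZMod p)

end Rt

end Fermat.Agent.PT
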