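import Fermat.Agent.PT.MulFun

/-!
# Matrices over group rings acting on modules; the multiplicative function of an idempotent
-/

set_option autoImplicit false

namespace Fermat.Agent.PT

section Mat

variable {Δ : Type} [Group Δ] [Fintype Δ] {J : Type} [Fintype J] {Y Z : Type} [AddCommGroup Y]
  [AddCommGroup Z]

/-- the action of a matrix over `ℤ[Δ]` -/
def matEnd (c : J → J → Δ → ℤ) (σ : Act Δ Y) : (J → Y) →+ (J → Y) where
  toFun y i := ∑ j, ∑ δ, c i j δ • σ δ (y j)
  map_zero' := by
    funext i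
    simp
  map_add' y z := by
    funext i
    simp only [Pi.add_apply, map_add, smul_add, Finset.sum_add_distrib]

lemma matEnd_apply (c : J → J → Δ → ℤ) (σ : Act Δ Y) (y : J → Y) (i : J) :
    matEnd c σ y i = ∑ j, ∑ δ, c i j δ • σ δ (y j) := rfl

lemma matEnd_nat (c : J → J → Δ → ℤ) {σ : Act Δ Y} {τ : Act Δ Z} (φ : EHom σ τ) (y : J → Y)
    (i : J) : matEnd c τ (fun j => φ.f (y j)) i = φ.f (matEnd c σ y i) := by
  rw [matEnd_apply, matEnd_apply, map_sum]
  refine Finset.sum_congr rfl fun j _ => ?_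
  rw [map_sum]
  refine Finset.sum_congr rfl fun δ _ => ?_
  rw [map_zsmul, φ.comm]

/-- idempotent modulo `p` -/
def IsIdem (p : ℕ) (c : J → J → Δ → ℤ) : Prop :=
  ∀ i k δ, ∃ z : ℤ, (∑ j, ∑ ε, c i j ε * c j k (ε⁻¹ * δ)) = c i k δ + p * z

lemma IsIdem.matEnd {p : ℕ} {c : J → J → Δ → ℤ} (hc : IsIdem p c) (σ : Act Δ Y)
    (hp : ∀ y : Y, p • y = 0) (y : J → Y) : matEnd c σ (matEnd c σ y) = matEnd c σ y := by
  funext i
  rw [matEnd_apply, matEnd_apply]
  have h1 : ∀ j, ∑ δ, c i j δ • σ δ (PT.matEnd c σ y j) =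
      ∑ k, ∑ δ, (∑ ε, c i j ε * c j k (ε⁻¹ * δ)) • σ δ (y k) := by
    intro j
    have h2 : ∀ ε, c i j ε • σ ε (PT.matEnd c σ y j) =
        ∑ k, ∑ δ, (c i j ε * c j k (ε⁻¹ * δ)) • σ δ (y k) := by
      intro ε
      rw [matEnd_apply, map_sum, Finset.smul_sum]
      refine Finset.sum_congr rfl fun k _ => ?_
      rw [map_sum, Finset.smul_sum]
      refine Eq.trans ?_ (Equiv.sum_comp (Equiv.mulLeft ε)
        (fun δ => (c i j ε * c j k (ε⁻¹ * δ)) • σ δ (y k)))
      refine Finset.sum_congr rfl fun δ _ => ?_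
      rw [map_zsmul, Equiv.coe_mulLeft, inv_mul_cancel_left, mul_smul, act_mul]
    rw [Finset.sum_congr rfl fun ε _ => h2 ε, Finset.sum_comm]
    refine Finset.sum_congr rfl fun k _ => ?_
    rw [Finset.sum_comm]
    refine Finset.sum_congr rfl fun δ _ => ?_
    rw [Finset.sum_smul]
  rw [Finset.sum_congr rfl fun j _ => h1 j, Finset.sum_comm]
  refine Finset.sum_congr rfl fun k _ => ?_
  rw [Finset.sum_comm]
  refine Finset.sum_congr rfl fun δ _ => ?_
  rw [← Finset.sum_smul]
  obtain ⟨z, hz⟩ := hc i k δ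
  rw [hz, add_smul, mul_comm, mul_smul, natCast_zsmul, hp, smul_zero, add_zero]

lemma matEnd_range_iff {p : ℕ} {c : J → J → Δ → ℤ} (hc : IsIdem p c) (σ : Act Δ Y)
    (hp : ∀ y : Y, p • y = 0) (y : J → Y) : y ∈ (matEnd c σ).range ↔ matEnd c σ y = y := by
  constructor
  · rintro ⟨z, rfl⟩
    exact hc.matEnd σ hp z
  · intro h
    exact ⟨y, h⟩

/-- the multiplicative function of an idempotent matrix -/
noncomputable def hMat {p : ℕ} {c : J → J → Δ → ℤ} (hc : IsIdem p c) : MulFun p Δ where
  h σ := Nat.card (matEnd c σ).range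
  pos _ _ := Nat.card_pos
  mul {A B C _ _ _ _ ρA ρB ρC} S hp := by
    have : Finite A := Finite.of_injective _ S.inj
    have : Finite C := Finite.of_surjective _ S.surj
    have hpA : ∀ a : A, p • a = 0 := fun a => S.inj (by rw [map_nsmul, hp, map_zero])
    have hpC : ∀ c : C, p • c = 0 := fun c => by
      obtain ⟨b, rfl⟩ := S.surj c
      rw [← map_nsmul, hp, map_zero]
    let f : (matEnd c ρB).range →+ (matEnd c ρC).range :=
      { toFun := fun y => ⟨fun j => S.p.f (y.1 j), (matEnd_range_iff hc ρC hpC _).2 (by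
          funext i
          rw [matEnd_nat, (matEnd_range_iff hc ρB hp _).1 y.2])⟩
        map_zero' := by
          apply Subtype.ext
          funext j
          exact map_zero _
        map_add' := fun y z => by
          apply Subtype.ext
          funext j
          exact map_add _ _ _ }
    have hf : Function.Surjective f := by
      rintro ⟨z, hz⟩
      choose w hw using fun j => S.surj (z j)
      refine ⟨⟨matEnd c ρB w, w, rfl⟩, ?_⟩
      apply Subtype.ext
      funext i
      show S.p.f (matEnd c ρB w i) = z i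
      rw [← matEnd_nat]
      have : (fun j => S.p.f (w j)) = z := funext hw
      rw [this, (matEnd_range_iff hc ρC hpC _).1 hz]
    have hk : Nat.card f.ker = Nat.card (matEnd c ρA).range := by
      symm
      refine Nat.card_congr (Equiv.ofBijective (fun x => ⟨⟨fun j => S.i.f (x.1 j),
        (matEnd_range_iff hc ρB hp _).2 (by
          funext i
          rw [matEnd_nat, (matEnd_range_iff hc ρA hpA _).1 x.2])⟩, by
            rw [AddMonoidHom.mem_ker]
            apply Subtype.ext
            funext j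
            exact S.p_i _⟩) ⟨?_, ?_⟩)
      · intro x y h
        apply Subtype.ext
        funext j
        apply S.inj
        exact congrFun (congrArg (fun t => t.1.1) h) j
      · rintro ⟨⟨y, hy⟩, hy0⟩
        have h1 : ∀ j, S.p.f (y j) = 0 := fun j =>
          congrFun (congrArg Subtype.val (AddMonoidHom.mem_ker.1 hy0)) j
        choose w hw using fun j => (S.exact (y j)).1 (h1 j)
        refine ⟨⟨matEnd c ρA w, w, rfl⟩, ?_⟩
        apply Subtype.ext
        apply Subtype.ext
        funext i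
        show S.i.f (matEnd c ρA w i) = y i
        rw [← matEnd_nat]
        have : (fun j => S.i.f (w j)) = y := funext hw
        rw [this, (matEnd_range_iff hc ρB hp _).1 hy]
    have h1 := card_eq_ker_mul_range f
    rw [AddMonoidHom.range_eq_top.2 hf, hk] at h1
    rw [h1]
    congr 1
    exact Nat.card_congr AddSubgroup.topEquiv.toEquiv

lemma hMat_h {p : ℕ} {c : J → J → Δ → ℤ} (hc : IsIdem p c) (σ : Act Δ Y) :
    (hMat hc).h σ = Nat.card (matEnd c σ).range := rfl

/-- a summand cut out by the matrix -/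
lemma card_of_sum (c : J → J → Δ → ℤ) (σ : Act Δ Y) (a : J → (Y →+ Z)) (b : J → (Z →+ Y))
    (hab : ∀ n, ∑ j, a j (b j n) = n)
    (hba : ∀ i j y, b i (a j y) = ∑ δ, c i j δ • σ δ y) :
    Nat.card Z = Nat.card (matEnd c σ).range := by
  refine Nat.card_congr (Equiv.ofBijective (fun n => ⟨fun j => b j n, fun j => b j n, ?_⟩)
    ⟨?_, ?_⟩)
  · funext i
    rw [matEnd_apply]
    conv_rhs => rw [← hab n, map_sum]
    exact Finset.sum_congr rfl fun j _ => (hba i j _).symm
  · intro n n' h
    rw [← hab n, ← hab n']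
    refine Finset.sum_congr rfl fun j _ => ?_
    rw [show b j n = b j n' from congrFun (congrArg Subtype.val h) j]
  · rintro ⟨_, y, rfl⟩
    refine ⟨∑ j, a j (y j), ?_⟩
    apply Subtype.ext
    funext i
    show b i (∑ j, a j (y j)) = matEnd c σ y i
    rw [map_sum, matEnd_apply]
    exact Finset.sum_congr rfl fun j _ => hba i j _

/-- transposed matrix -/
def matT (c : J → J → Δ → ℤ) : J → J → Δ → ℤ := fun i j δ => c j i δ⁻¹

end Mat

section Transpose

variable {p : ℕ} [Fact p.Prime]

lemma card_range_mulVec {K : Type} [Fintype K] [DecidableEq K] (M : Matrix K K (ZMod p)) :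
    Nat.card (Set.range M.mulVec) = p ^ M.rank := by
  have h1 : Nat.card (LinearMap.range M.mulVecLin) = p ^ M.rank := by
    rw [Module.natCard_eq_pow_finrank (K := ZMod p), Nat.card_zmod]
    rfl
  rw [← h1]
  rfl

lemma card_range_transpose {K : Type} [Fintype K] [DecidableEq K] (M : Matrix K K (ZMod p)) :
    Nat.card (Set.range M.transpose.mulVec) = Nat.card (Set.range M.mulVec) := by
  rw [card_range_mulVec, card_range_mulVec, Matrix.rank_transpose]

variable {Δ : Type} [Group Δ] [Fintype Δ] {J : Type} [Fintype J] [DecidableEq J]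
  {X : Type} [Fintype X] [DecidableEq X]

/-- the matrix of `matEnd` on functions on a right `Δ`-set -/
def permMat (p : ℕ) (π : Δ → X → X) (c : J → J → Δ → ℤ) : Matrix (J × X) (J × X) (ZMod p) :=
  fun a b => ∑ δ, if π δ a.2 = b.2 then (c a.1 b.1 δ : ZMod p) else 0

lemma permMat_mulVec (π : Δ → X → X) (c : J → J → Δ → ℤ) (y : J × X → ZMod p) (i : J) (x : X) :
    (permMat p π c).mulVec y (i, x) = ∑ j, ∑ δ, c i j δ • y (j, π δ x) := by
  show ∑ b : J × X, (∑ δ, if π δ x = b.2 then (c i b.1 δ : ZMod p) else 0) * y b = _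
  rw [Fintype.sum_prod_type]
  refine Finset.sum_congr rfl fun j _ => ?_
  simp only [Finset.sum_mul]
  rw [Finset.sum_comm]
  refine Finset.sum_congr rfl fun δ _ => ?_
  rw [Finset.sum_eq_single (π δ x)]
  · rw [if_pos rfl, zsmul_eq_mul]
  · intro z _ hz
    rw [if_neg (Ne.symm hz), zero_mul]
  · intro h
    exact absurd (Finset.mem_univ _) h

omit [Fact p.Prime] in
lemma permMat_matT (π : Δ → X → X) (hπ : ∀ δ x, π δ⁻¹ (π δ x) = x) (c : J → J → Δ → ℤ) :
    permMat p π (matT c) = (permMat p π c).transpose := by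
  ext a b
  show (∑ δ, if π δ a.2 = b.2 then (c b.1 a.1 δ⁻¹ : ZMod p) else 0) =
    ∑ δ, if π δ b.2 = a.2 then (c b.1 a.1 δ : ZMod p) else 0
  refine Fintype.sum_equiv (Equiv.inv Δ) _ _ fun δ => ?_
  show _ = if π δ⁻¹ b.2 = a.2 then (c b.1 a.1 δ⁻¹ : ZMod p) else 0
  by_cases h : π δ a.2 = b.2
  · rw [if_pos h, if_pos (by rw [← h, hπ])]
  · rw [if_neg h, if_neg]
    intro h'
    apply h
    rw [← h']
    have := hπ δ⁻¹ b.2
    rwa [inv_inv] at this

lemma card_matEnd_perm (π : Δ → X → X) {σ : Act Δ (X → ZMod p)}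
    (hσ : ∀ δ f x, σ δ f x = f (π δ x)) (c : J → J → Δ → ℤ) :
    Nat.card (matEnd c σ).range = Nat.card (Set.range (permMat p π c).mulVec) := by
  have key : ∀ (y : J → X → ZMod p) (i : J) (x : X), matEnd c σ y i x =
      (permMat p π c).mulVec (fun a => y a.1 a.2) (i, x) := by
    intro y i x
    rw [permMat_mulVec, matEnd_apply, Finset.sum_apply]
    refine Finset.sum_congr rfl fun j _ => ?_
    rw [Finset.sum_apply]
    refine Finset.sum_congr rfl fun δ _ => ?_
    rw [Pi.smul_apply, hσ]
  refine Nat.card_congr (Equiv.ofBijective (fun z => ⟨fun a => z.1 a.1 a.2, ?_⟩) ⟨?_, ?_⟩)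
  · obtain ⟨_, y, rfl⟩ := z
    exact ⟨fun a => y a.1 a.2, funext fun a => (key y a.1 a.2).symm⟩
  · intro z z' h
    apply Subtype.ext
    funext i x
    exact congrFun (congrArg Subtype.val h) (i, x)
  · rintro ⟨_, y, rfl⟩
    refine ⟨⟨matEnd c σ (fun i x => y (i, x)), _, rfl⟩, ?_⟩
    apply Subtype.ext
    funext a
    exact key (fun i x => y (i, x)) a.1 a.2

lemma card_matEnd_matT (π : Δ → X → X) (hπ : ∀ δ x, π δ⁻¹ (π δ x) = x) {σ : Act Δ (X → ZMod p)}
    (hσ : ∀ δ f x, σ δ f x = f (π δ x)) (c : J → J → Δ → ℤ) :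
    Nat.card (matEnd (matT c) σ).range = Nat.card (matEnd c σ).range := by
  rw [card_matEnd_perm π hσ, card_matEnd_perm π hσ, permMat_matT π hπ, card_range_transpose]

end Transpose

section Congr

variable {Δ : Type} [Group Δ] [Fintype Δ] {J : Type} [Fintype J] {Y Z : Type} [AddCommGroup Y]
  [AddCommGroup Z]

lemma card_matEnd_congr (c : J → J → Δ → ℤ) {σ : Act Δ Y} {τ : Act Δ Z} (E : EEquiv σ τ) :
    Nat.card (matEnd c σ).range = Nat.card (matEnd c τ).range := by
  refine Nat.card_congr (Equiv.ofBijective (fun z => ⟨fun j => E.e (z.1 j), ?_⟩) ⟨?_, ?_⟩)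
  · obtain ⟨_, y, rfl⟩ := z
    exact ⟨fun j => E.e (y j), funext fun i => matEnd_nat c E.hom y i⟩
  · intro z z' h
    apply Subtype.ext
    funext i
    exact E.e.injective (congrFun (congrArg Subtype.val h) i)
  · rintro ⟨_, y, rfl⟩
    refine ⟨⟨matEnd c σ (fun i => E.e.symm (y i)), _, rfl⟩, ?_⟩
    apply Subtype.ext
    funext i
    refine (matEnd_nat c E.hom (fun i => E.e.symm (y i)) i).symm.trans ?_
    have h1 : (fun j => E.hom.f (E.e.symm (y j))) = y := funext fun j => E.e.apply_symm_apply (y j)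
    show matEnd c τ (fun j => E.hom.f (E.e.symm (y j))) i = matEnd c τ y i
    rw [h1]

end Congr

section Inv

variable {G : Type} [Group G] (U V : Subgroup G) (hUV : U ≤ V)
  [hN : (U.subgroupOf V).Normal] {p : ℕ}

/-- orbits of `H` on `G/U` -/
abbrev OrbH (H : Subgroup G) := Orb ((cosetAct U).comp H.subtype)

/-- right translations on orbits -/
def orbRt (H : Subgroup G) (δ : V ⧸ U.subgroupOf V) : OrbH U H → OrbH U H :=
  Quotient.map (rtFun U V hUV δ) (by
    rintro x y ⟨h, hh⟩
    exact ⟨h, by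
      rw [← hh]
      exact (rtFun_cosetAct U V hUV δ (h : G) x).symm⟩)

lemma orbRt_mul (H : Subgroup G) (δ ε : V ⧸ U.subgroupOf V) (z : OrbH U H) :
    orbRt U V hUV H (δ * ε) z = orbRt U V hUV H ε (orbRt U V hUV H δ z) := by
  induction z using Quotient.inductionOn with
  | _ x => exact congrArg (Quotient.mk _) (rtFun_mul U V hUV δ ε x)

lemma orbRt_one (H : Subgroup G) (z : OrbH U H) : orbRt U V hUV H 1 z = z := by
  induction z using Quotient.inductionOn with
  | _ x => exact congrArg (Quotient.mk _) (rtFun_one U V hUV x)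

variable (p) in
/-- right translations on functions on orbits -/
def orbAct (H : Subgroup G) : Act (V ⧸ U.subgroupOf V) (OrbH U H → ZMod p) where
  toFun δ :=
    { toFun := fun f x => f (orbRt U V hUV H δ x)
      map_zero' := rfl
      map_add' := fun _ _ => rfl }
  map_one' := by
    apply AddMonoidHom.ext
    intro f
    funext x
    show f (orbRt U V hUV H 1 x) = f x
    rw [orbRt_one]
  map_mul' δ ε := by
    apply AddMonoidHom.ext
    intro f
    funext x
    show f (orbRt U V hUV H (δ * ε) x) = f (orbRt U V hUV H ε (orbRt U V hUV H δ x))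
    rw [orbRt_mul]

variable (p) in
/-- invariant functions are functions on orbits -/
def invEquiv (H : Subgroup G) : EEquiv (rtInv U V hUV p H) (orbAct U V hUV p H) where
  e :=
    { toFun := fun a => Quotient.lift a.1 (by
        rintro x y ⟨h, hh⟩
        rw [← hh]
        exact (a.2 h h.2 x).symm)
      invFun := fun f => ⟨fun x => f ⟦x⟧, fun h hh x => by
        show f ⟦cosetAct U h x⟧ = f ⟦x⟧
        have h1 : (⟦x⟧ : OrbH U H) = ⟦cosetAct U h x⟧ := Quotient.sound ⟨⟨h, hh⟩, rfl⟩
        rw [h1]⟩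
      left_inv := fun a => rfl
      right_inv := fun f => by
        funext z
        induction z using Quotient.inductionOn with
        | _ x => rfl
      map_add' := fun a b => by
        funext z
        induction z using Quotient.inductionOn with
        | _ x => rfl }
  comm δ a := by
    funext z
    induction z using Quotient.inductionOn with
    | _ x => rfl

variable [Fact p.Prime] [Finite (G ⧸ U)] [Fintype (V ⧸ U.subgroupOf V)] {J : Type} [Fintype J]
  [DecidableEq J]

include hUV in
/-- self-duality of permutation modules -/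
lemma card_rtInv_matT (H : Subgroup G) (c : J → J → V ⧸ U.subgroupOf V → ℤ) :
    Nat.card (matEnd (matT c) (rtInv U V hUV p H)).range =
      Nat.card (matEnd c (rtInv U V hUV p H)).range := by
  classical
  have : Finite (OrbH U H) := Quotient.finite _
  have : Fintype (OrbH U H) := Fintype.ofFinite _
  rw [card_matEnd_congr (matT c) (invEquiv U V hUV p H), card_matEnd_congr c (invEquiv U V hUV p H)]
  refine card_matEnd_matT (orbRt U V hUV H) (fun δ x => ?_) (fun _ _ _ => rfl) c
  rw [← orbRt_mul, mul_inv_cancel, orbRt_one]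

end Inv

end Fermat.Agent.PT
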