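import Fermat.Agent.PT.Devissage

/-!
# Right exactness of `H²` from Euler characteristics
-/

set_option autoImplicit false

namespace Fermat.Agent.PT

section Inverse

variable {G Γ : Type*} [Group G] [Group Γ] {A B : Type*} [AddCommGroup A] [AddCommGroup B]
  {L : Levels G} {ρ : Act G A} {L' : Levels Γ} {σ : Act Γ B}

/-- mutually inverse morphisms of pairs -/
structure PairHom.Inv (φ : PairHom L ρ L' σ) (ψ : PairHom L' σ L ρ) : Prop where
  r1 : ∀ g, φ.r (ψ.r g) = g
  r2 : ∀ γ, ψ.r (φ.r γ) = γ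
  f1 : ∀ a, ψ.f (φ.f a) = a
  f2 : ∀ b, φ.f (ψ.f b) = b

lemma PairHom.Inv.bij_h0 {φ : PairHom L ρ L' σ} {ψ : PairHom L' σ L ρ} (h : φ.Inv ψ) :
    Function.Bijective φ.h0 :=
  Function.bijective_iff_has_inverse.2 ⟨ψ.h0, fun _ => Subtype.ext (h.f1 _),
    fun _ => Subtype.ext (h.f2 _)⟩

lemma PairHom.Inv.bij_h1 {φ : PairHom L ρ L' σ} {ψ : PairHom L' σ L ρ} (h : φ.Inv ψ) :
    Function.Bijective φ.h1 := by
  refine Function.bijective_iff_has_inverse.2 ⟨ψ.h1, fun x => ?_, fun x => ?_⟩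
  · rw [← PairHom.h1_comp]
    exact (PairHom.h1_congr (φ := ψ.comp φ) (ψ := PairHom.id L ρ) h.r1 h.f1 x).trans
      (PairHom.h1_id x)
  · rw [← PairHom.h1_comp]
    exact (PairHom.h1_congr (φ := φ.comp ψ) (ψ := PairHom.id L' σ) h.r2 h.f2 x).trans
      (PairHom.h1_id x)

lemma PairHom.Inv.bij_h2 {φ : PairHom L ρ L' σ} {ψ : PairHom L' σ L ρ} (h : φ.Inv ψ) :
    Function.Bijective φ.h2 := by
  refine Function.bijective_iff_has_inverse.2 ⟨ψ.h2, fun x => ?_, fun x => ?_⟩
  · rw [← PairHom.h2_comp]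
    exact (PairHom.h2_congr (φ := ψ.comp φ) (ψ := PairHom.id L ρ) h.r1 h.f1 x).trans
      (PairHom.h2_id x)
  · rw [← PairHom.h2_comp]
    exact (PairHom.h2_congr (φ := φ.comp ψ) (ψ := PairHom.id L' σ) h.r2 h.f2 x).trans
      (PairHom.h2_id x)

lemma fin012_of_bij {φ : PairHom L ρ L' σ} (b0 : Function.Bijective φ.h0)
    (b1 : Function.Bijective φ.h1) (b2 : Function.Bijective φ.h2) :
    Fin012 L ρ ↔ Fin012 L' σ := by
  have e0 := Equiv.ofBijective _ b0
  have e1 := Equiv.ofBijective _ b1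
  have e2 := Equiv.ofBijective _ b2
  constructor
  · rintro ⟨h0, h1, h2⟩
    exact ⟨Finite.of_equiv _ e0, Finite.of_equiv _ e1, Finite.of_equiv _ e2⟩
  · rintro ⟨h0, h1, h2⟩
    exact ⟨Finite.of_equiv _ e0.symm, Finite.of_equiv _ e1.symm, Finite.of_equiv _ e2.symm⟩

lemma chi_of_bij {φ : PairHom L ρ L' σ} (b0 : Function.Bijective φ.h0)
    (b1 : Function.Bijective φ.h1) (b2 : Function.Bijective φ.h2) :
    chi L ρ = chi L' σ := by
  unfold chi
  rw [Nat.card_congr (Equiv.ofBijective _ b0), Nat.card_congr (Equiv.ofBijective _ b1),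
    Nat.card_congr (Equiv.ofBijective _ b2)]

end Inverse

section Sub

variable {G : Type*} [Group G] {A : Type*} [AddCommGroup A]

/-- `H*(N, A)` for `N ≤ P ≤ G` computed inside `P` -/
def subSub (L : Levels G) (ρ : Act G A) {N P : Subgroup G} (_h : N ≤ P) :
    PairHom (L.sub N) (resAct ρ N) ((L.sub P).sub (N.subgroupOf P))
      (resAct (resAct ρ P) (N.subgroupOf P)) where
  r := { toFun := fun x => ⟨x.1.1, x.2⟩
         map_one' := rfl
         map_mul' := fun _ _ => rfl }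
  f := AddMonoidHom.id A
  lev := by
    rintro _ ⟨M, hM, rfl⟩
    exact ⟨_, ⟨_, ⟨M, hM, rfl⟩, rfl⟩, fun γ hγ => hγ⟩
  comm _ _ := rfl

/-- inverse of `subSub` -/
def subSubInv (L : Levels G) (ρ : Act G A) {N P : Subgroup G} (h : N ≤ P) :
    PairHom ((L.sub P).sub (N.subgroupOf P)) (resAct (resAct ρ P) (N.subgroupOf P))
      (L.sub N) (resAct ρ N) where
  r := { toFun := fun x => ⟨⟨x.1, h x.2⟩, x.2⟩
         map_one' := rfl
         map_mul' := fun _ _ => rfl }
  f := AddMonoidHom.id A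
  lev := by
    rintro _ ⟨_, ⟨M, hM, rfl⟩, rfl⟩
    exact ⟨_, ⟨M, hM, rfl⟩, fun γ hγ => hγ⟩
  comm _ _ := rfl

lemma subSub_inv (L : Levels G) (ρ : Act G A) {N P : Subgroup G} (h : N ≤ P) :
    (subSub L ρ h).Inv (subSubInv L ρ h) := ⟨fun _ => rfl, fun _ => rfl, fun _ => rfl,
      fun _ => rfl⟩

lemma resAct_triv (N : Subgroup G) : resAct (trivAct G A) N = trivAct N A := rfl

lemma fin012_subSub (L : Levels G) (ρ : Act G A) {N P : Subgroup G} (h : N ≤ P) :
    Fin012 (L.sub N) (resAct ρ N) ↔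
      Fin012 ((L.sub P).sub (N.subgroupOf P)) (resAct (resAct ρ P) (N.subgroupOf P)) :=
  fin012_of_bij (subSub_inv L ρ h).bij_h0 (subSub_inv L ρ h).bij_h1 (subSub_inv L ρ h).bij_h2

lemma chi_subSub (L : Levels G) (ρ : Act G A) {N P : Subgroup G} (h : N ≤ P) :
    chi (L.sub N) (resAct ρ N) =
      chi ((L.sub P).sub (N.subgroupOf P)) (resAct (resAct ρ P) (N.subgroupOf P)) :=
  chi_of_bij (subSub_inv L ρ h).bij_h0 (subSub_inv L ρ h).bij_h1 (subSub_inv L ρ h).bij_h2

end Sub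

section Coset

variable {G : Type*} [Group G] {A : Type*} [AddCommGroup A]

/-- action on cosets -/
def cosetAct (W : Subgroup G) : G →* Equiv.Perm (G ⧸ W) := MulAction.toPermHom G (G ⧸ W)

@[simp] lemma cosetAct_mk (W : Subgroup G) (g h : G) :
    cosetAct W g (h : G ⧸ W) = ((g * h : G) : G ⧸ W) := rfl

lemma stab_cosetAct (W : Subgroup G) : stab (cosetAct W) ((1 : G) : G ⧸ W) = W := by
  ext g
  rw [mem_stab, cosetAct_mk, mul_one, eq_comm, QuotientGroup.eq]
  simp

lemma isTrans_cosetAct (W : Subgroup G) : IsTrans (cosetAct W) ((1 : G) : G ⧸ W) := by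
  intro x
  obtain ⟨g, rfl⟩ := QuotientGroup.mk_surjective x
  exact ⟨g, by rw [cosetAct_mk, mul_one]⟩

lemma levelTrivial_cosetAct {L : Levels G} {W : Subgroup G} (hW : IsOpenSub L W) :
    LevelTrivial L (cosetAct W) := by
  obtain ⟨N, hN, h⟩ := hW
  refine ⟨N, hN, fun s hs x => ?_⟩
  obtain ⟨g, rfl⟩ := QuotientGroup.mk_surjective x
  rw [cosetAct_mk, eq_comm, QuotientGroup.eq]
  have := (L.normal' N hN).conj_mem s hs g⁻¹
  apply h
  simpa [mul_assoc] using this

/-- trivialisation data for cosets -/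
noncomputable def cosetTriv (W : Subgroup G) : Triv (cosetAct W) W where
  t := Quotient.out
  ht g x := by
    refine ⟨(g * Quotient.out x)⁻¹ * Quotient.out (cosetAct W g x), ?_, by group⟩
    rw [← QuotientGroup.eq, QuotientGroup.out_eq', ← cosetAct_mk, QuotientGroup.out_eq']

/-- Shapiro for the coset space, all at once -/
theorem shapiro_coset {L : Levels G} {W : Subgroup G} (hW : IsOpenSub L W) {ρ : Act G A}
    (hρ : Smooth L ρ) :
    (Fin012 L (mapAct (cosetAct W) ρ) ↔ Fin012 (L.sub W) (resAct ρ W)) ∧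
      chi L (mapAct (cosetAct W) ρ) = chi (L.sub W) (resAct ρ W) := by
  have := hW.finiteIndex
  have hst := stab_cosetAct W
  have hl := levelTrivial_cosetAct hW
  have ht := isTrans_cosetAct W
  have b0 := sh_h0_bijective (L := L) (ρ := ρ) ht
  have b1 := sh_h1_bijective hl hρ ht
  have b2 := sh_h2_bijective hl hρ ht
  have h1 := fin012_of_bij b0 b1 b2
  have h2 := chi_of_bij b0 b1 b2
  rw [hst] at h1 h2
  exact ⟨h1, h2⟩

end Coset

lemma chi_free {G : Type*} [Group G] {A B : Type*} [AddCommGroup A] [AddCommGroup B]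
    {ρ : Act G A} {σ : Act G B} {d : ℕ} (F : FreeOn (Fin d) ρ σ) (L : Levels G) :
    chi L σ = chi L ρ ^ d := by
  unfold chi
  rw [F.card_h0, F.card_h1, F.card_h2, Fintype.card_fin]
  push_cast
  rw [div_pow, mul_pow]

theorem chi_eq_pgroup {G : Type} [Group G] {p : ℕ} [Fact p.Prime] (L : Levels G)
    (N : Subgroup G) [N.Normal] (hNo : IsOpenSub L N) (hG : IsPGroup p (G ⧸ N))
    (hF : Fin012 L (trivAct G (ZMod p)))
    (hχ : chi (L.sub N) (trivAct N (ZMod p)) = chi L (trivAct G (ZMod p)) ^ N.index)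
    (n : ℕ) {C : Type} [AddCommGroup C] [Finite C] (ρ : Act G C) (hρ : Smooth L ρ)
    (hN : ∀ u ∈ N, ∀ a, ρ u a = a) (hp : ∀ a : C, p • a = 0) (hcard : Nat.card C = p ^ n) :
    chi L ρ = chi L (trivAct G (ZMod p)) ^ n := by
  have hfi := hNo.finiteIndex
  have : Fintype (G ⧸ N) := Fintype.ofFinite _
  have hl := levelTrivial_cosetAct hNo
  have hY : Smooth L (mapAct (cosetAct N) ρ) := hρ.mapAct hl
  have hsurj : Function.Surjective (sumHom (cosetAct N) ρ).f := by
    intro c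
    classical
    exact ⟨Pi.single ((1 : G) : G ⧸ N) c, by
      rw [sumHom_f, Finset.sum_pi_single' ((1 : G) : G ⧸ N) c]; simp⟩
  let S := SES.ofSurj (sumHom (cosetAct N) ρ) hsurj
  have hNY : ∀ u ∈ N, ∀ f : G ⧸ N → C, mapAct (cosetAct N) ρ u f = f := by
    intro u hu f
    ext x
    rw [mapAct_apply, hN u hu]
    congr 1
    obtain ⟨g, rfl⟩ := QuotientGroup.mk_surjective x
    rw [cosetAct_mk, eq_comm, QuotientGroup.eq]
    have := ‹N.Normal›.conj_mem u⁻¹ (N.inv_mem hu) g⁻¹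
    simpa [mul_assoc] using this
  have hcY : Nat.card (G ⧸ N → C) = p ^ (n * N.index) := by
    rw [Nat.card_fun, hcard, ← pow_mul]; rfl
  have hcK : Nat.card (sumHom (cosetAct N) ρ).f.ker = p ^ (n * N.index - n) := by
    have h1 := card_eq_ker_mul_range (sumHom (cosetAct N) ρ).f
    have h2 : Nat.card (sumHom (cosetAct N) ρ).f.range = p ^ n := by
      rw [AddMonoidHom.range_eq_top.2 hsurj, ← hcard, Nat.card_congr
        (AddSubgroup.topEquiv (G := C)).toEquiv]
    rw [hcY, h2] at h1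
    have h3 : n ≤ n * N.index := Nat.le_mul_of_pos_right _
      (Nat.pos_of_ne_zero Subgroup.FiniteIndex.index_ne_zero)
    have h4 : p ^ (n * N.index) = p ^ (n * N.index - n) * p ^ n := by
      rw [← pow_add, Nat.sub_add_cancel h3]
    rw [h4] at h1
    exact (Nat.eq_of_mul_eq_mul_right (pow_pos (Fact.out (p := p.Prime)).pos n) h1).symm
  obtain ⟨hC1, hC2⟩ := devissage L N hG hF n C ρ hρ hN hp hcard
  have hNK : ∀ u ∈ N, ∀ a : (sumHom (cosetAct N) ρ).f.ker,
      kerAct (sumHom (cosetAct N) ρ) u a = a := fun u hu a => Subtype.ext (hNY u hu a.1)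
  have hpK : ∀ a : (sumHom (cosetAct N) ρ).f.ker, p • a = 0 := fun a => by
    apply Subtype.ext
    ext x
    exact hp (a.1 x)
  obtain ⟨hK1, hK2⟩ := devissage L N hG hF (n * N.index - n) _ (kerAct (sumHom (cosetAct N) ρ))
    (S.smooth_left hY) hNK hpK hcK
  have hmul := S.chi_mul hY hK1 hC1
  have := hC1.h2
  have hidx : (1 : ℝ) ≤ ((S.p.h2 L).range.index : ℝ) := by
    exact_mod_cast index_pos_of_finite _
  have hYchi : chi L (mapAct (cosetAct N) ρ) = chi L (trivAct G (ZMod p)) ^ (n * N.index) := by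
    rw [(shapiro_coset hNo hρ).2]
    have hres : resAct ρ N = trivAct N C := by
      ext u a
      exact hN u u.2 a
    obtain ⟨d, ⟨F⟩, hd⟩ := exists_freeAb p C hp
    have hdn : d = n := Nat.pow_right_injective (Fact.out (p := p.Prime)).two_le
      (hd.symm.trans hcard)
    subst hdn
    rw [hres, chi_free (F.triv (G := N)), hχ, ← pow_mul, mul_comm]
  have hF0 := chi_pos hF
  have hY0 : 0 < chi L (mapAct (cosetAct N) ρ) := by rw [hYchi]; positivity
  have h3 : n ≤ n * N.index := Nat.le_mul_of_pos_right _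
    (Nat.pos_of_ne_zero Subgroup.FiniteIndex.index_ne_zero)
  have h4 : chi L (trivAct G (ZMod p)) ^ (n * N.index) =
      chi L (trivAct G (ZMod p)) ^ (n * N.index - n) * chi L (trivAct G (ZMod p)) ^ n := by
    rw [← pow_add, Nat.sub_add_cancel h3]
  refine le_antisymm hC2 ?_
  by_contra hlt
  push Not at hlt
  have hK0 := chi_pos hK1
  have : chi L (kerAct (sumHom (cosetAct N) ρ)) * chi L ρ <
      chi L (trivAct G (ZMod p)) ^ (n * N.index) := by
    rw [h4]
    calc chi L (kerAct (sumHom (cosetAct N) ρ)) * chi L ρ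
        ≤ chi L (trivAct G (ZMod p)) ^ (n * N.index - n) * chi L ρ :=
          mul_le_mul_of_nonneg_right hK2 (chi_pos hC1).le
      _ < _ := mul_lt_mul_of_pos_left hlt (by positivity)
  rw [hmul, ← hYchi] at this
  exact absurd (le_mul_of_one_le_right hY0.le hidx) (not_le.2 this)

/-- Right exactness of `H²` over a `p`-group modulo `N`. -/
theorem h2_surj_pgroup {G : Type} [Group G] {p : ℕ} [Fact p.Prime] (L : Levels G)
    (N : Subgroup G) [N.Normal] (hNo : IsOpenSub L N) (hG : IsPGroup p (G ⧸ N))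
    (hF : Fin012 L (trivAct G (ZMod p)))
    (hχ : chi (L.sub N) (trivAct N (ZMod p)) = chi L (trivAct G (ZMod p)) ^ N.index)
    {A B C : Type} [AddCommGroup A] [AddCommGroup B] [AddCommGroup C] [Finite B]
    {ρA : Act G A} {ρB : Act G B} {ρC : Act G C} (S : SES ρA ρB ρC) (hB : Smooth L ρB)
    (hN : ∀ u ∈ N, ∀ a, ρB u a = a) (hp : ∀ b : B, p • b = 0) :
    Function.Surjective (S.p.h2 L) := by
  have : Finite A := Finite.of_injective _ S.inj
  have : Finite C := Finite.of_surjective _ S.surj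
  have hpA : ∀ a : A, p • a = 0 := fun a => S.inj (by rw [map_nsmul, hp, map_zero])
  have hpC : ∀ a : C, p • a = 0 := fun c => by
    obtain ⟨b, rfl⟩ := S.surj c
    rw [← map_nsmul, hp, map_zero]
  have hNA : ∀ u ∈ N, ∀ a, ρA u a = a := fun u hu a => S.inj (by rw [S.i.comm, hN u hu])
  have hNC : ∀ u ∈ N, ∀ a, ρC u a = a := fun u hu c => by
    obtain ⟨b, rfl⟩ := S.surj c
    rw [← S.p.comm, hN u hu]
  obtain ⟨a, -, ha⟩ := exists_freeAb p A hpA
  obtain ⟨c, -, hc⟩ := exists_freeAb p C hpC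
  have hb : Nat.card B = p ^ (a + c) := by
    rw [card_eq_ker_mul_range S.p.f, AddMonoidHom.range_eq_top.2 S.surj,
      Nat.card_congr (AddSubgroup.topEquiv (G := C)).toEquiv, hc, pow_add, ← ha]
    congr 1
    have hk : S.p.f.ker = S.i.f.range := by
      ext x
      rw [AddMonoidHom.mem_ker, AddMonoidHom.mem_range]
      exact S.exact x
    rw [hk, ← Nat.card_congr (AddMonoidHom.ofInjective S.inj).toEquiv]
  have hsA := S.smooth_left hB
  have hsC := S.smooth_right hB
  obtain ⟨hA1, -⟩ := devissage L N hG hF a A ρA hsA hNA hpA ha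
  obtain ⟨hC1, -⟩ := devissage L N hG hF c C ρC hsC hNC hpC hc
  have hmul := S.chi_mul hB hA1 hC1
  rw [chi_eq_pgroup L N hNo hG hF hχ a ρA hsA hNA hpA ha,
    chi_eq_pgroup L N hNo hG hF hχ c ρC hsC hNC hpC hc,
    chi_eq_pgroup L N hNo hG hF hχ (a + c) ρB hB hN hp hb, ← pow_add] at hmul
  have hF0 : 0 < chi L (trivAct G (ZMod p)) ^ (a + c) := pow_pos (chi_pos hF) _
  have hidx : ((S.p.h2 L).range.index : ℝ) = 1 := by
    have := mul_left_cancel₀ hF0.ne' ((mul_one _).trans hmul)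
    exact this.symm
  have hidx' : (S.p.h2 L).range.index = 1 := by exact_mod_cast hidx
  rw [AddSubgroup.index_eq_one] at hidx'
  exact AddMonoidHom.range_eq_top.1 hidx'

end Fermat.Agent.PT
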