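import Fermat.Agent.PT.RightExact

/-!
# Right exactness of `H²`: general case (Sylow argument)
-/

set_option autoImplicit false

namespace Fermat.Agent.PT

section Torsion

variable {G : Type*} [Group G] {A : Type*} [AddCommGroup A] {L : Levels G} {ρ : Act G A} {p : ℕ}

lemma h1_torsion (hp : ∀ a : A, p • a = 0) (x : H1 L ρ) : p • x = 0 := by
  obtain ⟨f, rfl⟩ := H1.mk_surjective L ρ x
  rw [← map_nsmul]
  have : p • f = 0 := by
    apply Subtype.ext
    ext g
    exact hp _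
  rw [this, map_zero]

lemma h2_torsion (hp : ∀ a : A, p • a = 0) (x : H2 L ρ) : p • x = 0 := by
  obtain ⟨f, rfl⟩ := H2.mk_surjective L ρ x
  rw [← map_nsmul]
  have : p • f = 0 := by
    apply Subtype.ext
    ext g h
    exact hp _
  rw [this, map_zero]

end Torsion

/-- a subgroup containing `n • x` and `p • x` with `gcd(n, p) = 1` contains `x` -/
lemma mem_of_nsmul_mem {A : Type*} [AddCommGroup A] (H : AddSubgroup A) {n p : ℕ}
    [Fact p.Prime] (hnp : ¬ p ∣ n) {x : A} (hn : n • x ∈ H) (hp : p • x ∈ H) : x ∈ H := by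
  have hc : Nat.Coprime n p := ((Nat.Prime.coprime_iff_not_dvd Fact.out).2 hnp).symm
  have hb := Nat.gcd_eq_gcd_ab n p
  rw [Nat.Coprime.gcd_eq_one hc, Nat.cast_one] at hb
  have : x = (Nat.gcdA n p) • (n • x) + (Nat.gcdB n p) • (p • x) := by
    rw [← natCast_zsmul x n, ← natCast_zsmul x p, ← mul_zsmul, ← mul_zsmul, ← add_zsmul,
      mul_comm _ (n : ℤ), mul_comm _ (p : ℤ), ← hb, one_zsmul]
  rw [this]
  exact H.add_mem (H.zsmul_mem hn _) (H.zsmul_mem hp _)

section Descend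

variable {G : Type*} [Group G] {A B C : Type*} [AddCommGroup A] [AddCommGroup B]
  [AddCommGroup C] {ρA : Act G A} {ρB : Act G B} {ρC : Act G C} {L : Levels G}

lemma SES.mapX_h2_surjective {X : Type*} [Finite X] {ξ : G →* Equiv.Perm X} {x₀ : X}
    (S : SES ρA ρB ρC) (hB : Smooth L ρB)
    (hξ : LevelTrivial L ξ) (ht : IsTrans ξ x₀)
    (hs : Function.Surjective ((S.res (stab ξ x₀)).p.h2 (L.sub (stab ξ x₀)))) :
    Function.Surjective ((S.mapX ξ).p.h2 L) := by
  intro y
  obtain ⟨z, hz⟩ := hs ((shPair L ξ ρC x₀).h2 y)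
  obtain ⟨z', rfl⟩ := (sh_h2_bijective hξ hB ht).2 z
  refine ⟨z', (sh_h2_bijective hξ (S.smooth_right hB) ht).1 ?_⟩
  rw [← hz, EHom.h2, EHom.h2, ← PairHom.h2_comp, ← PairHom.h2_comp]
  exact PairHom.h2_congr (fun _ => rfl) (fun _ => rfl) _

lemma sum_const_h2 {X : Type*} [Fintype X] (ξ : G →* Equiv.Perm X) (ρ : Act G A) (x : H2 L ρ) :
    (sumHom ξ ρ).h2 L ((constHom ξ ρ).h2 L x) = Fintype.card X • x := by
  rw [← EHom.h2_comp]
  refine EHom.h2_nsmul L (fun a => ?_) x
  show ∑ _x : X, a = _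
  rw [Finset.sum_const, Finset.card_univ]

lemma sum_const_h1 {X : Type*} [Fintype X] (ξ : G →* Equiv.Perm X) (ρ : Act G A) (x : H1 L ρ) :
    (sumHom ξ ρ).h1 L ((constHom ξ ρ).h1 L x) = Fintype.card X • x := by
  rw [← EHom.h1_comp]
  refine EHom.h1_nsmul L (fun a => ?_) x
  show ∑ _x : X, a = _
  rw [Finset.sum_const, Finset.card_univ]

/-- descent of surjectivity from an open subgroup of prime-to-`p` index -/
theorem h2_surj_of_sub {p : ℕ} [Fact p.Prime] (S : SES ρA ρB ρC) (hB : Smooth L ρB)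
    (hp : ∀ b : B, p • b = 0) {P : Subgroup G} (hP : IsOpenSub L P) (hidx : ¬ p ∣ P.index)
    (hs : Function.Surjective ((S.res P).p.h2 (L.sub P))) :
    Function.Surjective (S.p.h2 L) := by
  have := hP.finiteIndex
  have : Fintype (G ⧸ P) := Fintype.ofFinite _
  rw [← stab_cosetAct P] at hs
  have hsurj := S.mapX_h2_surjective hB (levelTrivial_cosetAct hP) (isTrans_cosetAct P) hs
  intro x
  obtain ⟨y, hy⟩ := hsurj ((constHom (cosetAct P) ρC).h2 L x)
  have hpC : ∀ a : C, p • a = 0 := fun c => by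
    obtain ⟨b, rfl⟩ := S.surj c
    rw [← map_nsmul, hp, map_zero]
  have h1 : Fintype.card (G ⧸ P) • x ∈ (S.p.h2 L).range := by
    refine ⟨(sumHom (cosetAct P) ρB).h2 L y, ?_⟩
    rw [← sum_const_h2 (cosetAct P), ← hy, ← EHom.h2_comp, ← EHom.h2_comp]
    refine EHom.h2_congr L (fun a => ?_) y
    show S.p.f (∑ x, a x) = ∑ x, S.p.f (a x)
    rw [map_sum]
  rw [← Nat.card_eq_fintype_card, ← Subgroup.index_eq_card] at h1
  exact mem_of_nsmul_mem _ hidx h1 (by rw [h2_torsion hpC]; exact AddSubgroup.zero_mem _)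

end Descend

section Sylow

variable {G : Type} [Group G] {p : ℕ} [Fact p.Prime]

/-- Existence of a subgroup `N ≤ P ≤ W` with `P/N` a `p`-group and `[G : P]` prime to `p`. -/
theorem exists_sylow_sub (N W : Subgroup G) [N.Normal] [N.FiniteIndex] (hNW : N ≤ W)
    (hW : ¬ p ∣ W.index) :
    ∃ P : Subgroup G, N ≤ P ∧ P ≤ W ∧ ¬ p ∣ P.index ∧ IsPGroup p (P ⧸ N.subgroupOf P) := by
  let W' : Subgroup (G ⧸ N) := W.map (QuotientGroup.mk' N)
  obtain ⟨T⟩ : Nonempty (Sylow p W') := inferInstance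
  let Q : Subgroup (G ⧸ N) := (T : Subgroup W').map W'.subtype
  have hQW : Q ≤ W' := by
    rintro _ ⟨x, -, rfl⟩
    exact x.2
  have hWc : W'.comap (QuotientGroup.mk' N) = W := by
    rw [Subgroup.comap_map_eq, QuotientGroup.ker_mk', sup_eq_left.2 hNW]
  have hle : N ≤ Q.comap (QuotientGroup.mk' N) := by
    intro x hx
    show (QuotientGroup.mk' N) x ∈ Q
    have : (QuotientGroup.mk' N) x = 1 := (QuotientGroup.eq_one_iff x).2 hx
    rw [this]
    exact Q.one_mem
  refine ⟨Q.comap (QuotientGroup.mk' N), hle, ?_, ?_, ?_⟩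
  · rw [← hWc]
    exact Subgroup.comap_mono hQW
  · rw [Subgroup.index_comap_of_surjective Q (QuotientGroup.mk'_surjective N)]
    have h1 : W'.index = W.index := by
      rw [← Subgroup.index_comap_of_surjective W' (QuotientGroup.mk'_surjective N), hWc]
    have h2 : Q.relIndex W' * W'.index = Q.index := Subgroup.relIndex_mul_index hQW
    have h3 : Q.relIndex W' = (T : Subgroup W').index := by
      have : Q.subgroupOf W' = T := by
        ext x
        rw [Subgroup.mem_subgroupOf]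
        constructor
        · rintro ⟨y, hy, hyx⟩
          rwa [← Subtype.ext hyx]
        · intro hx
          exact ⟨x, hx, rfl⟩
      rw [Subgroup.relIndex, this]
    rw [← h2, h3, h1]
    intro hdvd
    rcases (Nat.Prime.dvd_mul Fact.out).1 hdvd with h | h
    · exact T.not_dvd_index h
    · exact hW h
  · intro q
    obtain ⟨g, rfl⟩ := QuotientGroup.mk_surjective q
    have hg : (QuotientGroup.mk' N) g ∈ Q := g.2
    obtain ⟨t, ht, htg⟩ := hg
    obtain ⟨k, hk⟩ := T.isPGroup' ⟨t, ht⟩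
    refine ⟨k, ?_⟩
    rw [← QuotientGroup.mk_pow, QuotientGroup.eq_one_iff, Subgroup.mem_subgroupOf,
      ← QuotientGroup.eq_one_iff (N := N), Subgroup.coe_pow]
    have h1 : ((g : G) : G ⧸ N) = (t : G ⧸ N) := htg.symm
    rw [QuotientGroup.mk_pow, h1, ← Subgroup.coe_pow]
    have h2 : t ^ p ^ k = 1 := by
      have := congrArg Subtype.val hk
      simpa using this
    rw [h2]; rfl

/-- General right exactness of `H²` from Euler characteristics. -/
theorem h2_surj_of_chi (L : Levels G) (W : Subgroup G) (hWo : IsOpenSub L W)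
    (hWp : ¬ p ∣ W.index) (c : ℝ)
    (hχ : ∀ V : Subgroup G, IsOpenSub L V → V ≤ W → Fin012 (L.sub V) (trivAct V (ZMod p)) ∧
      chi (L.sub V) (trivAct V (ZMod p)) = c ^ V.index)
    {A B C : Type} [AddCommGroup A] [AddCommGroup B] [AddCommGroup C] [Finite B]
    {ρA : Act G A} {ρB : Act G B} {ρC : Act G C} (S : SES ρA ρB ρC) (hB : Smooth L ρB)
    (hp : ∀ b : B, p • b = 0) : Function.Surjective (S.p.h2 L) := by
  obtain ⟨N₁, hN₁, h₁⟩ := hB.exists_level Set.finite_univ
  obtain ⟨N, hN, hNN₁, hNW⟩ := hWo.exists_le hN₁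
  have := L.normal' N hN
  have := L.finiteIndex' N hN
  obtain ⟨P, hNP, hPW, hPp, hPG⟩ := exists_sylow_sub (p := p) N W hNW hWp
  have hPo : IsOpenSub L P := ⟨N, hN, hNP⟩
  have hNo : IsOpenSub L N := ⟨N, hN, le_rfl⟩
  refine h2_surj_of_sub S hB hp hPo hPp ?_
  refine h2_surj_pgroup (p := p) (L.sub P) (N.subgroupOf P) ⟨_, ⟨N, hN, rfl⟩, le_rfl⟩ hPG
    (hχ P hPo hPW).1 ?_ (S.res P) (hB.sub P) (fun u hu a => ?_) hp
  · have h1 := chi_subSub L (trivAct G (ZMod p)) hNP
    have h2 := (hχ N hNo hNW).2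
    have h3 := (hχ P hPo hPW).2
    have h4 : (N.subgroupOf P).index * P.index = N.index := Subgroup.relIndex_mul_index hNP
    rw [h3, ← pow_mul, mul_comm, h4, ← h2]
    exact h1.symm
  · exact h₁ a (Set.mem_univ a) _ (hNN₁ hu)

end Sylow

end Fermat.Agent.PT
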