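import Fermat.Agent.PT.GSet

/-!
# Shapiro's lemma in level cohomology
-/

set_option autoImplicit false

namespace Fermat.Agent.PT

variable {G : Type*} [Group G] {A : Type*} [AddCommGroup A] {X : Type*}

/-- levels restricted to a subgroup -/
def Levels.sub (L : Levels G) (U : Subgroup G) : Levels U where
  carrier := {M | ∃ N ∈ L.carrier, M = N.subgroupOf U}
  nonempty' := by
    obtain ⟨N, hN⟩ := L.nonempty'
    exact ⟨_, N, hN, rfl⟩
  directed' := by
    rintro _ ⟨N, hN, rfl⟩ _ ⟨N', hN', rfl⟩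
    obtain ⟨M, hM, h1, h2⟩ := L.directed' N hN N' hN'
    exact ⟨_, ⟨M, hM, rfl⟩, fun x hx => h1 hx, fun x hx => h2 hx⟩
  normal' := by
    rintro _ ⟨N, hN, rfl⟩
    have := L.normal' N hN
    infer_instance
  finiteIndex' := by
    rintro _ ⟨N, hN, rfl⟩
    have := L.finiteIndex' N hN
    infer_instance

/-- pulled back levels along a homomorphism -/
def Levels.comap {Γ : Type*} [Group Γ] (L : Levels G) (r : Γ →* G) : Levels Γ where
  carrier := {M | ∃ N ∈ L.carrier, M = N.comap r}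
  nonempty' := by
    obtain ⟨N, hN⟩ := L.nonempty'
    exact ⟨_, N, hN, rfl⟩
  directed' := by
    rintro _ ⟨N, hN, rfl⟩ _ ⟨N', hN', rfl⟩
    obtain ⟨M, hM, h1, h2⟩ := L.directed' N hN N' hN'
    exact ⟨_, ⟨M, hM, rfl⟩, fun x hx => h1 hx, fun x hx => h2 hx⟩
  normal' := by
    rintro _ ⟨N, hN, rfl⟩
    have := L.normal' N hN
    infer_instance
  finiteIndex' := by
    rintro _ ⟨N, hN, rfl⟩
    have h := L.finiteIndex' N hN
    have := L.normal' N hN
    constructor
    rw [Subgroup.index_comap]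
    exact fun h0 => h.index_ne_zero (by
      have h1 := Subgroup.relIndex_dvd_index_of_normal N r.range
      rw [h0] at h1
      exact Nat.eq_zero_of_zero_dvd h1)

/-- restricted action -/
abbrev resAct (ρ : Act G A) (U : Subgroup G) : Act U A := ρ.comp U.subtype

lemma Smooth.sub {L : Levels G} {ρ : Act G A} (h : Smooth L ρ) (U : Subgroup G) :
    Smooth (L.sub U) (resAct ρ U) := by
  intro a
  obtain ⟨N, hN, hs⟩ := h a
  exact ⟨_, ⟨N, hN, rfl⟩, fun s hs' => hs _ hs'⟩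

/-- restriction to a subgroup as a morphism of pairs -/
def resPair (L : Levels G) (ρ : Act G A) (U : Subgroup G) :
    PairHom L ρ (L.sub U) (resAct ρ U) where
  r := U.subtype
  f := AddMonoidHom.id A
  lev N hN := ⟨_, ⟨N, hN, rfl⟩, fun _ h => h⟩
  comm _ _ := rfl

/-- a subgroup containing a level -/
def IsOpenSub (L : Levels G) (U : Subgroup G) : Prop := ∃ N ∈ L.carrier, N ≤ U

lemma IsOpenSub.exists_le {L : Levels G} {U : Subgroup G} (hU : IsOpenSub L U) {N : Subgroup G}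
    (hN : N ∈ L.carrier) : ∃ M ∈ L.carrier, M ≤ N ∧ M ≤ U := by
  obtain ⟨N', hN', h⟩ := hU
  obtain ⟨M, hM, h1, h2⟩ := L.directed' N hN N' hN'
  exact ⟨M, hM, h1, h2.trans h⟩

lemma IsOpenSub.finiteIndex {L : Levels G} {U : Subgroup G} (hU : IsOpenSub L U) :
    U.FiniteIndex := by
  obtain ⟨N, hN, h⟩ := hU
  have := L.finiteIndex' N hN
  exact Subgroup.finiteIndex_of_le h

section CoindRes

variable {L : Levels G} {U : Subgroup G}

/-- coset representative of `g U` -/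
noncomputable def rep (U : Subgroup G) (g : G) : G := ((g : G ⧸ U)).out

lemma rep_inv_mul_mem (U : Subgroup G) (g : G) : (rep U g)⁻¹ * g ∈ U := by
  rw [← QuotientGroup.eq]
  exact QuotientGroup.out_eq' _

/-- `U`-component of `g` -/
noncomputable def upart (U : Subgroup G) (g : G) : U := ⟨(rep U g)⁻¹ * g, rep_inv_mul_mem U g⟩

lemma rep_mul_upart (U : Subgroup G) (g : G) : rep U g * upart U g = g := by
  simp [upart]

lemma rep_mul (U : Subgroup G) (g : G) (u : U) : rep U (g * u) = rep U g := by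
  unfold rep
  congr 1
  rw [QuotientGroup.eq]
  simp

lemma upart_mul (U : Subgroup G) (g : G) (u : U) : upart U (g * u) = upart U g * u := by
  apply Subtype.ext
  simp only [upart, Subgroup.coe_mul, rep_mul]
  rw [mul_assoc]

/-- `H¹(U, coind A) = 0` -/
theorem h1_res_coind (hU : IsOpenSub L U) (x : H1 (L.sub U) (resAct (coindAct A L) U)) :
    x = 0 := by
  obtain ⟨f, rfl⟩ := H1.mk_surjective _ _ x
  obtain ⟨⟨_, ⟨N, hN, rfl⟩, hc⟩, hf⟩ := mem_Z1'.1 f.2
  obtain ⟨M, hM, hMN, hMU⟩ := hU.exists_le hN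
  refine H1.mk_eq_zero.2 ⟨⟨fun g => ((f : U → C1 A L) (upart U g) : G → A) (rep U g), ?_⟩, ?_⟩
  · refine ⟨M, hM, fun g s hs => ?_⟩
    have h1 := rep_mul U g ⟨s, hMU hs⟩
    have h2 := upart_mul U g ⟨s, hMU hs⟩
    simp only at h1 h2
    show ((f : U → C1 A L) (upart U (g * s)) : G → A) (rep U (g * s)) = _
    rw [h1, h2, hc _ ⟨s, hMU hs⟩ (hMN hs)]
  · ext v g
    have h2 := hf (upart U g) v
    have h3 := congrFun (congrArg Subtype.val h2) (rep U g)
    have h4 : ((resAct (coindAct A L) U) (upart U g) ((f : U → C1 A L) v) : G → A) (rep U g) =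
        ((f : U → C1 A L) v : G → A) g := by
      show ((f : U → C1 A L) v : G → A) (rep U g * upart U g) = _
      rw [rep_mul_upart]
    rw [AddSubgroup.coe_add, Pi.add_apply, h4] at h3
    show ((f : U → C1 A L) (upart U (g * v)) : G → A) (rep U (g * v)) -
      ((f : U → C1 A L) (upart U g) : G → A) (rep U g) = _
    rw [rep_mul, upart_mul, h3]; abel

/-- `H²(U, coind A) = 0` -/
theorem h2_res_coind (hU : IsOpenSub L U) (x : H2 (L.sub U) (resAct (coindAct A L) U)) :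
    x = 0 := by
  obtain ⟨f, rfl⟩ := H2.mk_surjective _ _ x
  obtain ⟨⟨_, ⟨N, hN, rfl⟩, hc⟩, hf⟩ := mem_Z2'.1 f.2
  obtain ⟨M, hM, hMN, hMU⟩ := hU.exists_le hN
  refine H2.mk_eq_zero.2 ⟨fun v => ⟨fun g => ((f : U → U → C1 A L) (upart U g) v : G → A)
    (rep U g), ?_⟩, ?_, ?_⟩
  · refine ⟨M, hM, fun g s hs => ?_⟩
    have h1 := rep_mul U g ⟨s, hMU hs⟩
    have h2 := upart_mul U g ⟨s, hMU hs⟩
    simp only at h1 h2
    show ((f : U → U → C1 A L) (upart U (g * s)) v : G → A) (rep U (g * s)) = _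
    have h3 := hc (upart U g) v ⟨s, hMU hs⟩ (hMN hs) 1 (Subgroup.one_mem _)
    rw [mul_one] at h3
    rw [h1, h2, h3]
  · refine ⟨N.subgroupOf U, ⟨N, hN, rfl⟩, fun v s hs => ?_⟩
    ext g
    have h3 := hc (upart U g) v 1 (Subgroup.one_mem _) s hs
    rw [mul_one] at h3
    show ((f : U → U → C1 A L) (upart U g) (v * s) : G → A) (rep U g) = _
    rw [h3]
  · ext v w g
    have h2 := hf (upart U g) v w
    have h3 := congrFun (congrArg Subtype.val h2) (rep U g)
    have h4 : ((resAct (coindAct A L) U) (upart U g) ((f : U → U → C1 A L) v w) : G → A)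
        (rep U g) = ((f : U → U → C1 A L) v w : G → A) g := by
      show ((f : U → U → C1 A L) v w : G → A) (rep U g * upart U g) = _
      rw [rep_mul_upart]
    rw [AddSubgroup.coe_add, Pi.add_apply, AddSubgroup.coe_add, Pi.add_apply, h4] at h3
    show ((f : U → U → C1 A L) (upart U (g * v)) w : G → A) (rep U (g * v)) -
      ((f : U → U → C1 A L) (upart U g) (v * w) : G → A) (rep U g) +
      ((f : U → U → C1 A L) (upart U g) v : G → A) (rep U g) = _
    rw [rep_mul, upart_mul]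
    have h6 : ((f : U → U → C1 A L) v w : G → A) g =
      ((f : U → U → C1 A L) (upart U g * v) w : G → A) (rep U g) +
      ((f : U → U → C1 A L) (upart U g) v : G → A) (rep U g) -
      ((f : U → U → C1 A L) (upart U g) (v * w) : G → A) (rep U g) := by
      rw [h3]; abel
    rw [h6]; abel

end CoindRes

section Shapiro

/-- restriction of a short exact sequence to a subgroup -/
def SES.res {B C : Type*} [AddCommGroup B] [AddCommGroup C] {ρA : Act G A} {ρB : Act G B}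
    {ρC : Act G C} (S : SES ρA ρB ρC) (U : Subgroup G) :
    SES (resAct ρA U) (resAct ρB U) (resAct ρC U) where
  i := ⟨S.i.f, fun g a => S.i.comm g a⟩
  p := ⟨S.p.f, fun g a => S.p.comm g a⟩
  inj := S.inj
  surj := S.surj
  exact := S.exact

/-- stabiliser of a point -/
def stab (ξ : G →* Equiv.Perm X) (x₀ : X) : Subgroup G where
  carrier := {g | ξ g x₀ = x₀}
  one_mem' := by simp
  mul_mem' {a b} ha hb := by
    show ξ (a * b) x₀ = x₀
    rw [map_mul, Equiv.Perm.mul_apply, show ξ b x₀ = x₀ from hb, show ξ a x₀ = x₀ from ha]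
  inv_mem' {a} ha := by
    show ξ a⁻¹ x₀ = x₀
    rw [map_inv, Equiv.Perm.inv_eq_iff_eq, show ξ a x₀ = x₀ from ha]

lemma mem_stab {ξ : G →* Equiv.Perm X} {x₀ : X} {g : G} : g ∈ stab ξ x₀ ↔ ξ g x₀ = x₀ := Iff.rfl

lemma isOpenSub_stab {L : Levels G} {ξ : G →* Equiv.Perm X} (hξ : LevelTrivial L ξ) (x₀ : X) :
    IsOpenSub L (stab ξ x₀) := by
  obtain ⟨N, hN, h⟩ := hξ
  exact ⟨N, hN, fun s hs => h s hs x₀⟩

/-- The Shapiro map. -/
def shPair (L : Levels G) (ξ : G →* Equiv.Perm X) (ρ : Act G A) (x₀ : X) :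
    PairHom L (mapAct ξ ρ) (L.sub (stab ξ x₀)) (resAct ρ (stab ξ x₀)) where
  r := (stab ξ x₀).subtype
  f := { toFun := fun f => f x₀
         map_zero' := rfl
         map_add' := fun _ _ => rfl }
  lev N hN := ⟨_, ⟨N, hN, rfl⟩, fun _ h => h⟩
  comm γ f := by
    show ρ γ (f (ξ (γ : G)⁻¹ x₀)) = ρ γ (f x₀)
    congr 2
    exact (stab ξ x₀).inv_mem γ.2

@[simp] lemma shPair_f (L : Levels G) (ξ : G →* Equiv.Perm X) (ρ : Act G A) (x₀ : X)
    (f : X → A) : (shPair L ξ ρ x₀).f f = f x₀ := rfl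

variable {L : Levels G} {ξ : G →* Equiv.Perm X} {ρ : Act G A}

/-- transitivity -/
def IsTrans (ξ : G →* Equiv.Perm X) (x₀ : X) : Prop := ∀ x, ∃ g, ξ g x₀ = x

theorem sh_h0_bijective {x₀ : X} (ht : IsTrans ξ x₀) :
    Function.Bijective (shPair L ξ ρ x₀).h0 := by
  constructor
  · intro f f' h
    apply Subtype.ext
    ext x
    obtain ⟨g, rfl⟩ := ht x
    have h0 : (f : X → A) x₀ = (f' : X → A) x₀ := congrArg Subtype.val h
    rw [mem_H0_mapAct.1 f.2 g x₀, mem_H0_mapAct.1 f'.2 g x₀, h0]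
  · intro a
    choose t htx using ht
    have ha : ∀ u ∈ stab ξ x₀, ρ u (a : A) = a := fun u hu => mem_H0.1 a.2 ⟨u, hu⟩
    have hind : ∀ g g', ξ g x₀ = ξ g' x₀ → ρ g (a : A) = ρ g' a := by
      intro g g' h
      have : g'⁻¹ * g ∈ stab ξ x₀ := by
        rw [mem_stab, map_mul, Equiv.Perm.mul_apply, h, ← Equiv.Perm.mul_apply, ← map_mul,
          inv_mul_cancel, map_one]; rfl
      have h2 := congrArg (ρ g') (ha _ this)
      rw [← act_mul, mul_inv_cancel_left] at h2
      exact h2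
    refine ⟨⟨fun x => ρ (t x) a, mem_H0_mapAct.2 fun g x => ?_⟩, ?_⟩
    · rw [← act_mul]
      apply hind
      rw [htx, map_mul, Equiv.Perm.mul_apply, htx]
    · apply Subtype.ext
      show ρ (t x₀) (a : A) = a
      exact ha _ (htx x₀)

variable [Finite X]

/-- The dimension shifting sequence `0 → A → coind A → Q → 0`. -/
noncomputable abbrev shiftSES (hρ : Smooth L ρ) := SES.ofInj (coindι hρ) (coindι_inj hρ)

theorem sh_h1_bijective (hξ : LevelTrivial L ξ) (hρ : Smooth L ρ) {x₀ : X}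
    (ht : IsTrans ξ x₀) : Function.Bijective (shPair L ξ ρ x₀).h1 := by
  set S := shiftSES hρ
  have hE : Smooth L (coindAct A L) := smooth_coindAct L
  have hEX : Smooth L (mapAct ξ (coindAct A L)) := hE.mapAct hξ
  have hEU : Smooth (L.sub (stab ξ x₀)) (resAct (coindAct A L) (stab ξ x₀)) := hE.sub _
  have hnat := fun x => SES.δ0_nat (S.mapX ξ) (S.res (stab ξ x₀)) hEX hEU
    (shPair L ξ ρ x₀) (shPair L ξ (coindAct A L) x₀) (shPair L ξ _ x₀) (fun _ => rfl)
    (fun _ => rfl) (fun _ => rfl) x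
  constructor
  · rw [injective_iff_map_eq_zero]
    intro x hx
    have h0 : (S.mapX ξ).i.h1 L x = 0 := h1_mapAct_coind hξ _
    obtain ⟨y, rfl⟩ := ((S.mapX ξ).exact_H1_left hEX x).1 h0
    rw [hnat] at hx
    obtain ⟨z, hz⟩ := ((S.res (stab ξ x₀)).exact_H0_right hEU _).1 hx
    obtain ⟨z', rfl⟩ := (sh_h0_bijective (L := L) (ρ := coindAct A L) ht).2 z
    have h2 : y = (S.mapX ξ).p.h0 z' := by
      apply (sh_h0_bijective (L := L) ht).1
      rw [← hz]
      rfl
    rw [h2]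
    exact ((S.mapX ξ).exact_H0_right hEX _).2 ⟨z', rfl⟩
  · intro y
    have h0 : (S.res (stab ξ x₀)).i.h1 _ y = 0 := h1_res_coind (isOpenSub_stab hξ x₀) _
    obtain ⟨z, rfl⟩ := ((S.res (stab ξ x₀)).exact_H1_left hEU y).1 h0
    obtain ⟨z', rfl⟩ := (sh_h0_bijective (L := L) ht).2 z
    exact ⟨(S.mapX ξ).δ0 hEX z', hnat z'⟩

theorem sh_h2_bijective (hξ : LevelTrivial L ξ) (hρ : Smooth L ρ) {x₀ : X}
    (ht : IsTrans ξ x₀) : Function.Bijective (shPair L ξ ρ x₀).h2 := by
  set S := shiftSES hρ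
  have hE : Smooth L (coindAct A L) := smooth_coindAct L
  have hEX : Smooth L (mapAct ξ (coindAct A L)) := hE.mapAct hξ
  have hEU : Smooth (L.sub (stab ξ x₀)) (resAct (coindAct A L) (stab ξ x₀)) := hE.sub _
  have hnat := fun x => SES.δ1_nat (S.mapX ξ) (S.res (stab ξ x₀)) hEX hEU
    (shPair L ξ ρ x₀) (shPair L ξ (coindAct A L) x₀) (shPair L ξ _ x₀) (fun _ => rfl)
    (fun _ => rfl) (fun _ => rfl) (fun _ => rfl) x
  have hQ := sh_h1_bijective (L := L) (ξ := ξ) hξ (S.smooth_right hE) ht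
  constructor
  · rw [injective_iff_map_eq_zero]
    intro x hx
    have h0 : (S.mapX ξ).i.h2 L x = 0 := h2_mapAct_coind hξ _
    obtain ⟨y, rfl⟩ := ((S.mapX ξ).exact_H2_left hEX x).1 h0
    rw [hnat] at hx
    obtain ⟨z, hz⟩ := ((S.res (stab ξ x₀)).exact_H1_right hEU _).1 hx
    have hz0 : z = 0 := h1_res_coind (isOpenSub_stab hξ x₀) _
    rw [hz0, map_zero] at hz
    have : y = 0 := hQ.1 (by rw [← hz, map_zero])
    rw [this, map_zero]
  · intro y
    have h0 : (S.res (stab ξ x₀)).i.h2 _ y = 0 := h2_res_coind (isOpenSub_stab hξ x₀) _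
    obtain ⟨z, rfl⟩ := ((S.res (stab ξ x₀)).exact_H2_left hEU y).1 h0
    obtain ⟨z', rfl⟩ := hQ.2 z
    exact ⟨(S.mapX ξ).δ1 hEX z', hnat z'⟩

end Shapiro

end Fermat.Agent.PT
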