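import Fermat.Agent.PT.Sum

/-!
# Shapiro's lemma for arbitrary finite `G`-sets
-/

set_option autoImplicit false

namespace Fermat.Agent.PT

variable {G : Type*} [Group G] {A : Type*} [AddCommGroup A] {X : Type*} {J : Type*}

/-- a system of representatives of orbits -/
structure Reps (ξ : G →* Equiv.Perm X) (x : J → X) : Prop where
  surj : ∀ y, ∃ j g, ξ g (x j) = y
  inj : ∀ j j' g, ξ g (x j) = x j' → j = j'

variable {L : Levels G} {ξ : G →* Equiv.Perm X} {ρ : Act G A} {x : J → X}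

theorem Reps.h0_bijective (R : Reps ξ x) :
    Function.Bijective (fun (f : H0 (mapAct ξ ρ)) j => (shPair L ξ ρ (x j)).h0 f) := by
  constructor
  · intro f f' h
    apply Subtype.ext
    ext y
    obtain ⟨j, g, rfl⟩ := R.surj y
    have h0 : (f : X → A) (x j) = (f' : X → A) (x j) := congrArg Subtype.val (congrFun h j)
    rw [mem_H0_mapAct.1 f.2 g (x j), mem_H0_mapAct.1 f'.2 g (x j), h0]
  · intro a
    choose s t htx using R.surj
    have ha : ∀ j, ∀ u ∈ stab ξ (x j), ρ u (a j : A) = a j :=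
      fun j u hu => mem_H0.1 (a j).2 ⟨u, hu⟩
    have hind : ∀ j g g', ξ g (x j) = ξ g' (x j) → ρ g (a j : A) = ρ g' (a j) := by
      intro j g g' h
      have : g'⁻¹ * g ∈ stab ξ (x j) := by
        rw [mem_stab, map_mul, Equiv.Perm.mul_apply, h, ← Equiv.Perm.mul_apply, ← map_mul,
          inv_mul_cancel, map_one]; rfl
      have h2 := congrArg (ρ g') (ha j _ this)
      rw [← act_mul, mul_inv_cancel_left] at h2
      exact h2
    have hs : ∀ g y, s (ξ g y) = s y := by
      intro g y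
      refine (R.inj _ _ ((t (ξ g y))⁻¹ * g * t y) ?_).symm
      rw [map_mul, Equiv.Perm.mul_apply, htx, map_mul, Equiv.Perm.mul_apply, map_inv,
        Equiv.Perm.inv_eq_iff_eq, htx]
    refine ⟨⟨fun y => ρ (t y) (a (s y)), mem_H0_mapAct.2 fun g y => ?_⟩, ?_⟩
    · rw [← act_mul, hs]
      apply hind
      rw [map_mul, Equiv.Perm.mul_apply, htx, ← hs g y, htx]
    · ext j
      have hsj : s (x j) = j := R.inj _ _ _ (htx (x j))
      show ρ (t (x j)) (a (s (x j)) : A) = a j
      have h1 := htx (x j)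
      rw [hsj] at h1 ⊢
      exact ha j _ h1

variable [Finite X]

theorem Reps.h1_bijective (R : Reps ξ x) (hξ : LevelTrivial L ξ) (hρ : Smooth L ρ) :
    Function.Bijective (fun (f : H1 L (mapAct ξ ρ)) j => (shPair L ξ ρ (x j)).h1 f) := by
  set S := shiftSES hρ
  have hE : Smooth L (coindAct A L) := smooth_coindAct L
  have hEX : Smooth L (mapAct ξ (coindAct A L)) := hE.mapAct hξ
  have hEU : ∀ j, Smooth (L.sub (stab ξ (x j))) (resAct (coindAct A L) (stab ξ (x j))) :=
    fun j => hE.sub _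
  have hnat := fun j y => SES.δ0_nat (S.mapX ξ) (S.res (stab ξ (x j))) hEX (hEU j)
    (shPair L ξ ρ (x j)) (shPair L ξ (coindAct A L) (x j)) (shPair L ξ _ (x j)) (fun _ => rfl)
    (fun _ => rfl) (fun _ => rfl) y
  constructor
  · intro y y' hyy
    rw [← sub_eq_zero]
    have hy0 : ∀ j, (shPair L ξ ρ (x j)).h1 (y - y') = 0 := fun j => by
      rw [map_sub, sub_eq_zero]; exact congrFun hyy j
    generalize y - y' = z at hy0
    have h0 : (S.mapX ξ).i.h1 L z = 0 := h1_mapAct_coind hξ _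
    obtain ⟨y, rfl⟩ := ((S.mapX ξ).exact_H1_left hEX z).1 h0
    have hj : ∀ j, ∃ w, (S.res (stab ξ (x j))).p.h0 w = (shPair L ξ _ (x j)).h0 y := fun j => by
      have hx := hy0 j
      rw [hnat j] at hx
      exact ((S.res (stab ξ (x j))).exact_H0_right (hEU j) _).1 hx
    choose w hw using hj
    obtain ⟨z', hz'⟩ := (R.h0_bijective (L := L) (ρ := coindAct A L)).2 w
    have h2 : y = (S.mapX ξ).p.h0 z' := by
      apply (R.h0_bijective (L := L)).1
      funext j
      refine (hw j).symm.trans ?_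
      rw [show w j = (shPair L ξ (coindAct A L) (x j)).h0 z' from (congrFun hz' j).symm]
      rfl
    rw [h2]
    exact ((S.mapX ξ).exact_H0_right hEX _).2 ⟨z', rfl⟩
  · intro y
    have hj : ∀ j, ∃ z, (S.res (stab ξ (x j))).δ0 (hEU j) z = y j := fun j => by
      have h0 : (S.res (stab ξ (x j))).i.h1 _ (y j) = 0 :=
        h1_res_coind (isOpenSub_stab hξ (x j)) _
      exact ((S.res (stab ξ (x j))).exact_H1_left (hEU j) (y j)).1 h0
    choose z hz using hj
    obtain ⟨z', rfl⟩ := (R.h0_bijective (L := L)).2 z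
    exact ⟨(S.mapX ξ).δ0 hEX z', funext fun j => (hnat j z').trans (hz j)⟩

theorem Reps.h2_bijective (R : Reps ξ x) (hξ : LevelTrivial L ξ) (hρ : Smooth L ρ) :
    Function.Bijective (fun (f : H2 L (mapAct ξ ρ)) j => (shPair L ξ ρ (x j)).h2 f) := by
  set S := shiftSES hρ
  have hE : Smooth L (coindAct A L) := smooth_coindAct L
  have hEX : Smooth L (mapAct ξ (coindAct A L)) := hE.mapAct hξ
  have hEU : ∀ j, Smooth (L.sub (stab ξ (x j))) (resAct (coindAct A L) (stab ξ (x j))) :=
    fun j => hE.sub _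
  have hnat := fun j y => SES.δ1_nat (S.mapX ξ) (S.res (stab ξ (x j))) hEX (hEU j)
    (shPair L ξ ρ (x j)) (shPair L ξ (coindAct A L) (x j)) (shPair L ξ _ (x j)) (fun _ => rfl)
    (fun _ => rfl) (fun _ => rfl) (fun _ => rfl) y
  have hQ := R.h1_bijective (L := L) hξ (S.smooth_right hE)
  constructor
  · intro y y' hyy
    rw [← sub_eq_zero]
    have hy0 : ∀ j, (shPair L ξ ρ (x j)).h2 (y - y') = 0 := fun j => by
      rw [map_sub, sub_eq_zero]; exact congrFun hyy j
    generalize y - y' = z at hy0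
    have h0 : (S.mapX ξ).i.h2 L z = 0 := h2_mapAct_coind hξ _
    obtain ⟨y, rfl⟩ := ((S.mapX ξ).exact_H2_left hEX z).1 h0
    have : y = 0 := by
      apply hQ.1
      ext j
      have hx := hy0 j
      rw [hnat j] at hx
      obtain ⟨w, hw⟩ := ((S.res (stab ξ (x j))).exact_H1_right (hEU j) _).1 hx
      have hz0 : w = 0 := h1_res_coind (isOpenSub_stab hξ (x j)) _
      rw [hz0, map_zero] at hw
      exact hw.symm.trans (map_zero _).symm
    rw [this, map_zero]
  · intro y
    have hj : ∀ j, ∃ z, (S.res (stab ξ (x j))).δ1 (hEU j) z = y j := fun j => by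
      have h0 : (S.res (stab ξ (x j))).i.h2 _ (y j) = 0 :=
        h2_res_coind (isOpenSub_stab hξ (x j)) _
      exact ((S.res (stab ξ (x j))).exact_H2_left (hEU j) (y j)).1 h0
    choose z hz using hj
    obtain ⟨z', rfl⟩ := hQ.2 z
    exact ⟨(S.mapX ξ).δ1 hEX z', funext fun j => (hnat j z').trans (hz j)⟩

/-- existence of orbit representatives -/
theorem exists_reps.{u} {X : Type u} [Finite X] (ξ : G →* Equiv.Perm X) :
    ∃ (J : Type u) (_ : Finite J) (x : J → X), Reps ξ x := by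
  let s : Setoid X :=
    { r := fun a b => ∃ g, ξ g a = b
      iseqv := ⟨fun a => ⟨1, by simp⟩, fun {a b} ⟨g, h⟩ => ⟨g⁻¹, by
        rw [map_inv, Equiv.Perm.inv_eq_iff_eq]; exact h.symm⟩, fun {a b c} ⟨g, h⟩ ⟨g', h'⟩ =>
        ⟨g' * g, by rw [map_mul, Equiv.Perm.mul_apply, h, h']⟩⟩ }
  refine ⟨Quotient s, Quotient.finite s, Quotient.out, ⟨fun y => ⟨⟦y⟧, ?_⟩, fun j j' g h => ?_⟩⟩
  · exact Quotient.mk_out (s := s) y
  · rw [← Quotient.out_eq j, ← Quotient.out_eq j']
    exact Quotient.sound (s := s) ⟨g, h⟩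

end Fermat.Agent.PT
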