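import Fermat.Agent.PT.Tower

/-!
# The cokernel functor and the snake argument
-/

set_option autoImplicit false

namespace Fermat.Agent.PT

variable {G : Type} [Group G] {D : PTData G}

section ProdMap

variable {A B C : Type*} [AddCommGroup A] [AddCommGroup B] [AddCommGroup C]
  {ρ : Act G A} {σ : Act G B} {τ : Act G C}

/-- product of local `H²` -/
abbrev PTData.P2 (D : PTData G) (ρ : Act G A) := ∀ v, H2 (D.Lv v) (ρ.comp (D.r v))

/-- functoriality of the product of local `H²` -/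
def prodMap (D : PTData G) (φ : EHom ρ σ) : D.P2 ρ →+ D.P2 σ :=
  AddMonoidHom.pi fun v => ((φ.along (D.r v)).h2 (D.Lv v)).comp (Pi.evalAddMonoidHom _ v)

@[simp] lemma prodMap_apply (φ : EHom ρ σ) (z : D.P2 ρ) (v : D.ι) :
    prodMap D φ z v = (φ.along (D.r v)).h2 (D.Lv v) (z v) := rfl

lemma prodMap_tot2 (φ : EHom ρ σ) (x : H2 D.L ρ) :
    prodMap D φ (D.tot2 ρ x) = D.tot2 σ (φ.h2 D.L x) := by
  funext v
  rw [prodMap_apply, PTData.tot2_apply, PTData.tot2_apply, D.loc_h2_nat]

lemma prodMap_comp (ψ : EHom σ τ) (φ : EHom ρ σ) (z : D.P2 ρ) :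
    prodMap D (ψ.comp φ) z = prodMap D ψ (prodMap D φ z) := by
  funext v
  rw [prodMap_apply, prodMap_apply, prodMap_apply, ← EHom.h2_comp]
  rfl

/-- the cokernel of localisation -/
abbrev PTData.Coker (D : PTData G) (ρ : Act G A) := D.P2 ρ ⧸ (D.tot2 ρ).range

end ProdMap

variable {p : ℕ} [Fact p.Prime] {μ : Act G (ZMod p)} {W : Subgroup G} {e : D.ι → ℕ}

/-- the cokernel functor -/
def PTHyp.dFun (H : PTHyp D p μ W e) : CFun G p D.L where
  obj ρ := D.Coker ρ
  grp _ := inferInstance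
  map {A B _ _ ρ σ} φ := QuotientAddGroup.map _ _ (prodMap D φ) (by
    rintro _ ⟨x, rfl⟩
    exact ⟨φ.h2 D.L x, (prodMap_tot2 φ x).symm⟩)
  map_id φ h x := by
    obtain ⟨x, rfl⟩ := QuotientAddGroup.mk_surjective x
    refine congrArg _ (funext fun v => ?_)
    exact EHom.h2_of_id (D.Lv v) (φ := φ.along (D.r v)) h (x v)
  map_comp ψ φ x := by
    obtain ⟨x, rfl⟩ := QuotientAddGroup.mk_surjective x
    exact congrArg _ (prodMap_comp ψ φ x)
  map_sum {A B J _ _ ρ σ} s φ ψ h x := by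
    obtain ⟨x, rfl⟩ := QuotientAddGroup.mk_surjective x
    have h1 : prodMap D φ x = ∑ j ∈ s, prodMap D (ψ j) x := by
      funext v
      rw [Finset.sum_apply]
      exact EHom.h2_sum _ s _ (fun j => (ψ j).along (D.r v)) h _
    show ((prodMap D φ x : D.P2 σ) : D.Coker σ) = ∑ j ∈ s, ((prodMap D (ψ j) x : D.P2 σ) : D.Coker σ)
    rw [h1]
    exact map_sum (QuotientAddGroup.mk' _) _ _
  surj S hB hp x := by
    obtain ⟨x, rfl⟩ := QuotientAddGroup.mk_surjective x
    choose w hw using fun v => (H.loc v).surj (S.along (D.r v)) (hB.along v) hp (x v)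
    exact ⟨((w : D.P2 _) : D.Coker _), congrArg _ (funext hw)⟩
  exact {A B C _ _ _ _ ρA ρB ρC} S hB hp x hx := by
    obtain ⟨x, rfl⟩ := QuotientAddGroup.mk_surjective x
    have hx' : ((prodMap D S.p x : D.P2 ρC) : D.Coker ρC) = 0 := hx
    rw [QuotientAddGroup.eq_zero_iff] at hx'
    obtain ⟨c, hc⟩ := hx'
    obtain ⟨b, rfl⟩ := H.surj S hB hp c
    rw [← prodMap_tot2] at hc
    have h1 : ∀ v, ∃ a, (S.along (D.r v)).i.h2 (D.Lv v) a = (x - D.tot2 _ b) v := by
      intro v
      refine ((S.along (D.r v)).exact_H2_mid (hB.along v) _).1 ?_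
      have h2 := congrFun hc v
      rw [Pi.sub_apply, map_sub, sub_eq_zero]
      exact h2.symm
    choose a ha using h1
    refine ⟨((a : D.P2 ρA) : D.Coker ρA), ?_⟩
    show ((prodMap D S.i a : D.P2 ρB) : D.Coker ρB) = _
    have h3 : prodMap D S.i a = x - D.tot2 _ b := funext ha
    rw [h3, QuotientAddGroup.mk_sub, sub_eq_self, QuotientAddGroup.eq_zero_iff]
    exact ⟨b, rfl⟩

lemma PTHyp.dFun_map (H : PTHyp D p μ W e) {A B : Type} [AddCommGroup A] [AddCommGroup B]
    {ρ : Act G A} {σ : Act G B} (φ : EHom ρ σ) (z : D.P2 ρ) :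
    H.dFun.map φ ((z : D.P2 ρ) : D.Coker ρ) = ((prodMap D φ z : D.P2 σ) : D.Coker σ) := rfl

variable (H : PTHyp D p μ W e)

include H in
lemma PTHyp.coker_card_coset {U : Subgroup G} (hU : IsOpenSub D.L U) (hUW : U ≤ W) :
    Nat.card (D.Coker (mapAct (cosetAct U) μ)) = p := by
  exact (AddSubgroup.index_eq_card _).symm.trans (chi_main H hU hUW).2

include H in
lemma PTHyp.coker_sum_surj {U : Subgroup G} (hU : IsOpenSub D.L U) [Fintype (G ⧸ U)] :
    Function.Surjective (H.dFun.map (sumHom (cosetAct U) μ)) :=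
  H.dFun.surj (SES.ofSurj (sumHom (cosetAct U) μ) (sumHom_surj μ))
      (H.smooth.mapAct (levelTrivial_cosetAct hU)) (fun b => by ext x; simp)

include H in
lemma PTHyp.coker_card : Nat.card (D.Coker μ) = p := by
  have := H.isOpen.finiteIndex
  have : Fintype (G ⧸ W) := Fintype.ofFinite _
  have h1 := H.coker_card_coset H.isOpen le_rfl
  have h2 := H.coker_sum_surj H.isOpen
  have hp := (Fact.out (p := p.Prime))
  have hf : Finite (D.Coker (mapAct (cosetAct W) μ)) :=
    Nat.finite_of_card_ne_zero (by rw [h1]; exact hp.ne_zero)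
  have hf' : Finite (H.dFun.obj (mapAct (cosetAct W) μ)) := hf
  have hf2 : Finite (D.Coker μ) := Finite.of_surjective _ h2
  have h3 : Nat.card (D.Coker μ) ∣ Nat.card (D.Coker (mapAct (cosetAct W) μ)) :=
    AddSubgroup.card_dvd_of_surjective (H.dFun.map (sumHom (cosetAct W) μ)) h2
  rw [h1] at h3
  rcases (Nat.dvd_prime hp).1 h3 with h | h
  · exfalso
    apply tot2_mu_not_surj H
    rw [← AddMonoidHom.range_eq_top, ← AddSubgroup.index_eq_one]
    exact h
  · exact h

include H in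
lemma PTHyp.dTheta : H.dFun.ThetaHyp μ W where
  smooth := H.smooth
  isOpen := H.isOpen
  triv := H.triv
  card := H.coker_card
  iso N hN hNW := by
    have hNo : IsOpenSub D.L N := ⟨N, hN, le_rfl⟩
    have h1 := H.coker_card_coset hNo hNW
    have hp := (Fact.out (p := p.Prime))
    have hf : Finite (D.Coker (mapAct (cosetAct N) μ)) :=
      Nat.finite_of_card_ne_zero (by rw [h1]; exact hp.ne_zero)
    intro _
    have hf' : Finite (H.dFun.obj (mapAct (cosetAct N) μ)) := hf
    exact (H.coker_sum_surj hNo).bijective_of_nat_card_le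
      ((le_of_eq h1).trans (le_of_eq H.coker_card.symm))

/-- the invariant map `H²(Γ_v, μ) → Coker(μ)` -/
noncomputable def PTData.inv (D : PTData G) (μ : Act G (ZMod p)) (v : D.ι) :
    H2 (D.Lv v) (μ.comp (D.r v)) →+ D.Coker μ :=
  letI := Classical.decEq D.ι
  (QuotientAddGroup.mk' _).comp
    (AddMonoidHom.single (fun v => H2 (D.Lv v) (μ.comp (D.r v))) v)

lemma sum_inv (z : D.P2 μ) : ((z : D.P2 μ) : D.Coker μ) = ∑ v, D.inv μ v (z v) := by
  classical
  have h1 : z = ∑ v, Pi.single v (z v) := by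
    funext w
    rw [Finset.sum_apply, Finset.sum_pi_single]
    simp
  conv_lhs => rw [h1]
  rw [show ((∑ v, Pi.single v (z v) : D.P2 μ) : D.Coker μ) =
    QuotientAddGroup.mk' (D.tot2 μ).range (∑ v, Pi.single v (z v)) from rfl, map_sum]
  refine Finset.sum_congr rfl fun v _ => ?_
  unfold PTData.inv
  rw [AddMonoidHom.comp_apply, AddMonoidHom.single_apply]

include H in
lemma PTHyp.inv_bij (v : D.ι) : Function.Bijective (D.inv μ v) := by
  classical
  have hp := (Fact.out (p := p.Prime))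
  have hf : Finite (D.Coker μ) :=
    Nat.finite_of_card_ne_zero (by rw [H.coker_card]; exact hp.ne_zero)
  have hinj : Function.Injective (D.inv μ v) := by
    rw [injective_iff_map_eq_zero]
    intro z hz
    unfold PTData.inv at hz
    rw [AddMonoidHom.comp_apply, QuotientAddGroup.mk'_apply, QuotientAddGroup.eq_zero_iff,
      AddMonoidHom.single_apply] at hz
    obtain ⟨x, hx⟩ := hz
    have h1 := H.recip x v (fun w hw => by
      have := congrFun hx w
      rw [PTData.tot2_apply, Pi.single_eq_of_ne hw] at this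
      exact this)
    have h2 := congrFun hx v
    rw [PTData.tot2_apply, Pi.single_eq_same] at h2
    rw [← h2, h1]
  exact hinj.bijective_of_nat_card_le (by rw [H.coker_card, (H.loc v).cardμ])

section Dual

variable {A B C : Type} [AddCommGroup A] [AddCommGroup B] [AddCommGroup C]

/-- localisation for dual modules -/
def locDual (D : PTData G) (μ : Act G (ZMod p)) (v : D.ι) (ρ : Act G A) :
    PairHom D.L (dualAct μ ρ) (D.Lv v) (dualAct (μ.comp (D.r v)) (ρ.comp (D.r v))) where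
  r := D.r v
  f := AddMonoidHom.id _
  lev := D.lev v
  comm γ φ := (dualComp μ ρ (D.r v)).comm γ φ

lemma locDual_h1_eq_zero (v : D.ι) (ρ : Act G A) (x : H1 D.L (dualAct μ ρ)) :
    (locDual D μ v ρ).h1 x = 0 ↔ (D.loc v (dualAct μ ρ)).h1 x = 0 := by
  have h1 : (locDual D μ v ρ).h1 x =
      ((dualComp μ ρ (D.r v)).h1 (D.Lv v)) ((D.loc v (dualAct μ ρ)).h1 x) := by
    rw [EEquiv.h1_apply, EHom.h1, ← PairHom.h1_comp]
    exact PairHom.h1_congr (fun _ => rfl) (fun _ => rfl) x
  rw [h1]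
  exact (map_eq_zero_iff _ ((dualComp μ ρ (D.r v)).h1 (D.Lv v)).injective)

lemma mem_sha1_dual {ρ : Act G A} {x : H1 D.L (dualAct μ ρ)} :
    x ∈ D.sha1 (dualAct μ ρ) ↔ ∀ v, (locDual D μ v ρ).h1 x = 0 := by
  rw [D.mem_sha1]
  exact forall_congr' fun v => (locDual_h1_eq_zero v ρ x).symm

end Dual

section Main

variable {A B C : Type} [AddCommGroup A] [AddCommGroup B] [AddCommGroup C] [Finite B]
  {ρA : Act G A} {ρB : Act G B} {ρC : Act G C} (S : SES ρA ρB ρC) (hB : Smooth D.L ρB)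
  (hp : ∀ b : B, p • b = 0)

/-- pairs `(y, z)` with `loc y = i z` -/
def snakeT (D : PTData G) (S : SES ρA ρB ρC) : AddSubgroup (H2 D.L ρB × D.P2 ρA) where
  carrier := {t | D.tot2 ρB t.1 = prodMap D S.i t.2}
  zero_mem' := by simp
  add_mem' := by
    intro a b ha hb
    show D.tot2 ρB (a.1 + b.1) = prodMap D S.i (a.2 + b.2)
    rw [map_add, map_add, show D.tot2 ρB a.1 = _ from ha, show D.tot2 ρB b.1 = _ from hb]
  neg_mem' := by
    intro a ha
    show D.tot2 ρB (-a.1) = prodMap D S.i (-a.2)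
    rw [map_neg, map_neg, show D.tot2 ρB a.1 = _ from ha]

/-- the subgroup `{φ | δ φ ∈ Ш¹}` -/
noncomputable def snakeV (D : PTData G) (μ : Act G (ZMod p)) (S : SES ρA ρB ρC)
    (hp : ∀ b : B, p • b = 0) (hB' : Smooth D.L (dualAct μ ρB)) :
    AddSubgroup (H0 (dualAct μ ρA)) :=
  (D.sha1 (dualAct μ ρC)).comap ((S.dual μ hp).δ0 hB')

/-- `theta` as a homomorphism in both variables -/
def CFun.thetaHom {L : Levels G} (F : CFun G p L) (μ : Act G (ZMod p)) (ρ : Act G A) :
    F.obj ρ →+ (H0 (dualAct μ ρ) →+ F.obj μ) where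
  toFun x := F.theta x
  map_zero' := by
    ext φ
    exact map_zero (F.map (toHom φ))
  map_add' x y := by
    ext φ
    exact map_add (F.map (toHom φ)) x y

/-- the class of the second component -/
def snakeZ (D : PTData G) (S : SES ρA ρB ρC) : snakeT D S →+ D.Coker ρA :=
  ((QuotientAddGroup.mk' _).comp (AddMonoidHom.snd _ _)).comp (snakeT D S).subtype

/-- the pairing `T × V → Coker μ` -/
def snakeβ (H : PTHyp D p μ W e) (S : SES ρA ρB ρC) (V : AddSubgroup (H0 (dualAct μ ρA))) :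
    snakeT D S →+ (V →+ H.dFun.obj μ) :=
  ((AddMonoidHom.compHom' V.subtype).comp (H.dFun.thetaHom μ ρA)).comp (snakeZ D S)

/-- first component, pushed to `H²(C)` -/
def snakeα (D : PTData G) (S : SES ρA ρB ρC) : snakeT D S →+ H2 D.L ρC :=
  ((S.p.h2 D.L).comp (AddMonoidHom.fst _ _)).comp (snakeT D S).subtype

omit [Finite B] in
lemma snakeβ_apply (S : SES ρA ρB ρC) (V : AddSubgroup (H0 (dualAct μ ρA)))
    (t : snakeT D S) (φ : V) : snakeβ H S V t φ =
      H.dFun.map (toHom (φ : H0 (dualAct μ ρA))) ((t.1.2 : D.P2 ρA) : D.Coker ρA) := rfl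

/-- class of `φ z` as a sum of invariants -/
lemma map_toHom_eq (φ : H0 (dualAct μ ρA)) (z : D.P2 ρA) :
    H.dFun.map (toHom φ) ((z : D.P2 ρA) : D.Coker ρA) =
      ∑ v, D.inv μ v (((toHom φ).along (D.r v)).h2 (D.Lv v) (z v)) := by
  rw [H.dFun_map, sum_inv]
  rfl

end Main

end Fermat.Agent.PT
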