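import Fermat.Agent.PT.Snake

/-!
# The snake argument: relation between `Ш²(C)` and `Ш¹(C')`
-/

set_option autoImplicit false

namespace Fermat.Agent.PT

variable {G : Type} [Group G] {D : PTData G} {p : ℕ} [Fact p.Prime] {μ : Act G (ZMod p)}
  {W : Subgroup G} {e : D.ι → ℕ} (H : PTHyp D p μ W e)
  {A B C : Type} [AddCommGroup A] [AddCommGroup B] [AddCommGroup C] [Finite B]
  {ρA : Act G A} {ρB : Act G B} {ρC : Act G C} (S : SES ρA ρB ρC) (hB : Smooth D.L ρB)
  (hp : ∀ b : B, p • b = 0)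

include H hB hp in
lemma snakeα_range : (snakeα D S).range = D.sha2 ρC := by
  ext x
  constructor
  · rintro ⟨t, rfl⟩
    rw [D.mem_sha2]
    intro v
    have ht : D.tot2 ρB t.1.1 = prodMap D S.i t.1.2 := t.2
    show (D.loc v ρC).h2 (S.p.h2 D.L t.1.1) = 0
    rw [D.loc_h2_nat, ← D.tot2_apply, ht, prodMap_apply, ← EHom.h2_comp]
    exact EHom.h2_zero _ (fun a => S.p_i a) _
  · intro hx
    obtain ⟨y, rfl⟩ := H.surj S hB hp x
    have h1 : ∀ v, ∃ a, (S.along (D.r v)).i.h2 (D.Lv v) a = (D.loc v ρB).h2 y := fun v => by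
      refine ((S.along (D.r v)).exact_H2_mid (hB.along v) _).1 ?_
      have := D.mem_sha2.1 hx v
      rw [D.loc_h2_nat] at this
      exact this
    choose z hz using h1
    exact ⟨⟨(y, z), funext fun v => (hz v).symm⟩, rfl⟩

/-- the local dual sequence -/
abbrev locSES (D : PTData G) (μ : Act G (ZMod p)) (S : SES ρA ρB ρC) (hp : ∀ b : B, p • b = 0)
    (v : D.ι) := (S.along (D.r v)).dual (μ.comp (D.r v)) hp

include hB in
lemma smooth_dual_loc (hμ : Smooth D.L μ) (v : D.ι) :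
    Smooth (D.Lv v) (dualAct (μ.comp (D.r v)) (ρB.comp (D.r v))) :=
  Smooth.dual (hμ.along v) (hB.along v)

omit [Finite B] in
/-- compatibility of connecting maps with localisation -/
lemma locDual_δ0 (hB' : Smooth D.L (dualAct μ ρB)) (v : D.ι)
    (hBv : Smooth (D.Lv v) (dualAct (μ.comp (D.r v)) (ρB.comp (D.r v))))
    (φ : H0 (dualAct μ ρA)) :
    (locDual D μ v ρC).h1 ((S.dual μ hp).δ0 hB' φ) =
      (locSES D μ S hp v).δ0 hBv ((locDual D μ v ρA).h0 φ) :=
  SES.δ0_nat (S.dual μ hp) (locSES D μ S hp v) hB' hBv (locDual D μ v ρC) (locDual D μ v ρB)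
    (locDual D μ v ρA) (fun _ => rfl) (fun _ => rfl) (fun _ => rfl) φ

lemma dual_torsion {Z : Type*} [AddCommGroup Z] (x : Z →+ ZMod p) : p • x = 0 := by
  ext z
  show p • x z = 0
  simp

lemma h0_dual_torsion {Γ : Type*} [Group Γ] {Z : Type*} [AddCommGroup Z] (μ : Act Γ (ZMod p))
    (σ : Act Γ Z) (x : H0 (dualAct μ σ)) : p • x = 0 := Subtype.ext (dual_torsion x.1)

include H hB in
lemma snakeβ_ker (hB' : Smooth D.L (dualAct μ ρB)) (t : snakeT D S) :
    snakeβ H S (snakeV D μ S hp hB') t = 0 ↔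
      snakeα D S t ∈ (D.sha2 ρB).map (S.p.h2 D.L) := by
  have hBv := fun v => smooth_dual_loc hB H.smooth v
  have ht : D.tot2 ρB t.1.1 = prodMap D S.i t.1.2 := t.2
  have : Finite A := Finite.of_injective _ S.inj
  have hpA : ∀ a : A, p • a = 0 := fun a => S.inj (by rw [map_nsmul, hp, map_zero])
  constructor
  · intro h0
    -- the functional on `V1`
    let F : H0 (dualAct μ ρA) →+ H.dFun.obj μ := H.dFun.theta ((t.1.2 : D.P2 ρA) : D.Coker ρA)
    let h : H0 (dualAct μ ρA) →+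
        ∀ v, H1 (D.Lv v) (dualAct (μ.comp (D.r v)) (ρC.comp (D.r v))) :=
      AddMonoidHom.pi fun v => ((locDual D μ v ρC).h1).comp ((S.dual μ hp).δ0 hB')
    obtain ⟨Λ, hΛ⟩ := extend_hom p (fun x => by
        funext v
        exact h1_torsion (fun a => dual_torsion a) (x v)) (torsion_of_card H.coker_card) h F
      (fun φ hφ => by
        have hφV : φ ∈ snakeV D μ S hp hB' := by
          show (S.dual μ hp).δ0 hB' φ ∈ D.sha1 (dualAct μ ρC)
          rw [mem_sha1_dual]
          intro v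
          exact congrFun hφ v
        exact DFunLike.congr_fun h0 (⟨φ, hφV⟩ : snakeV D μ S hp hB'))
    classical
    let invE : ∀ v, H2 (D.Lv v) (μ.comp (D.r v)) ≃+ D.Coker μ := fun v =>
      AddEquiv.ofBijective (D.inv μ v) (H.inv_bij v)
    let l : ∀ v, H0 (dualAct (μ.comp (D.r v)) (ρA.comp (D.r v))) →+
        H2 (D.Lv v) (μ.comp (D.r v)) := fun v =>
      ((invE v).symm.toAddMonoidHom.comp (Λ.comp (AddMonoidHom.single
        (fun v => H1 (D.Lv v) (dualAct (μ.comp (D.r v)) (ρC.comp (D.r v)))) v))).comp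
        ((locSES D μ S hp v).δ0 (hBv v))
    have hex : ∀ v, ∃ z : H2 (D.Lv v) (ρA.comp (D.r v)), ∀ φ, (toHom φ).h2 (D.Lv v) z = l v φ :=
      fun v => ((H.loc v).theta.main (ρA.comp (D.r v)) ((S.smooth_left hB).along v) hpA).2 (l v)
    choose z' hz' using hex
    have hiz : ∀ v, ((S.along (D.r v)).i).h2 (D.Lv v) (z' v) = 0 := by
      intro v
      refine ((H.loc v).theta.main (ρB.comp (D.r v)) (hB.along v) hp).1 _ fun ψ => ?_
      have h1 : (toHom ((locSES D μ S hp v).p.h0 ψ)).h2 (D.Lv v) (z' v) =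
        l v ((locSES D μ S hp v).p.h0 ψ) := hz' v _
      have h2 : (locSES D μ S hp v).δ0 (hBv v) ((locSES D μ S hp v).p.h0 ψ) = 0 :=
        ((locSES D μ S hp v).exact_H0_right (hBv v) _).2 ⟨ψ, rfl⟩
      have h3 : l v ((locSES D μ S hp v).p.h0 ψ) = 0 := by
        show (invE v).symm (Λ (Pi.single v ((locSES D μ S hp v).δ0 (hBv v)
          ((locSES D μ S hp v).p.h0 ψ)))) = 0
        rw [h2, Pi.single_zero, map_zero, map_zero]
      rw [h3] at h1
      show (toHom ψ).h2 (D.Lv v) ((S.along (D.r v)).i.h2 (D.Lv v) (z' v)) = 0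
      rw [← h1, ← EHom.h2_comp]
      exact EHom.h2_congr _ (fun _ => rfl) _
    have hzz : ((z' : D.P2 ρA) : D.Coker ρA) = ((t.1.2 : D.P2 ρA) : D.Coker ρA) := by
      have h4 : ∀ x : H.dFun.obj ρA, (∀ φ : H0 (dualAct μ ρA), H.dFun.map (toHom φ) x = 0) →
        x = 0 := (H.dTheta.main ρA (S.smooth_left hB) hpA).1
      have h5 : ((z' : D.P2 ρA) : D.Coker ρA) - ((t.1.2 : D.P2 ρA) : D.Coker ρA) = 0 := by
        refine h4 _ fun φ => ?_
        have h6 : H.dFun.map (toHom φ) ((z' : D.P2 ρA) : D.Coker ρA) = F φ := by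
          refine (map_toHom_eq H φ z').trans ?_
          refine Eq.trans ?_ (hΛ φ)
          have h7 : h φ = ∑ v, Pi.single v ((locDual D μ v ρC).h1 ((S.dual μ hp).δ0 hB' φ)) := by
            funext w
            rw [Finset.sum_apply, Finset.sum_pi_single]
            simp [h]
          rw [h7, map_sum]
          refine Finset.sum_congr rfl fun v _ => ?_
          have h8 : ((toHom φ).along (D.r v)).h2 (D.Lv v) (z' v) =
              l v ((locDual D μ v ρA).h0 φ) := by
            rw [← hz' v]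
            exact EHom.h2_congr _ (fun _ => rfl) _
          rw [h8, locDual_δ0 S hp hB' v (hBv v)]
          exact (invE v).apply_symm_apply _
        refine (map_sub (H.dFun.map (toHom φ)) _ _).trans ?_
        rw [h6, sub_eq_zero]
        rfl
      exact sub_eq_zero.1 h5
    rw [QuotientAddGroup.eq] at hzz
    obtain ⟨w, hw⟩ := hzz
    refine ⟨t.1.1 - S.i.h2 D.L w, ?_, ?_⟩
    · show D.tot2 ρB _ = 0
      rw [map_sub, ht, ← prodMap_tot2, hw, ← map_sub]
      have : t.1.2 - (-z' + t.1.2) = z' := by abel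
      rw [this]
      exact funext hiz
    · show S.p.h2 D.L (t.1.1 - S.i.h2 D.L w) = S.p.h2 D.L t.1.1
      rw [map_sub, sub_eq_self, ← EHom.h2_comp]
      exact EHom.h2_zero _ (fun a => S.p_i a) _
  · rintro ⟨y0, hy0, hy⟩
    have hy' : S.p.h2 D.L (t.1.1 - y0) = 0 := by
      rw [map_sub, sub_eq_zero]; exact hy.symm
    obtain ⟨w, hw⟩ := (S.exact_H2_mid hB _).1 hy'
    have hz0 : prodMap D S.i (t.1.2 - D.tot2 ρA w) = 0 := by
      rw [map_sub, ← ht, prodMap_tot2, hw, map_sub, sub_sub_cancel]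
      exact hy0
    ext φ
    rw [snakeβ_apply]
    have hcl : ((t.1.2 : D.P2 ρA) : D.Coker ρA) =
        ((t.1.2 - D.tot2 ρA w : D.P2 ρA) : D.Coker ρA) := by
      rw [QuotientAddGroup.eq]
      exact ⟨-w, by rw [map_neg]; abel⟩
    rw [hcl, map_toHom_eq]
    refine Finset.sum_eq_zero fun v _ => ?_
    have hφ : (locDual D μ v ρC).h1 ((S.dual μ hp).δ0 hB' φ) = 0 := (mem_sha1_dual.1 φ.2) v
    rw [locDual_δ0 S hp hB' v (hBv v)] at hφ
    obtain ⟨ψ, hψ⟩ := ((locSES D μ S hp v).exact_H0_right (hBv v) _).1 hφ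
    have h1 : ((toHom (φ : H0 (dualAct μ ρA))).along (D.r v)).h2 (D.Lv v)
        ((t.1.2 - D.tot2 ρA w) v) =
        (toHom ψ).h2 (D.Lv v) (prodMap D S.i (t.1.2 - D.tot2 ρA w) v) := by
      rw [prodMap_apply, ← EHom.h2_comp]
      refine EHom.h2_congr _ (fun a => ?_) _
      exact (DFunLike.congr_fun (congrArg Subtype.val hψ) a).symm
    rw [h1, hz0]
    show D.inv μ v ((toHom ψ).h2 (D.Lv v) 0) = 0
    rw [map_zero, map_zero]

end Fermat.Agent.PT
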