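import Fermat.Agent.PT.Snake2

/-!
# The snake argument: counting
-/

set_option autoImplicit false

namespace Fermat.Agent.PT

variable {G : Type} [Group G] {D : PTData G} {p : ℕ} [Fact p.Prime] {μ : Act G (ZMod p)}
  {W : Subgroup G} {e : D.ι → ℕ} (H : PTHyp D p μ W e)
  {A B C : Type} [AddCommGroup A] [AddCommGroup B] [AddCommGroup C] [Finite B]
  {ρA : Act G A} {ρB : Act G B} {ρC : Act G C} (S : SES ρA ρB ρC) (hB : Smooth D.L ρB)
  (hp : ∀ b : B, p • b = 0)

/-- classes in `Ш¹(C')` dying in `H¹(B')` -/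
def snakeSh (D : PTData G) (μ : Act G (ZMod p)) (S : SES ρA ρB ρC) :
    AddSubgroup (H1 D.L (dualAct μ ρC)) :=
  D.sha1 (dualAct μ ρC) ⊓ ((S.p.dual μ).h1 D.L).ker

/-- `δ⁰` restricted to `V` -/
noncomputable def snakeg (D : PTData G) (μ : Act G (ZMod p)) (S : SES ρA ρB ρC)
    (hp : ∀ b : B, p • b = 0) (hB' : Smooth D.L (dualAct μ ρB)) :
    snakeV D μ S hp hB' →+ snakeSh D μ S :=
  (((S.dual μ hp).δ0 hB').comp (snakeV D μ S hp hB').subtype).codRestrict _ (fun φ => by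
    refine ⟨φ.2, ?_⟩
    exact ((S.dual μ hp).exact_H1_left hB' _).2 ⟨φ.1, rfl⟩)

omit [Finite B] in
lemma snakeg_surj (hB' : Smooth D.L (dualAct μ ρB)) :
    Function.Surjective (snakeg D μ S hp hB') := by
  rintro ⟨x, hx1, hx2⟩
  obtain ⟨φ, rfl⟩ := ((S.dual μ hp).exact_H1_left hB' x).1 hx2
  exact ⟨⟨φ, hx1⟩, rfl⟩

include H hB in
lemma snakeβ_range (hB' : Smooth D.L (dualAct μ ρB)) :
    (snakeβ H S (snakeV D μ S hp hB')).range =
      (AddMonoidHom.compHom' (P := H.dFun.obj μ) (snakeg D μ S hp hB')).range := by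
  have : Finite A := Finite.of_injective _ S.inj
  have hpA : ∀ a : A, p • a = 0 := fun a => S.inj (by rw [map_nsmul, hp, map_zero])
  ext l
  constructor
  · rintro ⟨t, rfl⟩
    have ht : D.tot2 ρB t.1.1 = prodMap D S.i t.1.2 := t.2
    obtain ⟨l', hl'⟩ := extend_hom p (E' := snakeSh D μ S) (fun x => Subtype.ext
      (h1_torsion (fun a => dual_torsion a) x.1)) (torsion_of_card H.coker_card)
      (snakeg D μ S hp hB') (snakeβ H S (snakeV D μ S hp hB') t) (fun φ hφ => by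
        have h1 : (S.dual μ hp).δ0 hB' (φ : H0 (dualAct μ ρA)) = 0 := congrArg Subtype.val hφ
        obtain ⟨ψ, hψ⟩ := ((S.dual μ hp).exact_H0_right hB' _).1 h1
        have h2 : H.dFun.map (toHom (φ : H0 (dualAct μ ρA))) ((t.1.2 : D.P2 ρA) : D.Coker ρA) =
            H.dFun.map (toHom ψ) (H.dFun.map S.i ((t.1.2 : D.P2 ρA) : D.Coker ρA)) := by
          rw [← H.dFun.map_comp]
          refine H.dFun.map_congr (fun a => ?_) _
          exact (DFunLike.congr_fun (congrArg Subtype.val hψ) a).symm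
        have h3 : H.dFun.map S.i ((t.1.2 : D.P2 ρA) : D.Coker ρA) = 0 := by
          rw [H.dFun_map, ← ht]
          exact (QuotientAddGroup.eq_zero_iff _).2 ⟨_, rfl⟩
        refine h2.trans ?_
        rw [h3]
        exact map_zero _)
    exact ⟨l', AddMonoidHom.ext hl'⟩
  · rintro ⟨l', rfl⟩
    obtain ⟨l1, hl1⟩ := extend_hom p (h0_dual_torsion μ ρA) (torsion_of_card H.coker_card)
      (snakeV D μ S hp hB').subtype (l'.comp (snakeg D μ S hp hB')) (fun φ hφ => by
        have : φ = 0 := Subtype.ext hφ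
        rw [this, map_zero])
    obtain ⟨z, hz⟩ := (H.dTheta.main ρA (S.smooth_left hB) hpA).2 l1
    obtain ⟨z, rfl⟩ := QuotientAddGroup.mk_surjective z
    have h1 : H.dFun.map S.i ((z : D.P2 ρA) : D.Coker ρA) = 0 := by
      refine (H.dTheta.main ρB hB hp).1 _ fun ψ => ?_
      have hV : (S.dual μ hp).p.h0 ψ ∈ snakeV D μ S hp hB' := by
        show (S.dual μ hp).δ0 hB' ((S.dual μ hp).p.h0 ψ) ∈ D.sha1 (dualAct μ ρC)
        rw [((S.dual μ hp).exact_H0_right hB' _).2 ⟨ψ, rfl⟩]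
        exact AddSubgroup.zero_mem _
      have h2 : H.dFun.map (toHom ψ) (H.dFun.map S.i ((z : D.P2 ρA) : D.Coker ρA)) =
          l1 ((S.dual μ hp).p.h0 ψ) := by
        refine Eq.trans ?_ (hz _)
        rw [← H.dFun.map_comp]
        exact H.dFun.map_congr (fun _ => rfl) _
      rw [h2]
      refine (hl1 ⟨_, hV⟩).trans ?_
      have h3 : snakeg D μ S hp hB' ⟨_, hV⟩ = 0 :=
        Subtype.ext (((S.dual μ hp).exact_H0_right hB' _).2 ⟨ψ, rfl⟩)
      show l' (snakeg D μ S hp hB' ⟨_, hV⟩) = 0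
      rw [h3]
      exact map_zero _
    have h4 : ((prodMap D S.i z : D.P2 ρB) : D.Coker ρB) = 0 := h1
    rw [QuotientAddGroup.eq_zero_iff] at h4
    obtain ⟨y, hy⟩ := h4
    refine ⟨⟨(y, z), hy⟩, ?_⟩
    ext φ
    exact (hz φ).trans (hl1 φ)

include H hB hp in
/-- **Snake counting**: `|Ш²(C)| = |Ш¹(C') ∩ ker(H¹(C') → H¹(B'))| * |im(Ш²(B) → Ш²(C))|`. -/
theorem snake_card (hfin : Finite (snakeSh D μ S)) :
    Nat.card (D.sha2 ρC) = Nat.card (snakeSh D μ S) *
      Nat.card ((D.sha2 ρB).map (S.p.h2 D.L)) := by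
  have hB' : Smooth D.L (dualAct μ ρB) := Smooth.dual H.smooth hB
  have hle : (D.sha2 ρB).map (S.p.h2 D.L) ≤ D.sha2 ρC := by
    rintro _ ⟨x, hx, rfl⟩
    exact D.sha2_map S.p hx
  let im' := ((D.sha2 ρB).map (S.p.h2 D.L)).addSubgroupOf (D.sha2 ρC)
  have him : Nat.card im' = Nat.card ((D.sha2 ρB).map (S.p.h2 D.L)) :=
    Nat.card_congr (AddSubgroup.addSubgroupOfEquivOfLe hle).toEquiv
  have hrange := snakeα_range H S hB hp
  let α' : snakeT D S →+ D.sha2 ρC := (snakeα D S).codRestrict _ (fun t => by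
    rw [← hrange]; exact ⟨t, rfl⟩)
  have hα' : Function.Surjective α' := by
    rintro ⟨x, hx⟩
    rw [← hrange] at hx
    obtain ⟨t, rfl⟩ := hx
    exact ⟨t, rfl⟩
  let q : snakeT D S →+ D.sha2 ρC ⧸ im' := (QuotientAddGroup.mk' im').comp α'
  have hq : Function.Surjective q := (QuotientAddGroup.mk'_surjective _).comp hα'
  have hker : q.ker = (snakeβ H S (snakeV D μ S hp hB')).ker := by
    ext t
    rw [AddMonoidHom.mem_ker, AddMonoidHom.mem_ker, snakeβ_ker H S hB hp hB' t]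
    show ((α' t : D.sha2 ρC) : D.sha2 ρC ⧸ im') = 0 ↔ _
    rw [QuotientAddGroup.eq_zero_iff, AddSubgroup.mem_addSubgroupOf]
    rfl
  rw [AddSubgroup.card_eq_card_quotient_mul_card_addSubgroup im', him]
  congr 1
  rw [← Nat.card_congr (QuotientAddGroup.quotientKerEquivOfSurjective q hq).toEquiv, hker,
    Nat.card_congr (QuotientAddGroup.quotientKerEquivRange
      (snakeβ H S (snakeV D μ S hp hB'))).toEquiv, snakeβ_range H S hB hp hB']
  have hinj : Function.Injective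
      (AddMonoidHom.compHom' (P := H.dFun.obj μ) (snakeg D μ S hp hB')) := by
    intro a b hab
    ext x
    obtain ⟨y, rfl⟩ := snakeg_surj S hp hB' x
    exact DFunLike.congr_fun hab y
  rw [← Nat.card_congr (AddMonoidHom.ofInjective hinj).toEquiv]
  exact card_hom (fun x => Subtype.ext (h1_torsion (fun a => dual_torsion a) x.1)) H.coker_card

end Fermat.Agent.PT
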