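import Fermat.Agent.PT.Shapiro

/-!
# Additivity, finite direct sums, twisted maps, Shapiro for non-transitive sets
-/

set_option autoImplicit false

namespace Fermat.Agent.PT

variable {G : Type*} [Group G] {A B C : Type*} [AddCommGroup A] [AddCommGroup B] [AddCommGroup C]

section Sum

variable {ρ : Act G A} {σ : Act G B} {J : Type*}

lemma EHom.h1_sum (L : Levels G) (s : Finset J) (φ : EHom ρ σ) (ψ : J → EHom ρ σ)
    (h : ∀ a, φ.f a = ∑ j ∈ s, (ψ j).f a) (x : H1 L ρ) :
    φ.h1 L x = ∑ j ∈ s, (ψ j).h1 L x := by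
  obtain ⟨a, rfl⟩ := H1.mk_surjective L ρ x
  have : ∀ j, (ψ j).h1 L (H1.mk L ρ a) = H1.mk L σ (((ψ j).pair L).z1 a) := fun _ => rfl
  simp only [this]
  rw [← map_sum, EHom.h1, PairHom.h1_mk]
  congr 1
  ext γ
  rw [AddSubgroup.val_finsetSum, Finset.sum_apply]
  exact h _

lemma EHom.h2_sum (L : Levels G) (s : Finset J) (φ : EHom ρ σ) (ψ : J → EHom ρ σ)
    (h : ∀ a, φ.f a = ∑ j ∈ s, (ψ j).f a) (x : H2 L ρ) :
    φ.h2 L x = ∑ j ∈ s, (ψ j).h2 L x := by
  obtain ⟨a, rfl⟩ := H2.mk_surjective L ρ x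
  have : ∀ j, (ψ j).h2 L (H2.mk L ρ a) = H2.mk L σ (((ψ j).pair L).z2 a) := fun _ => rfl
  simp only [this]
  rw [← map_sum, EHom.h2, PairHom.h2_mk]
  congr 1
  ext γ δ
  rw [AddSubgroup.val_finsetSum, Finset.sum_apply, Finset.sum_apply]
  exact h _

/-- `σ` is a finite direct sum of copies of `ρ`. -/
structure FreeOn (J : Type*) [Fintype J] [DecidableEq J] (ρ : Act G A) (σ : Act G B) where
  a : J → EHom ρ σ
  b : J → EHom σ ρ
  ba : ∀ i j z, (b i).f ((a j).f z) = if i = j then z else 0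
  ab : ∀ y, ∑ j, (a j).f ((b j).f y) = y

namespace FreeOn

variable [Fintype J] [DecidableEq J] (F : FreeOn J ρ σ)

lemma bij_h1 (L : Levels G) :
    Function.Bijective (fun (x : H1 L σ) (j : J) => (F.b j).h1 L x) := by
  constructor
  · intro x y h
    have key : ∀ z : H1 L σ, z = ∑ j, (F.a j).h1 L ((F.b j).h1 L z) := by
      intro z
      have := EHom.h1_sum L Finset.univ (EHom.id σ) (fun j => (F.a j).comp (F.b j))
        (fun a => (F.ab a).symm) z
      rw [EHom.h1_of_id L (fun a => rfl)] at this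
      simpa only [EHom.h1_comp] using this
    rw [key x, key y]
    exact Finset.sum_congr rfl fun j _ => by rw [show (F.b j).h1 L x = (F.b j).h1 L y from
      congrFun h j]
  · intro y
    refine ⟨∑ j, (F.a j).h1 L (y j), ?_⟩
    ext i
    simp only [map_sum]
    rw [Finset.sum_eq_single i]
    · rw [← EHom.h1_comp]
      exact EHom.h1_of_id L (fun a => (F.ba i i a).trans (if_pos rfl)) _
    · intro j _ hj
      rw [← EHom.h1_comp]
      exact EHom.h1_zero L (fun a => (F.ba i j a).trans (if_neg (Ne.symm hj))) _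
    · intro h
      exact absurd (Finset.mem_univ i) h

lemma bij_h2 (L : Levels G) :
    Function.Bijective (fun (x : H2 L σ) (j : J) => (F.b j).h2 L x) := by
  constructor
  · intro x y h
    have key : ∀ z : H2 L σ, z = ∑ j, (F.a j).h2 L ((F.b j).h2 L z) := by
      intro z
      have := EHom.h2_sum L Finset.univ (EHom.id σ) (fun j => (F.a j).comp (F.b j))
        (fun a => (F.ab a).symm) z
      rw [EHom.h2_of_id L (fun a => rfl)] at this
      simpa only [EHom.h2_comp] using this
    rw [key x, key y]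
    exact Finset.sum_congr rfl fun j _ => by rw [show (F.b j).h2 L x = (F.b j).h2 L y from
      congrFun h j]
  · intro y
    refine ⟨∑ j, (F.a j).h2 L (y j), ?_⟩
    ext i
    simp only [map_sum]
    rw [Finset.sum_eq_single i]
    · rw [← EHom.h2_comp]
      exact EHom.h2_of_id L (fun a => (F.ba i i a).trans (if_pos rfl)) _
    · intro j _ hj
      rw [← EHom.h2_comp]
      exact EHom.h2_zero L (fun a => (F.ba i j a).trans (if_neg (Ne.symm hj))) _
    · intro h
      exact absurd (Finset.mem_univ i) h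

lemma bij_h0 : Function.Bijective (fun (x : H0 σ) (j : J) => (F.b j).h0 x) := by
  constructor
  · intro x y h
    apply Subtype.ext
    rw [← F.ab x, ← F.ab y]
    exact Finset.sum_congr rfl fun j _ => by
      rw [show (F.b j).f (x : B) = (F.b j).f (y : B) from congrArg Subtype.val (congrFun h j)]
  · intro y
    refine ⟨∑ j, (F.a j).h0 (y j), ?_⟩
    ext i
    simp only [map_sum, AddSubgroup.val_finsetSum]
    rw [Finset.sum_eq_single i]
    · exact (F.ba i i _).trans (if_pos rfl)
    · intro j _ hj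
      exact (F.ba i j _).trans (if_neg (Ne.symm hj))
    · intro h
      exact absurd (Finset.mem_univ i) h

include F in
lemma card_h0 : Nat.card (H0 σ) = Nat.card (H0 ρ) ^ Fintype.card J := by
  rw [Nat.card_congr (Equiv.ofBijective _ F.bij_h0), Nat.card_fun,
    Nat.card_eq_fintype_card (α := J)]

include F in
lemma card_h1 (L : Levels G) : Nat.card (H1 L σ) = Nat.card (H1 L ρ) ^ Fintype.card J := by
  rw [Nat.card_congr (Equiv.ofBijective _ (F.bij_h1 L)), Nat.card_fun,
    Nat.card_eq_fintype_card (α := J)]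

include F in
lemma card_h2 (L : Levels G) : Nat.card (H2 L σ) = Nat.card (H2 L ρ) ^ Fintype.card J := by
  rw [Nat.card_congr (Equiv.ofBijective _ (F.bij_h2 L)), Nat.card_fun,
    Nat.card_eq_fintype_card (α := J)]

include F in
lemma finite_h1 (L : Levels G) [Finite (H1 L ρ)] : Finite (H1 L σ) :=
  Finite.of_injective _ (F.bij_h1 L).1

include F in
lemma finite_h2 (L : Levels G) [Finite (H2 L ρ)] : Finite (H2 L σ) :=
  Finite.of_injective _ (F.bij_h2 L).1

end FreeOn

end Sum

section Triv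

/-- the trivial action -/
def trivAct (G : Type*) [Group G] (A : Type*) [AddCommGroup A] : Act G A := 1

@[simp] lemma trivAct_apply (g : G) (a : A) : trivAct G A g a = a := rfl

lemma smooth_trivAct (L : Levels G) : Smooth L (trivAct G A) := by
  intro a
  obtain ⟨N, hN⟩ := L.nonempty'
  exact ⟨N, hN, fun _ _ => rfl⟩

/-- A family of additive maps giving a decomposition `B = A^J`. -/
structure FreeAb (J : Type*) [Fintype J] [DecidableEq J] (A B : Type*) [AddCommGroup A]
    [AddCommGroup B] where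
  a : J → (A →+ B)
  b : J → (B →+ A)
  ba : ∀ i j z, b i (a j z) = if i = j then z else 0
  ab : ∀ y, ∑ j, a j (b j y) = y

lemma exists_freeAb_aux (p : ℕ) [Fact p.Prime] (B : Type*) [AddCommGroup B] [Finite B]
    [Module (ZMod p) B] :
    ∃ d : ℕ, Nonempty (FreeAb (Fin d) (ZMod p) B) ∧ Nat.card B = p ^ d := by
  have hfin : Module.Finite (ZMod p) B := Module.Finite.of_finite
  let b := Module.finBasis (ZMod p) B
  refine ⟨Module.finrank (ZMod p) B, ⟨⟨fun j => ((LinearMap.toSpanSingleton (ZMod p) B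
    (b j)).toAddMonoidHom), fun j => (b.coord j).toAddMonoidHom, ?_, ?_⟩⟩, ?_⟩
  · intro i j z
    show b.coord i (z • b j) = _
    rw [map_smul, Module.Basis.coord_apply, Module.Basis.repr_self, Finsupp.single_apply]
    by_cases h : i = j
    · rw [if_pos h, if_pos h.symm, smul_eq_mul, mul_one]
    · rw [if_neg h, if_neg (Ne.symm h), smul_zero]
  · intro y
    exact b.sum_repr y
  · rw [Module.natCard_eq_pow_finrank (K := ZMod p) (V := B), Nat.card_zmod]

/-- an elementary abelian `p`-group is free over `ZMod p` -/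
theorem exists_freeAb (p : ℕ) [Fact p.Prime] (B : Type*) [AddCommGroup B] [Finite B]
    (hp : ∀ b : B, p • b = 0) :
    ∃ d : ℕ, Nonempty (FreeAb (Fin d) (ZMod p) B) ∧ Nat.card B = p ^ d := by
  let inst : Module (ZMod p) B := AddCommGroup.zmodModule hp
  exact exists_freeAb_aux p B

/-- lifting a decomposition to trivial actions -/
def FreeAb.triv {J : Type*} [Fintype J] [DecidableEq J] (F : FreeAb J A B) :
    FreeOn J (trivAct G A) (trivAct G B) where
  a j := ⟨F.a j, fun _ _ => rfl⟩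
  b j := ⟨F.b j, fun _ _ => rfl⟩
  ba := F.ba
  ab := F.ab

end Triv

/-! ### Twisted maps between `Map(X, A)` and `Map(X, B)` -/

section Twist

variable {X : Type*} {ξ : G →* Equiv.Perm X} {ρ : Act G A} {σ : Act G B} {τ : Act G C}

/-- Data trivialising everything over a transitive `G`-set: `t x` moves the base point to `x`, and
`W` (containing the stabiliser) acts trivially. -/
structure Triv (ξ : G →* Equiv.Perm X) (W : Subgroup G) where
  t : X → G
  ht : ∀ g x, ∃ u ∈ W, t (ξ g x) = g * t x * u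

/-- twisted postcomposition with an additive, not necessarily equivariant, map -/
def Triv.twist {W : Subgroup G} (T : Triv ξ W) (hρ : ∀ u ∈ W, ∀ a, ρ u a = a)
    (hσ : ∀ u ∈ W, ∀ b, σ u b = b) (f : A →+ B) : EHom (mapAct ξ ρ) (mapAct ξ σ) where
  f :=
    { toFun := fun φ x => σ (T.t x) (f (ρ (T.t x)⁻¹ (φ x)))
      map_zero' := by ext x; simp
      map_add' := fun φ ψ => by ext x; simp }
  comm g φ := by
    ext x
    obtain ⟨u, hu, h⟩ := T.ht g⁻¹ x
    have hx : ξ g (ξ g⁻¹ x) = x := by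
      rw [← Equiv.Perm.mul_apply, ← map_mul, mul_inv_cancel, map_one]; rfl
    have h1 : T.t x = g * T.t (ξ g⁻¹ x) * u⁻¹ := by rw [h]; group
    show σ (T.t x) (f (ρ (T.t x)⁻¹ (ρ g (φ (ξ g⁻¹ x))))) =
      σ g (σ (T.t (ξ g⁻¹ x)) (f (ρ (T.t (ξ g⁻¹ x))⁻¹ (φ (ξ g⁻¹ x)))))
    rw [h1]
    simp only [mul_inv_rev, inv_inv, act_mul, act_inv_self, hσ _ (W.inv_mem hu), hρ u hu]

lemma Triv.twist_f {W : Subgroup G} (T : Triv ξ W) (hρ : ∀ u ∈ W, ∀ a, ρ u a = a)
    (hσ : ∀ u ∈ W, ∀ b, σ u b = b) (f : A →+ B) (φ : X → A) (x : X) :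
    (T.twist hρ hσ f).f φ x = σ (T.t x) (f (ρ (T.t x)⁻¹ (φ x))) := rfl

lemma Triv.twist_comp {W : Subgroup G} (T : Triv ξ W) (hρ : ∀ u ∈ W, ∀ a, ρ u a = a)
    (hσ : ∀ u ∈ W, ∀ b, σ u b = b) (hτ : ∀ u ∈ W, ∀ b, τ u b = b) (f : A →+ B) (g : B →+ C)
    (φ : X → A) : (T.twist hσ hτ g).f ((T.twist hρ hσ f).f φ) =
      (T.twist hρ hτ (g.comp f)).f φ := by
  ext x
  simp only [Triv.twist_f, act_inv_self, AddMonoidHom.comp_apply]

/-- decompositions of `B` give decompositions of `Map(X, B)` -/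
def Triv.free {W : Subgroup G} (T : Triv ξ W) (hρ : ∀ u ∈ W, ∀ a, ρ u a = a)
    (hσ : ∀ u ∈ W, ∀ b, σ u b = b) {J : Type*} [Fintype J] [DecidableEq J] (F : FreeAb J A B) :
    FreeOn J (mapAct ξ ρ) (mapAct ξ σ) where
  a j := T.twist hρ hσ (F.a j)
  b j := T.twist hσ hρ (F.b j)
  ba i j φ := by
    rw [T.twist_comp]
    ext x
    rw [Triv.twist_f, AddMonoidHom.comp_apply, F.ba]
    by_cases h : i = j
    · rw [if_pos h, if_pos h, act_self_inv]
    · rw [if_neg h, if_neg h, map_zero]; rfl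
  ab φ := by
    have : ∀ j, (T.twist hρ hσ (F.a j)).f ((T.twist hσ hρ (F.b j)).f φ) =
      (T.twist hσ hσ ((F.a j).comp (F.b j))).f φ := fun j => T.twist_comp _ _ _ _ _ _
    simp only [this]
    ext x
    rw [Finset.sum_apply]
    simp only [Triv.twist_f, AddMonoidHom.comp_apply]
    rw [← map_sum, F.ab, act_self_inv]

end Twist

end Fermat.Agent.PT
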