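import Fermat.Agent.PT.Dual

/-!
# Right exact coefficient functors and the duality `F(X) = Hom(Hom_G(X, μ), F(μ))`
-/

set_option autoImplicit false

namespace Fermat.Agent.PT

/-- A right exact additive functor on finite smooth `p`-torsion modules. -/
structure CFun (G : Type) [Group G] (p : ℕ) (L : Levels G) where
  obj : ∀ {A : Type} [AddCommGroup A], Act G A → Type
  grp : ∀ {A : Type} [AddCommGroup A] (ρ : Act G A), AddCommGroup (obj ρ)
  map : ∀ {A B : Type} [AddCommGroup A] [AddCommGroup B] {ρ : Act G A} {σ : Act G B},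
    EHom ρ σ → obj ρ →+ obj σ
  map_id : ∀ {A : Type} [AddCommGroup A] {ρ : Act G A} (φ : EHom ρ ρ), (∀ a, φ.f a = a) →
    ∀ x, map φ x = x
  map_comp : ∀ {A B C : Type} [AddCommGroup A] [AddCommGroup B] [AddCommGroup C] {ρ : Act G A}
    {σ : Act G B} {τ : Act G C} (ψ : EHom σ τ) (φ : EHom ρ σ) (x : obj ρ),
    map (ψ.comp φ) x = map ψ (map φ x)
  map_sum : ∀ {A B J : Type} [AddCommGroup A] [AddCommGroup B] {ρ : Act G A} {σ : Act G B}
    (s : Finset J) (φ : EHom ρ σ) (ψ : J → EHom ρ σ), (∀ a, φ.f a = ∑ j ∈ s, (ψ j).f a) →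
    ∀ x : obj ρ, map φ x = ∑ j ∈ s, map (ψ j) x
  surj : ∀ {A B C : Type} [AddCommGroup A] [AddCommGroup B] [AddCommGroup C] [Finite B]
    {ρA : Act G A} {ρB : Act G B} {ρC : Act G C} (S : SES ρA ρB ρC), Smooth L ρB →
    (∀ b : B, p • b = 0) → Function.Surjective (map S.p)
  exact : ∀ {A B C : Type} [AddCommGroup A] [AddCommGroup B] [AddCommGroup C] [Finite B]
    {ρA : Act G A} {ρB : Act G B} {ρC : Act G C} (S : SES ρA ρB ρC), Smooth L ρB →
    (∀ b : B, p • b = 0) → ∀ x, map S.p x = 0 → ∃ y, map S.i y = x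

attribute [instance] CFun.grp

namespace CFun

variable {G : Type} [Group G] {p : ℕ} {L : Levels G} (F : CFun G p L)
  {A B : Type} [AddCommGroup A] [AddCommGroup B] {ρ : Act G A} {σ : Act G B}

lemma map_congr {φ ψ : EHom ρ σ} (h : ∀ a, φ.f a = ψ.f a) (x : F.obj ρ) :
    F.map φ x = F.map ψ x := by
  have := F.map_sum (J := Unit) {()} φ (fun _ => ψ) (fun a => by simp [h]) x
  simpa using this

lemma map_zero' {φ : EHom ρ σ} (h : ∀ a, φ.f a = 0) (x : F.obj ρ) : F.map φ x = 0 := by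
  have := F.map_sum (J := Unit) ∅ φ (fun _ => φ) (fun a => by simp [h]) x
  simpa using this

lemma map_nsmul' {φ ψ : EHom ρ σ} {n : ℕ} (h : ∀ a, φ.f a = n • ψ.f a) (x : F.obj ρ) :
    F.map φ x = n • F.map ψ x := by
  have := F.map_sum (J := Fin n) Finset.univ φ (fun _ => ψ) (fun a => by simp [h]) x
  simpa using this

lemma torsion (hp : ∀ a : A, p • a = 0) (x : F.obj ρ) : p • x = 0 := by
  have h1 := F.map_nsmul' (φ := (⟨0, fun g a => by simp⟩ : EHom ρ ρ)) (ψ := EHom.id ρ) (n := p)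
    (fun a => by
      show (0 : A) = p • a
      rw [hp]) x
  rw [F.map_id (EHom.id ρ) (fun _ => rfl), F.map_zero' (fun _ => rfl)] at h1
  exact h1.symm

variable {μ : Act G (ZMod p)}

/-- sums of invariant functionals -/
lemma map_toHom_add (φ ψ : H0 (dualAct μ ρ)) (x : F.obj ρ) :
    F.map (toHom (φ + ψ)) x = F.map (toHom φ) x + F.map (toHom ψ) x := by
  have := F.map_sum (J := Bool) Finset.univ (toHom (φ + ψ)) (fun b => if b then toHom φ else toHom ψ)
    (fun a => by
      rw [Fintype.sum_bool]; rfl) x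
  rw [Fintype.sum_bool] at this
  exact this

/-- the pairing as a homomorphism in the functional -/
def theta (x : F.obj ρ) : H0 (dualAct μ ρ) →+ F.obj μ where
  toFun φ := F.map (toHom φ) x
  map_zero' := F.map_zero' (fun _ => rfl) x
  map_add' φ ψ := F.map_toHom_add φ ψ x

@[simp] lemma theta_apply (x : F.obj ρ) (φ : H0 (dualAct μ ρ)) :
    F.theta x φ = F.map (toHom φ) x := rfl

/-- naturality of `theta` -/
lemma theta_map (f : EHom ρ σ) (x : F.obj ρ) (φ : H0 (dualAct μ σ)) :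
    F.theta (F.map f x) φ = F.theta x ((f.dual μ).h0 φ) := by
  rw [theta_apply, theta_apply, ← F.map_comp]
  exact F.map_congr (fun _ => rfl) x

/-- free case, injectivity -/
lemma theta_inj_free {J C : Type} [Fintype J] [DecidableEq J] [AddCommGroup C] {τ : Act G C}
    (D : FreeOn J ρ τ) (s : H0 (dualAct μ ρ)) (hs : Function.Bijective (F.map (toHom s)))
    (x : F.obj τ) (hx : ∀ φ : H0 (dualAct μ τ), F.map (toHom φ) x = 0) : x = 0 := by
  have h1 : ∀ j, F.map (D.b j) x = 0 := by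
    intro j
    apply hs.1
    rw [map_zero, ← F.map_comp, ← hx (((D.b j).dual μ).h0 s)]
    exact F.map_congr (fun _ => rfl) x
  have h2 := F.map_sum Finset.univ (EHom.id τ) (fun j => (D.a j).comp (D.b j))
    (fun a => (D.ab a).symm) x
  rw [F.map_id _ (fun _ => rfl)] at h2
  rw [h2]
  refine Finset.sum_eq_zero fun j _ => ?_
  rw [F.map_comp, h1, map_zero]

/-- free case, surjectivity -/
lemma theta_surj_free {J C : Type} [Fintype J] [DecidableEq J] [AddCommGroup C] {τ : Act G C}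
    (D : FreeOn J ρ τ) (s : H0 (dualAct μ ρ)) (hs : Function.Bijective (F.map (toHom s)))
    (hgen : ∀ φ : H0 (dualAct μ ρ), ∃ n : ℕ, φ = n • s)
    (l : H0 (dualAct μ τ) →+ F.obj μ) :
    ∃ x : F.obj τ, ∀ φ : H0 (dualAct μ τ), F.map (toHom φ) x = l φ := by
  choose z hz using fun j => hs.2 (l (((D.b j).dual μ).h0 s))
  refine ⟨∑ j, F.map (D.a j) (z j), fun φ => ?_⟩
  rw [_root_.map_sum]
  choose n hn using fun j => hgen (((D.a j).dual μ).h0 φ)
  have hφ : φ = ∑ j, n j • ((D.b j).dual μ).h0 s := by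
    apply Subtype.ext
    rw [AddSubgroup.val_finsetSum]
    ext c
    rw [AddMonoidHom.finsetSum_apply]
    conv_lhs => rw [← D.ab c, _root_.map_sum]
    refine Finset.sum_congr rfl fun j _ => ?_
    have h1 := DFunLike.congr_fun (congrArg Subtype.val (hn j)) ((D.b j).f c)
    exact h1
  conv_rhs => rw [hφ, _root_.map_sum]
  refine Finset.sum_congr rfl fun j _ => ?_
  rw [map_nsmul, ← hz j, ← F.map_comp]
  refine F.map_nsmul' (fun a => ?_) (z j)
  exact DFunLike.congr_fun (congrArg Subtype.val (hn j)) a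

end CFun

/-- `Hom_G(Map(X, μ), μ)` is generated by the sum map, for `X` transitive. -/
lemma hom_mapAct_mu {G : Type*} [Group G] {p : ℕ} [Fact p.Prime] {X : Type*} [Fintype X]
    {ξ : G →* Equiv.Perm X} {x₀ : X} (ht : IsTrans ξ x₀) (μ : Act G (ZMod p))
    (φ : H0 (dualAct μ (mapAct ξ μ))) :
    ∃ n : ℕ, ∀ f : X → ZMod p, (φ : (X → ZMod p) →+ ZMod p) f = n • ∑ x, f x := by
  classical
  set ψ : (X → ZMod p) →+ ZMod p := φ.1
  have hψ := mem_H0_dual.1 φ.2
  have hadd : ∀ (h : ZMod p →+ ZMod p) (c : ZMod p), h c = (h 1).val • c := by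
    intro h c
    have h1 : h c = c.val • h 1 := by
      rw [← map_nsmul]
      congr 1
      rw [nsmul_eq_mul, mul_one, ZMod.natCast_zmod_val]
    rw [h1, nsmul_eq_mul, nsmul_eq_mul, ZMod.natCast_zmod_val, ZMod.natCast_zmod_val, mul_comm]
  refine ⟨(ψ (Pi.single x₀ 1)).val, fun f => ?_⟩
  have h0 : ∀ c, ψ (Pi.single x₀ c) = (ψ (Pi.single x₀ 1)).val • c := fun c =>
    hadd (ψ.comp (AddMonoidHom.single (fun _ : X => ZMod p) x₀)) c
  have hx : ∀ x c, ψ (Pi.single x c) = (ψ (Pi.single x₀ 1)).val • c := by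
    intro x c
    obtain ⟨g, rfl⟩ := ht x
    have h1 : Pi.single (ξ g x₀) c = mapAct ξ μ g (Pi.single x₀ (μ g⁻¹ c)) := by
      ext y
      rw [mapAct_apply]
      by_cases hy : y = ξ g x₀
      · subst hy
        have : ξ g⁻¹ (ξ g x₀) = x₀ := by
          rw [← Equiv.Perm.mul_apply, ← map_mul, inv_mul_cancel, map_one]; rfl
        rw [this, Pi.single_eq_same, Pi.single_eq_same, act_self_inv]
      · have : ξ g⁻¹ y ≠ x₀ := by
          intro h
          apply hy
          rw [← h, ← Equiv.Perm.mul_apply, ← map_mul, mul_inv_cancel, map_one]; rfl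
        rw [Pi.single_eq_of_ne hy, Pi.single_eq_of_ne this, map_zero]
    rw [h1, hψ, h0, map_nsmul, act_self_inv]
  have hf : f = ∑ x, Pi.single x (f x) := by
    ext y
    rw [Finset.sum_apply, Finset.sum_pi_single]
    simp
  conv_lhs => rw [hf, map_sum]
  rw [Finset.smul_sum]
  exact Finset.sum_congr rfl fun x _ => hx x _

namespace CFun

variable {G : Type} [Group G] {p : ℕ} [Fact p.Prime] {L : Levels G} (F : CFun G p L)

/-- hypotheses of the duality theorem -/
structure ThetaHyp (μ : Act G (ZMod p)) (W : Subgroup G) : Prop where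
  smooth : Smooth L μ
  isOpen : IsOpenSub L W
  triv : ∀ u ∈ W, ∀ a, μ u a = a
  card : Nat.card (F.obj μ) = p
  iso : ∀ N ∈ L.carrier, N ≤ W → ∀ [Fintype (G ⧸ N)],
    Function.Bijective (F.map (sumHom (cosetAct N) μ))

variable {F} {μ : Act G (ZMod p)} {W : Subgroup G} (H : F.ThetaHyp μ W)

/-- the sum map as an invariant functional -/
def sumFun {X : Type*} [Fintype X] (ξ : G →* Equiv.Perm X) (μ : Act G (ZMod p)) :
    H0 (dualAct μ (mapAct ξ μ)) :=
  ⟨(sumHom ξ μ).f, mem_H0_dual.2 (sumHom ξ μ).comm⟩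

include H in
/-- theta is bijective on `Map(G/N, Y)` -/
lemma ThetaHyp.free {N : Subgroup G} (hN : N ∈ L.carrier) (hNW : N ≤ W) {Y : Type}
    [AddCommGroup Y] [Finite Y] (ρ : Act G Y) (hp : ∀ y : Y, p • y = 0)
    (hNY : ∀ u ∈ N, ∀ y, ρ u y = y) :
    (∀ x : F.obj (mapAct (cosetAct N) ρ),
      (∀ φ : H0 (dualAct μ (mapAct (cosetAct N) ρ)), F.map (toHom φ) x = 0) → x = 0) ∧
    (∀ l : H0 (dualAct μ (mapAct (cosetAct N) ρ)) →+ F.obj μ,
      ∃ x : F.obj (mapAct (cosetAct N) ρ), ∀ φ, F.map (toHom φ) x = l φ) := by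
  have := L.finiteIndex' N hN
  have : Fintype (G ⧸ N) := Fintype.ofFinite _
  obtain ⟨d, ⟨D⟩, -⟩ := exists_freeAb p Y hp
  let D' := (cosetTriv N).free (ρ := μ) (σ := ρ) (fun u hu => H.triv u (hNW hu)) hNY D
  have hs : Function.Bijective (F.map (toHom (sumFun (cosetAct N) μ))) := by
    exact H.iso N hN hNW
  refine ⟨fun x hx => F.theta_inj_free D' (sumFun (cosetAct N) μ) hs x hx,
    fun l => F.theta_surj_free D' (sumFun (cosetAct N) μ) hs (fun φ => ?_) l⟩
  obtain ⟨n, hn⟩ := hom_mapAct_mu (isTrans_cosetAct N) μ φ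
  exact ⟨n, Subtype.ext (by ext1 f; exact hn f)⟩

include H in
/-- The duality theorem `F(X) = Hom(Hom_G(X, μ), F(μ))`. -/
theorem ThetaHyp.main {X : Type} [AddCommGroup X] [Finite X] (ρ : Act G X)
    (hρ : Smooth L ρ) (hp : ∀ x : X, p • x = 0) :
    (∀ x : F.obj ρ, (∀ φ : H0 (dualAct μ ρ), F.map (toHom φ) x = 0) → x = 0) ∧
    (∀ l : H0 (dualAct μ ρ) →+ F.obj μ, ∃ x : F.obj ρ, ∀ φ, F.map (toHom φ) x = l φ) := by
  obtain ⟨N₁, hN₁, h₁⟩ := hρ.exists_level Set.finite_univ
  obtain ⟨N, hN, hNN₁, hNW⟩ := H.isOpen.exists_le hN₁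
  have hnorm := L.normal' N hN
  have := L.finiteIndex' N hN
  have : Fintype (G ⧸ N) := Fintype.ofFinite _
  have hNX : ∀ u ∈ N, ∀ x, ρ u x = x := fun u hu x => h₁ x (Set.mem_univ x) u (hNN₁ hu)
  have hNo : IsOpenSub L N := ⟨N, hN, le_rfl⟩
  have hl := levelTrivial_cosetAct hNo
  have hY : Smooth L (mapAct (cosetAct N) ρ) := hρ.mapAct hl
  have hpY : ∀ f : G ⧸ N → X, p • f = 0 := fun f => by ext x; exact hp _
  have hNY : ∀ u ∈ N, ∀ f : G ⧸ N → X, mapAct (cosetAct N) ρ u f = f := by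
    intro u hu f
    ext x
    rw [mapAct_apply, hNX u hu]
    congr 1
    obtain ⟨g, rfl⟩ := QuotientGroup.mk_surjective x
    rw [cosetAct_mk, eq_comm, QuotientGroup.eq]
    have := hnorm.conj_mem u⁻¹ (N.inv_mem hu) g⁻¹
    simpa [mul_assoc] using this
  have hsurj : ∀ {Z : Type} [AddCommGroup Z] (σ : Act G Z),
      Function.Surjective (sumHom (cosetAct N) σ).f := by
    intro Z _ σ c
    classical
    exact ⟨Pi.single ((1 : G) : G ⧸ N) c, by
      rw [sumHom_f, Finset.sum_pi_single' ((1 : G) : G ⧸ N) c]; simp⟩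
  -- first step of the resolution
  let S := SES.ofSurj (sumHom (cosetAct N) ρ) (hsurj ρ)
  let K := (sumHom (cosetAct N) ρ).f.ker
  let κ : Act G K := kerAct (sumHom (cosetAct N) ρ)
  have hκ : Smooth L κ := S.smooth_left hY
  have hpK : ∀ a : K, p • a = 0 := fun a => Subtype.ext (hpY a.1)
  have hNK : ∀ u ∈ N, ∀ a : K, κ u a = a := fun u hu a => Subtype.ext (hNY u hu a.1)
  obtain ⟨hi0, hs0⟩ := H.free hN hNW ρ hp hNX
  obtain ⟨hi1, hs1⟩ := H.free hN hNW κ hpK hNK
  have htorsE : ∀ {Z : Type} [AddCommGroup Z] (σ : Act G Z) (x : H0 (dualAct μ σ)),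
      p • x = 0 := by
    intro Z _ σ x
    apply Subtype.ext
    ext z
    show p • (x : Z →+ ZMod p) z = 0
    simp
  have htorsF : ∀ x : F.obj μ, p • x = 0 := torsion_of_card H.card
  constructor
  · intro x hx
    obtain ⟨e, rfl⟩ := F.surj S hY hpY x
    -- the functional of `e` vanishes on the kernel of `E(F₀) → E(F₁)`
    let r : H0 (dualAct μ (mapAct (cosetAct N) ρ)) →+
      H0 (dualAct μ (mapAct (cosetAct N) κ)) :=
      (((S.i.comp (sumHom (cosetAct N) κ))).dual μ).h0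
    obtain ⟨l, hl⟩ := extend_hom p (htorsE _) htorsF r (F.theta e) (fun φ hφ => by
      -- `φ` vanishes on `K`, hence comes from `X`
      have hφK : ∀ k : K, (φ : (G ⧸ N → X) →+ ZMod p) k = 0 := by
        intro k
        obtain ⟨y, rfl⟩ := hsurj κ k
        exact DFunLike.congr_fun (congrArg Subtype.val hφ) y
      obtain ⟨φ', hφ'⟩ := ((S.dual μ hpY).exact_H0_left φ).1 (Subtype.ext (by
        ext1 k; exact hφK k))
      rw [← hφ']
      have h1 := hx φ'
      rw [← F.map_comp] at h1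
      rw [theta_apply, ← h1]
      exact F.map_congr (fun _ => rfl) e)
    obtain ⟨e1, he1⟩ := hs1 l
    have key : e = F.map S.i (F.map (sumHom (cosetAct N) κ) e1) := by
      rw [← sub_eq_zero]
      apply hi0
      intro φ
      rw [map_sub, sub_eq_zero]
      have h2 := hl φ
      rw [theta_apply] at h2
      rw [← h2, ← he1, ← F.map_comp, ← F.map_comp]
      exact F.map_congr (fun _ => rfl) e1
    rw [key, ← F.map_comp]
    exact F.map_zero' (fun a => S.p_i a) _
  · intro l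
    obtain ⟨l', hl'⟩ := extend_hom p (htorsE _) htorsF (S.p.dual μ).h0 l (fun φ hφ => by
      have : φ = 0 := by
        apply (S.dual μ hpY).inj_H0
        rw [map_zero]
        exact hφ
      rw [this, map_zero])
    obtain ⟨e, he⟩ := hs0 l'
    refine ⟨F.map S.p e, fun φ => ?_⟩
    rw [← hl' φ, ← he, ← F.map_comp]
    exact F.map_congr (fun _ => rfl) e

end CFun

end Fermat.Agent.PT
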