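import Fermat.Agent.PT.Data

/-!
# The global Euler characteristic of `Map(G/U, μ)`
-/

set_option autoImplicit false

namespace Fermat.Agent.PT

variable {G : Type} [Group G] {D : PTData G} {p : ℕ} [Fact p.Prime] {μ : Act G (ZMod p)}
    {W : Subgroup G} {e : D.ι → ℕ} (H : PTHyp D p μ W e)

include H in
lemma res_mu {U : Subgroup G} (hUW : U ≤ W) : resAct μ U = trivAct U (ZMod p) := by
  ext u a
  exact H.triv u (hUW u.2) a

include H in
lemma chi_coset_eq {U : Subgroup G} (hU : IsOpenSub D.L U) (hUW : U ≤ W) :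
    (Fin012 D.L (mapAct (cosetAct U) μ) ↔ Fin012 (D.L.sub U) (trivAct U (ZMod p))) ∧
    chi D.L (mapAct (cosetAct U) μ) = chi (D.L.sub U) (trivAct U (ZMod p)) := by
  have h := shapiro_coset hU H.smooth
  rw [res_mu H hUW] at h
  exact h

include H in
/-- going down a step of `p`-power index -/
lemma chi_le_pow {U U' : Subgroup G} (hU : IsOpenSub D.L U) (hUW : U ≤ W) (hU'U : U' ≤ U)
    (hU' : IsOpenSub D.L U') (hn : (U'.subgroupOf U).Normal) {k : ℕ}
    (hk : U'.relIndex U = p ^ k) :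
    chi D.L (mapAct (cosetAct U') μ) ≤ chi D.L (mapAct (cosetAct U) μ) ^ (p ^ k) := by
  have h1 := chi_coset_eq H hU hUW
  have h2 := chi_coset_eq H hU' (hU'U.trans hUW)
  have hfin := h1.1.1 (H.fin U hU hUW)
  have hop : IsOpenSub (D.L.sub U) (U'.subgroupOf U) := by
    obtain ⟨N, hN, h⟩ := hU'
    exact ⟨N.subgroupOf U, ⟨N, hN, rfl⟩, fun x hx => h hx⟩
  have := hop.finiteIndex
  have hG : IsPGroup p (U ⧸ U'.subgroupOf U) :=
    IsPGroup.of_card (n := k) ((Subgroup.index_eq_card _).symm.trans hk)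
  have hcard : Nat.card (U ⧸ U'.subgroupOf U → ZMod p) = p ^ (p ^ k) := by
    rw [Nat.card_fun, Nat.card_zmod, ← Subgroup.index_eq_card, ← hk]
    rfl
  have h3 := (devissage (D.L.sub U) (U'.subgroupOf U) hG hfin (p ^ k) (U ⧸ U'.subgroupOf U → ZMod p)
    (mapAct (cosetAct (U'.subgroupOf U)) (trivAct U (ZMod p)))
    ((smooth_trivAct _).mapAct (levelTrivial_cosetAct hop)) (fun u hu f => by
      ext x
      rw [mapAct_apply, trivAct_apply]
      congr 1
      obtain ⟨g, rfl⟩ := QuotientGroup.mk_surjective x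
      rw [cosetAct_mk, eq_comm, QuotientGroup.eq]
      have := hn.conj_mem u⁻¹ (Subgroup.inv_mem _ hu) g⁻¹
      simpa [mul_assoc] using this) (fun f => by ext x; simp) hcard).2
  rw [(shapiro_coset hop (smooth_trivAct _)).2] at h3
  rw [h1.2, h2.2]
  have h4 := chi_subSub D.L (trivAct G (ZMod p)) hU'U
  exact (le_of_eq h4).trans h3

include H in
lemma card_H0_coset {U : Subgroup G} (hUW : U ≤ W) :
    Nat.card (H0 (mapAct (cosetAct U) μ)) = p := by
  have h1 := Nat.card_congr (Equiv.ofBijective _ (sh_h0_bijective (L := D.L) (ρ := μ)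
    (isTrans_cosetAct U)))
  have hst := stab_cosetAct U
  rw [hst] at h1
  rw [h1, res_mu H hUW, card_H0_triv]

include H in
lemma chi_sq_eq {U : Subgroup G} (hUW : U ≤ W) :
    chi D.L (mapAct (cosetAct U) μ) ^ 2 = (p : ℝ) ^ 2 *
      (Nat.card (H2 D.L (mapAct (cosetAct U) μ)) : ℝ) ^ 2 /
      (Nat.card (H1 D.L (mapAct (cosetAct U) μ)) : ℝ) ^ 2 := by
  unfold chi
  rw [card_H0_coset H hUW, div_pow, mul_pow]

include H in
/-- lower bound of the Euler characteristic -/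
lemma chi_lower {U : Subgroup G} (hU : IsOpenSub D.L U) (hUW : U ≤ W) :
    1 ≤ chi D.L (mapAct (cosetAct U) μ) ^ 2 * (p : ℝ) ^ U.index := by
  have hp1 : 1 < p := (Fact.out (p := p.Prime)).one_lt
  have hp0 : (0 : ℝ) < p := by exact_mod_cast (zero_lt_one.trans hp1)
  have hfi := hU.finiteIndex
  obtain ⟨C, hC⟩ := H.cyc U hU hUW
  set x := chi D.L (mapAct (cosetAct U) μ) ^ 2 * (p : ℝ) ^ U.index with hx
  have hchi0 := chi_pos (H.fin U hU hUW)
  have hx0 : 0 ≤ x := by positivity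
  have key : ∀ k : ℕ, ((p : ℝ) ^ (2 * C))⁻¹ ≤ x ^ (p ^ k) := by
    intro k
    obtain ⟨U', hU'U, hU', hn, hk, hs⟩ := hC k
    have hU'W := hU'U.trans hUW
    have h1 := chi_le_pow H hU hUW hU'U hU' hn hk
    have hfin' := H.fin U' hU' hU'W
    have := hfin'.h1
    have := hfin'.h2
    have h2 := chi_sq_eq H hU'W
    have hc1 : (0 : ℝ) < Nat.card (H1 D.L (mapAct (cosetAct U') μ)) := by
      exact_mod_cast Nat.card_pos
    have hc2 : (0 : ℝ) < Nat.card (H2 D.L (mapAct (cosetAct U') μ)) := by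
      exact_mod_cast Nat.card_pos
    have h3 : (Nat.card (H1 D.L (mapAct (cosetAct U') μ)) : ℝ) ^ 2 ≤
        (Nat.card (H2 D.L (mapAct (cosetAct U') μ)) : ℝ) ^ 2 * (p : ℝ) ^ (2 * D.s U' + U'.index) := by
      exact_mod_cast H.kum_ge U' hU' hU'W
    have hidx : U'.index = p ^ k * U.index := by
      rw [← hk, Subgroup.relIndex_mul_index hU'U]
    have h4 : ((p : ℝ) ^ (2 * D.s U' + U'.index))⁻¹ ≤ chi D.L (mapAct (cosetAct U') μ) ^ 2 := by
      rw [h2, inv_le_iff_one_le_mul₀' (by positivity), ← mul_div_assoc, one_le_div (by positivity)]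
      refine h3.trans ?_
      have : (1 : ℝ) ≤ (p : ℝ) ^ 2 := one_le_pow₀ (by exact_mod_cast hp1.le)
      calc (Nat.card (H2 D.L (mapAct (cosetAct U') μ)) : ℝ) ^ 2 *
            (p : ℝ) ^ (2 * D.s U' + U'.index)
          = 1 * ((Nat.card (H2 D.L (mapAct (cosetAct U') μ)) : ℝ) ^ 2 *
            (p : ℝ) ^ (2 * D.s U' + U'.index)) := (one_mul _).symm
        _ ≤ (p : ℝ) ^ 2 * ((Nat.card (H2 D.L (mapAct (cosetAct U') μ)) : ℝ) ^ 2 *
            (p : ℝ) ^ (2 * D.s U' + U'.index)) :=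
            mul_le_mul_of_nonneg_right this (by positivity)
        _ = _ := by ring
    have hchi' := chi_pos hfin'
    have h5 : chi D.L (mapAct (cosetAct U') μ) ^ 2 ≤
        (chi D.L (mapAct (cosetAct U) μ) ^ 2) ^ (p ^ k) := by
      rw [← pow_mul, mul_comm 2, pow_mul]
      exact pow_le_pow_left₀ hchi'.le h1 2
    rw [hx, mul_pow, ← pow_mul (p : ℝ), mul_comm U.index, ← hidx]
    have h6 : ((p : ℝ) ^ (2 * D.s U' + U'.index))⁻¹ * (p : ℝ) ^ U'.index ≤
        (chi D.L (mapAct (cosetAct U) μ) ^ 2) ^ (p ^ k) * (p : ℝ) ^ U'.index :=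
      mul_le_mul_of_nonneg_right (h4.trans h5) (by positivity)
    refine le_trans ?_ h6
    rw [pow_add, mul_inv, mul_assoc, inv_mul_cancel₀ (by positivity), mul_one]
    exact inv_anti₀ (by positivity) (pow_le_pow_right₀ (by exact_mod_cast hp1.le)
      (Nat.mul_le_mul_left 2 hs))
  by_contra hlt
  push Not at hlt
  have hε : (0 : ℝ) < ((p : ℝ) ^ (2 * C))⁻¹ := by positivity
  obtain ⟨m, hm⟩ := exists_pow_lt_of_lt_one hε hlt
  have h1 := key m
  have h2 : x ^ (p ^ m) ≤ x ^ m :=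
    pow_le_pow_of_le_one hx0 hlt.le (Nat.lt_pow_self hp1).le
  exact absurd (h1.trans h2) (not_le.2 hm)

include H in
lemma tot2_mu_not_surj : ¬ Function.Surjective (D.tot2 μ) := by
  intro hs
  have hex : ∃ v, e v ≠ 0 := by
    by_contra h
    push Not at h
    have := H.he
    simp [h] at this
  obtain ⟨v, -⟩ := hex
  have hne : Nontrivial (H2 (D.Lv v) (μ.comp (D.r v))) := by
    have hc := (H.loc v).cardμ
    have : Finite (H2 (D.Lv v) (μ.comp (D.r v))) :=
      Nat.finite_of_card_ne_zero (by rw [hc]; exact (Fact.out (p := p.Prime)).ne_zero)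
    rw [← Finite.one_lt_card_iff_nontrivial, hc]
    exact (Fact.out (p := p.Prime)).one_lt
  obtain ⟨z, hz⟩ := exists_ne (0 : H2 (D.Lv v) (μ.comp (D.r v)))
  classical
  obtain ⟨x, hx⟩ := hs (Pi.single v z)
  apply hz
  have h1 := H.recip x v (fun w hw => by
    have := congrFun hx w
    rw [PTData.tot2_apply, Pi.single_eq_of_ne hw] at this
    exact this)
  have h2 := congrFun hx v
  rw [PTData.tot2_apply, Pi.single_eq_same] at h2
  rw [← h2, h1]

include H in
lemma tot2_coset_not_surj {U : Subgroup G} (hU : IsOpenSub D.L U) :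
    ¬ Function.Surjective (D.tot2 (mapAct (cosetAct U) μ)) := by
  intro hs
  apply tot2_mu_not_surj H
  intro z
  have := hU.finiteIndex
  have : Fintype (G ⧸ U) := Fintype.ofFinite _
  let S := SES.ofSurj (sumHom (cosetAct U) μ) (sumHom_surj μ)
  have hsm := (H.smooth.mapAct (levelTrivial_cosetAct hU))
  have h1 : ∀ v, ∃ w, (S.along (D.r v)).p.h2 (D.Lv v) w = z v := fun v =>
    (H.loc v).surj (S.along (D.r v)) (hsm.along v) (fun b => by ext x; simp) (z v)
  choose w hw using h1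
  obtain ⟨y, hy⟩ := hs w
  refine ⟨S.p.h2 D.L y, ?_⟩
  funext v
  rw [PTData.tot2_apply, D.loc_h2_nat, ← hw v, ← congrFun hy v]
  rfl

include H in
lemma card_prod_H2 {U : Subgroup G} (hU : IsOpenSub D.L U) (hUW : U ≤ W) :
    Nat.card (∀ v, H2 (D.Lv v) ((mapAct (cosetAct U) μ).comp (D.r v))) = p ^ D.s U := by
  rw [Nat.card_pi, Finset.prod_congr rfl fun v _ => card_loc_H2 H v hU hUW,
    Finset.prod_pow_eq_pow_sum]
  rfl

include H in
lemma card_prod_H1 {U : Subgroup G} (hU : IsOpenSub D.L U) (hUW : U ≤ W) :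
    Nat.card (∀ v, H1 (D.Lv v) ((mapAct (cosetAct U) μ).comp (D.r v))) =
      p ^ (2 * D.s U + U.index) := by
  rw [Nat.card_pi, Finset.prod_congr rfl fun v _ => card_loc_H1 H v hU hUW,
    Finset.prod_pow_eq_pow_sum, Finset.sum_add_distrib, ← Finset.mul_sum, ← Finset.sum_mul,
    H.he, one_mul]
  rfl

include H in
/-- the cokernel of localisation has order at least `p` -/
lemma range_mul_p_le {U : Subgroup G} (hU : IsOpenSub D.L U) (hUW : U ≤ W) :
    ∃ j : ℕ, 1 ≤ j ∧ (D.tot2 (mapAct (cosetAct U) μ)).range.index = p ^ j ∧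
    Nat.card (D.tot2 (mapAct (cosetAct U) μ)).range * p ^ j = p ^ D.s U := by
  have hc := card_prod_H2 H hU hUW
  have h1 := AddSubgroup.card_mul_index (D.tot2 (mapAct (cosetAct U) μ)).range
  rw [hc] at h1
  obtain ⟨j, -, hj⟩ := (Nat.dvd_prime_pow (Fact.out (p := p.Prime))).1
    (Dvd.intro_left _ h1)
  refine ⟨j, ?_, hj, by rw [← hj]; exact h1⟩
  by_contra h0
  have : j = 0 := by omega
  rw [this, pow_zero, AddSubgroup.index_eq_one] at hj
  exact tot2_coset_not_surj H hU (AddMonoidHom.range_eq_top.1 hj)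

include H in
/-- The Euler characteristic, the order of the cokernel of localisation, and the Kummer equality. -/
theorem chi_main {U : Subgroup G} (hU : IsOpenSub D.L U) (hUW : U ≤ W) :
    chi D.L (mapAct (cosetAct U) μ) ^ 2 * (p : ℝ) ^ U.index = 1 ∧
    (D.tot2 (mapAct (cosetAct U) μ)).range.index = p := by
  have hp1 : 1 < p := (Fact.out (p := p.Prime)).one_lt
  have hp0 : (0 : ℝ) < p := by exact_mod_cast (zero_lt_one.trans hp1)
  have hlow := chi_lower H hU hUW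
  obtain ⟨j, hj1, hj, hr⟩ := range_mul_p_le H hU hUW
  have hfin := H.fin U hU hUW
  have := hfin.h1
  have := hfin.h2
  have hc1 : (0 : ℝ) < Nat.card (H1 D.L (mapAct (cosetAct U) μ)) := by
    exact_mod_cast Nat.card_pos
  have hc2 : (0 : ℝ) < Nat.card (D.sha2 (mapAct (cosetAct U) μ)) := by
    exact_mod_cast Nat.card_pos
  have h2 := chi_sq_eq H hUW
  have h3 : (Nat.card (D.sha2 (mapAct (cosetAct U) μ)) : ℝ) ^ 2 *
      (p : ℝ) ^ (2 * D.s U + U.index) ≤ (Nat.card (H1 D.L (mapAct (cosetAct U) μ)) : ℝ) ^ 2 := by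
    exact_mod_cast H.kum_le U hU hUW
  have h4 : (Nat.card (H2 D.L (mapAct (cosetAct U) μ)) : ℝ) * (p : ℝ) ^ j =
      (Nat.card (D.sha2 (mapAct (cosetAct U) μ)) : ℝ) * (p : ℝ) ^ D.s U := by
    have := card_eq_ker_mul_range (D.tot2 (mapAct (cosetAct U) μ))
    have h5 : (Nat.card (H2 D.L (mapAct (cosetAct U) μ))) * p ^ j =
      (Nat.card (D.sha2 (mapAct (cosetAct U) μ))) * p ^ D.s U := by
      rw [this, mul_assoc, hr]; rfl
    exact_mod_cast h5
  have hup : chi D.L (mapAct (cosetAct U) μ) ^ 2 * (p : ℝ) ^ U.index * ((p : ℝ) ^ j) ^ 2 ≤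
      (p : ℝ) ^ 2 := by
    rw [h2, div_mul_eq_mul_div, div_mul_eq_mul_div, div_le_iff₀ (by positivity)]
    calc (p : ℝ) ^ 2 * (Nat.card (H2 D.L (mapAct (cosetAct U) μ)) : ℝ) ^ 2 * (p : ℝ) ^ U.index *
          ((p : ℝ) ^ j) ^ 2
        = (p : ℝ) ^ 2 * ((Nat.card (H2 D.L (mapAct (cosetAct U) μ)) : ℝ) * (p : ℝ) ^ j) ^ 2 *
          (p : ℝ) ^ U.index := by ring
      _ = (p : ℝ) ^ 2 * ((Nat.card (D.sha2 (mapAct (cosetAct U) μ)) : ℝ) ^ 2 *
          (p : ℝ) ^ (2 * D.s U + U.index)) := by rw [h4]; ring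
      _ ≤ _ := mul_le_mul_of_nonneg_left h3 (by positivity)
  have hjp : (p : ℝ) ^ 2 ≤ ((p : ℝ) ^ j) ^ 2 := by
    refine pow_le_pow_left₀ hp0.le ?_ 2
    calc (p : ℝ) = (p : ℝ) ^ 1 := (pow_one _).symm
      _ ≤ _ := pow_le_pow_right₀ (by exact_mod_cast hp1.le) hj1
  have hx1 : chi D.L (mapAct (cosetAct U) μ) ^ 2 * (p : ℝ) ^ U.index ≤ 1 := by
    by_contra hlt
    push Not at hlt
    have : (p : ℝ) ^ 2 < chi D.L (mapAct (cosetAct U) μ) ^ 2 * (p : ℝ) ^ U.index *
        ((p : ℝ) ^ j) ^ 2 :=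
      lt_of_le_of_lt hjp (lt_mul_of_one_lt_left (by positivity) hlt)
    exact absurd hup (not_le.2 this)
  have hx : chi D.L (mapAct (cosetAct U) μ) ^ 2 * (p : ℝ) ^ U.index = 1 := le_antisymm hx1 hlow
  refine ⟨hx, ?_⟩
  rw [hx, one_mul] at hup
  have h6 : (p : ℝ) ^ j ≤ p := le_of_sq_le_sq hup hp0.le
  have h7 : p ^ j ≤ p ^ 1 := by rw [pow_one]; exact_mod_cast h6
  have h8 : j ≤ 1 := (Nat.pow_le_pow_iff_right hp1).1 h7
  have h9 : j = 1 := le_antisymm h8 hj1
  rw [hj, h9, pow_one]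

include H in
/-- Euler characteristic of `𝔽_p` over open subgroups -/
theorem chi_triv_eq {U : Subgroup G} (hU : IsOpenSub D.L U) (hUW : U ≤ W) :
    Fin012 (D.L.sub U) (trivAct U (ZMod p)) ∧
    chi (D.L.sub U) (trivAct U (ZMod p)) = ((Real.sqrt p)⁻¹) ^ U.index := by
  have h := chi_coset_eq H hU hUW
  refine ⟨h.1.1 (H.fin U hU hUW), ?_⟩
  rw [← h.2]
  have h1 := (chi_main H hU hUW).1
  have hp0 : (0 : ℝ) < p := by exact_mod_cast (Fact.out (p := p.Prime)).pos
  have hchi := chi_pos (H.fin U hU hUW)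
  have hs : (Real.sqrt p) ^ 2 = p := Real.sq_sqrt hp0.le
  have h2 : (chi D.L (mapAct (cosetAct U) μ)) ^ 2 = (((Real.sqrt p)⁻¹) ^ U.index) ^ 2 := by
    rw [← pow_mul, mul_comm, pow_mul, inv_pow, hs, inv_pow]
    exact eq_inv_of_mul_eq_one_left h1
  have hsq : 0 < Real.sqrt p := Real.sqrt_pos.2 hp0
  exact (pow_left_inj₀ hchi.le (by positivity) two_ne_zero).1 h2

include H in
/-- global right exactness of `H²` -/
theorem PTHyp.surj {A B C : Type} [AddCommGroup A] [AddCommGroup B]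
    [AddCommGroup C] [Finite B] {ρA : Act G A} {ρB : Act G B} {ρC : Act G C}
    (S : SES ρA ρB ρC) (hB : Smooth D.L ρB) (hp : ∀ b : B, p • b = 0) :
    Function.Surjective (S.p.h2 D.L) :=
  h2_surj_of_chi D.L W H.isOpen H.idx _ (fun _ hV hVW => chi_triv_eq H hV hVW) S hB hp

end Fermat.Agent.PT
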